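/-
Program F (S55, Poitou–Tate), chapter LOC (local class field theory), chapter lead helper12.

INTERFACE of the chapter: the model of local fields, and the statements (as `Prop`s) which the
other chapters (FG, GLOB, PRO, BR) may assume and which the leaves of LOC prove.

MODEL.  A `q`-adic field is an ABSTRACT TYPE `E : Type` with
  `[Field E] [Algebra ℚ_[q] E] [FiniteDimensional ℚ_[q] E]`
(like `NumberField`); an extension of `q`-adic fields is `E'` with `[Algebra E E']` and
`[IsScalarTower ℚ_[q] E E']`; its Galois group is `E' ≃ₐ[E] E'`, its Galois module is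
`Rep.ofAlgebraAutOnUnits E E'` (Mathlib; `= Additive E'ˣ`).  Finite-dimensional
`E : IntermediateField ℚ_[q] (PadicAlgCl q)` and `E' : IntermediateField E (PadicAlgCl q)` are
instances of this (Mathlib instances), so every statement applies inside `PadicAlgCl q`.
The ring of integers is `𝒪 = integralClosure ℤ_[q] E` (scoped instance `Algebra ℤ_[q] E`).
-/
import Mathlib

set_option autoImplicit false

open CategoryTheory groupCohomology

namespace Fermat.Agent.PT.LOC.Interface12

noncomputable section

variable (q : ℕ) [Fact q.Prime]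

/-! ### 1. The model -/

section Model

variable (E : Type) [Field E] [Algebra ℚ_[q] E]

/-- The `ℤ_[q]`-algebra structure of a `ℚ_[q]`-algebra. -/
@[reducible] def algInt : Algebra ℤ_[q] E :=
  ((algebraMap ℚ_[q] E).comp (algebraMap ℤ_[q] ℚ_[q])).toAlgebra

scoped instance instAlgInt : Algebra ℤ_[q] E := algInt q E

scoped instance instTowerInt : IsScalarTower ℤ_[q] ℚ_[q] E :=
  IsScalarTower.of_algebraMap_eq' rfl

/-- The ring of integers of a `q`-adic field. -/
abbrev intRing : Subalgebra ℤ_[q] E := integralClosure ℤ_[q] E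

/-- The units of the ring of integers, as a subgroup of `Eˣ`. -/
def unitGroup : Subgroup Eˣ where
  carrier := {x | (x : E) ∈ intRing q E ∧ ((x⁻¹ : Eˣ) : E) ∈ intRing q E}
  mul_mem' := fun {a b} ha hb => ⟨by
    rw [Units.val_mul]; exact mul_mem ha.1 hb.1, by
    rw [mul_inv, Units.val_mul]; exact mul_mem ha.2 hb.2⟩
  one_mem' := ⟨by rw [Units.val_one]; exact one_mem _, by
    rw [inv_one, Units.val_one]; exact one_mem _⟩
  inv_mem' := fun {a} ha => ⟨ha.2, by rw [inv_inv]; exact ha.1⟩

/-- `π` is a uniformizer of `E`: it is integral, not a unit, and every integral non-unit is a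
multiple of it. -/
def IsUniformizer (π : E) : Prop :=
  π ∈ intRing q E ∧ π ≠ 0 ∧ π⁻¹ ∉ intRing q E ∧
    ∀ x ∈ intRing q E, x⁻¹ ∉ intRing q E → x * π⁻¹ ∈ intRing q E

end Model

/-! ### 2. Galois modules and the maps between their `H²` -/

section Maps

variable (E E' E'' : Type) [Field E] [Field E'] [Field E''] [Algebra E E'] [Algebra E E'']
  [Algebra E' E''] [IsScalarTower E E' E'']

/-- The Galois module `E'ˣ` of an extension. -/
abbrev unitsRep : Rep ℤ (E' ≃ₐ[E] E') := Rep.ofAlgebraAutOnUnits E E'

/-- `Gal(E''/E') → Gal(E''/E)`. -/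
def galIncl : (E'' ≃ₐ[E'] E'') →* (E'' ≃ₐ[E] E'') :=
  MonoidHom.mk' (fun τ => τ.restrictScalars E) (fun _ _ => rfl)

/-- The morphism of representations underlying restriction. -/
def resHom : Rep.res (galIncl E E' E'') (unitsRep E E'') ⟶ unitsRep E' E'' :=
  Rep.ofHom ⟨LinearMap.id, fun _ => rfl⟩

/-- Restriction `H²(Gal(E''/E), E''ˣ) → H²(Gal(E''/E'), E''ˣ)`. -/
def resH2 : H2 (unitsRep E E'') ⟶ H2 (unitsRep E' E'') :=
  groupCohomology.map (galIncl E E' E'') (resHom E E' E'') 2

variable [Normal E E']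

/-- The morphism of representations underlying inflation. -/
def infHom : Rep.res (AlgEquiv.restrictNormalHom (F := E) (K₁ := E'') E') (unitsRep E E') ⟶
    unitsRep E E'' :=
  Rep.ofHom ⟨(Units.map (algebraMap E' E'' : E' →* E'')).toAdditive.toIntLinearMap, fun σ => by
    ext x
    exact AlgEquiv.restrictNormal_commutes σ E' ((Additive.toMul x : E'ˣ) : E')⟩

/-- Inflation `H²(Gal(E'/E), E'ˣ) → H²(Gal(E''/E), E''ˣ)`. -/
def infH2 : H2 (unitsRep E E') ⟶ H2 (unitsRep E E'') :=
  groupCohomology.map (AlgEquiv.restrictNormalHom (F := E) (K₁ := E'') E') (infHom E E' E'') 2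

end Maps

/-! ### 3. Unramified extensions and Frobenius (definitions only) -/

section Unram

variable (E E' : Type) [Field E] [Field E'] [Algebra ℚ_[q] E] [Algebra ℚ_[q] E'] [Algebra E E']
  [IsScalarTower ℚ_[q] E E']

/-- The cardinality of the residue field of `E` (quotient of `𝒪` by its Jacobson radical, which is
the maximal ideal because `𝒪` is local). -/
def resCard : ℕ := Nat.card (intRing q E ⧸ Ideal.jacobson (⊥ : Ideal (intRing q E)))

/-- `E'/E` is unramified: uniformizers of `E` stay uniformizers in `E'`. -/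
def IsUnramified : Prop :=
  ∀ π : E, IsUniformizer q E π → IsUniformizer q E' (algebraMap E E' π)

/-- `φ ∈ Gal(E'/E)` is an (arithmetic) Frobenius: `φ x ≡ x ^ Q` modulo the maximal ideal of `𝒪'`,
`Q = resCard E`. -/
def IsFrob (φ : E' ≃ₐ[E] E') : Prop :=
  ∀ π' : E', IsUniformizer q E' π' →
    ∀ x ∈ intRing q E', (φ x - x ^ resCard q E) * π'⁻¹ ∈ intRing q E'

end Unram

/-! ### 4. The statements -/

section Statements

/-- Data: a choice of a class in `H²(Gal(E'/E), E'ˣ)` for every finite Galois extension `E'/E` of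
`q`-adic fields. -/
abbrev ClassFamily : Type 1 :=
  ∀ (E E' : Type) [Field E] [Field E'] [Algebra ℚ_[q] E] [Algebra ℚ_[q] E'] [Algebra E E']
    [IsScalarTower ℚ_[q] E E'] [FiniteDimensional ℚ_[q] E'] [IsGalois E E'],
    H2 (unitsRep E E')

/-- **Class formation axioms** (fundamental-class form) for a family `u_{E'/E}`:
* `card`: `#H²(Gal(E'/E), E'ˣ) = [E' : E]`;
* `order`: `u_{E'/E}` has order `[E' : E]` (so it generates `H²`);
* `res`: `Res (u_{E''/E}) = u_{E''/E'}` for `E ⊆ E' ⊆ E''`, `E''/E` Galois;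
* `inf`: `Inf (u_{E'/E}) = [E'' : E'] • u_{E''/E}` when moreover `E'/E` is Galois.
These four axioms are stable under twisting `u` by a compatible family of units
(`λ ∈ ℤ̂ˣ`), which is what GLOB uses at the primes above `p` (lead's MATH NOTE 1). -/
structure IsClassFormationCore (u : ClassFamily q) : Prop where
  card : ∀ (E E' : Type) [Field E] [Field E'] [Algebra ℚ_[q] E] [Algebra ℚ_[q] E'] [Algebra E E']
    [IsScalarTower ℚ_[q] E E'] [FiniteDimensional ℚ_[q] E'] [IsGalois E E'],
    Nat.card (H2 (unitsRep E E')) = Module.finrank E E'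
  order : ∀ (E E' : Type) [Field E] [Field E'] [Algebra ℚ_[q] E] [Algebra ℚ_[q] E'] [Algebra E E']
    [IsScalarTower ℚ_[q] E E'] [FiniteDimensional ℚ_[q] E'] [IsGalois E E'],
    addOrderOf (u E E') = Module.finrank E E'
  res : ∀ (E E' E'' : Type) [Field E] [Field E'] [Field E''] [Algebra ℚ_[q] E] [Algebra ℚ_[q] E']
    [Algebra ℚ_[q] E''] [Algebra E E'] [Algebra E E''] [Algebra E' E''] [IsScalarTower ℚ_[q] E E']
    [IsScalarTower ℚ_[q] E E''] [IsScalarTower ℚ_[q] E' E''] [IsScalarTower E E' E'']
    [FiniteDimensional ℚ_[q] E''] [IsGalois E E''] [IsGalois E' E''],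
    resH2 E E' E'' (u E E'') = u E' E''
  inf : ∀ (E E' E'' : Type) [Field E] [Field E'] [Field E''] [Algebra ℚ_[q] E] [Algebra ℚ_[q] E']
    [Algebra ℚ_[q] E''] [Algebra E E'] [Algebra E E''] [Algebra E' E''] [IsScalarTower ℚ_[q] E E']
    [IsScalarTower ℚ_[q] E E''] [IsScalarTower ℚ_[q] E' E''] [IsScalarTower E E' E'']
    [FiniteDimensional ℚ_[q] E'] [FiniteDimensional ℚ_[q] E''] [IsGalois E E'] [IsGalois E E''],
    infH2 E E' E'' (u E E') = Module.finrank E' E'' • u E E''

/-- **(LCF) local class formation** with the intrinsic normalisation: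
the core axioms and `unram`: for `E'/E` unramified of degree `n` with Frobenius `φ` and `π` a
uniformizer of `E`, `u_{E'/E}` is the class of the cocycle
`(φ^i, φ^j) ↦ π^[i + j ≥ n]`, `0 ≤ i, j < n`. -/
structure IsLocalClassFormation (u : ClassFamily q) : Prop extends IsClassFormationCore q u where
  unram : ∀ (E E' : Type) [Field E] [Field E'] [Algebra ℚ_[q] E] [Algebra ℚ_[q] E'] [Algebra E E']
    [IsScalarTower ℚ_[q] E E'] [FiniteDimensional ℚ_[q] E'] [IsGalois E E'],
    IsUnramified q E E' → ∀ φ : E' ≃ₐ[E] E', IsFrob q E E' φ → ∀ π : Eˣ, IsUniformizer q E π →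
      ∃ c : cocycles₂ (unitsRep E E'), H2π (unitsRep E E') c = u E E' ∧
        ∀ i j : ℕ, i < Module.finrank E E' → j < Module.finrank E E' →
          (c : (E' ≃ₐ[E] E') × (E' ≃ₐ[E] E') → unitsRep E E') (φ ^ i, φ ^ j) =
            if i + j < Module.finrank E E' then 0
            else Additive.ofMul (Units.map (algebraMap E E' : E →* E') π)

/-- **(LCF)** there is a local class formation. -/
def LocalClassFormation : Prop := ∃ u : ClassFamily q, IsLocalClassFormation q u

/-- **(LEX) existence theorem modulo `p`** (injectivity of the reciprocity map mod `p`): an element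
of `Eˣ` which is a norm from every cyclic extension of degree `p` of `E` inside a given algebraic
closure is a `p`-th power. -/
def LocalExistenceModP (p : ℕ) : Prop :=
  ∀ (E Ω : Type) [Field E] [Field Ω] [Algebra ℚ_[q] E] [FiniteDimensional ℚ_[q] E] [Algebra E Ω]
    [IsAlgClosure E Ω] (x : Eˣ),
    (∀ E' : IntermediateField E Ω, Module.finrank E E' = p → IsGalois E E' →
      ∃ y : E', Algebra.norm E y = (x : E)) → ∃ z : Eˣ, x = z ^ p

end Statements

end

end Fermat.Agent.PT.LOC.Interface12
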