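/-
Program F (S55, Poitou–Tate), chapter LOC, leaf (ST-a) — helper14.

STRUCTURE of a `q`-adic field `E` in the abstract model of `Interface12`
(`[Field E] [Algebra ℚ_[q] E] [FiniteDimensional ℚ_[q] E]`, `𝒪 = intRing q E = integralClosure ℤ_[q] E`):

* `mem_intRing_iff : x ∈ intRing q E ↔ spectralNorm ℚ_[q] E x ≤ 1` (`𝒪` is the spectral unit ball);
  `snorm_*` : the spectral norm is multiplicative, ultrametric, extends the `q`-adic norm;
* `mem_or_inv_mem : x ∈ 𝒪 ∨ x⁻¹ ∈ 𝒪`;
* instances `IsFractionRing 𝒪 E`, `IsDedekindDomain 𝒪`, `ValuationRing 𝒪`, `IsLocalRing 𝒪`,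
  `IsDiscreteValuationRing 𝒪`;
* `ord q E : Eˣ → ℤ`, `ordHom q E : Eˣ →* Multiplicative ℤ` (normalised: `ord π = 1`), `ord_mul`,
  `ord_inv`, `ord_pow`, `ord_zpow`, `mem_intRing_iff_ord : x ∈ 𝒪 ↔ 0 ≤ ord x`,
  `mem_unitGroup_iff_ord : x ∈ unitGroup ↔ ord x = 0`, `ker_ordHom`, `ordHom_surjective`,
  `mem_maximalIdeal_pow_iff : x ∈ 𝔪 ^ n ↔ n ≤ ord x`, `mem_maximalIdeal_iff`;
* `isUniformizer_iff_ord : IsUniformizer q E π ↔ ord π = 1`, `exists_isUniformizer`,
  `ordHom_uniformizer`, `mul_zpow_neg_ord_mem_unitGroup` (`x = unit * π ^ ord x`).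
-/
import Mathlib
import Fermat.Agent.PT.LOC.Interface12

set_option autoImplicit false
set_option linter.unusedSectionVars false

namespace Fermat.Agent.PT.LOC.Structure14

open scoped Fermat.Agent.PT.LOC.Interface12
open Fermat.Agent.PT.LOC.Interface12 Polynomial IsDedekindDomain

noncomputable section

variable (q : ℕ) [Fact q.Prime] (E : Type) [Field E] [Algebra ℚ_[q] E] [FiniteDimensional ℚ_[q] E]

/-- The spectral norm of a `q`-adic field (abbreviation). -/
abbrev snorm (x : E) : ℝ := spectralNorm ℚ_[q] E x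

theorem snorm_mul (x y : E) : snorm q E (x * y) = snorm q E x * snorm q E y := by
  simpa only [spectralMulAlgNorm_def] using map_mul (spectralMulAlgNorm ℚ_[q] E) x y

theorem snorm_one : snorm q E 1 = 1 := spectralNorm_one

theorem snorm_zero : snorm q E 0 = 0 := spectralNorm_zero

theorem snorm_nonneg (x : E) : 0 ≤ snorm q E x := spectralNorm_nonneg x

theorem snorm_eq_zero_iff (x : E) : snorm q E x = 0 ↔ x = 0 := by
  simpa only [spectralMulAlgNorm_def] using map_eq_zero_iff_eq_zero (spectralMulAlgNorm ℚ_[q] E)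

theorem snorm_pos {x : E} (hx : x ≠ 0) : 0 < snorm q E x :=
  lt_of_le_of_ne (snorm_nonneg q E x) (fun h => hx ((snorm_eq_zero_iff q E x).1 h.symm))

theorem snorm_inv (x : E) : snorm q E x⁻¹ = (snorm q E x)⁻¹ := by
  by_cases hx : x = 0
  · simp [hx, snorm_zero]
  · have h := snorm_mul q E x x⁻¹
    rw [mul_inv_cancel₀ hx, snorm_one] at h
    exact eq_inv_of_mul_eq_one_right h.symm

theorem snorm_add_le_max (x y : E) : snorm q E (x + y) ≤ max (snorm q E x) (snorm q E y) :=
  isNonarchimedean_spectralNorm x y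

theorem snorm_algebraMap (a : ℚ_[q]) : snorm q E (algebraMap ℚ_[q] E a) = ‖a‖ :=
  spectralNorm_extends a

/-- **The ring of integers is the unit ball of the spectral norm.** -/
theorem mem_intRing_iff (x : E) : x ∈ intRing q E ↔ spectralNorm ℚ_[q] E x ≤ 1 := by
  have hint : IsIntegral ℚ_[q] x := IsIntegral.of_finite ℚ_[q] x
  rw [spectralNorm, spectralValue_le_one_iff (minpoly.monic hint)]
  constructor
  · intro hx
    have hx' : IsIntegral ℤ_[q] x := hx
    rw [minpoly.isIntegrallyClosed_eq_field_fractions' ℚ_[q] hx']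
    intro n
    rw [coeff_map]
    exact PadicInt.norm_le_one _
  · intro h
    have hl : minpoly ℚ_[q] x ∈ lifts (algebraMap ℤ_[q] ℚ_[q]) := by
      rw [lifts_iff_coeff_lifts]
      intro n
      exact ⟨⟨_, h n⟩, rfl⟩
    obtain ⟨P, hP, -, hmonic⟩ := lifts_and_degree_eq_and_monic hl (minpoly.monic hint)
    refine ⟨P, hmonic, ?_⟩
    have h0 : aeval x (minpoly ℚ_[q] x) = 0 := minpoly.aeval ℚ_[q] x
    rw [← hP, aeval_map_algebraMap] at h0
    exact h0

/-- The ring of integers is a valuation ring of `E`. -/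
theorem mem_or_inv_mem (x : E) : x ∈ intRing q E ∨ x⁻¹ ∈ intRing q E := by
  rw [mem_intRing_iff, mem_intRing_iff]
  change snorm q E x ≤ 1 ∨ snorm q E x⁻¹ ≤ 1
  rw [snorm_inv]
  rcases le_total (snorm q E x) 1 with h | h
  · exact Or.inl h
  · exact Or.inr (inv_le_one_of_one_le₀ h)

instance instIsFractionRing : IsFractionRing (intRing q E) E :=
  integralClosure.isFractionRing_of_finite_extension ℚ_[q] E

instance instIsDedekindDomain : IsDedekindDomain (intRing q E) :=
  integralClosure.isDedekindDomain ℤ_[q] ℚ_[q] E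

instance instValuationRing : ValuationRing (intRing q E) := by
  rw [ValuationRing.iff_isInteger_or_isInteger (intRing q E) E]
  intro x
  rcases mem_or_inv_mem q E x with h | h
  · exact Or.inl ⟨⟨x, h⟩, rfl⟩
  · exact Or.inr ⟨⟨x⁻¹, h⟩, rfl⟩

instance instIsLocalRing : IsLocalRing (intRing q E) := inferInstance

theorem natCast_q_mem : (q : E) ∈ intRing q E := natCast_mem _ q

theorem snorm_natCast_q : snorm q E (q : E) = (q : ℝ)⁻¹ := by
  have h : (q : E) = algebraMap ℚ_[q] E (q : ℚ_[q]) := by simp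
  rw [h, snorm_algebraMap, Padic.norm_p]

theorem not_isField : ¬ IsField (intRing q E) := by
  intro hF
  have hq1 : (1 : ℝ) < q := by exact_mod_cast (Fact.out : q.Prime).one_lt
  have hq0 : (q : E) ≠ 0 := by
    intro h
    have := snorm_natCast_q q E
    rw [h, snorm_zero] at this
    have : (0:ℝ) < (q:ℝ)⁻¹ := by positivity
    linarith
  have hne : (⟨(q : E), natCast_q_mem q E⟩ : intRing q E) ≠ 0 := by
    intro h
    exact hq0 (congrArg Subtype.val h)
  obtain ⟨b, hb⟩ := hF.mul_inv_cancel hne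
  have hb' : (q : E) * (b : E) = 1 := congrArg Subtype.val hb
  have hbq : (b : E) = (q : E)⁻¹ := eq_inv_of_mul_eq_one_right hb'
  have hbm : (b : E) ∈ intRing q E := b.2
  rw [hbq, mem_intRing_iff] at hbm
  change snorm q E (q : E)⁻¹ ≤ 1 at hbm
  rw [snorm_inv, snorm_natCast_q, inv_inv] at hbm
  linarith

instance instIsDiscreteValuationRing : IsDiscreteValuationRing (intRing q E) :=
  ((IsDiscreteValuationRing.TFAE (intRing q E) (not_isField q E)).out 0 2).2
    (instIsDedekindDomain q E)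

/-! ### The normalised valuation -/

/-- The maximal ideal of `𝒪`, as a height one prime. -/
abbrev maxIdeal : HeightOneSpectrum (intRing q E) :=
  IsDiscreteValuationRing.maximalIdeal (intRing q E)

/-- The (multiplicative, `ℤᵐ⁰`-valued) valuation of `E`. -/
abbrev valE : Valuation E (WithZero (Multiplicative ℤ)) := (maxIdeal q E).valuation E

/-- The normalised additive valuation `ord : Eˣ → ℤ` (`ord π = 1`). -/
def ord (x : Eˣ) : ℤ := -(WithZero.log (valE q E (x : E)))

theorem valE_ne_zero (x : Eˣ) : valE q E (x : E) ≠ 0 :=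
  (Valuation.ne_zero_iff _).2 x.ne_zero

theorem valE_eq_exp_neg_ord (x : Eˣ) : valE q E (x : E) = WithZero.exp (-(ord q E x)) := by
  rw [ord, neg_neg, WithZero.exp_log (valE_ne_zero q E x)]

theorem ord_mul (x y : Eˣ) : ord q E (x * y) = ord q E x + ord q E y := by
  rw [ord, ord, ord, Units.val_mul, map_mul,
    WithZero.log_mul (valE_ne_zero q E x) (valE_ne_zero q E y)]
  ring

theorem ord_one : ord q E 1 = 0 := by
  simp [ord]

/-- The normalised valuation as a homomorphism `Eˣ →* Multiplicative ℤ`. -/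
def ordHom : Eˣ →* Multiplicative ℤ where
  toFun x := Multiplicative.ofAdd (ord q E x)
  map_one' := by rw [ord_one]; rfl
  map_mul' x y := by rw [ord_mul]; rfl

theorem ordHom_apply (x : Eˣ) : ordHom q E x = Multiplicative.ofAdd (ord q E x) := rfl

theorem toAdd_ordHom (x : Eˣ) : Multiplicative.toAdd (ordHom q E x) = ord q E x := rfl

theorem ord_inv (x : Eˣ) : ord q E x⁻¹ = -(ord q E x) := by
  have h := ord_mul q E x x⁻¹
  rw [mul_inv_cancel, ord_one] at h
  linarith

theorem ord_pow (x : Eˣ) (n : ℕ) : ord q E (x ^ n) = n * ord q E x := by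
  induction n with
  | zero => simp [ord_one]
  | succ n ih => rw [pow_succ, ord_mul, ih]; push_cast; ring

theorem ord_zpow (x : Eˣ) (n : ℤ) : ord q E (x ^ n) = n * ord q E x := by
  cases n with
  | ofNat n => simpa using ord_pow q E x n
  | negSucc n =>
    rw [zpow_negSucc, ord_inv, ord_pow, Int.negSucc_eq]
    push_cast; ring

/-- `x ∈ 𝒪 ↔ 0 ≤ ord x`. -/
theorem mem_intRing_iff_ord (x : Eˣ) : (x : E) ∈ intRing q E ↔ 0 ≤ ord q E x := by
  have key : valE q E (x : E) ≤ 1 ↔ 0 ≤ ord q E x := by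
    rw [valE_eq_exp_neg_ord, ← WithZero.exp_zero, WithZero.exp_le_exp]
    constructor <;> intro h <;> linarith
  rw [← key]
  constructor
  · intro hx
    exact (maxIdeal q E).valuation_le_one (⟨(x : E), hx⟩ : intRing q E)
  · intro hx
    obtain ⟨a, ha⟩ := IsDiscreteValuationRing.exists_lift_of_le_one hx
    rw [← ha]
    exact a.2

/-- `x ∈ 𝒪ˣ ↔ ord x = 0`. -/
theorem mem_unitGroup_iff_ord (x : Eˣ) : x ∈ unitGroup q E ↔ ord q E x = 0 := by
  change ((x : E) ∈ intRing q E ∧ ((x⁻¹ : Eˣ) : E) ∈ intRing q E) ↔ _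
  rw [mem_intRing_iff_ord, mem_intRing_iff_ord, ord_inv]
  constructor
  · rintro ⟨h1, h2⟩; linarith
  · intro h; rw [h]; simp

theorem ker_ordHom : (ordHom q E).ker = unitGroup q E := by
  ext x
  rw [MonoidHom.mem_ker, mem_unitGroup_iff_ord, ordHom_apply]
  exact ofAdd_eq_one

/-- An element of `𝒪` lies in `𝔪 ^ n` iff `n ≤ ord`. -/
theorem mem_maximalIdeal_pow_iff (x : Eˣ) (hx : (x : E) ∈ intRing q E) (n : ℕ) :
    (⟨(x : E), hx⟩ : intRing q E) ∈ IsLocalRing.maximalIdeal (intRing q E) ^ n ↔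
      (n : ℤ) ≤ ord q E x := by
  have h1 := (maxIdeal q E).intValuation_le_pow_iff_mem (⟨(x : E), hx⟩ : intRing q E) n
  have h2 : (maxIdeal q E).intValuation (⟨(x : E), hx⟩ : intRing q E) = valE q E (x : E) :=
    ((maxIdeal q E).valuation_of_algebraMap (K := E) (⟨(x : E), hx⟩ : intRing q E)).symm
  change _ ↔ (⟨(x : E), hx⟩ : intRing q E) ∈ IsLocalRing.maximalIdeal (intRing q E) ^ n at h1
  rw [← h1, h2, valE_eq_exp_neg_ord, WithZero.exp_le_exp]
  constructor <;> intro h <;> linarith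

/-- An element of `𝒪` lies in `𝔪` iff `0 < ord`. -/
theorem mem_maximalIdeal_iff (x : Eˣ) (hx : (x : E) ∈ intRing q E) :
    (⟨(x : E), hx⟩ : intRing q E) ∈ IsLocalRing.maximalIdeal (intRing q E) ↔ 0 < ord q E x := by
  have := mem_maximalIdeal_pow_iff q E x hx 1
  rw [pow_one] at this
  rw [this]
  constructor <;> intro h <;> omega

/-- `π` is a uniformizer iff `ord π = 1`. -/
theorem isUniformizer_iff_ord (π : Eˣ) : IsUniformizer q E (π : E) ↔ ord q E π = 1 := by
  constructor
  · rintro ⟨h1, -, h3, h4⟩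
    rw [mem_intRing_iff_ord] at h1
    have h3' : ¬ (0 ≤ ord q E π⁻¹) := by
      rw [← mem_intRing_iff_ord]; simpa using h3
    rw [ord_inv] at h3'
    obtain ⟨ϖ, hϖ⟩ := (maxIdeal q E).valuation_exists_uniformizer E
    have hϖ0 : ϖ ≠ 0 := by
      intro h; rw [h, map_zero] at hϖ; exact WithZero.exp_ne_zero hϖ.symm
    have hord : ord q E (Units.mk0 ϖ hϖ0) = 1 := by
      rw [ord, Units.val_mk0, hϖ, WithZero.log_exp]; ring
    have hm : ϖ ∈ intRing q E := by
      have := (mem_intRing_iff_ord q E (Units.mk0 ϖ hϖ0)).2 (by rw [hord]; norm_num)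
      simpa using this
    have hnm : ϖ⁻¹ ∉ intRing q E := by
      intro h
      have := (mem_intRing_iff_ord q E (Units.mk0 ϖ hϖ0)⁻¹).1 (by simpa using h)
      rw [ord_inv, hord] at this
      norm_num at this
    have h5 := h4 ϖ hm hnm
    have h6 := (mem_intRing_iff_ord q E (Units.mk0 ϖ hϖ0 * π⁻¹)).1 (by simpa using h5)
    rw [ord_mul, ord_inv, hord] at h6
    omega
  · intro h
    refine ⟨(mem_intRing_iff_ord q E π).2 (by rw [h]; norm_num), π.ne_zero, ?_, ?_⟩
    · intro hm
      have := (mem_intRing_iff_ord q E π⁻¹).1 (by simpa using hm)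
      rw [ord_inv, h] at this
      norm_num at this
    · intro x hx hxi
      by_cases hx0 : x = 0
      · rw [hx0, zero_mul]; exact zero_mem _
      have h1 := (mem_intRing_iff_ord q E (Units.mk0 x hx0)).1 (by simpa using hx)
      have h2 : ¬ (0 ≤ ord q E (Units.mk0 x hx0)⁻¹) := by
        rw [← mem_intRing_iff_ord]; simpa using hxi
      rw [ord_inv] at h2
      have h3 := (mem_intRing_iff_ord q E (Units.mk0 x hx0 * π⁻¹)).2 (by
        rw [ord_mul, ord_inv, h]; omega)
      simpa using h3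

/-- Uniformizers exist. -/
theorem exists_isUniformizer : ∃ π : Eˣ, IsUniformizer q E (π : E) := by
  obtain ⟨ϖ, hϖ⟩ := (maxIdeal q E).valuation_exists_uniformizer E
  have hϖ0 : ϖ ≠ 0 := by
    intro h; rw [h, map_zero] at hϖ; exact WithZero.exp_ne_zero hϖ.symm
  refine ⟨Units.mk0 ϖ hϖ0, (isUniformizer_iff_ord q E _).2 ?_⟩
  rw [ord, Units.val_mk0, hϖ, WithZero.log_exp]; ring

theorem IsUniformizer.ne_zero {π : E} (h : IsUniformizer q E π) : π ≠ 0 := h.2.1

theorem ordHom_uniformizer (π : Eˣ) (h : IsUniformizer q E (π : E)) :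
    ordHom q E π = Multiplicative.ofAdd 1 := by
  rw [ordHom_apply, (isUniformizer_iff_ord q E π).1 h]

theorem ordHom_surjective : Function.Surjective (ordHom q E) := by
  obtain ⟨π, hπ⟩ := exists_isUniformizer q E
  intro n
  refine ⟨π ^ (Multiplicative.toAdd n), ?_⟩
  rw [ordHom_apply, ord_zpow, (isUniformizer_iff_ord q E π).1 hπ, mul_one]
  rfl

theorem ord_surjective : Function.Surjective (ord q E) := by
  intro n
  obtain ⟨x, hx⟩ := ordHom_surjective q E (Multiplicative.ofAdd n)
  exact ⟨x, by rw [ordHom_apply] at hx; exact Multiplicative.ofAdd.injective hx⟩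

/-- Every element is a unit times a power of a uniformizer. -/
theorem mul_zpow_neg_ord_mem_unitGroup (π : Eˣ) (h : IsUniformizer q E (π : E)) (x : Eˣ) :
    x * π ^ (-(ord q E x)) ∈ unitGroup q E := by
  rw [mem_unitGroup_iff_ord, ord_mul, ord_zpow, (isUniformizer_iff_ord q E π).1 h]
  ring

end
end Fermat.Agent.PT.LOC.Structure14
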