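/-
Program F (S55, Poitou–Tate), chapter LOC, leaf (ST-a) continued — helper14.

On top of `Structure14`: the spectral norm versus `ord`, towers and Galois invariance.

* `mem_unitGroup_iff_snorm : x ∈ unitGroup ↔ ‖x‖ = 1`, `snorm_zpow`,
  `snorm_eq_zpow : ‖x‖ = ‖π‖ ^ ord x`, `snorm_uniformizer_lt_one`,
  `ord_le_ord_iff : ord x ≤ ord y ↔ ‖y‖ ≤ ‖x‖` (`ord_lt_ord_iff`, `ord_eq_ord_iff`),
  `min_ord_le_ord_add` (ultrametric inequality), `mem_maximalIdeal_iff_snorm : x ∈ 𝔪 ↔ ‖x‖ < 1`,
  `isUniformizer_iff_irreducible`;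
* `snorm_algHom : ‖f x‖ = ‖x‖` for `f : E →ₐ[ℚ_[q]] E'`, `mem_intRing_algHom_iff`,
  `snorm_algebraMap_tower`, `mem_intRing_algebraMap_iff`, `snorm_galois`, `mem_intRing_galois_iff`,
  `ord_galois`, `mem_unitGroup_galois_iff`, `isUniformizer_galois`, `mem_unitGroup_algebraMap_iff`,
  `exists_ramificationIdx : ∃ e > 0, ∀ x : Eˣ, ord_{E'} x = e * ord_E x`.
-/
import Mathlib
import Fermat.Agent.PT.LOC.Structure14

set_option autoImplicit false
set_option linter.unusedSectionVars false

namespace Fermat.Agent.PT.LOC.StructureNorm14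

open scoped Fermat.Agent.PT.LOC.Interface12
open Fermat.Agent.PT.LOC.Interface12 Fermat.Agent.PT.LOC.Structure14 Polynomial IsDedekindDomain

noncomputable section

variable (q : ℕ) [Fact q.Prime] (E : Type) [Field E] [Algebra ℚ_[q] E] [FiniteDimensional ℚ_[q] E]

/-! ### Norm versus `ord` -/

theorem snorm_eq_one_of_mem_unitGroup (x : Eˣ) (hx : x ∈ unitGroup q E) : snorm q E (x : E) = 1 := by
  have h1 : snorm q E (x : E) ≤ 1 := (mem_intRing_iff q E _).1 hx.1
  have h2 : snorm q E ((x⁻¹ : Eˣ) : E) ≤ 1 := (mem_intRing_iff q E _).1 hx.2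
  rw [Units.val_inv_eq_inv_val, snorm_inv] at h2
  have hpos : 0 < snorm q E (x : E) := snorm_pos q E x.ne_zero
  have h3 : 1 ≤ snorm q E (x : E) := by
    rwa [inv_le_one₀ hpos] at h2
  exact le_antisymm h1 h3

theorem mem_unitGroup_iff_snorm (x : Eˣ) : x ∈ unitGroup q E ↔ snorm q E (x : E) = 1 := by
  refine ⟨snorm_eq_one_of_mem_unitGroup q E x, fun h => ⟨(mem_intRing_iff q E _).2 h.le, ?_⟩⟩
  rw [mem_intRing_iff, Units.val_inv_eq_inv_val]
  change snorm q E (x : E)⁻¹ ≤ 1
  rw [snorm_inv, h, inv_one]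

theorem snorm_zpow (x : Eˣ) (n : ℤ) : snorm q E ((x ^ n : Eˣ) : E) = snorm q E (x : E) ^ n := by
  cases n with
  | ofNat n =>
    simp only [Int.ofNat_eq_natCast, zpow_natCast, Units.val_pow_eq_pow_val]
    induction n with
    | zero => simp [snorm_one]
    | succ n ih => rw [pow_succ, snorm_mul, ih, pow_succ]
  | negSucc n =>
    rw [zpow_negSucc, zpow_negSucc, Units.val_inv_eq_inv_val, snorm_inv, Units.val_pow_eq_pow_val]
    congr 1
    induction (n+1) with
    | zero => simp [snorm_one]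
    | succ n ih => rw [pow_succ, snorm_mul, ih, pow_succ]

/-- `‖x‖ = ‖π‖ ^ ord x`. -/
theorem snorm_eq_zpow (π : Eˣ) (hπ : IsUniformizer q E (π : E)) (x : Eˣ) :
    snorm q E (x : E) = snorm q E (π : E) ^ ord q E x := by
  have h := snorm_eq_one_of_mem_unitGroup q E _ (mul_zpow_neg_ord_mem_unitGroup q E π hπ x)
  rw [Units.val_mul, snorm_mul, snorm_zpow, zpow_neg] at h
  have hpos : 0 < snorm q E (π : E) ^ ord q E x := zpow_pos (snorm_pos q E π.ne_zero) _
  field_simp at h
  exact h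

theorem snorm_uniformizer_lt_one (π : E) (hπ : IsUniformizer q E π) : snorm q E π < 1 := by
  have h1 : snorm q E π ≤ 1 := (mem_intRing_iff q E _).1 hπ.1
  have h2 : ¬ snorm q E π⁻¹ ≤ 1 := fun h => hπ.2.2.1 ((mem_intRing_iff q E _).2 h)
  rw [snorm_inv] at h2
  rcases h1.lt_or_eq with h | h
  · exact h
  · exact absurd (by rw [h, inv_one]) h2

/-- `ord x ≤ ord y ↔ ‖y‖ ≤ ‖x‖`. -/
theorem ord_le_ord_iff (x y : Eˣ) : ord q E x ≤ ord q E y ↔ snorm q E (y : E) ≤ snorm q E (x : E) := by
  obtain ⟨π, hπ⟩ := exists_isUniformizer q E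
  rw [snorm_eq_zpow q E π hπ x, snorm_eq_zpow q E π hπ y]
  have h0 : 0 < snorm q E (π : E) := snorm_pos q E π.ne_zero
  have h1 : snorm q E (π : E) < 1 := snorm_uniformizer_lt_one q E _ hπ
  exact (zpow_le_zpow_iff_right_of_lt_one₀ h0 h1).symm

theorem ord_lt_ord_iff (x y : Eˣ) : ord q E x < ord q E y ↔ snorm q E (y : E) < snorm q E (x : E) := by
  rw [← not_le, ← not_le, ord_le_ord_iff]

theorem ord_eq_ord_iff (x y : Eˣ) : ord q E x = ord q E y ↔ snorm q E (y : E) = snorm q E (x : E) := by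
  rw [le_antisymm_iff, le_antisymm_iff, ord_le_ord_iff, ord_le_ord_iff, and_comm]

/-- The ultrametric inequality for `ord`. -/
theorem min_ord_le_ord_add (x y z : Eˣ) (h : (x : E) + (y : E) = (z : E)) :
    min (ord q E x) (ord q E y) ≤ ord q E z := by
  have h1 := snorm_add_le_max q E (x : E) (y : E)
  rw [h] at h1
  rcases le_max_iff.1 h1 with h2 | h2
  · exact (min_le_left _ _).trans ((ord_le_ord_iff q E x z).2 h2)
  · exact (min_le_right _ _).trans ((ord_le_ord_iff q E y z).2 h2)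

/-- The maximal ideal is the open unit ball. -/
theorem mem_maximalIdeal_iff_snorm (x : intRing q E) :
    x ∈ IsLocalRing.maximalIdeal (intRing q E) ↔ snorm q E (x : E) < 1 := by
  by_cases hx : (x : E) = 0
  · have hx0 : x = 0 := Subtype.ext hx
    rw [hx, snorm_zero, hx0]
    simp
  · have := mem_maximalIdeal_iff q E (Units.mk0 (x : E) hx) x.2
    change x ∈ _ ↔ _ at this
    rw [this]
    have h1 := ord_lt_ord_iff q E 1 (Units.mk0 (x : E) hx)
    rw [ord_one, Units.val_one, snorm_one, Units.val_mk0] at h1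
    exact h1

/-- Uniformizers are the irreducible elements of `𝒪`. -/
theorem isUniformizer_iff_irreducible (π : intRing q E) :
    IsUniformizer q E (π : E) ↔ Irreducible π := by
  rw [IsDiscreteValuationRing.irreducible_iff_uniformizer]
  constructor
  · intro h
    have h0 : (π : E) ≠ 0 := h.2.1
    have hord := (isUniformizer_iff_ord q E (Units.mk0 (π : E) h0)).1 h
    apply le_antisymm
    · intro x hx
      by_cases hx0 : (x : E) = 0
      · have : x = 0 := Subtype.ext hx0
        rw [this]; exact zero_mem _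
      · have h1 := (mem_maximalIdeal_iff q E (Units.mk0 (x : E) hx0) x.2).1 hx
        have h2 : (x : E) * (π : E)⁻¹ ∈ intRing q E := by
          have := (mem_intRing_iff_ord q E (Units.mk0 (x : E) hx0 * (Units.mk0 (π : E) h0)⁻¹)).2 (by
            rw [ord_mul, ord_inv, hord]; omega)
          simpa using this
        rw [Ideal.mem_span_singleton']
        refine ⟨⟨_, h2⟩, Subtype.ext ?_⟩
        change (x : E) * (π : E)⁻¹ * (π : E) = (x : E)
        field_simp
    · rw [Ideal.span_singleton_le_iff_mem]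
      exact (mem_maximalIdeal_iff q E (Units.mk0 (π : E) h0) π.2).2 (by rw [hord]; norm_num)
  · intro h
    have hπm : π ∈ IsLocalRing.maximalIdeal (intRing q E) := by
      rw [h]; exact Ideal.mem_span_singleton_self π
    have h0 : (π : E) ≠ 0 := by
      intro h0
      have hπ0 : π = 0 := Subtype.ext h0
      rw [hπ0, Ideal.span_singleton_zero] at h
      exact (maxIdeal q E).ne_bot h
    have h1 := (mem_maximalIdeal_iff q E (Units.mk0 (π : E) h0) π.2).1 hπm
    obtain ⟨ϖ, hϖ⟩ := exists_isUniformizer q E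
    have hϖord := (isUniformizer_iff_ord q E ϖ).1 hϖ
    have hϖm : (⟨(ϖ : E), hϖ.1⟩ : intRing q E) ∈ IsLocalRing.maximalIdeal (intRing q E) :=
      (mem_maximalIdeal_iff q E ϖ hϖ.1).2 (by rw [hϖord]; norm_num)
    rw [h, Ideal.mem_span_singleton'] at hϖm
    obtain ⟨y, hy⟩ := hϖm
    have hy' : (y : E) * (π : E) = (ϖ : E) := congrArg Subtype.val hy
    have hy0 : (y : E) ≠ 0 := by
      intro hy0; rw [hy0, zero_mul] at hy'; exact ϖ.ne_zero hy'.symm
    have h2 := (mem_intRing_iff_ord q E (Units.mk0 (y : E) hy0)).1 y.2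
    have h3 : ord q E (Units.mk0 (y : E) hy0 * Units.mk0 (π : E) h0) = 1 := by
      rw [← hϖord]; congr 1; exact Units.ext hy'
    rw [ord_mul] at h3
    have := (isUniformizer_iff_ord q E (Units.mk0 (π : E) h0)).2 (by omega)
    simpa using this

/-! ### Towers and Galois invariance -/

section Tower

variable (E' : Type) [Field E'] [Algebra ℚ_[q] E'] [FiniteDimensional ℚ_[q] E']

/-- The spectral norm is invariant under `ℚ_[q]`-algebra homomorphisms. -/
theorem snorm_algHom (f : E →ₐ[ℚ_[q]] E') (x : E) : snorm q E' (f x) = snorm q E x := by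
  change spectralNorm ℚ_[q] E' (f x) = spectralNorm ℚ_[q] E x
  rw [spectralNorm, spectralNorm, minpoly.algHom_eq f f.injective]

theorem mem_intRing_algHom_iff (f : E →ₐ[ℚ_[q]] E') (x : E) :
    f x ∈ intRing q E' ↔ x ∈ intRing q E := by
  rw [mem_intRing_iff, mem_intRing_iff]
  change snorm q E' (f x) ≤ 1 ↔ snorm q E x ≤ 1
  rw [snorm_algHom]

variable [Algebra E E'] [IsScalarTower ℚ_[q] E E']

theorem snorm_algebraMap_tower (x : E) : snorm q E' (algebraMap E E' x) = snorm q E x :=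
  snorm_algHom q E E' (IsScalarTower.toAlgHom ℚ_[q] E E') x

theorem mem_intRing_algebraMap_iff (x : E) : algebraMap E E' x ∈ intRing q E' ↔ x ∈ intRing q E :=
  mem_intRing_algHom_iff q E E' (IsScalarTower.toAlgHom ℚ_[q] E E') x

theorem snorm_galois (σ : E' ≃ₐ[E] E') (x : E') : snorm q E' (σ x) = snorm q E' x :=
  snorm_algHom q E' E' ((σ.restrictScalars ℚ_[q]) : E' →ₐ[ℚ_[q]] E') x

theorem mem_intRing_galois_iff (σ : E' ≃ₐ[E] E') (x : E') : σ x ∈ intRing q E' ↔ x ∈ intRing q E' :=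
  mem_intRing_algHom_iff q E' E' ((σ.restrictScalars ℚ_[q]) : E' →ₐ[ℚ_[q]] E') x

theorem ord_galois (σ : E' ≃ₐ[E] E') (x : E'ˣ) :
    ord q E' (Units.map (σ : E' →* E') x) = ord q E' x := by
  rw [ord_eq_ord_iff]
  exact (snorm_galois q E E' σ (x : E')).symm

theorem mem_unitGroup_galois_iff (σ : E' ≃ₐ[E] E') (x : E'ˣ) :
    Units.map (σ : E' →* E') x ∈ unitGroup q E' ↔ x ∈ unitGroup q E' := by
  rw [mem_unitGroup_iff_ord, mem_unitGroup_iff_ord, ord_galois]

theorem isUniformizer_galois (σ : E' ≃ₐ[E] E') (π : E') (h : IsUniformizer q E' π) :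
    IsUniformizer q E' (σ π) := by
  have h0 : π ≠ 0 := h.2.1
  have := (isUniformizer_iff_ord q E' (Units.map (σ : E' →* E') (Units.mk0 π h0))).2 (by
    rw [ord_galois]; exact (isUniformizer_iff_ord q E' (Units.mk0 π h0)).1 h)
  simpa using this

theorem mem_unitGroup_algebraMap_iff (x : Eˣ) :
    Units.map (algebraMap E E' : E →* E') x ∈ unitGroup q E' ↔ x ∈ unitGroup q E := by
  rw [mem_unitGroup_iff_snorm, mem_unitGroup_iff_snorm]
  change snorm q E' (algebraMap E E' (x : E)) = 1 ↔ _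
  rw [snorm_algebraMap_tower]

/-- The ramification index of `E'/E` : `ord_{E'}` of a uniformizer of `E`. -/
theorem exists_ramificationIdx : ∃ e : ℕ, 0 < e ∧ ∀ x : Eˣ,
    ord q E' (Units.map (algebraMap E E' : E →* E') x) = e * ord q E x := by
  obtain ⟨π, hπ⟩ := exists_isUniformizer q E
  set π' : E'ˣ := Units.map (algebraMap E E' : E →* E') π with hπ'
  have hlt : snorm q E' (π' : E') < 1 := by
    change snorm q E' (algebraMap E E' (π : E)) < 1
    rw [snorm_algebraMap_tower]
    exact snorm_uniformizer_lt_one q E _ hπ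
  have hpos : 0 < ord q E' π' := by
    have := (ord_lt_ord_iff q E' 1 π').2 (by rw [Units.val_one, snorm_one]; exact hlt)
    rwa [ord_one] at this
  refine ⟨(ord q E' π').toNat, by omega, fun x => ?_⟩
  rw [Int.toNat_of_nonneg hpos.le]
  have hu := mul_zpow_neg_ord_mem_unitGroup q E π hπ x
  rw [← mem_unitGroup_algebraMap_iff q E E', map_mul, map_zpow, mem_unitGroup_iff_ord, ord_mul,
    ord_zpow] at hu
  linarith

end Tower

end
end Fermat.Agent.PT.LOC.StructureNorm14
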