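/-
Program F (S55, Poitou–Tate), chapter LOC — helper14.  Inputs of (UN) (unramified extensions).

* `snorm_pow`, `snorm_neg`, `snorm_sub_le_max`, `snorm_sum_le`, `snorm_natCast`,
  `snorm_natCast_eq_one : ¬ q ∣ m → ‖(m : E)‖ = 1`;
* (RU1) `snorm_eq_one_of_pow_eq_one`, `snorm_one_sub_eq_one`, `snorm_sub_eq_one` : distinct roots of
  unity of order prime to `q` are at distance `1`;
* (RU2) `eq_of_snorm_sub_lt_one`, `mem_intRing_of_pow_eq_one`, `eq_of_sub_mem_maximalIdeal` : the
  reduction map is injective on roots of unity of order prime to `q`;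
* `snorm_lt_one_iff_le_uniformizer`, `mul_inv_uniformizer_mem_iff : y * π⁻¹ ∈ 𝒪 ↔ ‖y‖ < 1`;
* (RU3) `isUnramified_iff_ord`, `isUnramified_of_exists`, `isFrob_iff`.
-/
import Mathlib
import Fermat.Agent.PT.LOC.StructureNorm14

set_option autoImplicit false
set_option linter.unusedSectionVars false

namespace Fermat.Agent.PT.LOC.RootsUnity14

open scoped Fermat.Agent.PT.LOC.Interface12
open Fermat.Agent.PT.LOC.Interface12 Fermat.Agent.PT.LOC.Structure14
  Fermat.Agent.PT.LOC.StructureNorm14 Polynomial IsDedekindDomain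

noncomputable section

variable (q : ℕ) [Fact q.Prime] (E : Type) [Field E] [Algebra ℚ_[q] E] [FiniteDimensional ℚ_[q] E]

/-! ### Finite sums and powers -/

theorem snorm_pow (x : E) (n : ℕ) : snorm q E (x ^ n) = snorm q E x ^ n := by
  induction n with
  | zero => simp [snorm_one]
  | succ n ih => rw [pow_succ, snorm_mul, ih, pow_succ]

theorem snorm_neg (x : E) : snorm q E (-x) = snorm q E x :=
  spectralNorm_neg (Algebra.IsAlgebraic.isAlgebraic x)

theorem snorm_sub_le_max (x y : E) : snorm q E (x - y) ≤ max (snorm q E x) (snorm q E y) := by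
  have := snorm_add_le_max q E x (-y)
  rwa [snorm_neg, ← sub_eq_add_neg] at this

theorem snorm_sum_le {ι : Type*} (s : Finset ι) (f : ι → E) (c : ℝ) (hc : 0 ≤ c)
    (h : ∀ i ∈ s, snorm q E (f i) ≤ c) : snorm q E (∑ i ∈ s, f i) ≤ c := by
  classical
  induction s using Finset.induction_on with
  | empty => simpa [snorm_zero] using hc
  | insert a s ha ih =>
    rw [Finset.sum_insert ha]
    refine (snorm_add_le_max q E _ _).trans (max_le (h a (Finset.mem_insert_self a s)) ?_)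
    exact ih fun i hi => h i (Finset.mem_insert_of_mem hi)

theorem snorm_natCast (n : ℕ) : snorm q E (n : E) = ‖(n : ℚ_[q])‖ := by
  have h : (n : E) = algebraMap ℚ_[q] E (n : ℚ_[q]) := by simp
  rw [h, snorm_algebraMap]

theorem snorm_natCast_eq_one {m : ℕ} (hm : ¬ q ∣ m) : snorm q E (m : E) = 1 := by
  rw [snorm_natCast, Padic.norm_natCast_eq_one_iff]
  exact (Nat.Prime.coprime_iff_not_dvd Fact.out).2 hm

/-! ### Roots of unity of order prime to `q` -/

theorem snorm_eq_one_of_pow_eq_one {m : ℕ} (hm : m ≠ 0) {ζ : E} (hζ : ζ ^ m = 1) :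
    snorm q E ζ = 1 := by
  have h := snorm_pow q E ζ m
  rw [hζ, snorm_one] at h
  exact (pow_eq_one_iff_of_nonneg (snorm_nonneg q E ζ) hm).1 h.symm

/-- (RU1) A root of unity `ω ≠ 1` of order prime to `q` satisfies `‖1 - ω‖ = 1`. -/
theorem snorm_one_sub_eq_one {m : ℕ} (hm : ¬ q ∣ m) {ω : E} (hω : ω ^ m = 1) (hω1 : ω ≠ 1) :
    snorm q E (1 - ω) = 1 := by
  have hm0 : m ≠ 0 := fun h => hm (h ▸ dvd_zero q)
  have hn1 : snorm q E ω = 1 := snorm_eq_one_of_pow_eq_one q E hm0 hω
  have hle : snorm q E (1 - ω) ≤ 1 := by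
    refine (snorm_sub_le_max q E 1 ω).trans ?_
    rw [snorm_one, hn1, max_self]
  by_contra hne
  have hlt : snorm q E (1 - ω) < 1 := lt_of_le_of_ne hle hne
  -- `∑ ω^i = 0`
  have hsum : ∑ i ∈ Finset.range m, ω ^ i = 0 := by
    have h1 : (∑ i ∈ Finset.range m, ω ^ i) * (ω - 1) = 0 := by
      rw [geom_sum_mul, hω, sub_self]
    rcases mul_eq_zero.1 h1 with h | h
    · exact h
    · exact absurd (sub_eq_zero.1 h) hω1
  -- `m = ∑ (1 - ω^i)`
  have hmsum : (m : E) = ∑ i ∈ Finset.range m, (1 - ω ^ i) := by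
    rw [Finset.sum_sub_distrib, hsum, sub_zero]
    simp
  have hterm : ∀ i ∈ Finset.range m, snorm q E (1 - ω ^ i) ≤ snorm q E (1 - ω) := by
    intro i _
    rw [← mul_neg_geom_sum, snorm_mul]
    have : snorm q E (∑ j ∈ Finset.range i, ω ^ j) ≤ 1 := by
      refine snorm_sum_le q E _ _ 1 zero_le_one fun j _ => ?_
      rw [snorm_pow, hn1, one_pow]
    exact mul_le_of_le_one_right (snorm_nonneg q E _) this
  have h2 : snorm q E (m : E) ≤ snorm q E (1 - ω) := by
    rw [hmsum]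
    exact snorm_sum_le q E _ _ _ (snorm_nonneg q E _) hterm
  rw [snorm_natCast_eq_one q E hm] at h2
  linarith

/-- (RU1) Distinct roots of unity of order prime to `q` are at distance `1`. -/
theorem snorm_sub_eq_one {m : ℕ} (hm : ¬ q ∣ m) {ζ ζ' : E} (hζ : ζ ^ m = 1) (hζ' : ζ' ^ m = 1)
    (hne : ζ ≠ ζ') : snorm q E (ζ - ζ') = 1 := by
  have hm0 : m ≠ 0 := fun h => hm (h ▸ dvd_zero q)
  have hζ0 : ζ ≠ 0 := by
    intro h; rw [h, zero_pow hm0] at hζ; exact zero_ne_one hζ
  have h1 : ζ - ζ' = ζ * (1 - ζ' * ζ⁻¹) := by field_simp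
  rw [h1, snorm_mul, snorm_eq_one_of_pow_eq_one q E hm0 hζ, one_mul]
  refine snorm_one_sub_eq_one q E hm (ω := ζ' * ζ⁻¹) ?_ ?_
  · rw [mul_pow, inv_pow, hζ, hζ', inv_one, mul_one]
  · intro h
    apply hne
    field_simp at h
    exact h.symm

/-- (RU2) Roots of unity of order prime to `q` which are congruent modulo `𝔪` are equal. -/
theorem eq_of_snorm_sub_lt_one {m : ℕ} (hm : ¬ q ∣ m) {ζ ζ' : E} (hζ : ζ ^ m = 1)
    (hζ' : ζ' ^ m = 1) (h : snorm q E (ζ - ζ') < 1) : ζ = ζ' := by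
  by_contra hne
  rw [snorm_sub_eq_one q E hm hζ hζ' hne] at h
  exact lt_irrefl _ h

theorem mem_intRing_of_pow_eq_one {m : ℕ} (hm : m ≠ 0) {ζ : E} (hζ : ζ ^ m = 1) :
    ζ ∈ intRing q E :=
  (mem_intRing_iff q E ζ).2 (snorm_eq_one_of_pow_eq_one q E hm hζ).le

/-- (RU2) The reduction map is injective on roots of unity of order prime to `q`. -/
theorem eq_of_sub_mem_maximalIdeal {m : ℕ} (hm : ¬ q ∣ m) {ζ ζ' : intRing q E} (hζ : ζ ^ m = 1)
    (hζ' : ζ' ^ m = 1) (h : ζ - ζ' ∈ IsLocalRing.maximalIdeal (intRing q E)) : ζ = ζ' := by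
  rw [mem_maximalIdeal_iff_snorm] at h
  apply Subtype.ext
  refine eq_of_snorm_sub_lt_one q E hm (ζ := (ζ : E)) (ζ' := (ζ' : E)) ?_ ?_ h
  · exact_mod_cast congrArg Subtype.val hζ
  · exact_mod_cast congrArg Subtype.val hζ'

/-! ### Discreteness: `‖y‖ < 1 ↔ ‖y‖ ≤ ‖π‖` -/

theorem snorm_lt_one_iff_le_uniformizer (π : E) (hπ : IsUniformizer q E π) (y : E) :
    snorm q E y < 1 ↔ snorm q E y ≤ snorm q E π := by
  constructor
  · intro h
    by_cases hy : y = 0
    · rw [hy, snorm_zero]; exact snorm_nonneg q E π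
    · have h1 := (ord_lt_ord_iff q E 1 (Units.mk0 y hy)).2 (by
        rw [Units.val_one, snorm_one, Units.val_mk0]; exact h)
      rw [ord_one] at h1
      have h2 := (isUniformizer_iff_ord q E (Units.mk0 π hπ.2.1)).1 hπ
      have h3 := (ord_le_ord_iff q E (Units.mk0 π hπ.2.1) (Units.mk0 y hy)).1 (by omega)
      simpa using h3
  · intro h
    exact lt_of_le_of_lt h (snorm_uniformizer_lt_one q E π hπ)

theorem mul_inv_uniformizer_mem_iff (π : E) (hπ : IsUniformizer q E π) (y : E) :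
    y * π⁻¹ ∈ intRing q E ↔ snorm q E y < 1 := by
  rw [snorm_lt_one_iff_le_uniformizer q E π hπ, mem_intRing_iff]
  change snorm q E (y * π⁻¹) ≤ 1 ↔ _
  rw [snorm_mul, snorm_inv, ← div_eq_mul_inv, div_le_one (snorm_pos q E hπ.2.1)]

/-! ### Unramified extensions and Frobenius elements, reformulated -/

section Tower

variable (E' : Type) [Field E'] [Algebra ℚ_[q] E'] [FiniteDimensional ℚ_[q] E'] [Algebra E E']
  [IsScalarTower ℚ_[q] E E']

/-- (RU3) `E'/E` is unramified iff `ord_{E'}` restricts to `ord_E`. -/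
theorem isUnramified_iff_ord : IsUnramified q E E' ↔
    ∀ x : Eˣ, ord q E' (Units.map (algebraMap E E' : E →* E') x) = ord q E x := by
  constructor
  · intro h x
    obtain ⟨e, -, he⟩ := exists_ramificationIdx q E E'
    obtain ⟨π, hπ⟩ := exists_isUniformizer q E
    have h1 := h π hπ
    have h2 := (isUniformizer_iff_ord q E' (Units.map (algebraMap E E' : E →* E') π)).1 h1
    rw [he π, (isUniformizer_iff_ord q E π).1 hπ, mul_one] at h2
    rw [he x, h2, one_mul]
  · intro h π hπ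
    have h0 : π ≠ 0 := hπ.2.1
    have h1 := (isUniformizer_iff_ord q E (Units.mk0 π h0)).1 hπ
    have h2 := (isUniformizer_iff_ord q E' (Units.map (algebraMap E E' : E →* E')
      (Units.mk0 π h0))).2 (by rw [h, h1])
    simpa using h2

/-- `E'/E` is unramified iff some (every) uniformizer of `E` is a uniformizer of `E'`. -/
theorem isUnramified_of_exists (π : E) (hπ : IsUniformizer q E π)
    (hπ' : IsUniformizer q E' (algebraMap E E' π)) : IsUnramified q E E' := by
  rw [isUnramified_iff_ord]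
  intro x
  obtain ⟨e, -, he⟩ := exists_ramificationIdx q E E'
  have h0 : π ≠ 0 := hπ.2.1
  have h1 := (isUniformizer_iff_ord q E (Units.mk0 π h0)).1 hπ
  have h2 := (isUniformizer_iff_ord q E' (Units.map (algebraMap E E' : E →* E')
    (Units.mk0 π h0))).1 (by simpa using hπ')
  rw [he, h1, mul_one] at h2
  rw [he x, h2, one_mul]

/-- `φ` is a Frobenius iff `‖φ x - x ^ Q‖ < 1` for all integral `x`. -/
theorem isFrob_iff (φ : E' ≃ₐ[E] E') : IsFrob q E E' φ ↔
    ∀ x ∈ intRing q E', snorm q E' (φ x - x ^ resCard q E) < 1 := by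
  constructor
  · intro h x hx
    obtain ⟨π', hπ'⟩ := exists_isUniformizer q E'
    exact (mul_inv_uniformizer_mem_iff q E' _ hπ' _).1 (h π' hπ' x hx)
  · intro h π' hπ' x hx
    exact (mul_inv_uniformizer_mem_iff q E' _ hπ' _).2 (h x hx)

end Tower

end
end Fermat.Agent.PT.LOC.RootsUnity14
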