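/-
Program F (S55, Poitou–Tate), chapter LOC, leaf (ST-b), part 1 — helper27.

Over the abstract model of `Interface12` (`𝒪 = intRing q E`), on top of `Structure14`:

* `maxId q E = Ideal.jacobson ⊥` (the ideal used in `resCard`), `maxId_eq_maximalIdeal`;
  `natCast_mem_maxId : (q : 𝒪) ∈ 𝔪`;
* FINITE RESIDUE FIELD: instances `Module.Finite ℤ_[q] 𝒪`, `Finite (𝒪 ⧸ maxId q E)`;
  `resCard_def`, `one_lt_resCard`, `exists_resCard_eq_pow : ∃ k, 0 < k ∧ resCard q E = q ^ k`;
* COMPLETENESS: instance `IsAdicComplete 𝔪 𝒪`; `eq_zero_of_forall_mem_pow` (`⋂ 𝔪^n = 0`),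
  `exists_sum_of_mem_pow` (a series `∑ a i`, `a i ∈ 𝔪 ^ i`, converges: the form of
  `Filtered10.Filtration.Complete`);
* TOWER `E'/E`: `algebraMap_mem_intRing(_iff)`, `intRingMap : 𝒪_E →ₐ[ℤ_[q]] 𝒪_E'`, scoped instances
  `Algebra 𝒪_E 𝒪_E'`, `IsScalarTower 𝒪_E 𝒪_E' E'`, `IsScalarTower ℤ_[q] 𝒪_E 𝒪_E'`,
  `IsIntegralClosure 𝒪_E' 𝒪_E E'`;
* GALOIS ACTION: instance `SMulCommClass (E' ≃ₐ[E] E') ℤ_[q] E'` (so that Mathlib's
  `MulSemiringAction (E' ≃ₐ[E] E') (integralClosure ℤ_[q] E')` applies: `(σ • x : E') = σ x`),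
  `algEquiv_mem_intRing_iff`, `unitsMap_mem_unitGroup_iff`, `isUniformizer_algEquiv_iff`.

Part 2 (`e·f = n`, `ord` in towers) is in `StructureTowerEF27.lean`.
-/
import Mathlib
import Fermat.Agent.PT.LOC.Interface12
import Fermat.Agent.PT.LOC.Structure14
import Fermat.Prelude.Thm_IsLocalRing_isAdicComplete_of_module_finite

set_option autoImplicit false
set_option linter.unusedSectionVars false

open scoped Fermat.Agent.PT.LOC.Interface12
open Fermat.Agent.PT.LOC.Interface12 Fermat.Agent.PT.LOC.Structure14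

namespace Fermat.Agent.PT.LOC.StructureTower27

noncomputable section

variable (q : ℕ) [Fact q.Prime] (E : Type) [Field E] [Algebra ℚ_[q] E]

theorem algebraMap_int_injective : Function.Injective (algebraMap ℤ_[q] E) := by
  rw [IsScalarTower.algebraMap_eq ℤ_[q] ℚ_[q] E]
  exact (algebraMap ℚ_[q] E).injective.comp (FaithfulSMul.algebraMap_injective ℤ_[q] ℚ_[q])

instance faithfulSMul_int : FaithfulSMul ℤ_[q] E :=
  (faithfulSMul_iff_algebraMap_injective _ _).mpr (algebraMap_int_injective q E)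

instance faithfulSMul_intRing : FaithfulSMul ℤ_[q] (intRing q E) := by
  rw [faithfulSMul_iff_algebraMap_injective]
  intro a b hab
  apply algebraMap_int_injective q E
  have := congrArg (algebraMap (intRing q E) E) hab
  simpa [← IsScalarTower.algebraMap_apply] using this

/-- The Jacobson radical of the ring of integers (= the maximal ideal, `𝒪` being local). -/
abbrev maxId : Ideal (intRing q E) := Ideal.jacobson ⊥

theorem maxId_eq_maximalIdeal' [IsLocalRing (intRing q E)] :
    maxId q E = IsLocalRing.maximalIdeal (intRing q E) :=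
  IsLocalRing.jacobson_eq_maximalIdeal ⊥ bot_ne_top

/-- `q` lies in every maximal ideal of `𝒪`. -/
theorem natCast_mem_of_isMaximal (M : Ideal (intRing q E)) [hM : M.IsMaximal] :
    (q : intRing q E) ∈ M := by
  have h1 : (M.comap (algebraMap ℤ_[q] (intRing q E))).IsMaximal :=
    Ideal.isMaximal_comap_of_isIntegral_of_isMaximal M
  have h2 : M.comap (algebraMap ℤ_[q] (intRing q E)) = IsLocalRing.maximalIdeal ℤ_[q] :=
    IsLocalRing.eq_maximalIdeal h1
  have h3 : (q : ℤ_[q]) ∈ M.comap (algebraMap ℤ_[q] (intRing q E)) := by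
    rw [h2, PadicInt.maximalIdeal_eq_span_p]
    exact Ideal.subset_span rfl
  simpa using h3

theorem natCast_mem_maxId : (q : intRing q E) ∈ maxId q E := by
  rw [maxId, Ideal.jacobson, Ideal.mem_sInf]
  rintro M ⟨-, hM⟩
  exact natCast_mem_of_isMaximal q E M

theorem maxId_ne_top : maxId q E ≠ ⊤ := by
  rw [maxId, Ne, Ideal.jacobson_eq_top_iff]
  exact bot_ne_top

theorem resCard_def : resCard q E = Nat.card (intRing q E ⧸ maxId q E) := rfl

/-! ### Towers -/

section Tower

variable (E' : Type) [Field E'] [Algebra ℚ_[q] E'] [Algebra E E'] [IsScalarTower ℚ_[q] E E']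

instance isScalarTower_int : IsScalarTower ℤ_[q] E E' :=
  IsScalarTower.of_algebraMap_eq (fun x => by
    show algebraMap ℚ_[q] E' (algebraMap ℤ_[q] ℚ_[q] x) =
      algebraMap E E' (algebraMap ℚ_[q] E (algebraMap ℤ_[q] ℚ_[q] x))
    rw [← IsScalarTower.algebraMap_apply ℚ_[q] E E'])

theorem algebraMap_mem_intRing {x : E} (hx : x ∈ intRing q E) :
    algebraMap E E' x ∈ intRing q E' :=
  IsIntegral.algebraMap hx

theorem algebraMap_mem_intRing_iff {x : E} :
    algebraMap E E' x ∈ intRing q E' ↔ x ∈ intRing q E :=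
  isIntegral_algebraMap_iff (algebraMap E E').injective

/-- The inclusion `𝒪_E → 𝒪_E'`. -/
def intRingMap : intRing q E →ₐ[ℤ_[q]] intRing q E' :=
  (IsScalarTower.toAlgHom ℤ_[q] E E').mapIntegralClosure

@[simp] theorem coe_intRingMap (x : intRing q E) :
    ((intRingMap q E E' x : intRing q E') : E') = algebraMap E E' (x : E) := rfl

/-- `𝒪_E'` as an `𝒪_E`-algebra. -/
scoped instance algIntRing : Algebra (intRing q E) (intRing q E') :=
  (intRingMap q E E').toRingHom.toAlgebra

@[simp] theorem coe_algebraMap_intRing (x : intRing q E) :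
    ((algebraMap (intRing q E) (intRing q E') x : intRing q E') : E') = algebraMap E E' (x : E) :=
  rfl

scoped instance towerIntRing : IsScalarTower (intRing q E) (intRing q E') E' :=
  IsScalarTower.of_algebraMap_eq (fun _ => rfl)

scoped instance towerIntRing' : IsScalarTower ℤ_[q] (intRing q E) (intRing q E') :=
  IsScalarTower.of_algebraMap_eq (fun x => ((intRingMap q E E').commutes x).symm)


scoped instance isIntegralClosure_intRing : IsIntegralClosure (intRing q E') (intRing q E) E' where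
  algebraMap_injective := Subtype.val_injective
  isIntegral_iff := by
    intro x
    constructor
    · intro hx
      have : IsIntegral ℤ_[q] x := isIntegral_trans (A := intRing q E) x hx
      exact ⟨⟨x, this⟩, rfl⟩
    · rintro ⟨y, rfl⟩
      exact IsIntegral.tower_top (R := ℤ_[q]) y.2

theorem intRingMap_injective : Function.Injective (algebraMap (intRing q E) (intRing q E')) := by
  intro a b hab
  apply Subtype.ext
  apply (algebraMap E E').injective
  have := congrArg (fun z : intRing q E' => (z : E')) hab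
  simpa using this

/-! #### Galois action -/

instance smulCommClass_int : SMulCommClass (E' ≃ₐ[E] E') ℤ_[q] E' where
  smul_comm σ r x := by
    show σ (r • x) = r • σ x
    rw [Algebra.smul_def, Algebra.smul_def, map_mul,
      IsScalarTower.algebraMap_apply ℤ_[q] E E', σ.commutes]


theorem algEquiv_mem_intRing_iff (σ : E' ≃ₐ[E] E') {x : E'} :
    σ x ∈ intRing q E' ↔ x ∈ intRing q E' :=
  isIntegral_algEquiv (σ.restrictScalars ℤ_[q])

theorem unitsMap_mem_unitGroup_iff (σ : E' ≃ₐ[E] E') (u : E'ˣ) :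
    Units.map (σ : E' →* E') u ∈ unitGroup q E' ↔ u ∈ unitGroup q E' := by
  show (σ (u : E') ∈ intRing q E' ∧ ((Units.map (σ : E' →* E') u)⁻¹ : E'ˣ).1 ∈ intRing q E') ↔
    ((u : E') ∈ intRing q E' ∧ ((u⁻¹ : E'ˣ) : E') ∈ intRing q E')
  rw [← map_inv]
  show (σ (u : E') ∈ intRing q E' ∧ σ ((u⁻¹ : E'ˣ) : E') ∈ intRing q E') ↔ _
  rw [algEquiv_mem_intRing_iff, algEquiv_mem_intRing_iff]

theorem isUniformizer_algEquiv {σ : E' ≃ₐ[E] E'} {π : E'} (h : IsUniformizer q E' π) :
    IsUniformizer q E' (σ π) := by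
  obtain ⟨h1, h2, h3, h4⟩ := h
  refine ⟨(algEquiv_mem_intRing_iff q E E' σ).mpr h1, by simpa using h2, ?_, ?_⟩
  · rw [← map_inv₀, algEquiv_mem_intRing_iff]
    exact h3
  · intro x hx hx'
    have hx1 : σ.symm x ∈ intRing q E' := (algEquiv_mem_intRing_iff q E E' σ.symm).mpr hx
    have hx2 : (σ.symm x)⁻¹ ∉ intRing q E' := by
      rw [← map_inv₀, algEquiv_mem_intRing_iff]
      exact hx'
    have := h4 _ hx1 hx2
    rw [← algEquiv_mem_intRing_iff q E E' σ, map_mul, map_inv₀, AlgEquiv.apply_symm_apply] at this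
    exact this

theorem isUniformizer_algEquiv_iff (σ : E' ≃ₐ[E] E') (π : E') :
    IsUniformizer q E' (σ π) ↔ IsUniformizer q E' π := by
  refine ⟨fun h => ?_, isUniformizer_algEquiv q E E'⟩
  have := isUniformizer_algEquiv q E E' (σ := σ.symm) h
  rwa [AlgEquiv.symm_apply_apply] at this

end Tower

/-! ### Finiteness -/

variable [FiniteDimensional ℚ_[q] E]

instance moduleFinite_intRing : Module.Finite ℤ_[q] (intRing q E) :=
  IsIntegralClosure.finite ℤ_[q] ℚ_[q] E (intRing q E)

/-- The residue ring `𝒪 ⧸ rad 𝒪` is finite. -/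
instance finite_quot_maxId : Finite (intRing q E ⧸ maxId q E) := by
  have h0 : Finite (ℤ_[q] ⧸ IsLocalRing.maximalIdeal ℤ_[q]) :=
    IsLocalRing.finite_residueField_of_compactSpace
  have h1 : Finite (intRing q E ⧸
      (IsLocalRing.maximalIdeal ℤ_[q] • (⊤ : Submodule ℤ_[q] (intRing q E)))) :=
    Submodule.finite_quotient_smul _ Module.Finite.fg_top
  have h2 : (IsLocalRing.maximalIdeal ℤ_[q] •
      (⊤ : Submodule ℤ_[q] (intRing q E))).toAddSubgroup.FiniteIndex :=
    @AddSubgroup.finiteIndex_of_finite_quotient _ _ _ h1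
  have hle : (IsLocalRing.maximalIdeal ℤ_[q] •
      (⊤ : Submodule ℤ_[q] (intRing q E))).toAddSubgroup ≤ (maxId q E).toAddSubgroup := by
    intro x hx
    have hx' : x ∈ IsLocalRing.maximalIdeal ℤ_[q] • (⊤ : Submodule ℤ_[q] (intRing q E)) := hx
    show x ∈ maxId q E
    refine Submodule.smul_induction_on hx' ?_ ?_
    · intro r hr n _
      rw [PadicInt.maximalIdeal_eq_span_p, Ideal.mem_span_singleton'] at hr
      obtain ⟨a, rfl⟩ := hr
      have : (a * (q : ℤ_[q])) • n = (q : intRing q E) * (a • n) := by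
        rw [mul_comm a, mul_smul, Nat.cast_smul_eq_nsmul, nsmul_eq_mul]
      rw [this]
      exact Ideal.mul_mem_right _ _ (natCast_mem_maxId q E)
    · intro x y hx hy
      exact add_mem hx hy
  have h3 := AddSubgroup.finiteIndex_of_le hle
  exact (maxId q E).toAddSubgroup.finite_quotient_of_finiteIndex

theorem resCard_pos : 0 < resCard q E := by
  rw [resCard_def]
  exact Nat.card_pos

theorem one_lt_resCard : 1 < resCard q E := by
  rw [resCard_def]
  have : Nontrivial (intRing q E ⧸ maxId q E) :=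
    Ideal.Quotient.nontrivial_iff.mpr (maxId_ne_top q E)
  exact Finite.one_lt_card

/-- The cardinality of the residue field is a positive power of `q`. -/
theorem exists_resCard_eq_pow : ∃ k : ℕ, 0 < k ∧ resCard q E = q ^ k := by
  have hp : IsPGroup q (Multiplicative (intRing q E ⧸ maxId q E)) := by
    intro g
    refine ⟨1, ?_⟩
    rw [pow_one]
    apply Multiplicative.toAdd.injective
    rw [toAdd_pow, toAdd_one, nsmul_eq_mul]
    obtain ⟨x, hx⟩ := Ideal.Quotient.mk_surjective (Multiplicative.toAdd g)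
    rw [← hx, ← map_natCast (Ideal.Quotient.mk (maxId q E)), ← map_mul,
      Ideal.Quotient.eq_zero_iff_mem]
    exact Ideal.mul_mem_right _ _ (natCast_mem_maxId q E)
  obtain ⟨k, hk⟩ := IsPGroup.iff_card.mp hp
  rw [Nat.card_congr Multiplicative.toAdd] at hk
  refine ⟨k, ?_, hk⟩
  rcases Nat.eq_zero_or_pos k with h | h
  · have := one_lt_resCard q E
    rw [resCard_def, hk, h, pow_zero] at this
    exact absurd this (lt_irrefl _)
  · exact h

/-! ### Completeness -/

section Complete

theorem maxId_eq_maximalIdeal : maxId q E = IsLocalRing.maximalIdeal (intRing q E) :=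
  maxId_eq_maximalIdeal' q E

instance isAdicComplete_intRing :
    IsAdicComplete (IsLocalRing.maximalIdeal (intRing q E)) (intRing q E) :=
  IsLocalRing.isAdicComplete_of_module_finite (𝒪 := ℤ_[q])

/-- Separatedness: `⋂ 𝔪^n = 0`. -/
theorem eq_zero_of_forall_mem_pow (x : intRing q E)
    (hx : ∀ n : ℕ, x ∈ (maxId q E) ^ n) : x = 0 := by
  rw [maxId_eq_maximalIdeal] at hx
  apply IsHausdorff.haus' (I := IsLocalRing.maximalIdeal (intRing q E)) x
  intro n
  rw [SModEq.zero, smul_eq_mul, Ideal.mul_top]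
  exact hx n

/-- Completeness, in the form consumed by successive approximation: every series `∑ a i` with
`a i ∈ 𝔪 ^ i` converges. -/
theorem exists_sum_of_mem_pow (a : ℕ → intRing q E) (ha : ∀ i, a i ∈ (maxId q E) ^ i) :
    ∃ s : intRing q E, ∀ n, s - ∑ i ∈ Finset.range n, a i ∈ (maxId q E) ^ n := by
  rw [maxId_eq_maximalIdeal] at ha ⊢
  set I := IsLocalRing.maximalIdeal (intRing q E)
  obtain ⟨L, hL⟩ := IsPrecomplete.prec' (I := I) (fun n => ∑ i ∈ Finset.range n, a i) (by
    intro m n hmn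
    rw [SModEq.sub_mem, smul_eq_mul, Ideal.mul_top]
    rw [← Finset.sum_range_add_sum_Ico _ hmn, sub_add_cancel_left]
    refine neg_mem (sum_mem fun i hi => ?_)
    exact Ideal.pow_le_pow_right (Finset.mem_Ico.mp hi).1 (ha i))
  refine ⟨L, fun n => ?_⟩
  have := hL n
  rw [SModEq.sub_mem, smul_eq_mul, Ideal.mul_top] at this
  have h2 := neg_mem this
  rwa [neg_sub] at h2

end Complete

end

end Fermat.Agent.PT.LOC.StructureTower27
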