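/-
Program F (S55, Poitou–Tate), chapter LOC, leaf (ST-b), part 2 — helper27.

Ramification index and residue degree of an extension `E'/E` of `q`-adic fields (abstract model of
`Interface12`, on top of `Structure14` and `StructureTower27`):

* `ramIdx q E E'`, `resDeg q E E' : ℕ` (Mathlib's `Ideal.ramificationIdx`, `Ideal.inertiaDeg` of the
  maximal ideal of `𝒪_E'` over `𝒪_E`), `ramIdx_pos`, `resDeg_pos`;
* `ramIdx_mul_resDeg : e * f = [E' : E]`;
* `resCard_tower : resCard q E' = resCard q E ^ f`;
* `ord_algebraMap : ord_{E'} x = e * ord_E x` for `x ∈ Eˣ`;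
* `ord_algEquiv : ord_{E'} (σ x) = ord_{E'} x` for `σ ∈ Gal(E'/E)`;
* `isUnramified_iff : IsUnramified q E E' ↔ e = 1`, `isUnramified_iff_resDeg : ... ↔ f = [E' : E]`;
* `ramIdx_tower`, `resDeg_tower` (multiplicativity in `E ⊆ E' ⊆ E''`).
-/
import Mathlib
import Fermat.Agent.PT.LOC.Interface12
import Fermat.Agent.PT.LOC.Structure14
import Fermat.Agent.PT.LOC.StructureTower27

set_option autoImplicit false
set_option linter.unusedSectionVars false

open scoped Fermat.Agent.PT.LOC.Interface12 Fermat.Agent.PT.LOC.StructureTower27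
open Fermat.Agent.PT.LOC.Interface12 Fermat.Agent.PT.LOC.Structure14
  Fermat.Agent.PT.LOC.StructureTower27

namespace Fermat.Agent.PT.LOC.StructureTowerEF27

noncomputable section

variable (q : ℕ) [Fact q.Prime] (E E' : Type) [Field E] [Field E'] [Algebra ℚ_[q] E]
  [Algebra ℚ_[q] E'] [Algebra E E'] [IsScalarTower ℚ_[q] E E'] [FiniteDimensional ℚ_[q] E]
  [FiniteDimensional ℚ_[q] E']

instance moduleFinite_tower : Module.Finite (intRing q E) (intRing q E') :=
  Module.Finite.of_restrictScalars_finite ℤ_[q] (intRing q E) (intRing q E')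

instance faithfulSMul_tower : FaithfulSMul (intRing q E) (intRing q E') :=
  (faithfulSMul_iff_algebraMap_injective _ _).mpr (intRingMap_injective q E E')

/-- The ramification index of `E'/E`. -/
def ramIdx : ℕ := (IsLocalRing.maximalIdeal (intRing q E')).ramificationIdx (intRing q E)

/-- The residue degree of `E'/E`. -/
def resDeg : ℕ := (IsLocalRing.maximalIdeal (intRing q E')).inertiaDeg (intRing q E)


theorem maximalIdeal_ne_bot : IsLocalRing.maximalIdeal (intRing q E) ≠ ⊥ := by
  intro h
  exact not_isField q E (IsLocalRing.isField_iff_maximalIdeal_eq.mpr h)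

theorem primesOver_eq :
    (IsLocalRing.maximalIdeal (intRing q E)).primesOver (intRing q E') =
      {IsLocalRing.maximalIdeal (intRing q E')} := by
  ext P
  simp only [Set.mem_singleton_iff]
  constructor
  · rintro ⟨hP, hPo⟩
    have : P.IsMaximal := Ideal.IsMaximal.of_liesOver_isMaximal P
      (IsLocalRing.maximalIdeal (intRing q E))
    exact IsLocalRing.eq_maximalIdeal this
  · rintro rfl
    exact ⟨inferInstance, inferInstance⟩

set_option linter.deprecated false in
theorem ramIdx_mul_resDeg : ramIdx q E E' * resDeg q E E' = Module.finrank E E' := by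
  have h := Ideal.sum_ramification_inertia (R := intRing q E) (intRing q E') E E'
    (p := IsLocalRing.maximalIdeal (intRing q E)) (maximalIdeal_ne_bot q E)
  have hfs : IsDedekindDomain.primesOverFinset (IsLocalRing.maximalIdeal (intRing q E))
      (intRing q E') = {IsLocalRing.maximalIdeal (intRing q E')} := by
    apply Finset.coe_injective
    rw [IsDedekindDomain.coe_primesOverFinset (maximalIdeal_ne_bot q E), primesOver_eq]
    simp
  rw [hfs, Finset.sum_singleton,
    Ideal.ramificationIdx'_eq_ramificationIdx _ _ (maximalIdeal_ne_bot q E),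
    Ideal.inertiaDeg'_eq_inertiaDeg] at h
  exact h


theorem ramIdx_pos : 0 < ramIdx q E E' :=
  Ideal.ramificationIdx_pos _ _

theorem resDeg_pos : 0 < resDeg q E E' :=
  Ideal.inertiaDeg_pos _ _

/-- `#k_{E'} = (#k_E) ^ f`. -/
theorem resCard_tower : resCard q E' = resCard q E ^ resDeg q E E' := by
  have h := Ideal.cardQuot_pow_inertiaDeg (IsLocalRing.maximalIdeal (intRing q E))
    (IsLocalRing.maximalIdeal (intRing q E'))
  rw [Submodule.cardQuot_apply, Submodule.cardQuot_apply] at h
  rw [resCard_def, resCard_def, maxId_eq_maximalIdeal, maxId_eq_maximalIdeal]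
  exact h.symm

set_option linter.deprecated false in
/-- `ord_{E'} x = e · ord_E x` for `x ∈ Eˣ`. -/
theorem ord_algebraMap (x : Eˣ) :
    ord q E' (Units.map (algebraMap E E' : E →* E') x) = ramIdx q E E' * ord q E x := by
  have hlo : (maxIdeal q E').asIdeal.LiesOver (maxIdeal q E).asIdeal :=
    inferInstanceAs ((IsLocalRing.maximalIdeal (intRing q E')).LiesOver
      (IsLocalRing.maximalIdeal (intRing q E)))
  have h := IsDedekindDomain.HeightOneSpectrum.valuation_liesOver E' (maxIdeal q E)
    (maxIdeal q E') (x : E)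
  have he : (maxIdeal q E).asIdeal.ramificationIdx' (maxIdeal q E').asIdeal = ramIdx q E E' :=
    Ideal.ramificationIdx'_eq_ramificationIdx (IsLocalRing.maximalIdeal (intRing q E))
      (IsLocalRing.maximalIdeal (intRing q E')) (maximalIdeal_ne_bot q E)
  rw [he] at h
  show -(WithZero.log (valE q E' (algebraMap E E' (x : E)))) = _
  rw [← h, WithZero.log_pow, ord]
  simp


/-- Galois automorphisms preserve `ord`. -/
theorem ord_algEquiv (σ : E' ≃ₐ[E] E') (x : E'ˣ) :
    ord q E' (Units.map (σ : E' →* E') x) = ord q E' x := by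
  obtain ⟨π, hπ⟩ := exists_isUniformizer q E'
  have h1 := mul_zpow_neg_ord_mem_unitGroup q E' π hπ x
  have h2 := (unitsMap_mem_unitGroup_iff q E E' σ _).mpr h1
  have hπ' : IsUniformizer q E' ((Units.map (σ : E' →* E') π : E'ˣ) : E') :=
    isUniformizer_algEquiv q E E' hπ
  rw [map_mul, map_zpow, mem_unitGroup_iff_ord, ord_mul, ord_zpow,
    (isUniformizer_iff_ord q E' _).mp hπ'] at h2
  linarith

/-- `E'/E` is unramified (in the sense of `Interface12`) iff `e = 1`. -/
theorem isUnramified_iff : IsUnramified q E E' ↔ ramIdx q E E' = 1 := by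
  constructor
  · intro h
    obtain ⟨π, hπ⟩ := exists_isUniformizer q E
    have h1 : IsUniformizer q E' ((Units.map (algebraMap E E' : E →* E') π : E'ˣ) : E') :=
      h _ hπ
    have h2 := (isUniformizer_iff_ord q E' _).mp h1
    rw [ord_algebraMap, (isUniformizer_iff_ord q E π).mp hπ, mul_one] at h2
    exact_mod_cast h2
  · intro h π hπ
    have hπ0 : π ≠ 0 := hπ.2.1
    have h1 := (isUniformizer_iff_ord q E (Units.mk0 π hπ0)).mp hπ
    have h2 : ord q E' (Units.map (algebraMap E E' : E →* E') (Units.mk0 π hπ0)) = 1 := by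
      rw [ord_algebraMap, h1, h]; norm_num
    exact (isUniformizer_iff_ord q E' _).mpr h2

theorem resDeg_eq_finrank_of_isUnramified (h : IsUnramified q E E') :
    resDeg q E E' = Module.finrank E E' := by
  rw [← ramIdx_mul_resDeg q E E', (isUnramified_iff q E E').mp h, one_mul]

theorem isUnramified_iff_resDeg : IsUnramified q E E' ↔ resDeg q E E' = Module.finrank E E' := by
  refine ⟨resDeg_eq_finrank_of_isUnramified q E E', fun h => ?_⟩
  rw [isUnramified_iff]
  have h1 := ramIdx_mul_resDeg q E E'
  rw [← h] at h1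
  have hpos := resDeg_pos q E E'
  exact Nat.eq_of_mul_eq_mul_right hpos (by rw [h1, one_mul])

section Tower3

variable (E'' : Type) [Field E''] [Algebra ℚ_[q] E''] [Algebra E E''] [Algebra E' E'']
  [IsScalarTower ℚ_[q] E E''] [IsScalarTower ℚ_[q] E' E''] [IsScalarTower E E' E'']
  [FiniteDimensional ℚ_[q] E'']

theorem ramIdx_tower : ramIdx q E E'' = ramIdx q E E' * ramIdx q E' E'' := by
  obtain ⟨π, hπ⟩ := exists_isUniformizer q E
  have h1 := ord_algebraMap q E E'' π
  have h2 := ord_algebraMap q E' E'' (Units.map (algebraMap E E' : E →* E') π)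
  have h3 := ord_algebraMap q E E' π
  have hcomp : Units.map (algebraMap E' E'' : E' →* E'')
      (Units.map (algebraMap E E' : E →* E') π) =
      Units.map (algebraMap E E'' : E →* E'') π := by
    ext
    simp [← IsScalarTower.algebraMap_apply E E' E'']
  rw [hcomp, h3, (isUniformizer_iff_ord q E π).mp hπ, mul_one] at h2
  rw [h2, (isUniformizer_iff_ord q E π).mp hπ, mul_one] at h1
  have : (ramIdx q E E'' : ℤ) = ramIdx q E' E'' * ramIdx q E E' := h1.symm
  rw [mul_comm]
  exact_mod_cast this

theorem resDeg_tower : resDeg q E E'' = resDeg q E E' * resDeg q E' E'' := by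
  have h1 := resCard_tower q E E''
  rw [resCard_tower q E' E'', resCard_tower q E E', ← pow_mul] at h1
  exact (Nat.pow_right_injective (one_lt_resCard q E) h1).symm

end Tower3

end

end Fermat.Agent.PT.LOC.StructureTowerEF27
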