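/-
Program F (S55), chapter LOC, helper12: DEFINITION of the standard unramified extension
`Eun q E n = E(μ_{Q^n - 1})`, `Q = resCard q E`, as a Mathlib splitting field, with its instances.
The theorems about it (degree `n`, unramified, cyclic, Frobenius) are leaf (UN).
-/
import Mathlib
import Fermat.Agent.PT.LOC.Interface12
import Fermat.Agent.PT.LOC.Structure14

set_option autoImplicit false

open Polynomial

namespace Fermat.Agent.PT.LOC.UnramDef12

open Fermat.Agent.PT.LOC.Interface12 Fermat.Agent.PT.LOC.Structure14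

noncomputable section

variable (q : ℕ) [Fact q.Prime] (E : Type) [Field E] [Algebra ℚ_[q] E]

include q in
/-- A `ℚ_[q]`-algebra which is a field has characteristic zero. -/
theorem charZero_of_padicAlgebra : CharZero E :=
  charZero_of_injective_algebraMap (algebraMap ℚ_[q] E).injective

/-- The polynomial `X ^ (Q ^ n - 1) - 1`, `Q = resCard q E`. -/
def unramPoly (n : ℕ) : E[X] := X ^ (resCard q E ^ n - 1) - 1

/-- The standard unramified extension of degree `n` of the `q`-adic field `E`: the splitting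
field of `X ^ (Q ^ n - 1) - 1`. -/
abbrev Eun (n : ℕ) : Type := (unramPoly q E n).SplittingField

instance instFiniteDimensionalEun [FiniteDimensional ℚ_[q] E] (n : ℕ) :
    FiniteDimensional ℚ_[q] (Eun q E n) :=
  FiniteDimensional.trans ℚ_[q] E (Eun q E n)

instance instIsGaloisEun (n : ℕ) : IsGalois E (Eun q E n) := by
  have : CharZero E := charZero_of_padicAlgebra q E
  have : Normal E (Eun q E n) := Normal.of_isSplittingField (unramPoly q E n)
  exact ⟨⟩

/-- `Eun q E n` maps into every extension in which `X ^ (Q ^ n - 1) - 1` splits. -/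
def EunLift (n : ℕ) (N : Type) [Field N] [Algebra E N]
    (h : ((unramPoly q E n).map (algebraMap E N)).Splits) : Eun q E n →ₐ[E] N :=
  Polynomial.SplittingField.lift (unramPoly q E n) h

example (n : ℕ) : IsScalarTower ℚ_[q] E (Eun q E n) := inferInstance
example (n : ℕ) : Algebra ℚ_[q] (Eun q E n) := inferInstance

/-! ### The inputs of the fundamental-class construction (FC), as `Prop`s.

Each is proved by a leaf of LOC; `FundClass12` is conditional on them. -/

/-- (ST-b) residue fields are finite with at least two elements. -/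
def ResCardStatement : Prop :=
  ∀ (E : Type) [Field E] [Algebra ℚ_[q] E] [FiniteDimensional ℚ_[q] E], 2 ≤ resCard q E

/-- (ST-b) `e f = n`: ramification index and residue degree of an extension of `q`-adic fields. -/
def RamResStatement : Prop :=
  ∀ (E E' : Type) [Field E] [Field E'] [Algebra ℚ_[q] E] [Algebra ℚ_[q] E'] [Algebra E E']
    [IsScalarTower ℚ_[q] E E'] [FiniteDimensional ℚ_[q] E] [FiniteDimensional ℚ_[q] E'],
    ∃ e f : ℕ, 0 < e ∧ 0 < f ∧ e * f = Module.finrank E E' ∧ resCard q E' = resCard q E ^ f ∧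
      ∀ x : Eˣ, ord q E' (Units.map (algebraMap E E' : E →* E') x) = e * ord q E x

/-- (UN2') a splitting field of `X ^ (Q ^ n - 1) - 1` over `E` has degree `n`, is unramified, and
its Galois group is generated by a Frobenius. -/
def UnramSplittingStatement : Prop :=
  ∀ (E N : Type) [Field E] [Field N] [Algebra ℚ_[q] E] [Algebra ℚ_[q] N] [Algebra E N]
    [IsScalarTower ℚ_[q] E N] [FiniteDimensional ℚ_[q] E] [FiniteDimensional ℚ_[q] N] (n : ℕ),
    0 < n → Polynomial.IsSplittingField E N (unramPoly q E n) →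
      Module.finrank E N = n ∧ IsUnramified q E N ∧
        ∃ φ : N ≃ₐ[E] N, IsFrob q E N φ ∧ ∀ σ : N ≃ₐ[E] N, σ ∈ Subgroup.zpowers φ

/-- (UN3) rigidity: in an unramified Galois extension an automorphism is determined by its action
on the residue field. -/
def UnramRigidStatement : Prop :=
  ∀ (E E₁ : Type) [Field E] [Field E₁] [Algebra ℚ_[q] E] [Algebra ℚ_[q] E₁] [Algebra E E₁]
    [IsScalarTower ℚ_[q] E E₁] [FiniteDimensional ℚ_[q] E] [FiniteDimensional ℚ_[q] E₁]
    [IsGalois E E₁], IsUnramified q E E₁ → ∀ σ τ : E₁ ≃ₐ[E] E₁,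
      (∀ π₁ : E₁, IsUniformizer q E₁ π₁ → ∀ x ∈ intRing q E₁,
        (σ x - τ x) * π₁⁻¹ ∈ intRing q E₁) → σ = τ

/-- (UN4) recognition: an unramified Galois extension of degree `n` contains the
`(Q ^ n - 1)`-th roots of unity. -/
def UnramRecogStatement : Prop :=
  ∀ (E E₁ : Type) [Field E] [Field E₁] [Algebra ℚ_[q] E] [Algebra ℚ_[q] E₁] [Algebra E E₁]
    [IsScalarTower ℚ_[q] E E₁] [FiniteDimensional ℚ_[q] E] [FiniteDimensional ℚ_[q] E₁]
    [IsGalois E E₁], IsUnramified q E E₁ →
      ((unramPoly q E (Module.finrank E E₁)).map (algebraMap E E₁)).Splits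

/-- (UN-R) restriction of Frobenius: for towers `E ⊆ E₁ ⊆ N`, `E ⊆ E' ⊆ N` with `E₁/E` and `N/E'`
unramified Galois, the Frobenius of `N/E'` restricts to the `f`-th power of the Frobenius of
`E₁/E`, where `#k' = #k ^ f`. -/
def FrobRestrictStatement : Prop :=
  ∀ (E E' E₁ N : Type) [Field E] [Field E'] [Field E₁] [Field N] [Algebra ℚ_[q] E]
    [Algebra ℚ_[q] E'] [Algebra ℚ_[q] E₁] [Algebra ℚ_[q] N] [Algebra E E'] [Algebra E E₁]
    [Algebra E N] [Algebra E' N] [Algebra E₁ N] [IsScalarTower ℚ_[q] E E']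
    [IsScalarTower ℚ_[q] E E₁] [IsScalarTower ℚ_[q] E N] [IsScalarTower E E' N]
    [IsScalarTower E E₁ N] [IsScalarTower ℚ_[q] E' N] [FiniteDimensional ℚ_[q] E]
    [FiniteDimensional ℚ_[q] E'] [FiniteDimensional ℚ_[q] E₁] [FiniteDimensional ℚ_[q] N]
    [IsGalois E E₁] [IsGalois E' N],
    IsUnramified q E E₁ → IsUnramified q E' N →
      ∀ (φ₁ : E₁ ≃ₐ[E] E₁) (φ' : N ≃ₐ[E'] N), IsFrob q E E₁ φ₁ → IsFrob q E' N φ' →
        ∀ f : ℕ, resCard q E' = resCard q E ^ f →
          AlgEquiv.restrictNormalHom (F := E) (K₁ := N) E₁ (galIncl E E' N φ') = φ₁ ^ f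

/-- (UC-a) in an unramified Galois extension every unit is a norm. -/
def UnitsNormStatement : Prop :=
  ∀ (E E₁ : Type) [Field E] [Field E₁] [Algebra ℚ_[q] E] [Algebra ℚ_[q] E₁] [Algebra E E₁]
    [IsScalarTower ℚ_[q] E E₁] [FiniteDimensional ℚ_[q] E] [FiniteDimensional ℚ_[q] E₁]
    [IsGalois E E₁], IsUnramified q E E₁ → ∀ u : Eˣ, u ∈ unitGroup q E →
      ∃ y : E₁ˣ, Algebra.norm E (y : E₁) = (u : E)

/-- (VAL) in an unramified Galois extension of degree `n` the valuation of a norm is divisible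
by `n`. -/
def UnramNormOrdStatement : Prop :=
  ∀ (E E₁ : Type) [Field E] [Field E₁] [Algebra ℚ_[q] E] [Algebra ℚ_[q] E₁] [Algebra E E₁]
    [IsScalarTower ℚ_[q] E E₁] [FiniteDimensional ℚ_[q] E] [FiniteDimensional ℚ_[q] E₁]
    [IsGalois E E₁], IsUnramified q E E₁ → ∀ (y : E₁ˣ) (x : Eˣ),
      Algebra.norm E (y : E₁) = (x : E) → (Module.finrank E E₁ : ℤ) ∣ ord q E x

/-- (H2) the bound `#H²(Gal(E'/E), E'ˣ) ≤ [E' : E]`. -/
def H2BoundStatement : Prop :=
  ∀ (E E' : Type) [Field E] [Field E'] [Algebra ℚ_[q] E] [Algebra ℚ_[q] E'] [Algebra E E']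
    [IsScalarTower ℚ_[q] E E'] [FiniteDimensional ℚ_[q] E] [FiniteDimensional ℚ_[q] E']
    [IsGalois E E'],
    Finite (groupCohomology.H2 (unitsRep E E')) ∧
      Nat.card (groupCohomology.H2 (unitsRep E E')) ≤ Module.finrank E E'

end

end Fermat.Agent.PT.LOC.UnramDef12
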