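/-
Program F (S55, Poitou–Tate), chapter LOC — helper14.  Two inputs of (FC) from `UnramDef12`:

* `unramNormOrd : UnramNormOrdStatement q` (the valuation of a norm from an unramified Galois
  extension of degree `n` is divisible by `n`); `ord_norm_galois`, `ord_prod`;
* `frobRestrict_of : UnramRigidStatement q → FrobRestrictStatement q` (restriction of Frobenius);
  `cong_trans`, `cong_pow`, `isFrob_pow : ‖(φ ^ k) x - x ^ (Q ^ k)‖ < 1`.
-/
import Mathlib
import Fermat.Agent.PT.LOC.RootsUnity14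
import Fermat.Agent.PT.LOC.UnramDef12

set_option autoImplicit false
set_option linter.unusedSectionVars false

namespace Fermat.Agent.PT.LOC.FrobRestrict14

open scoped Fermat.Agent.PT.LOC.Interface12
open Fermat.Agent.PT.LOC.Interface12 Fermat.Agent.PT.LOC.Structure14
  Fermat.Agent.PT.LOC.StructureNorm14 Fermat.Agent.PT.LOC.RootsUnity14
  Fermat.Agent.PT.LOC.UnramDef12 Polynomial

noncomputable section

variable (q : ℕ) [Fact q.Prime]

/-! ### (VAL) the valuation of a norm from an unramified extension -/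

section NormOrd

variable (E E₁ : Type) [Field E] [Field E₁] [Algebra ℚ_[q] E] [Algebra ℚ_[q] E₁] [Algebra E E₁]
  [IsScalarTower ℚ_[q] E E₁] [FiniteDimensional ℚ_[q] E] [FiniteDimensional ℚ_[q] E₁]

theorem ord_prod {ι : Type*} (s : Finset ι) (f : ι → E₁ˣ) :
    ord q E₁ (∏ i ∈ s, f i) = ∑ i ∈ s, ord q E₁ (f i) := by
  classical
  induction s using Finset.induction_on with
  | empty => simp [ord_one]
  | insert a s ha ih => rw [Finset.prod_insert ha, Finset.sum_insert ha, ord_mul, ih]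

/-- For a Galois extension, `ord_{E₁} (N y) = [E₁ : E] * ord_{E₁} y`. -/
theorem ord_norm_galois [IsGalois E E₁] (y : E₁ˣ) (x : Eˣ)
    (h : Algebra.norm E (y : E₁) = (x : E)) :
    ord q E₁ (Units.map (algebraMap E E₁ : E →* E₁) x) = Module.finrank E E₁ * ord q E₁ y := by
  have : FiniteDimensional E E₁ := FiniteDimensional.right ℚ_[q] E E₁
  have h1 : Units.map (algebraMap E E₁ : E →* E₁) x =
      ∏ σ : E₁ ≃ₐ[E] E₁, Units.map (σ : E₁ →* E₁) y := by
    apply Units.ext
    rw [Units.coe_map, Units.coe_prod]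
    change algebraMap E E₁ (x : E) = _
    rw [← h, Algebra.norm_eq_prod_automorphisms]
    rfl
  rw [h1, ord_prod]
  simp only [ord_galois, Finset.sum_const, Finset.card_univ, nsmul_eq_mul]
  rw [← Nat.card_eq_fintype_card, IsGalois.card_aut_eq_finrank]

theorem unramNormOrd : UnramNormOrdStatement q := by
  intro E E₁ _ _ _ _ _ _ _ _ _ hun y x h
  have h1 := ord_norm_galois q E E₁ y x h
  rw [(isUnramified_iff_ord q E E₁).1 hun x] at h1
  exact ⟨_, h1⟩

end NormOrd

/-! ### Congruences modulo the maximal ideal, in terms of the spectral norm -/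

section Cong

variable (E : Type) [Field E] [Algebra ℚ_[q] E] [FiniteDimensional ℚ_[q] E]

theorem cong_trans {a b c : E} (h1 : snorm q E (a - b) < 1) (h2 : snorm q E (b - c) < 1) :
    snorm q E (a - c) < 1 := by
  have h : a - c = (a - b) + (b - c) := by ring
  rw [h]
  exact (snorm_add_le_max q E _ _).trans_lt (max_lt h1 h2)

theorem cong_pow {a b : E} (ha : a ∈ intRing q E) (hb : b ∈ intRing q E)
    (h : snorm q E (a - b) < 1) (k : ℕ) : snorm q E (a ^ k - b ^ k) < 1 := by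
  obtain ⟨c, hc⟩ := sub_dvd_pow_sub_pow (⟨a, ha⟩ : intRing q E) ⟨b, hb⟩ k
  have hc' : a ^ k - b ^ k = (a - b) * (c : E) := by
    have := congrArg Subtype.val hc
    simpa using this
  rw [hc', snorm_mul]
  have h1 : snorm q E (c : E) ≤ 1 := (mem_intRing_iff q E _).1 c.2
  calc snorm q E (a - b) * snorm q E (c : E) ≤ snorm q E (a - b) * 1 :=
        mul_le_mul_of_nonneg_left h1 (snorm_nonneg q E _)
    _ < 1 := by rw [mul_one]; exact h

end Cong

/-! ### Powers of a Frobenius -/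

section FrobPow

variable (E E₁ : Type) [Field E] [Field E₁] [Algebra ℚ_[q] E] [Algebra ℚ_[q] E₁] [Algebra E E₁]
  [IsScalarTower ℚ_[q] E E₁] [FiniteDimensional ℚ_[q] E] [FiniteDimensional ℚ_[q] E₁]

theorem pow_galois_mem_intRing (φ : E₁ ≃ₐ[E] E₁) (k : ℕ) {x : E₁} (hx : x ∈ intRing q E₁) :
    (φ ^ k) x ∈ intRing q E₁ :=
  (mem_intRing_galois_iff q E E₁ (φ ^ k) x).2 hx

/-- `φ ^ k` acts as `x ↦ x ^ (Q ^ k)` on the residue field. -/
theorem isFrob_pow (φ : E₁ ≃ₐ[E] E₁) (hφ : IsFrob q E E₁ φ) (k : ℕ) {x : E₁}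
    (hx : x ∈ intRing q E₁) : snorm q E₁ ((φ ^ k) x - x ^ (resCard q E ^ k)) < 1 := by
  rw [isFrob_iff] at hφ
  induction k with
  | zero => simp [snorm_zero]
  | succ k ih =>
    have e1 : (φ ^ (k + 1)) x = φ ((φ ^ k) x) := by
      rw [pow_succ']; rfl
    have e2 : x ^ (resCard q E ^ (k + 1)) = (x ^ resCard q E) ^ (resCard q E ^ k) := by
      rw [← pow_mul, pow_succ']
    rw [e1, e2]
    have h1 : snorm q E₁ (φ ((φ ^ k) x) - φ (x ^ (resCard q E ^ k))) < 1 := by
      rw [← map_sub, snorm_galois]; exact ih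
    have h2 : snorm q E₁ (φ (x ^ (resCard q E ^ k)) - (x ^ resCard q E) ^ (resCard q E ^ k)) < 1 := by
      rw [map_pow]
      exact cong_pow q E₁ ((mem_intRing_galois_iff q E E₁ φ x).2 hx) (pow_mem hx _) (hφ x hx) _
    exact cong_trans q E₁ h1 h2

end FrobPow

/-! ### (UN-R) restriction of Frobenius -/

theorem frobRestrict_of (h : UnramRigidStatement q) : FrobRestrictStatement q := by
  intro E E' E₁ N _ _ _ _ _ _ _ _ _ _ _ _ _ _ _ _ _ _ _ _ _ _ _ _ _ hun₁ hunN φ₁ φ' hφ₁ hφ' f hf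
  have tower : IsScalarTower ℚ_[q] E₁ N := by
    refine IsScalarTower.of_algebraMap_eq fun a => ?_
    rw [IsScalarTower.algebraMap_apply ℚ_[q] E N, IsScalarTower.algebraMap_apply E E₁ N,
      ← IsScalarTower.algebraMap_apply ℚ_[q] E E₁]
  set σ : E₁ ≃ₐ[E] E₁ := AlgEquiv.restrictNormalHom (F := E) (K₁ := N) E₁ (galIncl E E' N φ') with hσ
  refine h E E₁ hun₁ σ (φ₁ ^ f) ?_
  intro π₁ hπ₁ x hx
  rw [mul_inv_uniformizer_mem_iff q E₁ π₁ hπ₁]
  -- `σ x ≡ x ^ (Q ^ f)`
  have hφ'' := (isFrob_iff q E' N φ').1 hφ' (algebraMap E₁ N x)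
    ((mem_intRing_algebraMap_iff q E₁ N x).2 hx)
  have hcomm : algebraMap E₁ N (σ x) = φ' (algebraMap E₁ N x) :=
    AlgEquiv.restrictNormal_commutes (galIncl E E' N φ') E₁ x
  have h1 : snorm q E₁ (σ x - x ^ (resCard q E ^ f)) < 1 := by
    rw [← snorm_algebraMap_tower q E₁ N, map_sub, map_pow, hcomm, ← hf]
    exact hφ''
  have h2 := isFrob_pow q E E₁ φ₁ hφ₁ f hx
  have h3 : snorm q E₁ (x ^ (resCard q E ^ f) - (φ₁ ^ f) x) < 1 := by
    rw [← snorm_neg, neg_sub]; exact h2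
  exact cong_trans q E₁ h1 h3

end
end Fermat.Agent.PT.LOC.FrobRestrict14
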