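/-
Program F (S55, Poitou–Tate), chapter LOC — helper14.  (TEICH) Teichmüller roots of unity.

* `resField q E := IsLocalRing.ResidueField (intRing q E)`, `finite_resField`, `card_resField`,
  `natCast_resCard_eq_zero`;
* `exists_isPrimitiveRoot_and_residue`, `exists_isPrimitiveRoot : ∃ ζ : E, IsPrimitiveRoot ζ (Q - 1)`
  (Hensel's lemma in the complete local ring `𝒪`), `X_pow_resCard_sub_one_splits`;
* `unramRecog_of : RamResStatement q → UnramRecogStatement q`, and from helper27's `e f = n`:
  `ramRes : RamResStatement q`, `resCardStatement : ResCardStatement q`,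
  `unramRecog : UnramRecogStatement q`.
-/
import Mathlib
import Fermat.Agent.PT.LOC.RootsUnity14
import Fermat.Agent.PT.LOC.StructureTower27
import Fermat.Agent.PT.LOC.UnramDef12
import Fermat.Agent.PT.LOC.StructureTowerEF27

set_option autoImplicit false
set_option linter.unusedSectionVars false

namespace Fermat.Agent.PT.LOC.Teichmuller14

open scoped Fermat.Agent.PT.LOC.Interface12
open Fermat.Agent.PT.LOC.Interface12 Fermat.Agent.PT.LOC.Structure14
  Fermat.Agent.PT.LOC.StructureNorm14 Fermat.Agent.PT.LOC.RootsUnity14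
  Fermat.Agent.PT.LOC.StructureTower27 Fermat.Agent.PT.LOC.UnramDef12 Fermat.Agent.PT.LOC.StructureTowerEF27 Polynomial

noncomputable section

variable (q : ℕ) [Fact q.Prime] (E : Type) [Field E] [Algebra ℚ_[q] E] [FiniteDimensional ℚ_[q] E]

/-- The residue field `𝒪 ⧸ 𝔪`. -/
abbrev resField : Type := IsLocalRing.ResidueField (intRing q E)

instance finite_resField : Finite (resField q E) := by
  have h : Finite (intRing q E ⧸ maxId q E) := inferInstance
  rw [maxId_eq_maximalIdeal] at h
  exact h

theorem card_resField : Nat.card (resField q E) = resCard q E := by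
  rw [resCard_def]
  change Nat.card (intRing q E ⧸ IsLocalRing.maximalIdeal (intRing q E)) = _
  rw [← maxId_eq_maximalIdeal]

theorem natCast_resCard_eq_zero : ((resCard q E : ℕ) : resField q E) = 0 := by
  have := Fintype.ofFinite (resField q E)
  rw [← card_resField, Nat.card_eq_fintype_card]
  exact Nat.cast_card_eq_zero _

/-- **Teichmüller**: a `q`-adic field contains a primitive `(Q - 1)`-th root of unity,
`Q = resCard q E`, whose reduction generates the multiplicative group of the residue field. -/
theorem exists_isPrimitiveRoot_and_residue :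
    ∃ ζ : intRing q E, IsPrimitiveRoot ζ (resCard q E - 1) ∧
      IsPrimitiveRoot (IsLocalRing.residue (intRing q E) ζ) (resCard q E - 1) := by
  have hQ : 1 < resCard q E := one_lt_resCard q E
  set Q := resCard q E with hQdef
  -- a generator of `kˣ`
  obtain ⟨g, hg⟩ := IsCyclic.exists_generator (α := (resField q E)ˣ)
  have hordg : orderOf g = Q - 1 := by
    rw [orderOf_eq_card_of_forall_mem_zpowers hg, Nat.card_units, card_resField]
  obtain ⟨a₀, ha₀⟩ := IsLocalRing.residue_surjective (R := intRing q E) (g : resField q E)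
  have hgpow : (g : resField q E) ^ (Q - 1) = 1 := by
    rw [← Units.val_pow_eq_pow_val, ← hordg, pow_orderOf_eq_one, Units.val_one]
  -- Hensel
  have hmonic : (X ^ (Q - 1) - C (1 : intRing q E)).Monic :=
    monic_X_pow_sub_C 1 (by omega)
  have h1 : (X ^ (Q - 1) - C (1 : intRing q E)).eval a₀ ∈
      IsLocalRing.maximalIdeal (intRing q E) := by
    rw [← IsLocalRing.residue_eq_zero_iff, eval_sub, eval_pow, eval_X, eval_C, map_sub, map_pow,
      map_one, ha₀, hgpow, sub_self]
  have h2 : IsUnit (Ideal.Quotient.mk (IsLocalRing.maximalIdeal (intRing q E))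
      ((X ^ (Q - 1) - C (1 : intRing q E)).derivative.eval a₀)) := by
    change IsUnit (IsLocalRing.residue (intRing q E) _)
    rw [derivative_sub, derivative_C, sub_zero, derivative_X_pow, eval_mul, eval_C, eval_pow,
      eval_X, map_mul, map_pow, ha₀, map_natCast]
    refine IsUnit.mul ?_ (IsUnit.pow _ g.isUnit)
    rw [isUnit_iff_ne_zero, Nat.cast_sub hQ.le, Nat.cast_one]
    have : ((Q : ℕ) : resField q E) = 0 := natCast_resCard_eq_zero q E
    rw [this, zero_sub]
    exact neg_ne_zero.2 one_ne_zero
  obtain ⟨a, hroot, hcong⟩ := HenselianRing.is_henselian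
    (I := IsLocalRing.maximalIdeal (intRing q E)) _ hmonic a₀ h1 h2
  have hapow : a ^ (Q - 1) = 1 := by
    have := hroot
    rw [IsRoot.def, eval_sub, eval_pow, eval_X, eval_C, sub_eq_zero] at this
    exact this
  have hres : IsLocalRing.residue (intRing q E) a = (g : resField q E) := by
    rw [← ha₀, ← sub_eq_zero, ← map_sub, IsLocalRing.residue_eq_zero_iff]
    exact hcong
  have hgprim : IsPrimitiveRoot (g : resField q E) (Q - 1) := by
    rw [← hordg]
    exact IsPrimitiveRoot.coe_units_iff.2 (IsPrimitiveRoot.orderOf g)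
  refine ⟨a, ?_, hres ▸ hgprim⟩
  rw [IsPrimitiveRoot.iff_def]
  refine ⟨hapow, fun l hl => ?_⟩
  have : (g : resField q E) ^ l = 1 := by
    rw [← hres, ← map_pow, hl, map_one]
  exact hgprim.dvd_of_pow_eq_one l this

/-- **Teichmüller**: a `q`-adic field contains a primitive `(Q - 1)`-th root of unity. -/
theorem exists_isPrimitiveRoot : ∃ ζ : E, IsPrimitiveRoot ζ (resCard q E - 1) := by
  obtain ⟨ζ, hζ, -⟩ := exists_isPrimitiveRoot_and_residue q E
  exact ⟨(ζ : E), hζ.map_of_injective (f := (intRing q E).val) Subtype.val_injective⟩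

/-- `X ^ (Q - 1) - 1` splits in `E`, `Q = resCard q E`. -/
theorem X_pow_resCard_sub_one_splits : (X ^ (resCard q E - 1) - 1 : E[X]).Splits := by
  obtain ⟨ζ, hζ⟩ := exists_isPrimitiveRoot q E
  exact X_pow_sub_one_splits hζ

/-- (UN4) from `e f = n`: an unramified extension of degree `n` contains the
`(Q ^ n - 1)`-th roots of unity. -/
theorem unramRecog_of (h : RamResStatement q) : UnramRecogStatement q := by
  intro E E₁ _ _ _ _ _ _ _ _ _ hun
  obtain ⟨e, f, he, hf, hef, hcard, hord⟩ := h E E₁
  have he1 : e = 1 := by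
    obtain ⟨π, hπ⟩ := exists_isUniformizer q E
    have h1 := (isUnramified_iff_ord q E E₁).1 hun π
    rw [hord π, (isUniformizer_iff_ord q E π).1 hπ, mul_one] at h1
    exact_mod_cast h1
  rw [he1, one_mul] at hef
  rw [← hef]
  have h2 := X_pow_resCard_sub_one_splits q E₁
  rw [hcard] at h2
  have h3 : (unramPoly q E f).map (algebraMap E E₁) = X ^ (resCard q E ^ f - 1) - 1 := by
    simp [unramPoly]
  rw [h3]
  exact h2

/-- (ST-b) `e f = n` in the shape of `UnramDef12` (from helper27's `StructureTowerEF27`). -/
theorem ramRes : RamResStatement q := by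
  intro E E' _ _ _ _ _ _ _ _
  exact ⟨ramIdx q E E', resDeg q E E', ramIdx_pos q E E', resDeg_pos q E E',
    ramIdx_mul_resDeg q E E', resCard_tower q E E', ord_algebraMap q E E'⟩

/-- (ST-b) residue fields have at least two elements. -/
theorem resCardStatement : ResCardStatement q := by
  intro E _ _ _
  exact one_lt_resCard q E

/-- (UN4) recognition of unramified extensions, unconditionally. -/
theorem unramRecog : UnramRecogStatement q := unramRecog_of q (ramRes q)

end
end Fermat.Agent.PT.LOC.Teichmuller14
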