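/-
Program F (S55, Poitou–Tate), chapter LOC — helper14.  (UC-b) glue: the local Herbrand quotient.

For a `q`-adic field `E` and `τ : E ≃ₐ[ℚ_[q]] E`, given a `τ`-stable open subgroup `V` of the units with
trivial `Ĥ⁰`, `Ĥ⁻¹` (`CohTrivSubgroup`, the output of helper10's `NormalLattice10`), the cyclic pair
`cyc τ̃ n` on `Additive Eˣ` (`τ̃ = HerbrandGroup24.toEnd (Units.map τ)`, helper18's `HerbrandQuot18`) is
finite with Herbrand quotient `n`:

* `finite_quot_maximalIdeal_pow`, `snorm_le_of_mem_pow`, `exists_finset_cover` (the unit group is a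
  finite union of cosets of `{‖u - 1‖ ≤ ε}`);
* `tauU`, `ord_tauU`, `ordAdd`, `CohTrivSubgroup`, `isFin_hq_pairE : IsFin ∧ hq = n`;
* `UnitsCohTrivStatement q`, `LocalHerbrand q p` (GLOB's shape), `localHerbrand_of`;
* `card_H_eq_mul`.
-/
import Mathlib
import Fermat.Agent.PT.LOC.Teichmuller14
import Fermat.Agent.PT.LOC.FrobRestrict14
import Fermat.Agent.PT.FG.HerbrandQuot18
import Fermat.Agent.PT.GLOB.HerbrandGroup24

set_option autoImplicit false
set_option linter.unusedSectionVars false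

namespace Fermat.Agent.PT.LOC.LocalHerbrand14

open scoped Fermat.Agent.PT.LOC.Interface12
open Fermat.Agent.PT.LOC.Interface12 Fermat.Agent.PT.LOC.Structure14
  Fermat.Agent.PT.LOC.StructureNorm14 Fermat.Agent.PT.LOC.RootsUnity14
  Fermat.Agent.PT.LOC.Teichmuller14
  Fermat.Agent.CFT.Herbrand Fermat.Agent.PT.FG.HerbrandQuot18
open Fermat.Agent.PT.GLOB Fermat.Agent.PT.FG
open Fermat.Agent.PT.GLOB.HerbrandGroup24 (toEnd divHom toEnd_apply toEnd_pow_apply
  toEnd_sub_one_apply toEnd_pow_eq_one divHom_apply)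

noncomputable section

variable (q : ℕ) [Fact q.Prime] (E : Type) [Field E] [Algebra ℚ_[q] E] [FiniteDimensional ℚ_[q] E]

/-! ### Finitely many cosets of the principal units of level `ε` -/

instance finite_quot_maximalIdeal_pow (k : ℕ) :
    Finite (intRing q E ⧸ IsLocalRing.maximalIdeal (intRing q E) ^ k) := by
  have : Finite (intRing q E ⧸ IsLocalRing.maximalIdeal (intRing q E)) := finite_resField q E
  exact Ideal.finite_quotient_pow (IsNoetherian.noetherian _) k

/-- Elements of `𝔪 ^ k` have norm at most `‖π‖ ^ k`. -/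
theorem snorm_le_of_mem_pow (π : E) (hπ : IsUniformizer q E π) (k : ℕ) (x : intRing q E)
    (hx : x ∈ IsLocalRing.maximalIdeal (intRing q E) ^ k) :
    snorm q E (x : E) ≤ snorm q E π ^ k := by
  by_cases hx0 : (x : E) = 0
  · rw [hx0, snorm_zero]; exact pow_nonneg (snorm_nonneg q E π) k
  · have h1 := (mem_maximalIdeal_pow_iff q E (Units.mk0 (x : E) hx0) x.2 k).1 hx
    have h2 := snorm_eq_zpow q E (Units.mk0 π hπ.2.1) hπ (Units.mk0 (x : E) hx0)
    rw [Units.val_mk0, Units.val_mk0] at h2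
    rw [h2, ← zpow_natCast]
    exact zpow_le_zpow_right_of_le_one₀ (snorm_pos q E hπ.2.1)
      (snorm_uniformizer_lt_one q E π hπ).le h1

/-- The unit group is covered by finitely many cosets of `{u : ‖u - 1‖ ≤ ε}`. -/
theorem exists_finset_cover (ε : ℝ) (hε : 0 < ε) :
    ∃ S : Finset Eˣ, ∀ u ∈ unitGroup q E, ∃ s ∈ S, s ∈ unitGroup q E ∧
      snorm q E (((u / s : Eˣ) : E) - 1) ≤ ε := by
  classical
  obtain ⟨π, hπ⟩ := exists_isUniformizer q E
  have hπ1 : snorm q E (π : E) < 1 := snorm_uniformizer_lt_one q E _ hπ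
  have hπ0 : 0 < snorm q E (π : E) := snorm_pos q E π.ne_zero
  obtain ⟨k, hk⟩ := exists_pow_lt_of_lt_one hε hπ1
  -- representatives of `𝒪 / 𝔪^(k+1)`
  have := Fintype.ofFinite (intRing q E ⧸ IsLocalRing.maximalIdeal (intRing q E) ^ (k + 1))
  let r : (intRing q E ⧸ IsLocalRing.maximalIdeal (intRing q E) ^ (k + 1)) → E :=
    fun c => ((Quotient.out c : intRing q E) : E)
  let S : Finset Eˣ := Finset.univ.image
    (fun c => if h : r c = 0 then (1 : Eˣ) else Units.mk0 (r c) h)
  refine ⟨S, fun u hu => ?_⟩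
  set c : intRing q E ⧸ IsLocalRing.maximalIdeal (intRing q E) ^ (k + 1) :=
    Ideal.Quotient.mk _ ⟨(u : E), hu.1⟩ with hc
  have hmem : (Quotient.out c : intRing q E) - ⟨(u : E), hu.1⟩ ∈
      IsLocalRing.maximalIdeal (intRing q E) ^ (k + 1) := by
    rw [← Ideal.Quotient.eq]
    exact Ideal.Quotient.mk_out c
  have hle := snorm_le_of_mem_pow q E π hπ (k + 1) _ hmem
  have hlt : snorm q E (r c - (u : E)) < 1 := by
    refine lt_of_le_of_lt hle ?_
    exact pow_lt_one₀ hπ0.le hπ1 (Nat.succ_ne_zero k)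
  have hu1 : snorm q E (u : E) = 1 := (mem_unitGroup_iff_snorm q E u).1 hu
  have hr1 : snorm q E (r c) = 1 := by
    have h1 : snorm q E (r c) ≤ 1 := (mem_intRing_iff q E _).1 (Quotient.out c).2
    by_contra hne
    have h2 : snorm q E (r c) < 1 := lt_of_le_of_ne h1 hne
    have h3 : (u : E) = r c - (r c - (u : E)) := by ring
    have h4 := snorm_sub_le_max q E (r c) (r c - (u : E))
    rw [← h3, hu1] at h4
    exact absurd h4 (not_le.2 (max_lt h2 hlt))
  have hr0 : r c ≠ 0 := by
    intro h; rw [h, snorm_zero] at hr1; exact zero_ne_one hr1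
  refine ⟨Units.mk0 (r c) hr0, ?_, ?_, ?_⟩
  · refine Finset.mem_image.2 ⟨c, Finset.mem_univ _, ?_⟩
    rw [dif_neg hr0]
  · exact (mem_unitGroup_iff_snorm q E _).2 (by rw [Units.val_mk0]; exact hr1)
  · have h5 : ((u / Units.mk0 (r c) hr0 : Eˣ) : E) - 1 = ((u : E) - r c) * (r c)⁻¹ := by
      rw [Units.val_div_eq_div_val, Units.val_mk0]
      field_simp
    rw [h5, snorm_mul, snorm_inv, hr1, inv_one, mul_one, ← snorm_neg, neg_sub]
    refine hle.trans ?_
    rw [pow_succ]
    calc snorm q E (π : E) ^ k * snorm q E (π : E) ≤ snorm q E (π : E) ^ k * 1 :=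
          mul_le_mul_of_nonneg_left hπ1.le (pow_nonneg hπ0.le k)
      _ ≤ ε := by rw [mul_one]; exact hk.le

/-! ### The cyclic pair of `Eˣ` -/

variable (τ : E ≃ₐ[ℚ_[q]] E)

/-- The endomorphism of `Eˣ` induced by `τ`. -/
abbrev tauU : Eˣ →* Eˣ := Units.map (τ : E →* E)

theorem tauU_iterate (j : ℕ) (u : Eˣ) :
    (tauU q E τ)^[j] u = Units.map (((τ ^ j : E ≃ₐ[ℚ_[q]] E)) : E →* E) u := by
  induction j with
  | zero => apply Units.ext; simp
  | succ j ih =>
    rw [Function.iterate_succ_apply', ih]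
    apply Units.ext
    rw [pow_succ']
    rfl

theorem toEnd_tauU_pow_eq_one (n : ℕ) (hτ : τ ^ n = 1) : toEnd (tauU q E τ) ^ n = 1 := by
  apply toEnd_pow_eq_one
  intro u
  rw [tauU_iterate, hτ]
  apply Units.ext
  rfl

theorem ord_tauU (u : Eˣ) : ord q E (tauU q E τ u) = ord q E u := by
  rw [ord_eq_ord_iff]
  exact (snorm_algHom q E E (τ : E →ₐ[ℚ_[q]] E) (u : E)).symm

theorem ord_tauU_iterate (j : ℕ) (u : Eˣ) : ord q E ((tauU q E τ)^[j] u) = ord q E u := by
  induction j with
  | zero => rfl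
  | succ j ih => rw [Function.iterate_succ_apply', ord_tauU, ih]

theorem tauU_mem_unitGroup {u : Eˣ} (hu : u ∈ unitGroup q E) : tauU q E τ u ∈ unitGroup q E := by
  rw [mem_unitGroup_iff_ord] at hu ⊢
  rw [ord_tauU, hu]

/-- `ord` as an additive homomorphism `Additive Eˣ →+ ℤ`. -/
def ordAdd : Additive Eˣ →+ ℤ where
  toFun a := ord q E (Additive.toMul a)
  map_zero' := ord_one q E
  map_add' _ _ := ord_mul q E _ _

theorem ordAdd_ofMul (u : Eˣ) : ordAdd q E (Additive.ofMul u) = ord q E u := rfl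

theorem ordAdd_surjective : Function.Surjective (ordAdd q E) := by
  intro m
  obtain ⟨x, hx⟩ := ord_surjective q E m
  exact ⟨Additive.ofMul x, hx⟩

/-- The output of (UC): a `τ`-stable open subgroup `V` of the units with trivial `Ĥ⁰` and `Ĥ⁻¹`. -/
structure CohTrivSubgroup (n : ℕ) (V : Subgroup Eˣ) : Prop where
  le : V ≤ unitGroup q E
  stable : ∀ u ∈ V, tauU q E τ u ∈ V
  isOpen : ∃ ε : ℝ, 0 < ε ∧ ∀ u ∈ unitGroup q E, snorm q E ((u : E) - 1) ≤ ε → u ∈ V
  h0 : ∀ u ∈ V, tauU q E τ u = u → ∃ y ∈ V, HerbrandGroup24.normHom (tauU q E τ) n y = u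
  h1 : ∀ u ∈ V, HerbrandGroup24.normHom (tauU q E τ) n u = 1 → ∃ y ∈ V, divHom (tauU q E τ) y = u

variable {q E τ}

theorem CohTrivSubgroup.iterate_mem {n : ℕ} {V : Subgroup Eˣ} (hV : CohTrivSubgroup q E τ n V)
    (j : ℕ) {u : Eˣ} (hu : u ∈ V) : (tauU q E τ)^[j] u ∈ V := by
  induction j with
  | zero => exact hu
  | succ j ih => rw [Function.iterate_succ_apply']; exact hV.stable _ ih

theorem CohTrivSubgroup.normHom_mem {n : ℕ} {V : Subgroup Eˣ} (hV : CohTrivSubgroup q E τ n V)
    {u : Eˣ} (hu : u ∈ V) : HerbrandGroup24.normHom (tauU q E τ) n u ∈ V := by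
  rw [HerbrandGroup24.normHom_apply]
  exact Subgroup.prod_mem _ fun j _ => hV.iterate_mem j hu

theorem CohTrivSubgroup.divHom_mem {n : ℕ} {V : Subgroup Eˣ} (hV : CohTrivSubgroup q E τ n V)
    {u : Eˣ} (hu : u ∈ V) : divHom (tauU q E τ) u ∈ V := by
  rw [divHom_apply]
  exact V.div_mem (hV.stable u hu) hu

variable (q E τ)

theorem ord_normHom (n : ℕ) (u : Eˣ) : ord q E (HerbrandGroup24.normHom (tauU q E τ) n u) = n * ord q E u := by
  rw [HerbrandGroup24.normHom_apply, FrobRestrict14.ord_prod]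
  simp [ord_tauU_iterate]

/-! ### The Herbrand quotient of `Eˣ` -/

section Main

variable {n : ℕ} (V : Subgroup Eˣ) (hV : CohTrivSubgroup q E τ n V)
  (h : toEnd (tauU q E τ) ^ n = 1)

/-- The pair `cyc τ n` on `Additive Eˣ`. -/
abbrev pairE : Pair (Additive Eˣ) := cyc (toEnd (tauU q E τ)) n h

theorem pairE_f_ofMul (u : Eˣ) :
    (pairE q E τ h).f (Additive.ofMul u) = Additive.ofMul (divHom (tauU q E τ) u) :=
  toEnd_sub_one_apply _ u

theorem pairE_g_ofMul (u : Eˣ) :
    (pairE q E τ h).g (Additive.ofMul u) =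
      Additive.ofMul (HerbrandGroup24.normHom (tauU q E τ) n u) :=
  HerbrandGroup24.normEnd_apply _ n u

include hV in
theorem stable_V : Stable (pairE q E τ h) V.toAddSubgroup where
  f_mem := fun a ha => by
    obtain ⟨u, rfl⟩ := Additive.ofMul.surjective a
    rw [pairE_f_ofMul]
    exact hV.divHom_mem ha
  g_mem := fun a ha => by
    obtain ⟨u, rfl⟩ := Additive.ofMul.surjective a
    rw [pairE_g_ofMul]
    exact hV.normHom_mem ha

theorem subsingleton_H_sub :
    Subsingleton (subPair (pairE q E τ h) V.toAddSubgroup (stable_V q E τ V hV h)).H := by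
  refine ⟨fun x y => ?_⟩
  suffices hz : ∀ z : (subPair (pairE q E τ h) V.toAddSubgroup (stable_V q E τ V hV h)).H, z = 0 by
    rw [hz x, hz y]
  intro z
  induction z using Pair.induction_H with
  | h x =>
    rw [Pair.cls_eq_zero_iff']
    obtain ⟨⟨a, haV⟩, hx⟩ := x
    obtain ⟨u, rfl⟩ := Additive.ofMul.surjective a
    have hfix : (pairE q E τ h).f (Additive.ofMul u) = 0 := congrArg Subtype.val hx
    rw [pairE_f_ofMul, divHom_apply] at hfix
    have hfix' : tauU q E τ u = u := div_eq_one.1 (Additive.ofMul.injective hfix)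
    obtain ⟨y, hyV, hy⟩ := hV.h0 u haV hfix'
    refine ⟨⟨Additive.ofMul y, hyV⟩, Subtype.ext ?_⟩
    change (pairE q E τ h).g (Additive.ofMul y) = Additive.ofMul u
    rw [pairE_g_ofMul, hy]

theorem subsingleton_swap_H_sub :
    Subsingleton (subPair (pairE q E τ h) V.toAddSubgroup (stable_V q E τ V hV h)).swap.H := by
  refine ⟨fun x y => ?_⟩
  suffices hz : ∀ z : (subPair (pairE q E τ h) V.toAddSubgroup
      (stable_V q E τ V hV h)).swap.H, z = 0 by
    rw [hz x, hz y]
  intro z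
  induction z using Pair.induction_H with
  | h x =>
    rw [Pair.cls_eq_zero_iff']
    obtain ⟨⟨a, haV⟩, hx⟩ := x
    obtain ⟨u, rfl⟩ := Additive.ofMul.surjective a
    have hN : (pairE q E τ h).g (Additive.ofMul u) = 0 := congrArg Subtype.val hx
    rw [pairE_g_ofMul] at hN
    have hN' : HerbrandGroup24.normHom (tauU q E τ) n u = 1 := Additive.ofMul.injective hN
    obtain ⟨y, hyV, hy⟩ := hV.h1 u haV hN'
    refine ⟨⟨Additive.ofMul y, hyV⟩, Subtype.ext ?_⟩
    change (pairE q E τ h).f (Additive.ofMul y) = Additive.ofMul u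
    rw [pairE_f_ofMul, hy]

theorem isFin_sub :
    IsFin (subPair (pairE q E τ h) V.toAddSubgroup (stable_V q E τ V hV h)) := by
  have := subsingleton_H_sub q E τ V hV h
  have := subsingleton_swap_H_sub q E τ V hV h
  exact ⟨inferInstance, inferInstance⟩

theorem hq_sub :
    hq (subPair (pairE q E τ h) V.toAddSubgroup (stable_V q E τ V hV h)) = 1 := by
  have := subsingleton_H_sub q E τ V hV h
  have := subsingleton_swap_H_sub q E τ V hV h
  unfold hq
  rw [Nat.card_unique, Nat.card_unique]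
  simp

include hV in
theorem le_ker_ordAdd : V.toAddSubgroup ≤ (ordAdd q E).ker := by
  intro a ha
  obtain ⟨u, rfl⟩ := Additive.ofMul.surjective a
  rw [AddMonoidHom.mem_ker, ordAdd_ofMul]
  exact (mem_unitGroup_iff_ord q E u).1 (hV.le ha)

/-- The map `Additive Eˣ ⧸ V →+ ℤ` induced by `ord`. -/
def ordQuot : Additive Eˣ ⧸ V.toAddSubgroup →+ ℤ :=
  QuotientAddGroup.lift V.toAddSubgroup (ordAdd q E) (le_ker_ordAdd q E τ V hV)

theorem ordQuot_mk (u : Eˣ) :
    ordQuot q E τ V hV ((Additive.ofMul u : Additive Eˣ) : Additive Eˣ ⧸ V.toAddSubgroup) =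
      ord q E u := rfl

/-- `ord` as a morphism of pairs from `Eˣ / V` to `ℤ` with trivial action. -/
def ordHomPair : Hom (quotPair (pairE q E τ h) V.toAddSubgroup (stable_V q E τ V hV h))
    (cyc (1 : Module.End ℤ ℤ) n (one_pow n)) where
  φ := ordQuot q E τ V hV
  comm_f := fun a => by
    induction a using QuotientAddGroup.induction_on with
    | H a =>
      obtain ⟨u, rfl⟩ := Additive.ofMul.surjective a
      change ordQuot q E τ V hV (((pairE q E τ h).f (Additive.ofMul u) : Additive Eˣ) :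
        Additive Eˣ ⧸ V.toAddSubgroup) = _
      rw [pairE_f_ofMul, ordQuot_mk, divHom_apply, div_eq_mul_inv, ord_mul, ord_inv, ord_tauU,
        cyc_f_apply, Module.End.one_apply]
      ring
  comm_g := fun a => by
    induction a using QuotientAddGroup.induction_on with
    | H a =>
      obtain ⟨u, rfl⟩ := Additive.ofMul.surjective a
      change ordQuot q E τ V hV (((pairE q E τ h).g (Additive.ofMul u) : Additive Eˣ) :
        Additive Eˣ ⧸ V.toAddSubgroup) = _
      rw [pairE_g_ofMul, ordQuot_mk, ord_normHom, cyc_int_one_g_apply]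
      rfl

theorem ordQuot_surjective : Function.Surjective (ordQuot q E τ V hV) := by
  intro m
  obtain ⟨x, hx⟩ := ord_surjective q E m
  exact ⟨((Additive.ofMul x : Additive Eˣ) : Additive Eˣ ⧸ V.toAddSubgroup), hx⟩

theorem finite_ker_ordQuot : Finite (ordQuot q E τ V hV).ker := by
  classical
  obtain ⟨ε, hε, hopen⟩ := hV.isOpen
  obtain ⟨S, hS⟩ := exists_finset_cover q E ε hε
  have hsub : ((ordQuot q E τ V hV).ker : Set (Additive Eˣ ⧸ V.toAddSubgroup)) ⊆
      ↑(S.image fun s => ((Additive.ofMul s : Additive Eˣ) : Additive Eˣ ⧸ V.toAddSubgroup)) := by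
    intro x hx
    induction x using QuotientAddGroup.induction_on with
    | H a =>
      obtain ⟨u, rfl⟩ := Additive.ofMul.surjective a
      have hu0 : ord q E u = 0 := hx
      have hu : u ∈ unitGroup q E := (mem_unitGroup_iff_ord q E u).2 hu0
      obtain ⟨s, hsS, hsU, hs⟩ := hS u hu
      have hmem : u / s ∈ V := hopen (u / s) ((unitGroup q E).div_mem hu hsU) hs
      rw [Finset.coe_image]
      refine ⟨s, hsS, ?_⟩
      rw [QuotientAddGroup.eq]
      change (s⁻¹ * u) ∈ V
      rw [mul_comm, ← div_eq_mul_inv]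
      exact hmem
  exact Set.finite_coe_iff.2 ((Finset.finite_toSet _).subset hsub)

include hV in
/-- **The Herbrand quotient of `Eˣ`** for a cyclic group of automorphisms of order dividing `n`,
given a cohomologically trivial open subgroup of the units. -/
theorem isFin_hq_pairE (hn : n ≠ 0) :
    IsFin (pairE q E τ h) ∧ hq (pairE q E τ h) = n := by
  have hst := stable_V q E τ V hV h
  have hker : Finite (ordHomPair q E τ V hV h).φ.ker := finite_ker_ordQuot q E τ V hV
  have hcoker : Finite (ℤ ⧸ (ordHomPair q E τ V hV h).φ.range) := by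
    have : (ordHomPair q E τ V hV h).φ.range = ⊤ :=
      AddMonoidHom.range_eq_top.2 (ordQuot_surjective q E τ V hV)
    rw [this]
    infer_instance
  have hQ : IsFin (quotPair (pairE q E τ h) V.toAddSubgroup hst) :=
    (isFin_iff_of_finite_ker_coker (ordHomPair q E τ V hV h)).2 (isFin_cyc_int n hn)
  have hqQ : hq (quotPair (pairE q E τ h) V.toAddSubgroup hst) = n := by
    rw [hq_eq_of_finite_ker_coker (ordHomPair q E τ V hV h) hQ, hq_cyc_int n hn]
  have S1 := subQuotShortExact (pairE q E τ h) V.toAddSubgroup hst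
  refine ⟨HerbrandQuot18.ShortExact.isFin_mid S1 (isFin_sub q E τ V hV h) hQ, ?_⟩
  rw [HerbrandQuot18.ShortExact.hq_mul S1 (isFin_sub q E τ V hV h) hQ, hq_sub q E τ V hV h, hqQ,
    one_mul]

end Main

/-! ### The statements -/

/-- (UC) in the shape consumed here: for every automorphism `τ` of a `q`-adic field `E` (over
`ℚ_[q]`) the units of `E` contain a `τ`-stable open subgroup with trivial `Ĥ⁰` and `Ĥ⁻¹` for the
cyclic group generated by `τ`. -/
def UnitsCohTrivStatement : Prop :=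
  ∀ (E : Type) [Field E] [Algebra ℚ_[q] E] [FiniteDimensional ℚ_[q] E] (τ : E ≃ₐ[ℚ_[q]] E),
    ∃ V : Subgroup Eˣ, CohTrivSubgroup q E τ (orderOf τ) V

/-- The local Herbrand quotient in GLOB's shape (helper21 `#1954`): for an automorphism `τ` of order
`p` of a `q`-adic field `E`, the Herbrand quotient of `Eˣ` is `p`. -/
def LocalHerbrand (p : ℕ) : Prop :=
  ∀ (E : Type) [Field E] [Algebra ℚ_[q] E] [FiniteDimensional ℚ_[q] E] (τ : E ≃ₐ[ℚ_[q]] E),
    orderOf τ = p → ∀ h : toEnd (Units.map (τ : E →* E)) ^ p = 1,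
      IsFin (cyc (toEnd (Units.map (τ : E →* E))) p h) ∧
        hq (cyc (toEnd (Units.map (τ : E →* E))) p h) = p

theorem orderOf_ne_zero : orderOf τ ≠ 0 := by
  have : Finite (E ≃ₐ[ℚ_[q]] E) := inferInstance
  exact (orderOf_pos τ).ne'

theorem localHerbrand_of (hUC : UnitsCohTrivStatement q) (p : ℕ) : LocalHerbrand q p := by
  intro E _ _ _ τ hτ h
  obtain ⟨V, hV⟩ := hUC E τ
  rw [hτ] at hV
  have hp : p ≠ 0 := hτ ▸ orderOf_ne_zero q E τ
  exact isFin_hq_pairE q E τ V hV h hp

/-- `#Ĥ⁰ = n · #Ĥ⁻¹` from the Herbrand quotient. -/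
theorem card_H_eq_mul {A : Type*} [AddCommGroup A] (P : Pair A) (hP : IsFin P) (n : ℕ)
    (hn : hq P = n) : Nat.card P.H = n * Nat.card P.swap.H := by
  have h0 : (Nat.card P.swap.H : ℚ) ≠ 0 := by exact_mod_cast hP.card_swap_H_ne_zero
  unfold hq at hn
  rw [div_eq_iff h0] at hn
  exact_mod_cast hn

end
end Fermat.Agent.PT.LOC.LocalHerbrand14
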