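/-
Program F (S55), chapter LOC (helper10): units of a `π`-adically complete ring with a cyclic group
action; the subgroup `1 + π^N M` (`M` a stable lattice with regular reduction) has trivial
`Ĥ⁰` and `Ĥ⁻¹` (Serre, Local Fields XII.3 Lemma 3 / Cassels–Fröhlich VI.1.4, cyclic case).

Part 1: `PiAdic B π`: `π` is a non-zero-divisor and `B` is `π`-adically separated and complete;
        geometric series, principal units.
-/
import Mathlib
import Fermat.Agent.PT.LOC.Filtered10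

set_option autoImplicit false
set_option linter.unusedSectionVars false

namespace Fermat.Agent.PT.LOC.UnitFiltration10

open Finset Fermat.Agent.PT.LOC.Filtered10

/-- `π` is a non-zero-divisor of `B` and `B` is `π`-adically separated and complete. -/
structure PiAdic (B : Type*) [CommRing B] (π : B) : Prop where
  nzd : ∀ x : B, π * x = 0 → x = 0
  sep : ∀ x : B, (∀ k : ℕ, π ^ k ∣ x) → x = 0
  complete : ∀ f : ℕ → B, (∀ k, π ^ k ∣ f (k + 1) - f k) → ∃ L : B, ∀ k, π ^ k ∣ L - f k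

section Basic

variable {B : Type*} [CommRing B] {π : B} (h : PiAdic B π)

include h

theorem PiAdic.pow_nzd (k : ℕ) (x : B) (hx : π ^ k * x = 0) : x = 0 := by
  induction k with
  | zero => simpa using hx
  | succ k ih =>
    apply ih
    apply h.nzd
    rw [← mul_assoc, ← pow_succ']
    exact hx

theorem PiAdic.pow_mul_cancel (k : ℕ) {x y : B} (hxy : π ^ k * x = π ^ k * y) : x = y := by
  have : π ^ k * (x - y) = 0 := by rw [mul_sub, hxy, sub_self]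
  exact sub_eq_zero.mp (h.pow_nzd k _ this)

/-- Cauchy sequences for the `π`-adic filtration: differences `f (j) - f k` for `k ≤ j`. -/
theorem dvd_sub_of_le {f : ℕ → B} (hf : ∀ k, π ^ k ∣ f (k + 1) - f k) {k j : ℕ} (hkj : k ≤ j) :
    π ^ k ∣ f j - f k := by
  induction hkj with
  | refl => simp
  | step hkm ih =>
    rename_i m
    have h1 : π ^ k ∣ f (m + 1) - f m := (pow_dvd_pow π hkm).trans (hf m)
    have : f (m + 1) - f k = (f (m + 1) - f m) + (f m - f k) := by ring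
    rw [this]
    exact dvd_add h1 ih

/-- `1 + π b` is a unit. -/
theorem PiAdic.isUnit_one_add (b : B) : IsUnit (1 + π * b) := by
  -- the geometric series `∑ (-π b)^i`
  let f : ℕ → B := fun k => ∑ i ∈ range k, (-(π * b)) ^ i
  have hf : ∀ k, π ^ k ∣ f (k + 1) - f k := by
    intro k
    simp only [f, Finset.sum_range_succ, add_sub_cancel_left]
    rw [neg_pow, mul_pow]
    exact ⟨(-1) ^ k * b ^ k, by ring⟩
  obtain ⟨L, hL⟩ := h.complete f hf
  have key : (1 + π * b) * L = 1 := by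
    rw [← sub_eq_zero]
    apply h.sep
    intro k
    have h1 : (1 + π * b) * f k = 1 - (-(π * b)) ^ k := by
      have := geom_sum_mul_neg (-(π * b)) k
      simp only [f]
      rw [mul_comm]
      rw [← this]
      ring
    have h2 : (1 + π * b) * L - 1 = (1 + π * b) * (L - f k) - (-(π * b)) ^ k := by
      rw [mul_sub, h1]; ring
    rw [h2]
    refine dvd_sub (Dvd.dvd.mul_left (hL k) _) ?_
    rw [neg_pow, mul_pow]
    exact ⟨(-1) ^ k * b ^ k, by ring⟩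
  exact IsUnit.of_mul_eq_one _ key

end Basic

/-! ### Multiplicative wrappers of the cyclic successive-approximation lemmas -/

section MulWrapper

variable {W : Type*} [CommGroup W]

/-- The multiplicative norm `∏_{j<n} σ^j w` (`σ^j` = iterated composition). -/
def mulNorm (σ : Monoid.End W) (n : ℕ) (w : W) : W := ∏ j ∈ range n, (σ ^ j) w

/-- the additive filtration attached to a decreasing sequence of subgroups -/
def toFiltration (F : ℕ → Subgroup W) (anti : ∀ i, F (i + 1) ≤ F i) : Filtration (Additive W) where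
  F i := (F i).toAddSubgroup
  anti i := by
    intro x hx
    exact anti i hx

/-- the additive endomorphism attached to a monoid endomorphism -/
def toEnd (σ : Monoid.End W) : AddMonoid.End (Additive W) := MonoidHom.toAdditive σ

theorem toEnd_apply (σ : Monoid.End W) (w : Additive W) :
    toEnd σ w = Additive.ofMul (σ w.toMul) := rfl

theorem toEnd_pow_apply (σ : Monoid.End W) (j : ℕ) (w : Additive W) :
    ((toEnd σ) ^ j) w = Additive.ofMul ((σ ^ j) w.toMul) := by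
  induction j generalizing w with
  | zero => rfl
  | succ j ih =>
    rw [pow_succ, pow_succ]
    show ((toEnd σ) ^ j) (toEnd σ w) = Additive.ofMul ((σ ^ j) (σ w.toMul))
    rw [ih]
    rfl

theorem normOp_toEnd (σ : Monoid.End W) (n : ℕ) (w : Additive W) :
    normOp (toEnd σ) n w = Additive.ofMul (mulNorm σ n w.toMul) := by
  rw [normOp_apply, mulNorm]
  simp only [toEnd_pow_apply]
  rw [ofMul_prod]

theorem toEnd_pow_eq_one (σ : Monoid.End W) (n : ℕ) (hσ : σ ^ n = 1) : (toEnd σ) ^ n = 1 := by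
  ext x
  rw [toEnd_pow_apply, hσ]
  rfl

variable (F : ℕ → Subgroup W) (anti : ∀ i, F (i + 1) ≤ F i) (σ : Monoid.End W) (n : ℕ)

include anti

/-- multiplicative form of `Filtered10.exists_norm_eq_of_graded` -/
theorem mul_exists_norm_eq_of_graded (hσ : σ ^ n = 1)
    (hσF : ∀ i, ∀ w ∈ F i, σ w ∈ F i)
    (hc : ∀ a : ℕ → W, (∀ i, a i ∈ F i) → ∃ s : W, ∀ k, s / ∏ i ∈ range k, a i ∈ F k)
    (hs : ∀ w : W, (∀ i, w ∈ F i) → w = 1) (i₀ : ℕ)
    (hgr : ∀ i, i₀ ≤ i → ∀ w ∈ F i, σ w = w → ∃ y ∈ F i, w / mulNorm σ n y ∈ F (i + 1))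
    (w : W) (hw : w ∈ F i₀) (hinv : σ w = w) :
    ∃ y ∈ F i₀, mulNorm σ n y = w := by
  obtain ⟨y, hy, hy'⟩ := exists_norm_eq_of_graded (toFiltration F anti) (toEnd σ) n
    (toEnd_pow_eq_one σ n hσ)
    (fun i x hx => hσF i _ hx)
    (fun a ha => by
      obtain ⟨s, hs⟩ := hc (fun i => (a i).toMul) ha
      refine ⟨Additive.ofMul s, fun k => ?_⟩
      have := hs k
      show (Additive.ofMul s - ∑ i ∈ range k, a i).toMul ∈ F k
      rw [toMul_sub, toMul_sum]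
      exact this)
    (fun x hx => by
      have := hs x.toMul hx
      exact Additive.toMul.injective this)
    i₀
    (fun i hi x hx hxinv => by
      obtain ⟨y, hy, hy'⟩ := hgr i hi x.toMul hx (congrArg Additive.toMul hxinv)
      refine ⟨Additive.ofMul y, hy, ?_⟩
      show (x - normOp (toEnd σ) n (Additive.ofMul y)).toMul ∈ F (i + 1)
      rw [normOp_toEnd, toMul_sub]
      exact hy')
    (Additive.ofMul w) hw (congrArg Additive.ofMul hinv)
  refine ⟨y.toMul, hy, ?_⟩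
  rw [normOp_toEnd] at hy'
  exact congrArg Additive.toMul hy'

/-- multiplicative form of `Filtered10.exists_sub_eq_of_graded` -/
theorem mul_exists_div_eq_of_graded (hσ : σ ^ n = 1)
    (hσF : ∀ i, ∀ w ∈ F i, σ w ∈ F i)
    (hc : ∀ a : ℕ → W, (∀ i, a i ∈ F i) → ∃ s : W, ∀ k, s / ∏ i ∈ range k, a i ∈ F k)
    (hs : ∀ w : W, (∀ i, w ∈ F i) → w = 1) (i₀ : ℕ)
    (hgr : ∀ i, i₀ ≤ i → ∀ w ∈ F i, mulNorm σ n w = 1 → ∃ y ∈ F i, w / (σ y / y) ∈ F (i + 1))
    (w : W) (hw : w ∈ F i₀) (hN : mulNorm σ n w = 1) :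
    ∃ y ∈ F i₀, σ y / y = w := by
  obtain ⟨y, hy, hy'⟩ := exists_sub_eq_of_graded (toFiltration F anti) (toEnd σ) n
    (toEnd_pow_eq_one σ n hσ)
    (fun i x hx => hσF i _ hx)
    (fun a ha => by
      obtain ⟨s, hs⟩ := hc (fun i => (a i).toMul) ha
      refine ⟨Additive.ofMul s, fun k => ?_⟩
      have := hs k
      show (Additive.ofMul s - ∑ i ∈ range k, a i).toMul ∈ F k
      rw [toMul_sub, toMul_sum]
      exact this)
    (fun x hx => by
      have := hs x.toMul hx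
      exact Additive.toMul.injective this)
    i₀
    (fun i hi x hx hxN => by
      rw [normOp_toEnd] at hxN
      obtain ⟨y, hy, hy'⟩ := hgr i hi x.toMul hx (congrArg Additive.toMul hxN)
      exact ⟨Additive.ofMul y, hy, hy'⟩)
    (Additive.ofMul w) hw (by rw [normOp_toEnd]; exact congrArg Additive.ofMul hN)
  exact ⟨y.toMul, hy, congrArg Additive.toMul hy'⟩

end MulWrapper

/-! ### The subgroups `1 + π^k M` of the unit group -/

/-- A lattice `M` in `B`, stable under the ring automorphism `σ` and under multiplication by `π`,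
containing `π^a B`. -/
structure StableLattice (B : Type*) [CommRing B] (π : B) (σ : B ≃+* B) where
  /-- the underlying additive subgroup -/
  M : AddSubgroup B
  /-- the conductor exponent -/
  a : ℕ
  stable : ∀ x ∈ M, σ x ∈ M
  pi_mem : ∀ x ∈ M, π * x ∈ M
  absorb : ∀ b : B, π ^ a * b ∈ M

section Units

variable {B : Type*} [CommRing B] {π : B} {σ : B ≃+* B} (Λ : StableLattice B π σ)

theorem StableLattice.pow_mem (k : ℕ) {x : B} (hx : x ∈ Λ.M) : π ^ k * x ∈ Λ.M := by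
  induction k with
  | zero => simpa using hx
  | succ k ih =>
    rw [pow_succ', mul_assoc]
    exact Λ.pi_mem _ ih

theorem StableLattice.pow_mul_mem {k : ℕ} (hk : Λ.a ≤ k) (b : B) : π ^ k * b ∈ Λ.M := by
  obtain ⟨j, rfl⟩ := Nat.exists_eq_add_of_le hk
  rw [pow_add, mul_comm (π ^ Λ.a), mul_assoc]
  exact Λ.pow_mem j (Λ.absorb b)

/-- The subgroup `1 + π^k M` of `Bˣ` (`k ≥ a`). -/
def StableLattice.V (k : ℕ) (hk : Λ.a ≤ k) : Subgroup Bˣ where
  carrier := {u | ∃ x ∈ Λ.M, (u : B) = 1 + π ^ k * x}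
  one_mem' := ⟨0, Λ.M.zero_mem, by simp⟩
  mul_mem' := by
    rintro u v ⟨x, hx, hu⟩ ⟨y, hy, hv⟩
    refine ⟨x + y + π ^ k * (x * y), ?_, ?_⟩
    · exact Λ.M.add_mem (Λ.M.add_mem hx hy) (Λ.pow_mul_mem hk _)
    · rw [Units.val_mul, hu, hv]; ring
  inv_mem' := by
    rintro u ⟨x, hx, hu⟩
    -- `u⁻¹ = 1 + π^k y` with `y = - u⁻¹ x`
    refine ⟨-x + π ^ k * (x * ((u⁻¹ : Bˣ) : B) * x), ?_, ?_⟩
    · exact Λ.M.add_mem (Λ.M.neg_mem hx) (Λ.pow_mul_mem hk _)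
    · have h1 : (u : B) * ((u⁻¹ : Bˣ) : B) = 1 := by
        rw [← Units.val_mul, mul_inv_cancel, Units.val_one]
      have h3 : (1 + π ^ k * x) * ((u⁻¹ : Bˣ) : B) = 1 := by rw [← hu]; exact h1
      linear_combination (1 - π ^ k * x) * h3

theorem StableLattice.mem_V {k : ℕ} {hk : Λ.a ≤ k} {u : Bˣ} :
    u ∈ Λ.V k hk ↔ ∃ x ∈ Λ.M, (u : B) = 1 + π ^ k * x := Iff.rfl

theorem StableLattice.V_anti {k : ℕ} (hk : Λ.a ≤ k) :
    Λ.V (k + 1) (hk.trans (Nat.le_succ k)) ≤ Λ.V k hk := by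
  rintro u ⟨x, hx, hu⟩
  exact ⟨π * x, Λ.pi_mem x hx, by rw [hu]; ring⟩

/-- principal units of level `k + a` lie in `1 + π^k M`. -/
theorem StableLattice.mem_V_of_dvd {k : ℕ} (hk : Λ.a ≤ k) {u : Bˣ}
    (hu : π ^ (k + Λ.a) ∣ (u : B) - 1) : u ∈ Λ.V k hk := by
  obtain ⟨c, hc⟩ := hu
  refine ⟨π ^ Λ.a * c, Λ.absorb c, ?_⟩
  rw [← mul_assoc, ← pow_add, ← hc]
  ring

theorem StableLattice.dvd_of_mem_V {k : ℕ} {hk : Λ.a ≤ k} {u : Bˣ} (hu : u ∈ Λ.V k hk) :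
    π ^ k ∣ (u : B) - 1 := by
  obtain ⟨x, _, hx⟩ := hu
  exact ⟨x, by rw [hx]; ring⟩

/-- If `u = v + π^j m` with `m ∈ M` and `v ∈ 1 + π^k M`, then `u / v ∈ 1 + π^j M`. -/
theorem StableLattice.div_mem_V {k j : ℕ} (hk : Λ.a ≤ k) (hj : Λ.a ≤ j) {u v : Bˣ}
    (hv : v ∈ Λ.V k hk) {m : B} (hm : m ∈ Λ.M) (huv : (u : B) = v + π ^ j * m) :
    u / v ∈ Λ.V j hj := by
  obtain ⟨w, hw, hw'⟩ := (Λ.V k hk).inv_mem hv
  refine ⟨m + π ^ k * (w * m), Λ.M.add_mem hm (Λ.pow_mul_mem hk _), ?_⟩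
  have h1 : (v : B) * ((v⁻¹ : Bˣ) : B) = 1 := by
    rw [← Units.val_mul, mul_inv_cancel, Units.val_one]
  rw [div_eq_mul_inv, Units.val_mul, huv, add_mul, h1, hw']
  ring

/-- the series `∑ π^j m_j`, `m_j ∈ M`, converges in `M`, with remainders in `π^k M`. -/
theorem StableLattice.exists_sum (h : PiAdic B π) (m : ℕ → B) (hm : ∀ j, m j ∈ Λ.M) :
    ∃ t ∈ Λ.M, ∀ k, ∃ r ∈ Λ.M, t - ∑ j ∈ range k, π ^ j * m j = π ^ k * r := by
  let f : ℕ → B := fun k => ∑ j ∈ range k, π ^ j * m j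
  have hf : ∀ k, π ^ k ∣ f (k + 1) - f k := fun k => ⟨m k, by simp [f, sum_range_succ]⟩
  obtain ⟨L, hL⟩ := h.complete f hf
  have htail : ∀ k i, ∃ r ∈ Λ.M, f (k + i) - f k = π ^ k * r := by
    intro k i
    induction i with
    | zero => exact ⟨0, Λ.M.zero_mem, by simp⟩
    | succ i ih =>
      obtain ⟨r, hr, hr'⟩ := ih
      refine ⟨r + π ^ i * m (k + i), Λ.M.add_mem hr (Λ.pow_mem i (hm _)), ?_⟩
      have h1 : f (k + (i + 1)) = f (k + i) + π ^ (k + i) * m (k + i) := by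
        simp only [f, ← add_assoc, sum_range_succ]
      rw [h1, mul_add, ← hr', pow_add]; ring
  have key : ∀ k, ∃ r ∈ Λ.M, L - f k = π ^ k * r := by
    intro k
    obtain ⟨d, hd⟩ := hL (k + Λ.a)
    obtain ⟨r, hr, hr'⟩ := htail k Λ.a
    refine ⟨r + π ^ Λ.a * d, Λ.M.add_mem hr (Λ.absorb d), ?_⟩
    have h1 : L - f k = (L - f (k + Λ.a)) + (f (k + Λ.a) - f k) := by ring
    rw [h1, hd, hr', pow_add]; ring
  refine ⟨L, ?_, key⟩
  obtain ⟨r, hr, hr'⟩ := key 0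
  have h1 : L = r := by
    have : L - f 0 = r := by rw [hr']; simp
    simpa [f] using this
  rw [h1]; exact hr

/-- `∏ (1 + t x_j) = 1 + t ∑ x_j + t² c`. -/
theorem prod_one_add_mul (t : B) (x : ℕ → B) (n : ℕ) :
    ∃ c : B, ∏ j ∈ range n, (1 + t * x j) = 1 + t * ∑ j ∈ range n, x j + t ^ 2 * c := by
  induction n with
  | zero => exact ⟨0, by simp⟩
  | succ n ih =>
    obtain ⟨c, hc⟩ := ih
    refine ⟨c + (∑ j ∈ range n, x j) * x n + t * c * x n, ?_⟩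
    rw [prod_range_succ, sum_range_succ, hc]; ring

/-- the action of `σ` on the units -/
def unitsEnd (σ : B ≃+* B) : Monoid.End Bˣ := Units.map (σ : B →* B)

theorem unitsEnd_apply (u : Bˣ) : ((unitsEnd σ u : Bˣ) : B) = σ (u : B) := rfl

theorem unitsEnd_pow_apply (j : ℕ) (u : Bˣ) :
    ((((unitsEnd σ) ^ j) u : Bˣ) : B) = (⇑σ)^[j] (u : B) := by
  induction j with
  | zero => rfl
  | succ j ih =>
    rw [pow_succ', Function.iterate_succ_apply', ← ih]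
    rfl

theorem unitsEnd_pow_eq_one (n : ℕ) (hσn : ∀ x : B, (⇑σ)^[n] x = x) : (unitsEnd σ) ^ n = 1 := by
  ext u
  rw [unitsEnd_pow_apply, hσn]
  rfl

theorem coe_mulNorm_unitsEnd (n : ℕ) (u : Bˣ) :
    ((mulNorm (unitsEnd σ) n u : Bˣ) : B) = ∏ j ∈ range n, (⇑σ)^[j] (u : B) := by
  rw [mulNorm, Units.coe_prod]
  exact Finset.prod_congr rfl fun j _ => unitsEnd_pow_apply j u

theorem iterate_one_add_mul (hσπ : σ π = π) (k j : ℕ) (z : B) :
    (⇑σ)^[j] (1 + π ^ k * z) = 1 + π ^ k * (⇑σ)^[j] z := by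
  induction j with
  | zero => rfl
  | succ j ih =>
    rw [Function.iterate_succ_apply', ih, Function.iterate_succ_apply', map_add, map_one, map_mul,
      map_pow, hσπ]

theorem StableLattice.map_mem_V (hσπ : σ π = π) {k : ℕ} {hk : Λ.a ≤ k} {u : Bˣ}
    (hu : u ∈ Λ.V k hk) : unitsEnd σ u ∈ Λ.V k hk := by
  obtain ⟨x, hx, hu⟩ := hu
  refine ⟨σ x, Λ.stable x hx, ?_⟩
  rw [unitsEnd_apply, hu, map_add, map_one, map_mul, map_pow, hσπ]

/-- the filtration `1 + π^(a+1+i) M` of the unit group -/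
def StableLattice.F (i : ℕ) : Subgroup Bˣ := Λ.V (Λ.a + 1 + i) (by omega)

theorem StableLattice.mem_F {i : ℕ} {u : Bˣ} :
    u ∈ Λ.F i ↔ ∃ x ∈ Λ.M, (u : B) = 1 + π ^ (Λ.a + 1 + i) * x := Iff.rfl

theorem StableLattice.F_anti (i : ℕ) : Λ.F (i + 1) ≤ Λ.F i := by
  rintro u ⟨x, hx, hu⟩
  exact ⟨π * x, Λ.pi_mem x hx, by rw [hu]; ring⟩

theorem StableLattice.F_le_zero (i : ℕ) : Λ.F i ≤ Λ.F 0 := by
  induction i with
  | zero => exact le_rfl
  | succ i ih => exact (Λ.F_anti i).trans ih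

theorem StableLattice.map_mem_F (hσπ : σ π = π) (i : ℕ) (u : Bˣ) (hu : u ∈ Λ.F i) :
    unitsEnd σ u ∈ Λ.F i := Λ.map_mem_V hσπ hu

theorem StableLattice.F_separated (h : PiAdic B π) (w : Bˣ) (hw : ∀ i, w ∈ Λ.F i) : w = 1 := by
  apply Units.ext
  rw [Units.val_one, ← sub_eq_zero]
  apply h.sep
  intro k
  obtain ⟨x, _, hx⟩ := hw k
  refine ⟨π ^ (Λ.a + 1) * x, ?_⟩
  rw [hx]; ring

/-- existence of the unit `1 + π^(a+1+i) z`. -/
theorem StableLattice.exists_unit (h : PiAdic B π) (i : ℕ) (z : B) (hz : z ∈ Λ.M) :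
    ∃ y ∈ Λ.F i, ((y : Bˣ) : B) = 1 + π ^ (Λ.a + 1 + i) * z := by
  have hu : IsUnit (1 + π ^ (Λ.a + 1 + i) * z) := by
    have : 1 + π ^ (Λ.a + 1 + i) * z = 1 + π * (π ^ (Λ.a + i) * z) := by ring
    rw [this]
    exact h.isUnit_one_add _
  exact ⟨hu.unit, ⟨z, hz, rfl⟩, rfl⟩

theorem StableLattice.F_complete (h : PiAdic B π) (a : ℕ → Bˣ) (ha : ∀ i, a i ∈ Λ.F i) :
    ∃ s : Bˣ, ∀ k, s / ∏ i ∈ range k, a i ∈ Λ.F k := by
  choose x hx hax using ha
  set K := Λ.a + 1 with hK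
  have hKa : Λ.a ≤ K := by omega
  let P : ℕ → Bˣ := fun k => ∏ i ∈ range k, a i
  have hP : ∀ k, P k ∈ Λ.F 0 := fun k =>
    Subgroup.prod_mem _ fun i _ => Λ.F_le_zero i ⟨x i, hx i, hax i⟩
  let m : ℕ → B := fun j => (P j : B) * x j
  have hm : ∀ j, m j ∈ Λ.M := by
    intro j
    obtain ⟨y, hy, hy'⟩ := hP j
    have : m j = x j + π ^ (Λ.a + 1 + 0) * (y * x j) := by
      simp only [m]; rw [hy']; ring
    rw [this]
    exact Λ.M.add_mem (hx j) (Λ.pow_mul_mem (by omega) _)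
  have hPk : ∀ k, ((P k : Bˣ) : B) = 1 + π ^ K * ∑ j ∈ range k, π ^ j * m j := by
    intro k
    induction k with
    | zero => simp [P]
    | succ k ih =>
      have h1 : P (k + 1) = P k * a k := prod_range_succ _ _
      rw [h1, Units.val_mul, hax k, sum_range_succ]
      have e : 1 + π ^ K * (∑ j ∈ range k, π ^ j * m j + π ^ k * m k) =
          (1 + π ^ K * ∑ j ∈ range k, π ^ j * m j) + π ^ (K + k) * m k := by ring
      rw [e, ← ih]
      simp only [m]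
      ring
  obtain ⟨t, ht, htk⟩ := Λ.exists_sum h m hm
  obtain ⟨s, hs, hs'⟩ := Λ.exists_unit h 0 t ht
  refine ⟨s, fun k => ?_⟩
  obtain ⟨r, hr, hr'⟩ := htk k
  refine Λ.div_mem_V (k := Λ.a + 1 + 0) (by omega) (by omega) (hP k) hr ?_
  rw [hs', hPk k]
  have : t = ∑ j ∈ range k, π ^ j * m j + π ^ k * r := by rw [← hr']; ring
  rw [this, hK]
  ring

theorem StableLattice.pow_map_mem_F (hσπ : σ π = π) (i j : ℕ) (u : Bˣ) (hu : u ∈ Λ.F i) :
    ((unitsEnd σ) ^ j) u ∈ Λ.F i := by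
  induction j with
  | zero => exact hu
  | succ j ih =>
    rw [pow_succ']
    exact Λ.map_mem_F hσπ i _ ih

theorem StableLattice.mulNorm_mem_F (hσπ : σ π = π) (n i : ℕ) (u : Bˣ) (hu : u ∈ Λ.F i) :
    mulNorm (unitsEnd σ) n u ∈ Λ.F i :=
  Subgroup.prod_mem _ fun j _ => Λ.pow_map_mem_F hσπ i j u hu

/-- `Ĥ⁰(M/πM) = 0`: invariant elements of `M` are traces modulo `πM`. -/
def StableLattice.R0 (n : ℕ) : Prop :=
  ∀ x ∈ Λ.M, σ x = x → ∃ z ∈ Λ.M, ∃ m ∈ Λ.M, x - ∑ j ∈ range n, (⇑σ)^[j] z = π * m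

/-- `Ĥ⁻¹(M/πM) = 0`: elements of `M` of trace in `πM` are of the form `σ z - z` modulo `πM`. -/
def StableLattice.R1 (n : ℕ) : Prop :=
  ∀ x ∈ Λ.M, (∃ m ∈ Λ.M, ∑ j ∈ range n, (⇑σ)^[j] x = π * m) →
    ∃ z ∈ Λ.M, ∃ m ∈ Λ.M, x - (σ z - z) = π * m

/-- **`Ĥ⁰(1 + π^(a+1) M) = 1`.** -/
theorem StableLattice.exists_norm_eq (h : PiAdic B π) (hσπ : σ π = π) (n : ℕ)
    (hσn : ∀ x : B, (⇑σ)^[n] x = x) (hR0 : Λ.R0 n) (u : Bˣ) (hu : u ∈ Λ.F 0)
    (hinv : unitsEnd σ u = u) : ∃ y ∈ Λ.F 0, mulNorm (unitsEnd σ) n y = u := by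
  refine mul_exists_norm_eq_of_graded Λ.F Λ.F_anti (unitsEnd σ) n (unitsEnd_pow_eq_one n hσn)
    (Λ.map_mem_F hσπ) (Λ.F_complete h) (Λ.F_separated h) 0 ?_ u hu hinv
  intro i _ w hw hwinv
  obtain ⟨x, hx, hwx⟩ := hw
  have hσx : σ x = x := by
    have h1 : ((unitsEnd σ w : Bˣ) : B) = w := by rw [hwinv]
    rw [unitsEnd_apply, hwx, map_add, map_one, map_mul, map_pow, hσπ] at h1
    exact h.pow_mul_cancel _ (add_left_cancel h1)
  obtain ⟨z, hz, m, hm, hxz⟩ := hR0 x hx hσx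
  obtain ⟨y, hy, hy'⟩ := Λ.exists_unit h i z hz
  refine ⟨y, hy, ?_⟩
  have hNy : mulNorm (unitsEnd σ) n y ∈ Λ.F i := Λ.mulNorm_mem_F hσπ n i y hy
  obtain ⟨c, hc⟩ := prod_one_add_mul (π ^ (Λ.a + 1 + i)) (fun j => (⇑σ)^[j] z) n
  refine Λ.div_mem_V (k := Λ.a + 1 + i) (j := Λ.a + 1 + (i + 1)) (by omega) (by omega) hNy
    (m := m - π ^ (Λ.a + i) * c) (Λ.M.sub_mem hm (Λ.pow_mul_mem (by omega) c)) ?_
  rw [coe_mulNorm_unitsEnd, hwx]
  simp only [hy', iterate_one_add_mul hσπ]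
  rw [hc]
  have hx' : x = ∑ j ∈ range n, (⇑σ)^[j] z + π * m := by rw [← hxz]; ring
  rw [hx']; ring

/-- **`Ĥ⁻¹(1 + π^(a+1) M) = 1`.** -/
theorem StableLattice.exists_div_eq (h : PiAdic B π) (hσπ : σ π = π) (n : ℕ)
    (hσn : ∀ x : B, (⇑σ)^[n] x = x) (hR1 : Λ.R1 n) (u : Bˣ) (hu : u ∈ Λ.F 0)
    (hN : mulNorm (unitsEnd σ) n u = 1) : ∃ y ∈ Λ.F 0, unitsEnd σ y / y = u := by
  refine mul_exists_div_eq_of_graded Λ.F Λ.F_anti (unitsEnd σ) n (unitsEnd_pow_eq_one n hσn)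
    (Λ.map_mem_F hσπ) (Λ.F_complete h) (Λ.F_separated h) 0 ?_ u hu hN
  intro i _ w hw hwN
  obtain ⟨x, hx, hwx⟩ := hw
  obtain ⟨c, hc⟩ := prod_one_add_mul (π ^ (Λ.a + 1 + i)) (fun j => (⇑σ)^[j] x) n
  have hTr : ∑ j ∈ range n, (⇑σ)^[j] x = π * (-(π ^ (Λ.a + i) * c)) := by
    have h1 : ((mulNorm (unitsEnd σ) n w : Bˣ) : B) = 1 := by rw [hwN]; rfl
    rw [coe_mulNorm_unitsEnd, hwx] at h1
    simp only [iterate_one_add_mul hσπ] at h1
    rw [hc] at h1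
    have h2 : π ^ (Λ.a + 1 + i) *
        (∑ j ∈ range n, (⇑σ)^[j] x + π ^ (Λ.a + 1 + i) * c) = 0 := by
      linear_combination h1
    have h3 := h.pow_nzd _ _ h2
    linear_combination h3
  obtain ⟨z, hz, m, hm, hxz⟩ :=
    hR1 x hx ⟨_, Λ.M.neg_mem (Λ.pow_mul_mem (by omega) c), hTr⟩
  obtain ⟨y, hy, hy'⟩ := Λ.exists_unit h i z hz
  refine ⟨y, hy, ?_⟩
  have e : w / (unitsEnd σ y / y) = (w * y) / unitsEnd σ y := by rw [div_div_eq_mul_div]
  rw [e]
  refine Λ.div_mem_V (k := Λ.a + 1 + i) (j := Λ.a + 1 + (i + 1)) (by omega) (by omega)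
    (Λ.map_mem_F hσπ i y hy) (m := m + π ^ (Λ.a + i) * (x * z))
    (Λ.M.add_mem hm (Λ.pow_mul_mem (by omega) _)) ?_
  rw [Units.val_mul, hwx, unitsEnd_apply, hy', map_add, map_one, map_mul, map_pow, hσπ]
  have hx' : x - (σ z - z) = π * m := hxz
  linear_combination (π ^ (Λ.a + 1 + i)) * hx'

end Units

end Fermat.Agent.PT.LOC.UnitFiltration10
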