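/-
Program F (S55), chapter LOC (helper10): the normal-basis lattice.

`B` a `π`-adically complete ring, `σ` an automorphism with `σ^n = 1`, `σ π = π`, `A₀ = B^σ` the fixed
ring, `ψ : ZMod n → B` with `σ (ψ k) = ψ (k + 1)` and `A₀`-linearly independent.  Then
`M = ⊕ A₀ ψ_k` is a stable lattice whose reduction is a regular module, so (given `π^a B ⊆ M`) the
subgroup `1 + π^(a+1) M` of `Bˣ` has trivial `Ĥ⁰` and `Ĥ⁻¹` (`UnitFiltration10`).
-/
import Mathlib
import Fermat.Agent.PT.LOC.Filtered10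
import Fermat.Agent.PT.LOC.UnitFiltration10

set_option autoImplicit false
set_option linter.unusedSectionVars false

namespace Fermat.Agent.PT.LOC.NormalLattice10

open Finset Fermat.Agent.PT.LOC.Filtered10 Fermat.Agent.PT.LOC.UnitFiltration10

variable {B : Type*} [CommRing B]

/-- the fixed ring of an automorphism -/
def fixedRing (σ : B ≃+* B) : Subring B where
  carrier := {b | σ b = b}
  mul_mem' := fun {a b} ha hb => by
    show σ (a * b) = a * b
    rw [map_mul, ha, hb]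
  one_mem' := map_one σ
  add_mem' := fun {a b} ha hb => by
    show σ (a + b) = a + b
    rw [map_add, ha, hb]
  zero_mem' := map_zero σ
  neg_mem' := fun {a} ha => by
    show σ (-a) = -a
    rw [map_neg, ha]

theorem mem_fixedRing {σ : B ≃+* B} {b : B} : b ∈ fixedRing σ ↔ σ b = b := Iff.rfl

variable (σ : B ≃+* B) (n : ℕ) [NeZero n] (ψ : ZMod n → B)

/-- `Φ(w) = ∑ w_k ψ_k`. -/
def Phi : (ZMod n → fixedRing σ) →+ B where
  toFun w := ∑ k, (w k : B) * ψ k
  map_zero' := by simp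
  map_add' w w' := by
    simp only [Pi.add_apply, Subring.coe_add, add_mul, Finset.sum_add_distrib]

theorem Phi_apply (w : ZMod n → fixedRing σ) : Phi σ n ψ w = ∑ k, (w k : B) * ψ k := rfl

variable {σ n ψ}

theorem map_Phi (hψ : ∀ k, σ (ψ k) = ψ (k + 1)) (w : ZMod n → fixedRing σ) :
    σ (Phi σ n ψ w) = Phi σ n ψ (shift n w) := by
  rw [Phi_apply, Phi_apply, map_sum]
  refine Fintype.sum_equiv (Equiv.addRight 1) _ _ fun k => ?_
  rw [map_mul, hψ, (w k).2]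
  simp

theorem iterate_Phi (hψ : ∀ k, σ (ψ k) = ψ (k + 1)) (j : ℕ) (w : ZMod n → fixedRing σ) :
    (⇑σ)^[j] (Phi σ n ψ w) = Phi σ n ψ (((shift n : AddMonoid.End (ZMod n → fixedRing σ)) ^ j) w) := by
  induction j with
  | zero => rfl
  | succ j ih =>
    rw [Function.iterate_succ_apply', ih, map_Phi hψ, pow_succ']
    rfl

theorem trace_Phi (hψ : ∀ k, σ (ψ k) = ψ (k + 1)) (w : ZMod n → fixedRing σ) :
    ∑ j ∈ range n, (⇑σ)^[j] (Phi σ n ψ w) = Phi σ n ψ (normOp (shift n) n w) := by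
  rw [normOp_apply, map_sum]
  exact Finset.sum_congr rfl fun j _ => iterate_Phi hψ j w

theorem mul_Phi (c : fixedRing σ) (w : ZMod n → fixedRing σ) :
    (c : B) * Phi σ n ψ w = Phi σ n ψ (c • w) := by
  rw [Phi_apply, Phi_apply, Finset.mul_sum]
  refine Finset.sum_congr rfl fun k _ => ?_
  simp [mul_assoc]

variable (σ n ψ)

/-- the lattice `M = ∑ A₀ ψ_k`. -/
def lattice : AddSubgroup B := (Phi σ n ψ).range

/-- the stable lattice attached to a normal basis -/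
def stableLattice (π : B) (hσπ : σ π = π) (hψ : ∀ k, σ (ψ k) = ψ (k + 1)) (a : ℕ)
    (habs : ∀ b : B, π ^ a * b ∈ lattice σ n ψ) : StableLattice B π σ where
  M := lattice σ n ψ
  a := a
  stable := by
    rintro _ ⟨w, rfl⟩
    exact ⟨shift n w, (map_Phi hψ w).symm⟩
  pi_mem := by
    rintro _ ⟨w, rfl⟩
    exact ⟨(⟨π, hσπ⟩ : fixedRing σ) • w, (mul_Phi ⟨π, hσπ⟩ w).symm⟩
  absorb := habs

variable {σ n ψ}

theorem stableLattice_R0 (π : B) (hσπ : σ π = π) (hψ : ∀ k, σ (ψ k) = ψ (k + 1)) (a : ℕ)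
    (habs : ∀ b : B, π ^ a * b ∈ lattice σ n ψ) (hinj : Function.Injective (Phi σ n ψ)) :
    (stableLattice σ n ψ π hσπ hψ a habs).R0 n := by
  rintro _ ⟨w, rfl⟩ hx
  rw [map_Phi hψ] at hx
  obtain ⟨v, hv⟩ := regular_exists_norm_eq n w (hinj hx)
  refine ⟨Phi σ n ψ v, ⟨v, rfl⟩, 0, (lattice σ n ψ).zero_mem, ?_⟩
  rw [trace_Phi hψ, hv]
  simp

theorem stableLattice_R1 (π : B) (hσπ : σ π = π) (hψ : ∀ k, σ (ψ k) = ψ (k + 1)) (a : ℕ)
    (habs : ∀ b : B, π ^ a * b ∈ lattice σ n ψ) (hinj : Function.Injective (Phi σ n ψ)) :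
    (stableLattice σ n ψ π hσπ hψ a habs).R1 n := by
  classical
  rintro _ ⟨w, rfl⟩ ⟨_, ⟨w', rfl⟩, hTr⟩
  set π' : fixedRing σ := ⟨π, hσπ⟩ with hπ'
  rw [trace_Phi hψ, show π * Phi σ n ψ w' = (π' : B) * Phi σ n ψ w' from rfl, mul_Phi] at hTr
  have h1 := hinj hTr
  -- `∑ w_i = π w'_0`
  have h2 : ∑ i, w i = π' * w' 0 := by
    have := congrFun h1 0
    rw [normOp_shift_apply] at this
    simpa using this
  set w'' : ZMod n → fixedRing σ := w - Pi.single 0 (π' * w' 0) with hw''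
  have h3 : normOp (shift n) n w'' = 0 := by
    ext k
    rw [normOp_shift_apply, hw'']
    simp only [Pi.sub_apply, Finset.sum_sub_distrib, Finset.sum_pi_single', Finset.mem_univ,
      if_true, h2, sub_self, Pi.zero_apply]
  obtain ⟨v, hv⟩ := regular_exists_sub_eq n w'' h3
  refine ⟨Phi σ n ψ v, ⟨v, rfl⟩, Phi σ n ψ (Pi.single 0 (w' 0)), ⟨_, rfl⟩, ?_⟩
  rw [map_Phi hψ, ← map_sub, hv, ← map_sub, hw'', sub_sub_cancel,
    show π * Phi σ n ψ (Pi.single 0 (w' 0)) = (π' : B) * Phi σ n ψ (Pi.single 0 (w' 0)) from rfl,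
    mul_Phi]
  congr 1
  ext k
  by_cases hk : k = 0
  · subst hk; simp
  · simp [hk]

/-- **Main theorem** (abstract form): the unit group of a `π`-adically complete ring with a cyclic
action admitting a normal-basis lattice contains a stable subgroup `V`, containing the principal
units of level `2a + 1`, with `Ĥ⁰(V) = Ĥ⁻¹(V) = 1`. -/
theorem exists_cohomologically_trivial_subgroup (π : B) (h : PiAdic B π) (hσπ : σ π = π)
    (hσn : ∀ x : B, (⇑σ)^[n] x = x) (hψ : ∀ k, σ (ψ k) = ψ (k + 1)) (a : ℕ)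
    (habs : ∀ b : B, π ^ a * b ∈ lattice σ n ψ) (hinj : Function.Injective (Phi σ n ψ)) :
    ∃ V : Subgroup Bˣ, (∀ u ∈ V, unitsEnd σ u ∈ V) ∧
      (∀ u : Bˣ, π ^ (2 * a + 1) ∣ (u : B) - 1 → u ∈ V) ∧
      (∀ u ∈ V, unitsEnd σ u = u → ∃ y ∈ V, mulNorm (unitsEnd σ) n y = u) ∧
      (∀ u ∈ V, mulNorm (unitsEnd σ) n u = 1 → ∃ y ∈ V, unitsEnd σ y / y = u) := by
  set Λ := stableLattice σ n ψ π hσπ hψ a habs with hΛ
  refine ⟨Λ.F 0, Λ.map_mem_F hσπ 0, ?_, ?_, ?_⟩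
  · intro u hu
    refine Λ.mem_V_of_dvd (k := a + 1 + 0) (by show a ≤ a + 1 + 0; omega) ?_
    have : a + 1 + 0 + Λ.a = 2 * a + 1 := by show a + 1 + 0 + a = 2 * a + 1; omega
    rw [this]
    exact hu
  · exact Λ.exists_norm_eq h hσπ n hσn (stableLattice_R0 π hσπ hψ a habs hinj)
  · exact Λ.exists_div_eq h hσπ n hσn (stableLattice_R1 π hσπ hψ a habs hinj)

end Fermat.Agent.PT.LOC.NormalLattice10
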