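/-
Program F (S55), chapter LOC (helper10): the ring of integers `𝒪' = intRing q E'` of a cyclic
extension `E'/E` of `q`-adic fields: `q`-adic completeness in the `PiAdic` form, the action of the
Galois group, the normal-basis lattice, and the resulting cohomologically trivial subgroup of
finite index of `𝒪'ˣ`.
-/
import Mathlib
import Fermat.Agent.PT.LOC.Interface12
import Fermat.Agent.PT.LOC.Structure14
import Fermat.Agent.PT.LOC.StructureTower27
import Fermat.Agent.PT.LOC.NormalLattice10

set_option autoImplicit false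
set_option linter.unusedSectionVars false

open scoped Fermat.Agent.PT.LOC.Interface12
open Fermat.Agent.PT.LOC.Interface12 Fermat.Agent.PT.LOC.Structure14
  Fermat.Agent.PT.LOC.StructureTower27 Fermat.Agent.PT.LOC.UnitFiltration10
  Fermat.Agent.PT.LOC.NormalLattice10

namespace Fermat.Agent.PT.LOC.IntRingCyclic10

noncomputable section

section Complete

variable (q : ℕ) [Fact q.Prime] (E' : Type) [Field E'] [Algebra ℚ_[q] E']
  [FiniteDimensional ℚ_[q] E']

theorem cauchy_dvd_sub {R : Type*} [CommRing R] {π : R} {f : ℕ → R}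
    (hf : ∀ k, π ^ k ∣ f (k + 1) - f k) {k j : ℕ} (hkj : k ≤ j) : π ^ k ∣ f j - f k := by
  induction hkj with
  | refl => simp
  | step hkm ih =>
    rename_i m
    have h1 : π ^ k ∣ f (m + 1) - f m := (pow_dvd_pow π hkm).trans (hf m)
    have : f (m + 1) - f k = (f (m + 1) - f m) + (f m - f k) := by ring
    rw [this]
    exact dvd_add h1 ih

theorem natCast_q_ne_zero : ((q : ℕ) : intRing q E') ≠ 0 := by
  have : CharZero E' := charZero_of_injective_algebraMap (algebraMap ℚ_[q] E').injective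
  intro h
  have h1 := congrArg (fun z : intRing q E' => (z : E')) h
  simp only [SubringClass.coe_natCast, ZeroMemClass.coe_zero] at h1
  exact (Fact.out : q.Prime).ne_zero (by exact_mod_cast h1)

/-- `𝔪^(e k) ⊆ (q^k)` where `q = unit · ϖ^e`. -/
theorem exists_pow_le_span : ∃ e : ℕ, ∀ k : ℕ,
    IsLocalRing.maximalIdeal (intRing q E') ^ (e * k) ≤
      Ideal.span {((q : ℕ) : intRing q E') ^ k} := by
  obtain ⟨ϖ, hϖ⟩ := IsDiscreteValuationRing.exists_irreducible (intRing q E')
  obtain ⟨e, u, hu⟩ := IsDiscreteValuationRing.eq_unit_mul_pow_irreducible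
    (natCast_q_ne_zero q E') hϖ
  refine ⟨e, fun k => ?_⟩
  rw [hϖ.maximalIdeal_eq, Ideal.span_singleton_pow, Ideal.span_singleton_le_span_singleton]
  refine ⟨((u⁻¹ : (intRing q E')ˣ) : intRing q E') ^ k, ?_⟩
  rw [hu, mul_pow, ← pow_mul, mul_comm ((u : intRing q E') ^ k), mul_assoc, ← mul_pow,
    Units.mul_inv, one_pow, mul_one]

theorem natCast_q_pow_mem (k : ℕ) :
    ((q : ℕ) : intRing q E') ^ k ∈ maxId q E' ^ k :=
  Ideal.pow_mem_pow (natCast_mem_maxId q E') k

/-- `𝒪'` is `q`-adically separated and complete, `q` is a non-zero-divisor. -/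
theorem piAdic : PiAdic (intRing q E') ((q : ℕ) : intRing q E') where
  nzd := fun x hx => by
    rcases mul_eq_zero.mp hx with h | h
    · exact absurd h (natCast_q_ne_zero q E')
    · exact h
  sep := fun x hx => by
    apply eq_zero_of_forall_mem_pow q E'
    intro k
    obtain ⟨c, rfl⟩ := hx k
    exact Ideal.mul_mem_right _ _ (natCast_q_pow_mem q E' k)
  complete := fun f hf => by
    obtain ⟨e, he⟩ := exists_pow_le_span q E'
    obtain ⟨s, hs⟩ := exists_sum_of_mem_pow q E' (fun i => f (i + 1) - f i) (fun i => by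
      obtain ⟨c, hc⟩ := hf i
      rw [hc]
      exact Ideal.mul_mem_right _ _ (natCast_q_pow_mem q E' i))
    have hsum : ∀ k, ∑ i ∈ Finset.range k, (f (i + 1) - f i) = f k - f 0 :=
      fun k => Finset.sum_range_sub f k
    refine ⟨s + f 0, fun k => ?_⟩
    have h1 := hs (e * k + k)
    rw [hsum, maxId_eq_maximalIdeal] at h1
    have h2 : s - (f (e * k + k) - f 0) ∈ Ideal.span {((q : ℕ) : intRing q E') ^ k} :=
      he k (Ideal.pow_le_pow_right (Nat.le_add_right _ _) h1)
    rw [Ideal.mem_span_singleton] at h2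
    have h3 : ((q : ℕ) : intRing q E') ^ k ∣ f (e * k + k) - f k :=
      cauchy_dvd_sub hf (Nat.le_add_left k (e * k))
    have h4 : s + f 0 - f k = (s - (f (e * k + k) - f 0)) + (f (e * k + k) - f k) := by ring
    rw [h4]
    exact dvd_add h2 h3

end Complete

section Galois

variable (q : ℕ) [Fact q.Prime] {E E' : Type} [Field E] [Field E'] [Algebra ℚ_[q] E]
  [Algebra ℚ_[q] E'] [Algebra E E'] [IsScalarTower ℚ_[q] E E']

/-- the automorphism of `𝒪'` induced by `σ ∈ Gal(E'/E)`. -/
def intAut (σ : E' ≃ₐ[E] E') : intRing q E' ≃+* intRing q E' :=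
  ((σ.restrictScalars ℤ_[q]).mapIntegralClosure).toRingEquiv

theorem coe_intAut (σ : E' ≃ₐ[E] E') (x : intRing q E') :
    ((intAut q σ x : intRing q E') : E') = σ (x : E') := rfl

theorem intAut_mul (σ τ : E' ≃ₐ[E] E') (x : intRing q E') :
    intAut q (σ * τ) x = intAut q σ (intAut q τ x) := Subtype.ext rfl

theorem intAut_one (x : intRing q E') : intAut q (1 : E' ≃ₐ[E] E') x = x := Subtype.ext rfl

theorem iterate_intAut (σ : E' ≃ₐ[E] E') (j : ℕ) (x : intRing q E') :
    (⇑(intAut q σ))^[j] x = intAut q (σ ^ j) x := by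
  induction j with
  | zero => rw [Function.iterate_zero, id, pow_zero, intAut_one]
  | succ j ih => rw [Function.iterate_succ_apply', ih, pow_succ', intAut_mul]

theorem intAut_algebraMap (σ : E' ≃ₐ[E] E') (r : ℤ_[q]) :
    intAut q σ (algebraMap ℤ_[q] (intRing q E') r) = algebraMap ℤ_[q] (intRing q E') r :=
  ((σ.restrictScalars ℤ_[q]).mapIntegralClosure).commutes r

theorem intAut_natCast (σ : E' ≃ₐ[E] E') (m : ℕ) :
    intAut q σ (m : intRing q E') = (m : intRing q E') := map_natCast _ m

theorem iterate_orderOf (σ : E' ≃ₐ[E] E') (x : intRing q E') :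
    (⇑(intAut q σ))^[orderOf σ] x = x := by
  rw [iterate_intAut, pow_orderOf_eq_one, intAut_one]

end Galois

section Cyc

variable {G : Type*} [Group G] [Finite G] (σ : G)

instance neZero_orderOf : NeZero (orderOf σ) := ⟨(orderOf_pos σ).ne'⟩

theorem pow_val_add_one (k : ZMod (orderOf σ)) : σ ^ (k + 1).val = σ * σ ^ k.val := by
  rw [ZMod.val_add, ZMod.val_one_eq_one_mod, Nat.add_mod_mod, pow_mod_orderOf, pow_succ']

theorem pow_val_injective : Function.Injective (fun k : ZMod (orderOf σ) => σ ^ k.val) := by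
  intro a b hab
  exact ZMod.val_injective _ (pow_injOn_Iio_orderOf (ZMod.val_lt a) (ZMod.val_lt b) hab)

theorem pow_val_bijective (hσ : ∀ τ, τ ∈ Subgroup.zpowers σ) :
    Function.Bijective (fun k : ZMod (orderOf σ) => σ ^ k.val) := by
  refine (pow_val_injective σ).bijective_of_nat_card_le ?_
  rw [Nat.card_zmod, orderOf_eq_card_of_forall_mem_zpowers hσ]

end Cyc

section NormalBasis

variable (q : ℕ) [Fact q.Prime] (E E' : Type) [Field E] [Field E'] [Algebra ℚ_[q] E]
  [Algebra ℚ_[q] E'] [Algebra E E'] [IsScalarTower ℚ_[q] E E'] [FiniteDimensional ℚ_[q] E']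
  [IsGalois E E']

theorem isAlgebraic_int : Algebra.IsAlgebraic ℤ_[q] E' := by
  have := IsLocalization.isAlgebraic ℚ_[q] (nonZeroDivisors ℤ_[q])
  exact Algebra.IsAlgebraic.trans ℤ_[q] ℚ_[q] E'

theorem algEquiv_smul_int (τ : E' ≃ₐ[E] E') (y : ℤ_[q]) (x : E') : τ (y • x) = y • τ x := by
  rw [Algebra.smul_def, Algebra.smul_def, map_mul, IsScalarTower.algebraMap_apply ℤ_[q] E E',
    τ.commutes]

/-- an integral normal basis generator -/
theorem exists_integral_normal_generator :
    ∃ θ : intRing q E', LinearIndependent E (fun τ : E' ≃ₐ[E] E' => τ (θ : E')) := by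
  have : FiniteDimensional E E' := FiniteDimensional.right ℚ_[q] E E'
  have := isAlgebraic_int q E'
  set θ₀ : E' := IsGalois.normalBasis E E' 1 with hθ₀
  obtain ⟨y, hy0, hy⟩ := (Algebra.IsAlgebraic.isAlgebraic (R := ℤ_[q]) θ₀).exists_integral_multiple
  refine ⟨⟨y • θ₀, hy⟩, ?_⟩
  have hli : LinearIndependent E (IsGalois.normalBasis E E') :=
    (IsGalois.normalBasis E E').linearIndependent
  have hc : algebraMap ℤ_[q] E y ≠ 0 := fun h =>
    hy0 (algebraMap_int_injective q E (by rw [h, map_zero]))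
  have h2 := hli.units_smul (fun _ => Units.mk0 _ hc)
  convert h2 using 1
  ext τ
  show τ (y • θ₀) = algebraMap ℤ_[q] E y • (IsGalois.normalBasis E E') τ
  rw [algEquiv_smul_int, IsGalois.normalBasis_apply, algebraMap_smul]

end NormalBasis

section Lattice

variable (q : ℕ) [Fact q.Prime] {E E' : Type} [Field E] [Field E'] [Algebra ℚ_[q] E]
  [Algebra ℚ_[q] E'] [Algebra E E'] [IsScalarTower ℚ_[q] E E'] [FiniteDimensional ℚ_[q] E']
  [FiniteDimensional E E'] [IsGalois E E'] (σ : E' ≃ₐ[E] E') (θ : intRing q E')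

/-- the normal family `ψ_k = σ^k θ` -/
def psi : ZMod (orderOf σ) → intRing q E' := fun k => intAut q (σ ^ k.val) θ

theorem coe_psi (k : ZMod (orderOf σ)) : ((psi q σ θ k : intRing q E') : E') = (σ ^ k.val) (θ : E') :=
  rfl

theorem psi_succ (k : ZMod (orderOf σ)) : intAut q σ (psi q σ θ k) = psi q σ θ (k + 1) := by
  unfold psi
  rw [← intAut_mul, pow_val_add_one]

variable {σ} (hσ : ∀ τ, τ ∈ Subgroup.zpowers σ)

include hσ

theorem exists_of_fixed (c : intRing q E') (hc : intAut q σ c = c) :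
    ∃ a : E, algebraMap E E' a = (c : E') := by
  have h1 : σ (c : E') = c := congrArg Subtype.val hc
  have h2 : ∀ τ : E' ≃ₐ[E] E', τ (c : E') = c := by
    intro τ
    have hle : Subgroup.zpowers σ ≤ MulAction.stabilizer (E' ≃ₐ[E] E') (c : E') := by
      rw [Subgroup.zpowers_le, MulAction.mem_stabilizer_iff, AlgEquiv.smul_def]
      exact h1
    have := hle (hσ τ)
    rwa [MulAction.mem_stabilizer_iff, AlgEquiv.smul_def] at this
  exact (IsGalois.mem_range_algebraMap_iff_fixed _).mpr h2

theorem coe_Phi (w : ZMod (orderOf σ) → fixedRing (intAut q σ)) :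
    ((Phi (intAut q σ) (orderOf σ) (psi q σ θ) w : intRing q E') : E') =
      ∑ k, ((w k : intRing q E') : E') * (σ ^ k.val) (θ : E') := by
  rw [Phi_apply, AddSubmonoidClass.coe_finsetSum]
  rfl

variable {θ} (hθ : LinearIndependent E (fun τ : E' ≃ₐ[E] E' => τ (θ : E')))

include hθ

theorem Phi_injective : Function.Injective (Phi (intAut q σ) (orderOf σ) (psi q σ θ)) := by
  rw [injective_iff_map_eq_zero]
  intro w hw
  choose a ha using fun k => exists_of_fixed q hσ (w k : intRing q E') (w k).2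
  have h1 : ∑ k, a k • ((σ ^ k.val) (θ : E')) = 0 := by
    have h0 := congrArg (fun z : intRing q E' => (z : E')) hw
    simp only [coe_Phi q θ hσ, ZeroMemClass.coe_zero] at h0
    rw [← h0]
    refine Finset.sum_congr rfl fun k _ => ?_
    rw [Algebra.smul_def, ha]
  have hli : LinearIndependent E (fun k : ZMod (orderOf σ) => (σ ^ k.val) (θ : E')) :=
    hθ.comp _ (pow_val_injective σ)
  have h2 := Fintype.linearIndependent_iff.mp hli a h1
  ext k
  show ((w k : intRing q E') : E') = 0
  rw [← ha k, h2 k, map_zero]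

theorem exists_absorb : ∃ a : ℕ, ∀ b : intRing q E',
    ((q : ℕ) : intRing q E') ^ a * b ∈ lattice (intAut q σ) (orderOf σ) (psi q σ θ) := by
  classical
  set M := lattice (intAut q σ) (orderOf σ) (psi q σ θ) with hM
  have hsmul : ∀ (r : ℤ_[q]) (m : intRing q E'), m ∈ M →
      algebraMap ℤ_[q] (intRing q E') r * m ∈ M := by
    rintro r _ ⟨w, rfl⟩
    exact ⟨(⟨algebraMap ℤ_[q] _ r, intAut_algebraMap q σ r⟩ : fixedRing (intAut q σ)) • w,
      (mul_Phi _ w).symm⟩
  let b' : Module.Basis (E' ≃ₐ[E] E') E E' := basisOfLinearIndependentOfCardEqFinrank hθ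
    (by rw [← Nat.card_eq_fintype_card, IsGalois.card_aut_eq_finrank])
  have hb' : ∀ τ, b' τ = τ (θ : E') := fun τ => by
    simp only [b', coe_basisOfLinearIndependentOfCardEqFinrank]
  obtain ⟨S, hS⟩ := (Module.Finite.fg_top : (⊤ : Submodule ℤ_[q] (intRing q E')).FG)
  let T : Finset E := S.biUnion (fun s => Finset.univ.image (fun τ => b'.repr (s : E') τ))
  have : FiniteDimensional ℚ_[q] E := FiniteDimensional.left ℚ_[q] E E'
  have := isAlgebraic_int q E
  obtain ⟨y, hy0, hy⟩ := Algebra.IsAlgebraic.exists_integral_multiples ℤ_[q] T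
  have hyS : ∀ s ∈ S, algebraMap ℤ_[q] (intRing q E') y * s ∈ M := by
    intro s hs
    have hint : ∀ τ, IsIntegral ℤ_[q] (y • b'.repr (s : E') τ) := fun τ =>
      hy _ (Finset.mem_biUnion.mpr ⟨s, hs, Finset.mem_image.mpr ⟨τ, Finset.mem_univ _, rfl⟩⟩)
    let w : ZMod (orderOf σ) → fixedRing (intAut q σ) := fun k =>
      ⟨⟨algebraMap E E' (y • b'.repr (s : E') (σ ^ k.val)), (hint _).algebraMap⟩,
        Subtype.ext (σ.commutes _)⟩
    have hw : ∀ k, ((w k : intRing q E') : E') =
        algebraMap E E' (y • b'.repr (s : E') (σ ^ k.val)) := fun k => rfl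
    refine ⟨w, ?_⟩
    apply Subtype.ext
    rw [coe_Phi q θ hσ]
    simp only [hw]
    have hrhs : ((algebraMap ℤ_[q] (intRing q E') y * s : intRing q E') : E') =
        y • (s : E') := by
      rw [Algebra.smul_def]
      rfl
    rw [hrhs]
    rw [Fintype.sum_bijective _ (pow_val_bijective σ hσ)
      (fun k => algebraMap E E' (y • b'.repr (s : E') (σ ^ k.val)) * (σ ^ k.val) (θ : E'))
      (fun τ => algebraMap E E' (y • b'.repr (s : E') τ) * τ (θ : E')) (fun k => rfl)]
    conv_rhs => rw [← b'.sum_repr (s : E'), Finset.smul_sum]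
    refine Finset.sum_congr rfl fun τ _ => ?_
    rw [← Algebra.smul_def, smul_assoc, hb']
  have hyB : ∀ b, algebraMap ℤ_[q] (intRing q E') y * b ∈ M := by
    intro b
    have hb : b ∈ Submodule.span ℤ_[q] (S : Set (intRing q E')) := by rw [hS]; trivial
    induction hb using Submodule.span_induction with
    | mem x hx => exact hyS x hx
    | zero => rw [mul_zero]; exact M.zero_mem
    | add x z _ _ hx hz => rw [mul_add]; exact M.add_mem hx hz
    | smul r x _ hx => rw [Algebra.smul_def, mul_left_comm]; exact hsmul r _ hx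
  refine ⟨y.valuation, fun b => ?_⟩
  have hyu := congrArg (algebraMap ℤ_[q] (intRing q E')) (PadicInt.unitCoeff_spec hy0)
  rw [map_mul, map_pow, map_natCast] at hyu
  have h3 : ((q : ℕ) : intRing q E') ^ y.valuation * b =
      algebraMap ℤ_[q] (intRing q E') (((PadicInt.unitCoeff hy0)⁻¹ : ℤ_[q]ˣ) : ℤ_[q]) *
        (algebraMap ℤ_[q] (intRing q E') y * b) := by
    rw [hyu, ← mul_assoc, ← mul_assoc, ← map_mul, Units.inv_mul, map_one, one_mul]
  rw [h3]
  exact hsmul _ _ (hyB b)

end Lattice

section Final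

variable (q : ℕ) [Fact q.Prime] {E E' : Type} [Field E] [Field E'] [Algebra ℚ_[q] E]
  [Algebra ℚ_[q] E'] [Algebra E E'] [IsScalarTower ℚ_[q] E E'] [FiniteDimensional ℚ_[q] E']
  [IsGalois E E']

/-- principal units of high level form a subgroup of finite index -/
theorem finiteIndex_of_principal (V : Subgroup (intRing q E')ˣ) (c : ℕ)
    (hV : ∀ u : (intRing q E')ˣ, ((q : ℕ) : intRing q E') ^ c ∣ (u : intRing q E') - 1 → u ∈ V) :
    V.FiniteIndex := by
  obtain ⟨e, he⟩ := exists_pow_le_span q E'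
  set I : Ideal (intRing q E') := IsLocalRing.maximalIdeal (intRing q E') ^ (e * c) with hI
  have hfin0 : Finite (intRing q E' ⧸ IsLocalRing.maximalIdeal (intRing q E')) := by
    rw [← maxId_eq_maximalIdeal]
    infer_instance
  have hfin : Finite (intRing q E' ⧸ I) :=
    Ideal.finite_quotient_pow (IsNoetherian.noetherian _) _
  let f : (intRing q E')ˣ →* (intRing q E' ⧸ I)ˣ :=
    Units.map (Ideal.Quotient.mk I : intRing q E' →* intRing q E' ⧸ I)
  have hker : f.ker ≤ V := by
    intro u hu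
    apply hV
    rw [MonoidHom.mem_ker] at hu
    have h1 : (Ideal.Quotient.mk I) (u : intRing q E') = 1 := by
      have := congrArg (fun z : (intRing q E' ⧸ I)ˣ => (z : intRing q E' ⧸ I)) hu
      simpa [f] using this
    have h2 : (u : intRing q E') - 1 ∈ I := by
      rw [← Ideal.Quotient.eq_zero_iff_mem, map_sub, h1, map_one, sub_self]
    have h3 := he c h2
    rwa [Ideal.mem_span_singleton] at h3
  exact Subgroup.finiteIndex_of_le hker

/-- **The cohomologically trivial subgroup of finite index of `𝒪'ˣ`** for a cyclic extension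
`E'/E` with generator `σ` (of order `n = orderOf σ`). -/
theorem exists_trivial_subgroup {σ : E' ≃ₐ[E] E'} (hσ : ∀ τ, τ ∈ Subgroup.zpowers σ) :
    ∃ V : Subgroup (intRing q E')ˣ, V.FiniteIndex ∧
      (∀ u ∈ V, unitsEnd (intAut q σ) u ∈ V) ∧
      (∀ u ∈ V, unitsEnd (intAut q σ) u = u →
        ∃ y ∈ V, mulNorm (unitsEnd (intAut q σ)) (orderOf σ) y = u) ∧
      (∀ u ∈ V, mulNorm (unitsEnd (intAut q σ)) (orderOf σ) u = 1 →
        ∃ y ∈ V, unitsEnd (intAut q σ) y / y = u) := by
  have : FiniteDimensional E E' := FiniteDimensional.right ℚ_[q] E E'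
  obtain ⟨θ, hθ⟩ := exists_integral_normal_generator q E E'
  obtain ⟨a, habs⟩ := exists_absorb q hσ hθ
  obtain ⟨V, hV1, hV2, hV3, hV4⟩ := exists_cohomologically_trivial_subgroup
    (σ := intAut q σ) (n := orderOf σ) (ψ := psi q σ θ) ((q : ℕ) : intRing q E') (piAdic q E')
    (intAut_natCast q σ q) (iterate_orderOf q σ) (psi_succ q σ θ) a habs (Phi_injective q hσ hθ)
  exact ⟨V, finiteIndex_of_principal q V (2 * a + 1) hV2, hV1, hV3, hV4⟩

end Final

end

end Fermat.Agent.PT.LOC.IntRingCyclic10
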