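/-
Program F (S55, Poitou–Tate), chapter LOC — helper27.  (UC-b)(I): instantiation of helper10's
normal-basis lattice (`NormalLattice10`, `IntRingCyclic10`) in helper14's shape
`LocalHerbrand14.UnitsCohTrivStatement q`:

for every automorphism `τ` of a `q`-adic field `E` the units of `E` contain a `τ`-stable open
subgroup `V` with trivial `Ĥ⁰` and `Ĥ⁻¹` for the cyclic group generated by `τ`.

* `exists_trivial_subgroup_principal`: helper10's `exists_trivial_subgroup` keeping the clause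
  "principal units of level `c` lie in `V`";
* `unitsIncl : (intRing q E)ˣ →* Eˣ`, its range is `unitGroup q E`;
* `fixedFld τ`, `genAut τ : E ≃ₐ[fixedFld τ] E`;
* `unitsCohTriv : UnitsCohTrivStatement q`, `localHerbrand : LocalHerbrand q p`.
-/
import Mathlib
import Fermat.Agent.PT.LOC.LocalHerbrand14
import Fermat.Agent.PT.LOC.IntRingCyclic10

set_option autoImplicit false
set_option linter.unusedSectionVars false

namespace Fermat.Agent.PT.LOC.UnitsCohTriv27

open scoped Fermat.Agent.PT.LOC.Interface12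
open Fermat.Agent.PT.LOC.Interface12 Fermat.Agent.PT.LOC.Structure14
  Fermat.Agent.PT.LOC.StructureNorm14 Fermat.Agent.PT.LOC.RootsUnity14
  Fermat.Agent.PT.LOC.StructureTower27 Fermat.Agent.PT.LOC.UnitFiltration10
  Fermat.Agent.PT.LOC.NormalLattice10 Fermat.Agent.PT.LOC.IntRingCyclic10
  Fermat.Agent.PT.LOC.LocalHerbrand14
open Fermat.Agent.PT.GLOB

noncomputable section

/-! ### helper10's subgroup, keeping the principal units clause -/

section Principal

variable (q : ℕ) [Fact q.Prime] {E E' : Type} [Field E] [Field E'] [Algebra ℚ_[q] E]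
  [Algebra ℚ_[q] E'] [Algebra E E'] [IsScalarTower ℚ_[q] E E'] [FiniteDimensional ℚ_[q] E']
  [IsGalois E E']

/-- helper10's cohomologically trivial subgroup of `𝒪'ˣ` contains the principal units of some
level `c` (with respect to `q`). -/
theorem exists_trivial_subgroup_principal {σ : E' ≃ₐ[E] E'}
    (hσ : ∀ τ, τ ∈ Subgroup.zpowers σ) :
    ∃ (c : ℕ) (V : Subgroup (intRing q E')ˣ),
      (∀ u : (intRing q E')ˣ, ((q : ℕ) : intRing q E') ^ c ∣ (u : intRing q E') - 1 → u ∈ V) ∧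
      (∀ u ∈ V, unitsEnd (intAut q σ) u ∈ V) ∧
      (∀ u ∈ V, unitsEnd (intAut q σ) u = u →
        ∃ y ∈ V, mulNorm (unitsEnd (intAut q σ)) (orderOf σ) y = u) ∧
      (∀ u ∈ V, mulNorm (unitsEnd (intAut q σ)) (orderOf σ) u = 1 →
        ∃ y ∈ V, unitsEnd (intAut q σ) y / y = u) := by
  have : FiniteDimensional E E' := FiniteDimensional.right ℚ_[q] E E'
  obtain ⟨θ, hθ⟩ := exists_integral_normal_generator q E E'
  obtain ⟨a, habs⟩ := exists_absorb q hσ hθ
  obtain ⟨V, hV1, hV2, hV3, hV4⟩ := exists_cohomologically_trivial_subgroup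
    (σ := intAut q σ) (n := orderOf σ) (ψ := psi q σ θ) ((q : ℕ) : intRing q E') (piAdic q E')
    (intAut_natCast q σ q) (iterate_orderOf q σ) (psi_succ q σ θ) a habs (Phi_injective q hσ hθ)
  exact ⟨2 * a + 1, V, hV2, hV1, hV3, hV4⟩

end Principal

/-! ### Units of the ring of integers inside `Eˣ` -/

section Incl

variable (q : ℕ) [Fact q.Prime] (E : Type) [Field E] [Algebra ℚ_[q] E]

/-- `𝒪ˣ → Eˣ`. -/
def unitsIncl : (intRing q E)ˣ →* Eˣ := Units.map ((intRing q E).val : intRing q E →* E)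

theorem coe_unitsIncl (u : (intRing q E)ˣ) :
    ((unitsIncl q E u : Eˣ) : E) = ((u : intRing q E) : E) := rfl

theorem unitsIncl_injective : Function.Injective (unitsIncl q E) := by
  intro u v h
  apply Units.ext
  apply Subtype.ext
  have := congrArg (fun z : Eˣ => (z : E)) h
  exact this

theorem unitsIncl_mem_unitGroup (u : (intRing q E)ˣ) : unitsIncl q E u ∈ unitGroup q E := by
  refine ⟨(u : intRing q E).2, ?_⟩
  rw [← map_inv]
  exact ((u⁻¹ : (intRing q E)ˣ) : intRing q E).2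

theorem exists_unitsIncl_eq {u : Eˣ} (hu : u ∈ unitGroup q E) :
    ∃ u' : (intRing q E)ˣ, unitsIncl q E u' = u := by
  refine ⟨⟨⟨(u : E), hu.1⟩, ⟨((u⁻¹ : Eˣ) : E), hu.2⟩, ?_, ?_⟩, ?_⟩
  · apply Subtype.ext
    show (u : E) * ((u⁻¹ : Eˣ) : E) = 1
    rw [← Units.val_mul, mul_inv_cancel, Units.val_one]
  · apply Subtype.ext
    show ((u⁻¹ : Eˣ) : E) * (u : E) = 1
    rw [← Units.val_mul, inv_mul_cancel, Units.val_one]
  · apply Units.ext
    rfl

end Incl

/-! ### The fixed field of `τ` -/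

section Fixed

variable (q : ℕ) [Fact q.Prime] {E : Type} [Field E] [Algebra ℚ_[q] E]
  [FiniteDimensional ℚ_[q] E] (τ : E ≃ₐ[ℚ_[q]] E)

/-- the fixed field of `τ` -/
abbrev fixedFld : IntermediateField ℚ_[q] E := IntermediateField.fixedField (Subgroup.zpowers τ)

instance isGalois_fixedFld : IsGalois (fixedFld q τ) E :=
  IsGalois.of_fixed_field E (Subgroup.zpowers τ)

/-- `τ` as an automorphism over its fixed field -/
def genAut : E ≃ₐ[fixedFld q τ] E :=
  IntermediateField.subgroupEquivAlgEquiv (Subgroup.zpowers τ) ⟨τ, Subgroup.mem_zpowers τ⟩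

theorem genAut_apply (x : E) : genAut q τ x = τ x := rfl

theorem mem_zpowers_genAut (ρ : E ≃ₐ[fixedFld q τ] E) : ρ ∈ Subgroup.zpowers (genAut q τ) := by
  obtain ⟨⟨ρ₀, hρ₀⟩, rfl⟩ :=
    (IntermediateField.subgroupEquivAlgEquiv (Subgroup.zpowers τ)).surjective ρ
  obtain ⟨k, rfl⟩ := Subgroup.mem_zpowers_iff.1 hρ₀
  refine Subgroup.mem_zpowers_iff.2 ⟨k, ?_⟩
  unfold genAut
  rw [← map_zpow]
  congr 1

theorem orderOf_genAut : orderOf (genAut q τ) = orderOf τ := by
  unfold genAut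
  rw [MulEquiv.orderOf_eq, Subgroup.orderOf_mk]

end Fixed

/-! ### Transport to `Eˣ` -/

section Main

variable (q : ℕ) [Fact q.Prime] (E : Type) [Field E] [Algebra ℚ_[q] E]
  [FiniteDimensional ℚ_[q] E] (τ : E ≃ₐ[ℚ_[q]] E)

theorem tauU_unitsIncl (u : (intRing q E)ˣ) :
    tauU q E τ (unitsIncl q E u) = unitsIncl q E (unitsEnd (intAut q (genAut q τ)) u) := by
  apply Units.ext
  rfl

theorem tauU_iterate_unitsIncl (j : ℕ) (u : (intRing q E)ˣ) :
    (tauU q E τ)^[j] (unitsIncl q E u) =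
      unitsIncl q E (((unitsEnd (intAut q (genAut q τ))) ^ j) u) := by
  induction j with
  | zero => rfl
  | succ j ih =>
    rw [Function.iterate_succ_apply', ih, tauU_unitsIncl, pow_succ']
    rfl

theorem normHom_unitsIncl (n : ℕ) (u : (intRing q E)ˣ) :
    HerbrandGroup24.normHom (tauU q E τ) n (unitsIncl q E u) =
      unitsIncl q E (mulNorm (unitsEnd (intAut q (genAut q τ))) n u) := by
  rw [HerbrandGroup24.normHom_apply, mulNorm, map_prod]
  exact Finset.prod_congr rfl fun j _ => tauU_iterate_unitsIncl q E τ j u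

/-- principal units of level `c` (for the norm) are principal units of level `c` (for `q`). -/
theorem dvd_sub_one_of_snorm_le (c : ℕ) (u : (intRing q E)ˣ)
    (h : snorm q E (((u : intRing q E) : E) - 1) ≤ ((q : ℝ)⁻¹) ^ c) :
    ((q : ℕ) : intRing q E) ^ c ∣ (u : intRing q E) - 1 := by
  have hq0 : (q : E) ≠ 0 := by
    intro h0
    have h1 := snorm_natCast_q q E
    rw [h0, snorm_zero] at h1
    have hq : (0 : ℝ) < (q : ℝ)⁻¹ := inv_pos.2 (by exact_mod_cast (Fact.out : q.Prime).pos)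
    exact hq.ne h1
  have hqpos : (0 : ℝ) < ((q : ℝ)⁻¹) ^ c :=
    pow_pos (inv_pos.2 (by exact_mod_cast (Fact.out : q.Prime).pos)) c
  set d : E := (((u : intRing q E) : E) - 1) * ((q : E) ^ c)⁻¹ with hd
  have hdmem : d ∈ intRing q E := by
    rw [mem_intRing_iff, hd]
    show snorm q E _ ≤ 1
    rw [snorm_mul, snorm_inv, snorm_pow, snorm_natCast_q, ← div_eq_mul_inv]
    exact (div_le_one hqpos).2 h
  refine ⟨⟨d, hdmem⟩, ?_⟩
  apply Subtype.ext
  show ((u : intRing q E) : E) - 1 = (q : E) ^ c * d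
  rw [hd, mul_comm, mul_assoc, inv_mul_cancel₀ (pow_ne_zero c hq0), mul_one]

/-- **(UC-b)(I)**: the units of a `q`-adic field contain a `τ`-stable open subgroup with trivial
`Ĥ⁰` and `Ĥ⁻¹` for the cyclic group generated by `τ`. -/
theorem exists_cohTrivSubgroup :
    ∃ V : Subgroup Eˣ, CohTrivSubgroup q E τ (orderOf τ) V := by
  obtain ⟨c, V', hV2, hV1, hV3, hV4⟩ :=
    exists_trivial_subgroup_principal q (E := fixedFld q τ) (E' := E) (σ := genAut q τ)
      (mem_zpowers_genAut q τ)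
  rw [orderOf_genAut] at hV3 hV4
  refine ⟨V'.map (unitsIncl q E), ?_, ?_, ?_, ?_, ?_⟩
  · rintro _ ⟨u', _, rfl⟩
    exact unitsIncl_mem_unitGroup q E u'
  · rintro _ ⟨u', hu', rfl⟩
    rw [tauU_unitsIncl]
    exact ⟨_, hV1 u' hu', rfl⟩
  · refine ⟨((q : ℝ)⁻¹) ^ c,
      pow_pos (inv_pos.2 (by exact_mod_cast (Fact.out : q.Prime).pos)) c, fun u hu hle => ?_⟩
    obtain ⟨u', rfl⟩ := exists_unitsIncl_eq q E hu
    exact ⟨u', hV2 u' (dvd_sub_one_of_snorm_le q E c u' hle), rfl⟩
  · rintro _ ⟨u', hu', rfl⟩ hfix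
    rw [tauU_unitsIncl] at hfix
    obtain ⟨y', hy', hy⟩ := hV3 u' hu' (unitsIncl_injective q E hfix)
    exact ⟨unitsIncl q E y', ⟨y', hy', rfl⟩, by rw [normHom_unitsIncl, hy]⟩
  · rintro _ ⟨u', hu', rfl⟩ hN
    rw [normHom_unitsIncl, ← map_one (unitsIncl q E)] at hN
    obtain ⟨y', hy', hy⟩ := hV4 u' hu' (unitsIncl_injective q E hN)
    refine ⟨unitsIncl q E y', ⟨y', hy', rfl⟩, ?_⟩
    rw [HerbrandGroup24.divHom_apply, tauU_unitsIncl, ← map_div, hy]

end Main

/-- **(UC-b)(I)** in helper14's shape. -/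
theorem unitsCohTriv (q : ℕ) [Fact q.Prime] : UnitsCohTrivStatement q :=
  fun E _ _ _ τ => exists_cohTrivSubgroup q E τ

/-- The local Herbrand quotient in GLOB's shape, unconditionally. -/
theorem localHerbrand (q : ℕ) [Fact q.Prime] (p : ℕ) : LocalHerbrand q p :=
  localHerbrand_of q (unitsCohTriv q) p

end
end Fermat.Agent.PT.LOC.UnitsCohTriv27
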