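/-
Program F (S55), chapter LOC, helper12: explicit 2-cocycles of a finite cyclic group.

For a finite cyclic group `G = ⟨g⟩` of order `n`, `A : Rep ℤ G` and `a : A` fixed by `g`, the
"cyclic algebra" cocycle `cyc g a (g^i, g^j) = a` if `i + j ≥ n` and `0` otherwise (`0 ≤ i, j < n`).
Its class `kappa g a ∈ H²(G, A)` is additive in `a` and vanishes iff `a` is a norm.
Functoriality: pull-back to a subgroup, inflation from a quotient.
-/
import Mathlib

set_option autoImplicit false
set_option linter.unusedSectionVars false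

open CategoryTheory groupCohomology

namespace Fermat.Agent.PT.LOC.CyclicH2_12

noncomputable section

section Idx

variable {G : Type} [Group G] [Finite G] (g : G) (hg : ∀ x : G, x ∈ Subgroup.zpowers g)

include hg in
theorem exists_pow_eq (x : G) : ∃ i : ℕ, g ^ i = x := by
  obtain ⟨k, hk⟩ := Subgroup.mem_zpowers_iff.mp (hg x)
  have hpos : 0 < orderOf g := orderOf_pos g
  refine ⟨(k % (orderOf g : ℤ)).toNat, ?_⟩
  rw [← zpow_natCast, Int.toNat_of_nonneg (Int.emod_nonneg _ (by exact_mod_cast hpos.ne')),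
    zpow_mod_orderOf, hk]

open Classical in
/-- The exponent `0 ≤ i < n` with `g ^ i = x`. -/
def idx (x : G) : ℕ := Nat.find (exists_pow_eq g hg x)

theorem pow_idx (x : G) : g ^ idx g hg x = x := by
  classical
  exact Nat.find_spec (exists_pow_eq g hg x)

theorem idx_lt (x : G) : idx g hg x < orderOf g := by
  classical
  by_contra h
  push Not at h
  have h1 : g ^ (idx g hg x % orderOf g) = x := by rw [pow_mod_orderOf, pow_idx]
  have h2 := Nat.find_min' (exists_pow_eq g hg x) h1
  have h3 : idx g hg x % orderOf g < orderOf g := Nat.mod_lt _ (orderOf_pos g)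
  unfold idx at h
  omega

theorem idx_pow (i : ℕ) : idx g hg (g ^ i) = i % orderOf g := by
  have h1 : g ^ idx g hg (g ^ i) = g ^ (i % orderOf g) := by rw [pow_idx, pow_mod_orderOf]
  exact pow_injOn_Iio_orderOf (idx_lt g hg _) (Nat.mod_lt _ (orderOf_pos g)) h1

theorem idx_mul (x y : G) :
    idx g hg (x * y) = (idx g hg x + idx g hg y) % orderOf g := by
  conv_lhs => rw [← pow_idx g hg x, ← pow_idx g hg y, ← pow_add]
  exact idx_pow g hg _

theorem idx_one : idx g hg 1 = 0 := by
  have := idx_pow g hg 0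
  simpa using this

theorem idx_of_lt {i : ℕ} (hi : i < orderOf g) : idx g hg (g ^ i) = i := by
  rw [idx_pow, Nat.mod_eq_of_lt hi]

include hg in
theorem orderOf_eq_card : orderOf g = Nat.card G := by
  rw [← Nat.card_zpowers]
  have : Subgroup.zpowers g = ⊤ := by ext x; simpa using hg x
  rw [this, Nat.card_congr Subgroup.topEquiv.toEquiv]

/-- The integer-valued "carry" cocycle. -/
def carry (x y : G) : ℤ := if idx g hg x + idx g hg y < orderOf g then 0 else 1

theorem carry_cocycle (x y z : G) :
    carry g hg (x * y) z + carry g hg x y = carry g hg y z + carry g hg x (y * z) := by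
  unfold carry
  rw [idx_mul, idx_mul]
  have hi := idx_lt g hg x
  have hj := idx_lt g hg y
  have hk := idx_lt g hg z
  set n := orderOf g
  set i := idx g hg x
  set j := idx g hg y
  set k := idx g hg z
  have hn : 0 < n := orderOf_pos g
  have h1 : (i + j) % n = if i + j < n then i + j else i + j - n := by
    split_ifs with h
    · exact Nat.mod_eq_of_lt h
    · rw [Nat.mod_eq_sub_mod (by omega), Nat.mod_eq_of_lt (by omega)]
  have h2 : (j + k) % n = if j + k < n then j + k else j + k - n := by
    split_ifs with h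
    · exact Nat.mod_eq_of_lt h
    · rw [Nat.mod_eq_sub_mod (by omega), Nat.mod_eq_of_lt (by omega)]
  rw [h1, h2]
  split_ifs <;> omega

end Idx

section Cocycle

theorem sum_shift {M : Type*} [AddCommGroup M] (f : ℕ → M) (n : ℕ) (h : f n = f 0) :
    ∑ k ∈ Finset.range n, f (k + 1) = ∑ k ∈ Finset.range n, f k := by
  have h1 := Finset.sum_range_succ' f n
  have h2 := Finset.sum_range_succ f n
  rw [h] at h2
  exact add_right_cancel (h1.symm.trans h2)

variable {G : Type} [Group G] [Finite G] (g : G) (hg : ∀ x : G, x ∈ Subgroup.zpowers g)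
  {k : Type} [CommRing k] (A : Rep k G)

include hg in
theorem rho_eq_of_fixed {a : A} (ha : A.ρ g a = a) (x : G) : A.ρ x a = a := by
  obtain ⟨i, rfl⟩ := exists_pow_eq g hg x
  induction i with
  | zero => simp
  | succ i ih => rw [pow_succ, map_mul, Module.End.mul_apply, ha, ih]

/-- The cyclic cocycle as a function. -/
def cycFun (a : A) : G × G → A :=
  fun xy => if idx g hg xy.1 + idx g hg xy.2 < orderOf g then 0 else a

theorem cycFun_mem {a : A} (ha : A.ρ g a = a) : cycFun g hg A a ∈ cocycles₂ A := by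
  rw [mem_cocycles₂_iff]
  intro x y z
  simp only [cycFun]
  rw [idx_mul, idx_mul]
  have hi := idx_lt g hg x
  have hj := idx_lt g hg y
  have hk := idx_lt g hg z
  set n := orderOf g
  set i := idx g hg x
  set j := idx g hg y
  set k := idx g hg z
  have h1 : (i + j) % n = if i + j < n then i + j else i + j - n := by
    split_ifs with h
    · exact Nat.mod_eq_of_lt h
    · rw [Nat.mod_eq_sub_mod (by omega), Nat.mod_eq_of_lt (by omega)]
  have h2 : (j + k) % n = if j + k < n then j + k else j + k - n := by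
    split_ifs with h
    · exact Nat.mod_eq_of_lt h
    · rw [Nat.mod_eq_sub_mod (by omega), Nat.mod_eq_of_lt (by omega)]
  rw [h1, h2, apply_ite (A.ρ x), map_zero, rho_eq_of_fixed g hg A ha]
  split_ifs <;> first | (exfalso; omega) | simp

/-- The cyclic cocycle. -/
def cyc {a : A} (ha : A.ρ g a = a) : cocycles₂ A := ⟨cycFun g hg A a, cycFun_mem g hg A ha⟩

theorem cyc_apply {a : A} (ha : A.ρ g a = a) (x y : G) :
    cyc g hg A ha (x, y) = if idx g hg x + idx g hg y < orderOf g then 0 else a := rfl

theorem cyc_pow_pow {a : A} (ha : A.ρ g a = a) {i j : ℕ} (hi : i < orderOf g)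
    (hj : j < orderOf g) :
    cyc g hg A ha (g ^ i, g ^ j) = if i + j < orderOf g then 0 else a := by
  rw [cyc_apply, idx_of_lt g hg hi, idx_of_lt g hg hj]

/-- The class of the cyclic cocycle. -/
def kappa {a : A} (ha : A.ρ g a = a) : H2 A := H2π A (cyc g hg A ha)

theorem kappa_add {a b : A} (ha : A.ρ g a = a) (hb : A.ρ g b = b)
    (hab : A.ρ g (a + b) = a + b) :
    kappa g hg A hab = kappa g hg A ha + kappa g hg A hb := by
  unfold kappa
  rw [← map_add]
  congr 1
  apply cocycles₂_ext
  intro x y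
  change (if _ then 0 else a + b) = (if _ then 0 else a) + (if _ then 0 else b)
  split_ifs <;> simp

theorem kappa_neg {a : A} (ha : A.ρ g a = a) (hna : A.ρ g (-a) = -a) :
    kappa g hg A hna = - kappa g hg A ha := by
  unfold kappa
  rw [← map_neg]
  congr 1
  apply cocycles₂_ext
  intro x y
  change (if _ then 0 else -a) = -(if _ then 0 else a)
  split_ifs <;> simp

theorem kappa_nsmul {a : A} (ha : A.ρ g a = a) (m : ℕ) (hma : A.ρ g (m • a) = m • a) :
    kappa g hg A hma = m • kappa g hg A ha := by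
  unfold kappa
  rw [← map_nsmul]
  congr 1
  apply cocycles₂_ext
  intro x y
  change (if _ then 0 else m • a) = m • (if _ then 0 else a)
  split_ifs <;> simp

/-- The norm `∑_{k < n} g^k b`. -/
def nrm (b : A) : A := ∑ k ∈ Finset.range (orderOf g), A.ρ (g ^ k) b

theorem rho_nrm (b : A) : A.ρ g (nrm g A b) = nrm g A b := by
  unfold nrm
  rw [map_sum]
  have h : ∀ k ∈ Finset.range (orderOf g), A.ρ g (A.ρ (g ^ k) b) = A.ρ (g ^ (k + 1)) b := by
    intro k _
    rw [pow_succ', map_mul, Module.End.mul_apply]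
  rw [Finset.sum_congr rfl h]
  exact sum_shift (fun k => A.ρ (g ^ k) b) (orderOf g) (by simp [pow_orderOf_eq_one])

/-- Partial norms. -/
def pnrm (b : A) (i : ℕ) : A := ∑ k ∈ Finset.range i, A.ρ (g ^ k) b

theorem pnrm_add (b : A) (i j : ℕ) :
    pnrm g A b (i + j) = pnrm g A b i + A.ρ (g ^ i) (pnrm g A b j) := by
  unfold pnrm
  rw [Finset.sum_range_add, map_sum]
  congr 1
  refine Finset.sum_congr rfl fun k _ => ?_
  rw [pow_add, map_mul, Module.End.mul_apply]

theorem pnrm_orderOf_add (b : A) (i : ℕ) :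
    pnrm g A b (orderOf g + i) = nrm g A b + pnrm g A b i := by
  rw [pnrm_add, pow_orderOf_eq_one, map_one, Module.End.one_apply]
  rfl

theorem kappa_nrm (b : A) : kappa g hg A (rho_nrm g A b) = 0 := by
  unfold kappa
  rw [H2π_eq_zero_iff]
  refine ⟨fun x => pnrm g A b (idx g hg x), ?_⟩
  funext ⟨x, y⟩
  change A.ρ x (pnrm g A b (idx g hg y)) - pnrm g A b (idx g hg (x * y)) + pnrm g A b (idx g hg x)
    = if idx g hg x + idx g hg y < orderOf g then 0 else nrm g A b
  have hx : A.ρ x = A.ρ (g ^ idx g hg x) := by rw [pow_idx]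
  rw [idx_mul, hx]
  have hi := idx_lt g hg x
  have hj := idx_lt g hg y
  set n := orderOf g
  set i := idx g hg x
  set j := idx g hg y
  have key := pnrm_add g A b i j
  by_cases h : i + j < n
  · rw [Nat.mod_eq_of_lt h, if_pos h, key]
    abel
  · rw [if_neg h]
    have h3 : (i + j) % n = i + j - n := by
      rw [Nat.mod_eq_sub_mod (by omega), Nat.mod_eq_of_lt (by omega)]
    have h4 : i + j = n + (i + j - n) := by omega
    have h5 := pnrm_orderOf_add g A b (i + j - n)
    rw [← h4] at h5
    rw [h3]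
    rw [key] at h5
    have : A.ρ (g ^ i) (pnrm g A b j) = nrm g A b + pnrm g A b (i + j - n) - pnrm g A b i := by
      rw [← h5]; abel
    rw [this]; abel

theorem exists_nrm_of_kappa_eq_zero {a : A} (ha : A.ρ g a = a) (h : kappa g hg A ha = 0) :
    ∃ b : A, nrm g A b = a := by
  unfold kappa at h
  rw [H2π_eq_zero_iff] at h
  obtain ⟨β, hβ⟩ := h
  have hβ' : ∀ x y : G, A.ρ x (β y) - β (x * y) + β x =
      if idx g hg x + idx g hg y < orderOf g then 0 else a := by
    intro x y
    have := congrFun hβ (x, y)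
    exact this
  set n := orderOf g with hn
  have hnpos : 0 < n := orderOf_pos g
  by_cases hn1 : n = 1
  · refine ⟨a, ?_⟩
    unfold nrm
    rw [← hn, hn1]
    simp
  · have hn2 : 2 ≤ n := by omega
    refine ⟨β g, ?_⟩
    have hidxg : idx g hg g = 1 := by
      have := idx_of_lt g hg (i := 1) (by omega)
      simpa using this
    have hsum : ∑ i ∈ Finset.range n, (A.ρ (g ^ i) (β g) - β (g ^ i * g) + β (g ^ i)) =
        ∑ i ∈ Finset.range n, (if idx g hg (g ^ i) + idx g hg g < n then 0 else a) :=
      Finset.sum_congr rfl fun i _ => hβ' (g ^ i) g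
    rw [Finset.sum_add_distrib, Finset.sum_sub_distrib] at hsum
    have htel : ∑ i ∈ Finset.range n, β (g ^ i * g) = ∑ i ∈ Finset.range n, β (g ^ i) := by
      have h1 : ∀ i ∈ Finset.range n, β (g ^ i * g) = β (g ^ (i + 1)) := by
        intro i _; rw [pow_succ]
      rw [Finset.sum_congr rfl h1]
      exact sum_shift (fun i => β (g ^ i)) n (by simp [hn, pow_orderOf_eq_one])
    rw [htel, sub_add_cancel] at hsum
    have hcar : ∑ i ∈ Finset.range n, (if idx g hg (g ^ i) + idx g hg g < n then 0 else a) = a := by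
      have h1 : ∀ i ∈ Finset.range n,
          (if idx g hg (g ^ i) + idx g hg g < n then (0 : A) else a) =
            if i = n - 1 then a else 0 := by
        intro i hi
        rw [Finset.mem_range] at hi
        rw [idx_of_lt g hg hi, hidxg]
        by_cases h : i = n - 1
        · rw [if_pos h, if_neg (by omega)]
        · rw [if_neg h, if_pos (by omega)]
      rw [Finset.sum_congr rfl h1, Finset.sum_ite_eq' (Finset.range n) (n - 1)]
      rw [if_pos (Finset.mem_range.mpr (by omega))]
    rw [hcar] at hsum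
    exact hsum

theorem kappa_eq_zero_iff {a : A} (ha : A.ρ g a = a) :
    kappa g hg A ha = 0 ↔ ∃ b : A, nrm g A b = a := by
  refine ⟨exists_nrm_of_kappa_eq_zero g hg A ha, ?_⟩
  rintro ⟨b, rfl⟩
  exact kappa_nrm g hg A b

end Cocycle

section Functoriality

variable {G G' : Type} [Group G] [Finite G] [Group G'] [Finite G']
  (g : G) (hg : ∀ x : G, x ∈ Subgroup.zpowers g)
  (g' : G') (hg' : ∀ x : G', x ∈ Subgroup.zpowers g')
  {k : Type} [CommRing k] (A : Rep k G) (B : Rep k G')
  (f : G' →* G) (φ : Rep.res f A ⟶ B)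

theorem map_H2π_apply (x : cocycles₂ A) :
    groupCohomology.map f φ 2 (H2π A x) = H2π B (mapCocycles₂ f φ x) :=
  H2π_comp_map_apply f φ x

theorem mapCocycles₂_apply (x : cocycles₂ A) (p q : G') :
    (mapCocycles₂ f φ x) (p, q) = φ.hom (x (f p, f q)) := rfl

/-- Pull-back of the cyclic class along an injective map of cyclic groups. -/
theorem map_kappa_of_pow {d : ℕ} (hf : f g' = g ^ d) (hd : d * orderOf g' = orderOf g)
    {a : A} (ha : A.ρ g a = a) (hb : B.ρ g' (φ.hom a) = φ.hom a) :
    groupCohomology.map f φ 2 (kappa g hg A ha) = kappa g' hg' B hb := by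
  unfold kappa
  rw [map_H2π_apply]
  congr 1
  apply cocycles₂_ext
  intro x y
  rw [mapCocycles₂_apply, cyc_apply, cyc_apply]
  have hx : f x = g ^ (d * idx g' hg' x) := by
    conv_lhs => rw [← pow_idx g' hg' x, map_pow, hf, ← pow_mul]
  have hy : f y = g ^ (d * idx g' hg' y) := by
    conv_lhs => rw [← pow_idx g' hg' y, map_pow, hf, ← pow_mul]
  have hi := idx_lt g' hg' x
  have hj := idx_lt g' hg' y
  have hdpos : 0 < d := by
    rcases Nat.eq_zero_or_pos d with h | h
    · have := orderOf_pos g
      rw [h, zero_mul] at hd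
      omega
    · exact h
  have hxi : d * idx g' hg' x < orderOf g := by
    rw [← hd]; exact Nat.mul_lt_mul_of_pos_left hi hdpos
  have hyi : d * idx g' hg' y < orderOf g := by
    rw [← hd]; exact Nat.mul_lt_mul_of_pos_left hj hdpos
  rw [hx, hy, idx_of_lt g hg hxi, idx_of_lt g hg hyi, ← hd, ← Nat.mul_add]
  by_cases h : idx g' hg' x + idx g' hg' y < orderOf g'
  · rw [if_pos h, if_pos (Nat.mul_lt_mul_of_pos_left h hdpos), map_zero]
  · rw [if_neg h, if_neg]
    intro h'
    exact h (Nat.lt_of_mul_lt_mul_left h')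

end Functoriality

section Inflation

variable {G G₁ : Type} [Group G] [Finite G] [Group G₁] [Finite G₁]
  (g : G) (hg : ∀ x : G, x ∈ Subgroup.zpowers g)
  (g₁ : G₁) (hg₁ : ∀ x : G₁, x ∈ Subgroup.zpowers g₁)
  {k : Type} [CommRing k] (A : Rep k G) (B : Rep k G₁)
  (π : G₁ →* G) (φ : Rep.res π A ⟶ B)

theorem carry_arith (n m i j : ℕ) (hn : 0 < n) (hi : i < m * n) (hj : j < m * n) :
    i / n + j / n + (if i % n + j % n < n then 0 else 1) =
      ((i + j) % (m * n)) / n + m * (if i + j < m * n then 0 else 1) := by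
  have h1 := Nat.add_div (a := i) (b := j) hn
  have h1' : (i + j) / n = i / n + j / n + (if i % n + j % n < n then 0 else 1) := by
    rw [h1]; congr 1
    split_ifs <;> omega
  rw [← h1']
  by_cases h : i + j < m * n
  · rw [if_pos h, Nat.mod_eq_of_lt h]; simp
  · rw [if_neg h]
    have h2 : (i + j) % (m * n) = i + j - n * m := by
      rw [Nat.mod_eq_sub_mod (by omega), Nat.mod_eq_of_lt (by omega), Nat.mul_comm]
    have h3 : n * m ≤ i + j := by rw [Nat.mul_comm]; omega
    rw [h2, Nat.sub_mul_div]
    have h4 : m ≤ (i + j) / n := by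
      rw [Nat.le_div_iff_mul_le hn]; rw [Nat.mul_comm] at h3; exact h3
    omega

/-- Inflation of the cyclic class along a surjection of cyclic groups of index `m`. -/
theorem map_kappa_of_surj {m : ℕ} (hπ : π g₁ = g) (hm : orderOf g₁ = m * orderOf g)
    {a : A} (ha : A.ρ g a = a) (hb : B.ρ g₁ (φ.hom a) = φ.hom a) :
    groupCohomology.map π φ 2 (kappa g hg A ha) = m • kappa g₁ hg₁ B hb := by
  unfold kappa
  rw [map_H2π_apply, ← map_nsmul, eq_comm, H2π_eq_iff]
  refine ⟨fun p => (idx g₁ hg₁ p / orderOf g) • φ.hom a, ?_⟩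
  funext ⟨p, q⟩
  set b := φ.hom a with hbdef
  have hfix : ∀ x : G₁, B.ρ x b = b := rho_eq_of_fixed g₁ hg₁ B hb
  have hπp : ∀ x : G₁, idx g hg (π x) = idx g₁ hg₁ x % orderOf g := by
    intro x
    conv_lhs => rw [← pow_idx g₁ hg₁ x, map_pow, hπ]
    exact idx_pow g hg _
  change B.ρ p ((idx g₁ hg₁ q / orderOf g) • b) - (idx g₁ hg₁ (p * q) / orderOf g) • b
      + (idx g₁ hg₁ p / orderOf g) • b
    = m • (if idx g₁ hg₁ p + idx g₁ hg₁ q < orderOf g₁ then 0 else b)
      - φ.hom (if idx g hg (π p) + idx g hg (π q) < orderOf g then 0 else a)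
  rw [map_nsmul, hfix, idx_mul, hπp, hπp, hm]
  have hi := idx_lt g₁ hg₁ p
  have hj := idx_lt g₁ hg₁ q
  rw [hm] at hi hj
  set n := orderOf g
  set i := idx g₁ hg₁ p
  set j := idx g₁ hg₁ q
  have hn : 0 < n := orderOf_pos g
  have key := carry_arith n m i j hn hi hj
  have e1 : m • (if i + j < m * n then (0 : B) else b) =
      (m * (if i + j < m * n then 0 else 1)) • b := by
    split_ifs <;> simp
  have e2 : φ.hom (if i % n + j % n < n then 0 else a) =
      (if i % n + j % n < n then 0 else 1) • b := by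
    split_ifs <;> simp [hbdef]
  rw [e1, e2]
  have key2 := congrArg (fun t : ℕ => t • b) key
  simp only [add_nsmul] at key2
  rw [sub_add_eq_add_sub, sub_eq_sub_iff_add_eq_add]
  rw [add_comm ((j / n) • b) ((i / n) • b), key2]
  abel

end Inflation

end

end Fermat.Agent.PT.LOC.CyclicH2_12
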