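/-
Program F (S55), chapter LOC, helper12: Galois cohomology `H²(Gal(E'/E), E'ˣ)` in towers of fields
(pure algebra, no `q`-adic content): transitivity of inflation, inflation/restriction commute,
cyclic classes under inflation and restriction, norm criterion.
-/
import Mathlib
import Fermat.Agent.PT.LOC.Interface12
import Fermat.Agent.PT.LOC.CyclicH2_12

set_option autoImplicit false
set_option linter.unusedSectionVars false

open CategoryTheory groupCohomology

namespace Fermat.Agent.PT.LOC.TowerCoh12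

open Fermat.Agent.PT.LOC.Interface12 Fermat.Agent.PT.LOC.CyclicH2_12

noncomputable section

/-! ### Pointwise formulas -/

section Pointwise

variable (E E' E'' : Type) [Field E] [Field E'] [Field E''] [Algebra E E'] [Algebra E E'']
  [Algebra E' E''] [IsScalarTower E E' E'']

/-- The image of `x : E'ˣ` in `E''ˣ`, as elements of the Galois modules. -/
def unitsUp : unitsRep E E' →+ unitsRep E E'' :=
  (Units.map (algebraMap E' E'' : E' →* E'')).toAdditive

theorem unitsUp_apply (a : unitsRep E E') :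
    unitsUp E E' E'' a =
      Additive.ofMul (Units.map (algebraMap E' E'' : E' →* E'') (Additive.toMul a)) := rfl

theorem resH2_H2π (x : cocycles₂ (unitsRep E E'')) :
    resH2 E E' E'' (H2π _ x) = H2π _ (mapCocycles₂ (galIncl E E' E'') (resHom E E' E'') x) :=
  H2π_comp_map_apply _ _ x

theorem res_cocycle_apply (x : cocycles₂ (unitsRep E E'')) (σ τ : E'' ≃ₐ[E'] E'') :
    (mapCocycles₂ (galIncl E E' E'') (resHom E E' E'') x) (σ, τ) =
      x (galIncl E E' E'' σ, galIncl E E' E'' τ) := rfl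

variable [Normal E E']

theorem infHom_hom_apply (a : unitsRep E E') :
    (infHom E E' E'').hom a = unitsUp E E' E'' a := rfl

theorem infH2_H2π (x : cocycles₂ (unitsRep E E')) :
    infH2 E E' E'' (H2π _ x) =
      H2π _ (mapCocycles₂ (AlgEquiv.restrictNormalHom (F := E) (K₁ := E'') E')
        (infHom E E' E'') x) :=
  H2π_comp_map_apply _ _ x

theorem inf_cocycle_apply (x : cocycles₂ (unitsRep E E')) (σ τ : E'' ≃ₐ[E] E'') :
    (mapCocycles₂ (AlgEquiv.restrictNormalHom (F := E) (K₁ := E'') E') (infHom E E' E'') x)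
        (σ, τ) =
      unitsUp E E' E'' (x (AlgEquiv.restrictNormalHom E' σ, AlgEquiv.restrictNormalHom E' τ)) :=
  rfl

end Pointwise

/-! ### Transitivity of inflation -/

section InfInf

variable (E E' E'' N : Type) [Field E] [Field E'] [Field E''] [Field N]
  [Algebra E E'] [Algebra E E''] [Algebra E N] [Algebra E' E''] [Algebra E' N] [Algebra E'' N]
  [IsScalarTower E E' E''] [IsScalarTower E E' N] [IsScalarTower E E'' N] [IsScalarTower E' E'' N]
  [Normal E E'] [Normal E E'']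

theorem unitsUp_unitsUp (a : unitsRep E E') :
    unitsUp E E'' N (unitsUp E E' E'' a) = unitsUp E E' N a := by
  apply Additive.toMul.injective
  apply Units.ext
  change algebraMap E'' N (algebraMap E' E'' _) = algebraMap E' N _
  rw [← IsScalarTower.algebraMap_apply]

theorem infH2_infH2 (x : H2 (unitsRep E E')) :
    infH2 E E'' N (infH2 E E' E'' x) = infH2 E E' N x := by
  induction x using H2_induction_on with
  | h x =>
    rw [infH2_H2π, infH2_H2π, infH2_H2π]
    congr 1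
    apply cocycles₂_ext
    intro σ τ
    rw [inf_cocycle_apply, inf_cocycle_apply, inf_cocycle_apply, unitsUp_unitsUp,
      ← IsScalarTower.AlgEquiv.restrictNormalHom_comp_apply E' E'' σ,
      ← IsScalarTower.AlgEquiv.restrictNormalHom_comp_apply E' E'' τ]

end InfInf

section InfSelf

variable (E E' : Type) [Field E] [Field E'] [Algebra E E'] [Normal E E']

theorem infH2_self (x : H2 (unitsRep E E')) : infH2 E E' E' x = x := by
  induction x using H2_induction_on with
  | h x =>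
    rw [infH2_H2π]
    congr 1
    apply cocycles₂_ext
    intro σ τ
    rw [inf_cocycle_apply, AlgEquiv.restrictNormalHom_id]
    apply Additive.toMul.injective
    apply Units.ext
    rfl

end InfSelf

/-! ### Inflation and restriction commute -/

section ResInf

variable (E E' E'' N : Type) [Field E] [Field E'] [Field E''] [Field N]
  [Algebra E E'] [Algebra E E''] [Algebra E N] [Algebra E' E''] [Algebra E' N] [Algebra E'' N]
  [IsScalarTower E E' E''] [IsScalarTower E E' N] [IsScalarTower E E'' N] [IsScalarTower E' E'' N]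
  [Normal E E''] [Normal E' E'']

theorem restrictNormalHom_galIncl (σ : N ≃ₐ[E'] N) :
    AlgEquiv.restrictNormalHom (F := E) (K₁ := N) E'' (galIncl E E' N σ) =
      galIncl E E' E'' (AlgEquiv.restrictNormalHom (F := E') (K₁ := N) E'' σ) := by
  ext x
  apply (algebraMap E'' N).injective
  change algebraMap E'' N ((galIncl E E' N σ).restrictNormal E'' x) =
    algebraMap E'' N ((σ.restrictNormal E'') x)
  rw [AlgEquiv.restrictNormal_commutes, AlgEquiv.restrictNormal_commutes]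
  rfl

theorem resH2_infH2 (x : H2 (unitsRep E E'')) :
    resH2 E E' N (infH2 E E'' N x) = infH2 E' E'' N (resH2 E E' E'' x) := by
  induction x using H2_induction_on with
  | h x =>
    rw [infH2_H2π, resH2_H2π, resH2_H2π, infH2_H2π]
    congr 1

end ResInf

/-! ### Cyclic classes of elements of the base field -/

theorem kappa_congr {G : Type} [Group G] [Finite G] (g : G)
    (hg : ∀ x : G, x ∈ Subgroup.zpowers g) {k : Type} [CommRing k] (A : Rep k G) {a b : A}
    (h : a = b) (ha : A.ρ g a = a) (hb : A.ρ g b = b) :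
    kappa g hg A ha = kappa g hg A hb := by
  subst h
  rfl

section BaseUnit

variable (E E₁ : Type) [Field E] [Field E₁] [Algebra E E₁]

/-- The image of `a : Eˣ` in the Galois module `E₁ˣ`. -/
def baseUnit (a : Eˣ) : unitsRep E E₁ :=
  Additive.ofMul (Units.map (algebraMap E E₁ : E →* E₁) a)

theorem baseUnit_fixed (a : Eˣ) (σ : E₁ ≃ₐ[E] E₁) :
    (unitsRep E E₁).ρ σ (baseUnit E E₁ a) = baseUnit E E₁ a := by
  apply Additive.toMul.injective
  apply Units.ext
  exact σ.commutes (a : E)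

theorem baseUnit_mul (a b : Eˣ) : baseUnit E E₁ (a * b) = baseUnit E E₁ a + baseUnit E E₁ b := by
  unfold baseUnit
  rw [map_mul]
  rfl

theorem baseUnit_pow (a : Eˣ) (k : ℕ) : baseUnit E E₁ (a ^ k) = k • baseUnit E E₁ a := by
  unfold baseUnit
  rw [map_pow]
  rfl

theorem baseUnit_inv (a : Eˣ) : baseUnit E E₁ a⁻¹ = - baseUnit E E₁ a := by
  unfold baseUnit
  rw [map_inv]
  rfl

variable {E E₁} in
/-- The cyclic class `κ(φ, a) ∈ H²(Gal(E₁/E), E₁ˣ)` of `a ∈ Eˣ`. -/
def ukappa [Finite (E₁ ≃ₐ[E] E₁)] (φ : E₁ ≃ₐ[E] E₁) (hφ : ∀ σ, σ ∈ Subgroup.zpowers φ) (a : Eˣ) :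
    H2 (unitsRep E E₁) :=
  kappa φ hφ (unitsRep E E₁) (baseUnit_fixed E E₁ a φ)

variable {E E₁} in
theorem ukappa_mul [Finite (E₁ ≃ₐ[E] E₁)] (φ : E₁ ≃ₐ[E] E₁) (hφ : ∀ σ, σ ∈ Subgroup.zpowers φ)
    (a b : Eˣ) : ukappa φ hφ (a * b) = ukappa φ hφ a + ukappa φ hφ b := by
  unfold ukappa
  have hab : (unitsRep E E₁).ρ φ (baseUnit E E₁ a + baseUnit E E₁ b) =
      baseUnit E E₁ a + baseUnit E E₁ b := by
    rw [← baseUnit_mul]; exact baseUnit_fixed E E₁ (a * b) φ
  rw [kappa_congr φ hφ (unitsRep E E₁) (baseUnit_mul E E₁ a b) _ hab, kappa_add]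

variable {E E₁} in
theorem ukappa_pow [Finite (E₁ ≃ₐ[E] E₁)] (φ : E₁ ≃ₐ[E] E₁) (hφ : ∀ σ, σ ∈ Subgroup.zpowers φ)
    (a : Eˣ) (k : ℕ) : ukappa φ hφ (a ^ k) = k • ukappa φ hφ a := by
  induction k with
  | zero =>
    rw [pow_zero, zero_smul]
    unfold ukappa
    rw [kappa_eq_zero_iff]
    refine ⟨0, ?_⟩
    unfold nrm
    simp only [map_zero, Finset.sum_const_zero]
    symm
    apply Additive.toMul.injective
    apply Units.ext
    simp only [baseUnit, map_one]
    rfl
  | succ k ih => rw [pow_succ, ukappa_mul, ih, succ_nsmul]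

end BaseUnit

/-! ### Inflation of cyclic classes -/

section InfKappa

variable (E E₁ E₂ : Type) [Field E] [Field E₁] [Field E₂] [Algebra E E₁] [Algebra E E₂]
  [Algebra E₁ E₂] [IsScalarTower E E₁ E₂] [FiniteDimensional E E₁] [FiniteDimensional E E₂]
  [Normal E E₁]

theorem unitsUp_baseUnit (a : Eˣ) : unitsUp E E₁ E₂ (baseUnit E E₁ a) = baseUnit E E₂ a := by
  apply Additive.toMul.injective
  apply Units.ext
  change algebraMap E₁ E₂ (algebraMap E E₁ _) = algebraMap E E₂ _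
  rw [← IsScalarTower.algebraMap_apply]

theorem infH2_ukappa (φ₁ : E₁ ≃ₐ[E] E₁) (hφ₁ : ∀ σ, σ ∈ Subgroup.zpowers φ₁)
    (φ₂ : E₂ ≃ₐ[E] E₂) (hφ₂ : ∀ σ, σ ∈ Subgroup.zpowers φ₂)
    (hres : AlgEquiv.restrictNormalHom E₁ φ₂ = φ₁) {m : ℕ} (hm : orderOf φ₂ = m * orderOf φ₁)
    (a : Eˣ) :
    infH2 E E₁ E₂ (ukappa φ₁ hφ₁ a) = m • ukappa φ₂ hφ₂ a := by
  unfold ukappa infH2
  have hb : (unitsRep E E₂).ρ φ₂ ((infHom E E₁ E₂).hom (baseUnit E E₁ a)) =
      (infHom E E₁ E₂).hom (baseUnit E E₁ a) := by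
    rw [infHom_hom_apply, unitsUp_baseUnit]; exact baseUnit_fixed E E₂ a φ₂
  rw [map_kappa_of_surj φ₁ hφ₁ φ₂ hφ₂ (unitsRep E E₁) (unitsRep E E₂) _ (infHom E E₁ E₂) hres hm
    (baseUnit_fixed E E₁ a φ₁) hb]
  congr 1
  exact kappa_congr φ₂ hφ₂ _ (by rw [infHom_hom_apply, unitsUp_baseUnit]) _ _

end InfKappa

/-! ### Restriction of inflated cyclic classes -/

section ResKappa

variable (E E' E₁ N : Type) [Field E] [Field E'] [Field E₁] [Field N]
  [Algebra E E'] [Algebra E E₁] [Algebra E N] [Algebra E' N] [Algebra E₁ N]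
  [IsScalarTower E E' N] [IsScalarTower E E₁ N] [FiniteDimensional E E₁] [FiniteDimensional E' N]
  [Normal E E₁]

/-- `Gal(N/E') → Gal(E₁/E)`, `σ ↦ σ|E₁`. -/
abbrev resToSub : (N ≃ₐ[E'] N) →* (E₁ ≃ₐ[E] E₁) :=
  (AlgEquiv.restrictNormalHom (F := E) (K₁ := N) E₁).comp (galIncl E E' N)

/-- The morphism of Galois modules `E₁ˣ → Nˣ` over `resToSub`. -/
def resToSubHom : Rep.res (resToSub E E' E₁ N) (unitsRep E E₁) ⟶ unitsRep E' N :=
  (Rep.resFunctor (galIncl E E' N)).map (infHom E E₁ N) ≫ resHom E E' N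

theorem resH2_infH2_eq_map (x : H2 (unitsRep E E₁)) :
    resH2 E E' N (infH2 E E₁ N x) =
      groupCohomology.map (resToSub E E' E₁ N) (resToSubHom E E' E₁ N) 2 x := by
  have h := groupCohomology.map_comp (AlgEquiv.restrictNormalHom (F := E) (K₁ := N) E₁)
    (galIncl E E' N) (infHom E E₁ N) (resHom E E' N) 2
  have h2 := congrArg (fun t => (ConcreteCategory.hom t) x) h
  exact h2.symm

theorem resToSubHom_baseUnit (a : Eˣ) :
    (resToSubHom E E' E₁ N).hom (baseUnit E E₁ a) =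
      baseUnit E' N (Units.map (algebraMap E E' : E →* E') a) := by
  apply Additive.toMul.injective
  apply Units.ext
  change algebraMap E₁ N (algebraMap E E₁ _) = algebraMap E' N (algebraMap E E' _)
  rw [← IsScalarTower.algebraMap_apply, ← IsScalarTower.algebraMap_apply]

theorem resH2_infH2_ukappa (φ₁ : E₁ ≃ₐ[E] E₁) (hφ₁ : ∀ σ, σ ∈ Subgroup.zpowers φ₁)
    (φ' : N ≃ₐ[E'] N) (hφ' : ∀ σ, σ ∈ Subgroup.zpowers φ') {d : ℕ}
    (hres : AlgEquiv.restrictNormalHom (F := E) (K₁ := N) E₁ (galIncl E E' N φ') = φ₁ ^ d)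
    (hd : d * orderOf φ' = orderOf φ₁) (a : Eˣ) :
    resH2 E E' N (infH2 E E₁ N (ukappa φ₁ hφ₁ a)) =
      ukappa φ' hφ' (Units.map (algebraMap E E' : E →* E') a) := by
  rw [resH2_infH2_eq_map]
  unfold ukappa
  have hb : (unitsRep E' N).ρ φ' ((resToSubHom E E' E₁ N).hom (baseUnit E E₁ a)) =
      (resToSubHom E E' E₁ N).hom (baseUnit E E₁ a) := by
    rw [resToSubHom_baseUnit]; exact baseUnit_fixed E' N _ φ'
  rw [map_kappa_of_pow φ₁ hφ₁ φ' hφ' (unitsRep E E₁) (unitsRep E' N) (resToSub E E' E₁ N)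
    (resToSubHom E E' E₁ N) hres hd (baseUnit_fixed E E₁ a φ₁) hb]
  exact kappa_congr φ' hφ' _ (resToSubHom_baseUnit E E' E₁ N a) _ _

end ResKappa

/-! ### The norm criterion -/

section NormCrit

variable (E E₁ : Type) [Field E] [Field E₁] [Algebra E E₁] [FiniteDimensional E E₁]
  [IsGalois E E₁]

theorem orderOf_gen (φ : E₁ ≃ₐ[E] E₁) (hφ : ∀ σ, σ ∈ Subgroup.zpowers φ) :
    orderOf φ = Module.finrank E E₁ := by
  rw [orderOf_eq_card φ hφ, IsGalois.card_aut_eq_finrank]

theorem prod_pow_eq_norm (φ : E₁ ≃ₐ[E] E₁) (hφ : ∀ σ, σ ∈ Subgroup.zpowers φ) (y : E₁) :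
    ∏ k ∈ Finset.range (orderOf φ), (φ ^ k) y = algebraMap E E₁ (Algebra.norm E y) := by
  classical
  rw [Algebra.norm_eq_prod_automorphisms]
  refine Finset.prod_bij' (fun k _ => φ ^ k) (fun σ _ => idx φ hφ σ) ?_ ?_ ?_ ?_ ?_
  · intro k _; exact Finset.mem_univ _
  · intro σ _; exact Finset.mem_range.mpr (idx_lt φ hφ σ)
  · intro k hk; exact idx_of_lt φ hφ (Finset.mem_range.mp hk)
  · intro σ _; exact pow_idx φ hφ σ
  · intro k _; rfl

/-- The unit underlying an element of the Galois module. -/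
def toU (b : unitsRep E E₁) : E₁ˣ := Additive.toMul (show Additive E₁ˣ from b)

/-- A unit as an element of the Galois module. -/
def ofU (y : E₁ˣ) : unitsRep E E₁ := (Additive.ofMul y : Additive E₁ˣ)

theorem toU_ofU (y : E₁ˣ) : toU E E₁ (ofU E E₁ y) = y := rfl

theorem ofU_toU (b : unitsRep E E₁) : ofU E E₁ (toU E E₁ b) = b := rfl

theorem toU_add (b c : unitsRep E E₁) : toU E E₁ (b + c) = toU E E₁ b * toU E E₁ c := rfl

theorem toU_zero : toU E E₁ 0 = 1 := rfl

theorem toU_rho (σ : E₁ ≃ₐ[E] E₁) (b : unitsRep E E₁) :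
    ((toU E E₁ ((unitsRep E E₁).ρ σ b) : E₁ˣ) : E₁) = σ ((toU E E₁ b : E₁ˣ) : E₁) := rfl

theorem toU_baseUnit (a : Eˣ) :
    ((toU E E₁ (baseUnit E E₁ a) : E₁ˣ) : E₁) = algebraMap E E₁ (a : E) := rfl

theorem toU_sum {ι : Type} (s : Finset ι) (f : ι → unitsRep E E₁) :
    toU E E₁ (∑ i ∈ s, f i) = ∏ i ∈ s, toU E E₁ (f i) := by
  classical
  induction s using Finset.induction_on with
  | empty => rw [Finset.sum_empty, Finset.prod_empty]; rfl
  | insert _ _ h ih => rw [Finset.sum_insert h, Finset.prod_insert h, toU_add, ih]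

theorem toU_nrm (φ : E₁ ≃ₐ[E] E₁) (b : unitsRep E E₁) :
    ((toU E E₁ (nrm φ (unitsRep E E₁) b) : E₁ˣ) : E₁) =
      ∏ k ∈ Finset.range (orderOf φ), (φ ^ k) ((toU E E₁ b : E₁ˣ) : E₁) := by
  unfold nrm
  rw [toU_sum, Units.coe_prod]
  exact Finset.prod_congr rfl fun k _ => toU_rho E E₁ (φ ^ k) b

theorem ukappa_eq_zero_iff (φ : E₁ ≃ₐ[E] E₁) (hφ : ∀ σ, σ ∈ Subgroup.zpowers φ) (a : Eˣ) :
    ukappa φ hφ a = 0 ↔ ∃ y : E₁ˣ, Algebra.norm E (y : E₁) = (a : E) := by
  unfold ukappa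
  rw [kappa_eq_zero_iff]
  constructor
  · rintro ⟨b, hb⟩
    refine ⟨toU E E₁ b, ?_⟩
    apply (algebraMap E E₁).injective
    rw [← prod_pow_eq_norm E E₁ φ hφ, ← toU_nrm, hb, toU_baseUnit]
  · rintro ⟨y, hy⟩
    refine ⟨ofU E E₁ y, ?_⟩
    have h1 : toU E E₁ (nrm φ (unitsRep E E₁) (ofU E E₁ y)) = toU E E₁ (baseUnit E E₁ a) := by
      apply Units.ext
      rw [toU_nrm, toU_ofU, prod_pow_eq_norm E E₁ φ hφ, hy, toU_baseUnit]
    have h2 := congrArg (ofU E E₁) h1
    rwa [ofU_toU, ofU_toU] at h2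

end NormCrit

/-! ### Restriction of an inflated class, through an intermediate field -/

section ResInfVia

variable (E E' E₁ N' N : Type) [Field E] [Field E'] [Field E₁] [Field N'] [Field N]
  [Algebra E E'] [Algebra E E₁] [Algebra E N'] [Algebra E N] [Algebra E' N'] [Algebra E' N]
  [Algebra E₁ N'] [Algebra E₁ N] [Algebra N' N]
  [IsScalarTower E E' N'] [IsScalarTower E E' N] [IsScalarTower E E₁ N'] [IsScalarTower E E₁ N]
  [IsScalarTower E' N' N] [IsScalarTower E₁ N' N] [IsScalarTower E N' N]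
  [Normal E E₁] [Normal E' N']

theorem restrictNormalHom_galIncl_via (σ : N ≃ₐ[E'] N) :
    AlgEquiv.restrictNormalHom (F := E) (K₁ := N) E₁ (galIncl E E' N σ) =
      AlgEquiv.restrictNormalHom (F := E) (K₁ := N') E₁
        (galIncl E E' N' (AlgEquiv.restrictNormalHom (F := E') (K₁ := N) N' σ)) := by
  ext x
  apply (algebraMap E₁ N).injective
  change algebraMap E₁ N ((galIncl E E' N σ).restrictNormal E₁ x) =
    algebraMap E₁ N ((galIncl E E' N' (σ.restrictNormal N')).restrictNormal E₁ x)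
  rw [AlgEquiv.restrictNormal_commutes, IsScalarTower.algebraMap_apply E₁ N' N,
    IsScalarTower.algebraMap_apply E₁ N' N, AlgEquiv.restrictNormal_commutes]
  change σ _ = algebraMap N' N ((σ.restrictNormal N') _)
  rw [AlgEquiv.restrictNormal_commutes]

theorem resH2_infH2_via (x : H2 (unitsRep E E₁)) :
    resH2 E E' N (infH2 E E₁ N x) = infH2 E' N' N (resH2 E E' N' (infH2 E E₁ N' x)) := by
  induction x using H2_induction_on with
  | h x =>
    rw [infH2_H2π, resH2_H2π, infH2_H2π, resH2_H2π, infH2_H2π]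
    congr 1
    apply cocycles₂_ext
    intro σ τ
    rw [res_cocycle_apply, inf_cocycle_apply, inf_cocycle_apply, res_cocycle_apply,
      inf_cocycle_apply, restrictNormalHom_galIncl_via E E' E₁ N' N σ,
      restrictNormalHom_galIncl_via E E' E₁ N' N τ]
    apply Additive.toMul.injective
    apply Units.ext
    change algebraMap E₁ N _ = algebraMap N' N (algebraMap E₁ N' _)
    rw [← IsScalarTower.algebraMap_apply]

end ResInfVia

/-! ### Compatible embeddings of a normal extension -/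

section CompatEmb

variable (E E₁ E₂ N : Type) [Field E] [Field E₁] [Field E₂] [Field N]
  [Algebra E E₁] [Algebra E E₂] [Algebra E N] [Algebra E₁ N] [Algebra E₂ N]
  [IsScalarTower E E₁ N] [IsScalarTower E E₂ N] [Normal E E₁]

/-- If `E₁/E` is normal and `E₁`, `E₂` both sit in `N`, any `E`-embedding `E₁ → E₂` can be
corrected by an automorphism of `E₁` so as to be compatible with the maps into `N`. -/
theorem exists_compatible_algHom (ι₀ : E₁ →ₐ[E] E₂) :
    ∃ ι : E₁ →ₐ[E] E₂, ∀ x : E₁, algebraMap E₂ N (ι x) = algebraMap E₁ N x := by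
  let j : E₁ →ₐ[E] N := (IsScalarTower.toAlgHom E E₂ N).comp ι₀
  let τ : E₁ ≃ₐ[E] E₁ := AlgHom.restrictNormal' j E₁
  have hτ : ∀ x : E₁, algebraMap E₁ N (τ x) = j (algebraMap E₁ E₁ x) := fun x =>
    AlgHom.restrictNormal_commutes j E₁ x
  refine ⟨ι₀.comp τ.symm.toAlgHom, fun x => ?_⟩
  have h1 := hτ (τ.symm x)
  rw [AlgEquiv.apply_symm_apply] at h1
  rw [h1]
  rfl

end CompatEmb

end

end Fermat.Agent.PT.LOC.TowerCoh12
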