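/-
Program F (S55, Poitou–Tate), chapter LOC, helper26: `H²` of a cyclic extension and the norm index.

For a finite cyclic Galois extension `E'/E` with generator `φ`, every class of
`H²(Gal(E'/E), E'ˣ)` is a cyclic class `ukappa φ a` (`a ∈ Eˣ`; helper18's `exists_carry_rep` +
helper12's `ukappa`), `ukappa` is additive and vanishes exactly on norms.  Hence a finite set of
representatives of `Eˣ` modulo norms bounds `#H²` (`card_H2_le_of_normIndex`).
-/
import Mathlib
import Fermat.Agent.PT.LOC.Interface12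
import Fermat.Agent.PT.LOC.CyclicH2_12
import Fermat.Agent.PT.LOC.TowerCoh12
import Fermat.Agent.PT.FG.CyclicH2_18

set_option autoImplicit false
set_option linter.style.haveILetI false
set_option linter.unusedSectionVars false

open CategoryTheory groupCohomology

namespace Fermat.Agent.PT.LOC.CyclicNormIndex26

open Fermat.Agent.PT.LOC.Interface12 Fermat.Agent.PT.LOC.CyclicH2_12
  Fermat.Agent.PT.LOC.TowerCoh12 Fermat.Agent.PT.FG

noncomputable section

section Abstract

variable {G : Type} [Group G] [Finite G] (g : G) (hg : ∀ x : G, x ∈ Subgroup.zpowers g)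
  {k : Type} [CommRing k] (A : Rep k G)

/-- **Every class of `H²(⟨g⟩, A)` is a cyclic class `kappa g a`** of an invariant `a`. -/
theorem exists_kappa_eq (x : H2 A) : ∃ (a : A) (ha : A.ρ g a = a), kappa g hg A ha = x := by
  obtain ⟨a, c, ha, hc, hform⟩ := CyclicH2_18.exists_carry_rep (M := A) (s := g) hg x
  refine ⟨a, ha g, ?_⟩
  rw [← hc]
  unfold kappa
  congr 1
  apply Subtype.ext
  funext ⟨x, y⟩
  have h1 := hform (idx g hg x) (idx g hg y) (idx_lt g hg x) (idx_lt g hg y)
  rw [pow_idx g hg x, pow_idx g hg y] at h1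
  exact (cyc_apply g hg A (ha g) x y).trans h1.symm

end Abstract

section Fields

variable (E E' : Type) [Field E] [Field E'] [Algebra E E'] [FiniteDimensional E E']
  [IsGalois E E']

/-- An invariant of the Galois module `E'ˣ` comes from `Eˣ`. -/
theorem exists_baseUnit_eq (φ : E' ≃ₐ[E] E') (hφ : ∀ σ, σ ∈ Subgroup.zpowers φ)
    (a : unitsRep E E') (ha : (unitsRep E E').ρ φ a = a) :
    ∃ e : Eˣ, baseUnit E E' e = a := by
  have hfix : ∀ s : E' ≃ₐ[E] E', s ((toU E E' a : E'ˣ) : E') = ((toU E E' a : E'ˣ) : E') := by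
    intro s
    have h1 := rho_eq_of_fixed φ hφ (unitsRep E E') ha s
    have h2 := congrArg (fun t => ((toU E E' t : E'ˣ) : E')) h1
    exact h2
  obtain ⟨y, hy⟩ := (IsGalois.mem_range_algebraMap_iff_fixed (F := E) (E := E') _).mpr hfix
  have hy0 : y ≠ 0 := by
    rintro rfl
    rw [map_zero] at hy
    exact (toU E E' a).ne_zero hy.symm
  refine ⟨Units.mk0 y hy0, ?_⟩
  have h4 : toU E E' (baseUnit E E' (Units.mk0 y hy0)) = toU E E' a := Units.ext hy
  have := congrArg (ofU E E') h4
  rwa [ofU_toU, ofU_toU] at this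

/-- **Every class of `H²(Gal(E'/E), E'ˣ)`, `E'/E` cyclic, is `ukappa φ e` for some `e ∈ Eˣ`.** -/
theorem exists_ukappa_eq (φ : E' ≃ₐ[E] E') (hφ : ∀ σ, σ ∈ Subgroup.zpowers φ)
    (x : H2 (unitsRep E E')) : ∃ e : Eˣ, ukappa φ hφ e = x := by
  obtain ⟨a, ha, hx⟩ := exists_kappa_eq φ hφ (unitsRep E E') x
  obtain ⟨e, he⟩ := exists_baseUnit_eq E E' φ hφ a ha
  refine ⟨e, ?_⟩
  rw [← hx]
  unfold ukappa
  exact kappa_congr φ hφ (unitsRep E E') he _ ha

/-- **`#H² ≤` the norm index** (cyclic case): if the finite set `S ⊆ Eˣ` represents `Eˣ` modulo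
norms from `E'`, then `H²(Gal(E'/E), E'ˣ)` is finite of cardinality at most `#S`. -/
theorem card_H2_le_of_normIndex (φ : E' ≃ₐ[E] E') (hφ : ∀ σ, σ ∈ Subgroup.zpowers φ)
    (S : Finset Eˣ)
    (hS : ∀ x : Eˣ, ∃ s ∈ S, ∃ y : E'ˣ, (x : E) = (s : E) * Algebra.norm E (y : E')) :
    Finite (H2 (unitsRep E E')) ∧ Nat.card (H2 (unitsRep E E')) ≤ S.card := by
  classical
  let F : S → H2 (unitsRep E E') := fun s => ukappa φ hφ (s : Eˣ)
  have hF : Function.Surjective F := by
    intro x
    obtain ⟨e, he⟩ := exists_ukappa_eq E E' φ hφ x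
    obtain ⟨s, hs, y, hy⟩ := hS e
    refine ⟨⟨s, hs⟩, ?_⟩
    have hy0 : Algebra.norm E (y : E') ≠ 0 := by
      intro h0
      rw [h0, mul_zero] at hy
      exact e.ne_zero hy
    have hes : e = s * Units.mk0 _ hy0 := Units.ext hy
    have hz : ukappa φ hφ (Units.mk0 _ hy0) = 0 :=
      (ukappa_eq_zero_iff E E' φ hφ _).mpr ⟨y, rfl⟩
    show ukappa φ hφ s = x
    rw [← he, hes, ukappa_mul, hz, add_zero]
  haveI : Finite (H2 (unitsRep E E')) := Finite.of_surjective F hF
  refine ⟨inferInstance, ?_⟩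
  calc Nat.card (H2 (unitsRep E E')) ≤ Nat.card S := Nat.card_le_card_of_surjective F hF
    _ = S.card := by rw [Nat.card_eq_fintype_card, Fintype.card_coe]

end Fields

end

end Fermat.Agent.PT.LOC.CyclicNormIndex26
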