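/-
Program F (S55, Poitou–Tate), chapter LOC — helper27: Frobenius elements and rigidity.

Abstract model of `Interface12`; `𝔪' = IsLocalRing.maximalIdeal (intRing q E')`, `G = E' ≃ₐ[E] E'`
acting on `intRing q E'` by Mathlib's `MulSemiringAction G (integralClosure ℤ_[q] E')`.

* `mul_inv_mem_intRing_iff : z π⁻¹ ∈ 𝒪 ↔ z ∈ 𝔪` (`π` a uniformizer, `z ∈ 𝒪`); `resCard_eq_card`;
* instances `SMulCommClass G 𝒪_E 𝒪_E'`, `IsGaloisGroup G 𝒪_E 𝒪_E'` (`E'/E` Galois);
* `isFrob_iff : IsFrob q E E' φ ↔ IsArithFrobAt 𝒪_E φ 𝔪'` (Mathlib's notion);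
* `exists_isFrob` : every finite Galois `E'/E` has a Frobenius;
* `card_inertia : #I(𝔪') = ramIdx q E E'`, `inertia_eq_bot` (unramified);
* `unramRigidStatement : UnramDef12.UnramRigidStatement q` (verbatim);
* `mk_pow_smul`, `isFrob_pow_apply : φ^m x ≡ x^(Q^m) mod 𝔪'`, `frob_pow_resDeg_mem_inertia`,
  `resDeg_le_of_frob_pow_eq_one`;
* unramified Galois `E'/E`: `orderOf_frob : orderOf φ = [E':E]`, `mem_zpowers_frob`,
  `isFrob_unique`, `isCyclic_of_isUnramified`.
-/
import Mathlib
import Fermat.Agent.PT.LOC.Interface12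
import Fermat.Agent.PT.LOC.Structure14
import Fermat.Agent.PT.LOC.UnramDef12
import Fermat.Agent.PT.LOC.StructureTower27
import Fermat.Agent.PT.LOC.StructureTowerEF27

set_option autoImplicit false
set_option linter.unusedSectionVars false

open scoped Fermat.Agent.PT.LOC.Interface12 Fermat.Agent.PT.LOC.StructureTower27 Pointwise
open Fermat.Agent.PT.LOC.Interface12 Fermat.Agent.PT.LOC.Structure14
  Fermat.Agent.PT.LOC.StructureTower27 Fermat.Agent.PT.LOC.StructureTowerEF27

namespace Fermat.Agent.PT.LOC.Frob27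

noncomputable section

variable (q : ℕ) [Fact q.Prime]

section One

variable (E : Type) [Field E] [Algebra ℚ_[q] E] [FiniteDimensional ℚ_[q] E]

instance finite_quot_maximalIdeal :
    Finite (intRing q E ⧸ IsLocalRing.maximalIdeal (intRing q E)) := by
  rw [← maxId_eq_maximalIdeal]
  infer_instance

theorem resCard_eq_card :
    resCard q E = Nat.card (intRing q E ⧸ IsLocalRing.maximalIdeal (intRing q E)) := by
  rw [resCard_def, maxId_eq_maximalIdeal]

/-- For a uniformizer `π` and `z ∈ 𝒪`: `z π⁻¹ ∈ 𝒪 ↔ z ∈ 𝔪`. -/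
theorem mul_inv_mem_intRing_iff {π : E} (hπ : IsUniformizer q E π) (z : intRing q E) :
    (z : E) * π⁻¹ ∈ intRing q E ↔ z ∈ IsLocalRing.maximalIdeal (intRing q E) := by
  by_cases hz : z = 0
  · subst hz
    simp
  have hz' : (z : E) ≠ 0 := fun h => hz (Subtype.ext h)
  have hπ0 : π ≠ 0 := hπ.2.1
  have h1 := mem_intRing_iff_ord q E (Units.mk0 (z : E) hz' * (Units.mk0 π hπ0)⁻¹)
  have h2 := mem_maximalIdeal_iff q E (Units.mk0 (z : E) hz') z.2
  have h3 : ord q E (Units.mk0 π hπ0) = 1 := (isUniformizer_iff_ord q E (Units.mk0 π hπ0)).mp hπ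
  rw [ord_mul, ord_inv, h3] at h1
  simp only [Units.val_mul, Units.val_mk0, Units.val_inv_eq_inv_val] at h1
  rw [h1]
  have h4 : (⟨(Units.mk0 (z : E) hz' : E), z.2⟩ : intRing q E) = z := Subtype.ext rfl
  rw [h4] at h2
  rw [h2]
  constructor <;> intro h <;> omega

end One

section Two

variable (E E' : Type) [Field E] [Field E'] [Algebra ℚ_[q] E]
  [Algebra ℚ_[q] E'] [Algebra E E'] [IsScalarTower ℚ_[q] E E'] [FiniteDimensional ℚ_[q] E]
  [FiniteDimensional ℚ_[q] E']

include q in
theorem finiteDimensional_tower : FiniteDimensional E E' :=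
  FiniteDimensional.right ℚ_[q] E E'

include q in
theorem finite_gal : Finite (E' ≃ₐ[E] E') :=
  have := finiteDimensional_tower q E E'
  inferInstance

instance smulCommClass_intRing :
    SMulCommClass (E' ≃ₐ[E] E') (intRing q E) (intRing q E') where
  smul_comm σ r x := by
    apply Subtype.ext
    show σ ((algebraMap (intRing q E) (intRing q E') r * x : intRing q E') : E') =
      ((algebraMap (intRing q E) (intRing q E') r * (σ • x) : intRing q E') : E')
    simp

instance isGaloisGroup_intRing [IsGalois E E'] :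
    IsGaloisGroup (E' ≃ₐ[E] E') (intRing q E) (intRing q E') :=
  IsGaloisGroup.of_isFractionRing _ _ _ E E'


theorem under_maximalIdeal :
    (IsLocalRing.maximalIdeal (intRing q E')).under (intRing q E) =
      IsLocalRing.maximalIdeal (intRing q E) :=
  ((IsLocalRing.maximalIdeal (intRing q E')).over_def
    (IsLocalRing.maximalIdeal (intRing q E))).symm

/-- `IsFrob` of `Interface12` is Mathlib's `IsArithFrobAt` at the maximal ideal. -/
theorem isFrob_iff (φ : E' ≃ₐ[E] E') :
    IsFrob q E E' φ ↔ IsArithFrobAt (intRing q E) φ (IsLocalRing.maximalIdeal (intRing q E')) := by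
  have hcard : Nat.card (intRing q E ⧸
      (IsLocalRing.maximalIdeal (intRing q E')).under (intRing q E)) = resCard q E := by
    rw [under_maximalIdeal, resCard_eq_card]
  constructor
  · intro h x
    obtain ⟨π, hπ⟩ := exists_isUniformizer q E'
    have h1 := h π hπ x x.2
    rw [hcard]
    have h2 := (mul_inv_mem_intRing_iff q E' hπ (φ • x - x ^ resCard q E)).mp (by
      simpa using h1)
    exact h2
  · intro h π hπ x hx
    have h1 := h ⟨x, hx⟩
    rw [hcard] at h1
    have h2 := (mul_inv_mem_intRing_iff q E' hπ _).mpr h1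
    simpa using h2


/-- Every finite Galois extension of `q`-adic fields has a Frobenius element. -/
theorem exists_isFrob [IsGalois E E'] : ∃ φ : E' ≃ₐ[E] E', IsFrob q E E' φ := by
  have := finite_gal q E E'
  obtain ⟨φ, hφ⟩ := IsArithFrobAt.exists_of_isInvariant (intRing q E) (E' ≃ₐ[E] E')
    (IsLocalRing.maximalIdeal (intRing q E'))
  exact ⟨φ, (isFrob_iff q E E' φ).mpr hφ⟩

/-- The inertia group has order `e`. -/
theorem card_inertia [IsGalois E E'] :
    Nat.card ((IsLocalRing.maximalIdeal (intRing q E')).inertia (E' ≃ₐ[E] E')) =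
      ramIdx q E E' := by
  have := finite_gal q E E'
  rw [Ideal.card_inertia_eq_ramificationIdxIn (IsLocalRing.maximalIdeal (intRing q E))
    (IsLocalRing.maximalIdeal (intRing q E')),
    Ideal.ramificationIdxIn_eq_ramificationIdx (IsLocalRing.maximalIdeal (intRing q E))
      (IsLocalRing.maximalIdeal (intRing q E')) (E' ≃ₐ[E] E')]
  rfl

/-- In an unramified Galois extension the inertia group is trivial. -/
theorem inertia_eq_bot [IsGalois E E'] (h : IsUnramified q E E') :
    (IsLocalRing.maximalIdeal (intRing q E')).inertia (E' ≃ₐ[E] E') = ⊥ := by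
  have h1 := card_inertia q E E'
  rw [(isUnramified_iff q E E').mp h] at h1
  exact Subgroup.eq_bot_of_card_eq _ h1


/-- Iterating a Frobenius: `φ ^ m x ≡ x ^ (Q ^ m)` modulo `𝔪'`. -/
theorem mk_pow_smul {φ : E' ≃ₐ[E] E'} (hφ : IsFrob q E E' φ) (m : ℕ) (x : intRing q E') :
    Ideal.Quotient.mk (IsLocalRing.maximalIdeal (intRing q E')) ((φ ^ m) • x) =
      (Ideal.Quotient.mk (IsLocalRing.maximalIdeal (intRing q E')) x) ^ (resCard q E ^ m) := by
  have hφ' := (isFrob_iff q E E' φ).mp hφ
  have hcard : Nat.card (intRing q E ⧸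
      (IsLocalRing.maximalIdeal (intRing q E')).under (intRing q E)) = resCard q E := by
    rw [under_maximalIdeal, resCard_eq_card]
  have h1 : ∀ y : intRing q E', Ideal.Quotient.mk (IsLocalRing.maximalIdeal (intRing q E'))
      (φ • y) = (Ideal.Quotient.mk (IsLocalRing.maximalIdeal (intRing q E')) y) ^
        resCard q E := by
    intro y
    have := hφ' y
    rw [hcard] at this
    rw [← map_pow, Ideal.Quotient.eq]
    exact this
  induction m generalizing x with
  | zero => simp
  | succ m ih =>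
    rw [pow_succ, mul_smul, ih, h1, ← pow_mul, ← pow_succ']

theorem isFrob_pow_apply {φ : E' ≃ₐ[E] E'} (hφ : IsFrob q E E' φ) (m : ℕ) (x : intRing q E') :
    (φ ^ m) • x - x ^ (resCard q E ^ m) ∈ IsLocalRing.maximalIdeal (intRing q E') := by
  rw [← Ideal.Quotient.eq, map_pow]
  exact mk_pow_smul q E E' hφ m x

/-- `φ ^ f` lies in the inertia group. -/
theorem frob_pow_resDeg_mem_inertia {φ : E' ≃ₐ[E] E'} (hφ : IsFrob q E E' φ) :
    φ ^ resDeg q E E' ∈ (IsLocalRing.maximalIdeal (intRing q E')).inertia (E' ≃ₐ[E] E') := by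
  intro x
  show (φ ^ resDeg q E E') • x - x ∈ IsLocalRing.maximalIdeal (intRing q E')
  rw [← Ideal.Quotient.eq, mk_pow_smul q E E' hφ, ← resCard_tower, resCard_eq_card]
  let _ := Ideal.Quotient.field (IsLocalRing.maximalIdeal (intRing q E'))
  have := Fintype.ofFinite (intRing q E' ⧸ IsLocalRing.maximalIdeal (intRing q E'))
  rw [Nat.card_eq_fintype_card]
  exact FiniteField.pow_card _

/-- If `φ ^ m = 1` for a Frobenius `φ` and `0 < m` then `f ≤ m`. -/
theorem resDeg_le_of_frob_pow_eq_one {φ : E' ≃ₐ[E] E'} (hφ : IsFrob q E E' φ) {m : ℕ}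
    (hm : 0 < m) (h : φ ^ m = 1) : resDeg q E E' ≤ m := by
  let _ := Ideal.Quotient.field (IsLocalRing.maximalIdeal (intRing q E'))
  have := Fintype.ofFinite (intRing q E' ⧸ IsLocalRing.maximalIdeal (intRing q E'))
  classical
  have hroot : ∀ y : intRing q E' ⧸ IsLocalRing.maximalIdeal (intRing q E'),
      y ^ (resCard q E ^ m) = y := by
    intro y
    obtain ⟨x, rfl⟩ := Ideal.Quotient.mk_surjective y
    rw [← mk_pow_smul q E E' hφ, h, one_smul]
  have hQ : 1 < resCard q E := one_lt_resCard q E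
  have hdeg := FiniteField.X_pow_card_pow_sub_X_natDegree_eq
    (intRing q E' ⧸ IsLocalRing.maximalIdeal (intRing q E')) hm.ne' hQ
  have hne := FiniteField.X_pow_card_pow_sub_X_ne_zero
    (intRing q E' ⧸ IsLocalRing.maximalIdeal (intRing q E')) hm.ne' hQ
  have hsub : (Finset.univ : Finset (intRing q E' ⧸
      IsLocalRing.maximalIdeal (intRing q E'))).val ⊆
      (Polynomial.X ^ resCard q E ^ m - Polynomial.X :
        Polynomial (intRing q E' ⧸ IsLocalRing.maximalIdeal (intRing q E'))).roots := by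
    intro y _
    rw [Polynomial.mem_roots hne]
    simp [hroot y]
  have hle := Polynomial.card_le_degree_of_subset_roots hsub
  rw [hdeg, Finset.card_univ, ← Nat.card_eq_fintype_card, ← resCard_eq_card, resCard_tower q E E']
    at hle
  exact (Nat.pow_le_pow_iff_right hQ).mp hle

variable [IsGalois E E']

/-- In an unramified Galois extension of degree `n` a Frobenius has order `n`. -/
theorem orderOf_frob (h : IsUnramified q E E') {φ : E' ≃ₐ[E] E'} (hφ : IsFrob q E E' φ) :
    orderOf φ = Module.finrank E E' := by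
  have := finite_gal q E E'
  have hf : resDeg q E E' = Module.finrank E E' := resDeg_eq_finrank_of_isUnramified q E E' h
  have h1 : φ ^ Module.finrank E E' = 1 := by
    have := frob_pow_resDeg_mem_inertia q E E' hφ
    rwa [inertia_eq_bot q E E' h, Subgroup.mem_bot, hf] at this
  have h2 : orderOf φ ∣ Module.finrank E E' := orderOf_dvd_of_pow_eq_one h1
  have h3 : Module.finrank E E' ≤ orderOf φ := by
    rw [← hf]
    exact resDeg_le_of_frob_pow_eq_one q E E' hφ (orderOf_pos φ) (pow_orderOf_eq_one φ)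
  have hpos : 0 < Module.finrank E E' := by
    rw [← hf]; exact resDeg_pos q E E'
  exact le_antisymm (Nat.le_of_dvd hpos h2) h3

/-- In an unramified Galois extension the Galois group is generated by any Frobenius. -/
theorem mem_zpowers_frob (h : IsUnramified q E E') {φ : E' ≃ₐ[E] E'} (hφ : IsFrob q E E' φ)
    (σ : E' ≃ₐ[E] E') : σ ∈ Subgroup.zpowers φ := by
  have := finite_gal q E E'
  have := finiteDimensional_tower q E E'
  have h1 : Subgroup.zpowers φ = ⊤ := by
    apply Subgroup.eq_top_of_card_eq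
    rw [Nat.card_zpowers, orderOf_frob q E E' h hφ, IsGalois.card_aut_eq_finrank]
  rw [h1]
  exact Subgroup.mem_top σ

/-- In an unramified Galois extension the Frobenius is unique. -/
theorem isFrob_unique (h : IsUnramified q E E') {φ ψ : E' ≃ₐ[E] E'} (hφ : IsFrob q E E' φ)
    (hψ : IsFrob q E E' ψ) : φ = ψ := by
  have h1 := IsArithFrobAt.mul_inv_mem_inertia ((isFrob_iff q E E' φ).mp hφ)
    ((isFrob_iff q E E' ψ).mp hψ)
  rw [inertia_eq_bot q E E' h, Subgroup.mem_bot] at h1
  exact mul_inv_eq_one.mp h1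

/-- Unramified Galois extensions are cyclic. -/
theorem isCyclic_of_isUnramified (h : IsUnramified q E E') : IsCyclic (E' ≃ₐ[E] E') := by
  obtain ⟨φ, hφ⟩ := exists_isFrob q E E'
  exact ⟨φ, mem_zpowers_frob q E E' h hφ⟩

end Two

/-- (UN3) rigidity. -/
theorem unramRigidStatement : UnramDef12.UnramRigidStatement q := by
  intro E E₁ _ _ _ _ _ _ _ _ _ hur σ τ h
  obtain ⟨π, hπ⟩ := exists_isUniformizer q E₁
  have hmem : τ⁻¹ * σ ∈ (IsLocalRing.maximalIdeal (intRing q E₁)).inertia (E₁ ≃ₐ[E] E₁) := by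
    intro x
    have h1 := h π hπ x x.2
    have h2 : (σ • x - τ • x : intRing q E₁) ∈ IsLocalRing.maximalIdeal (intRing q E₁) :=
      (mul_inv_mem_intRing_iff q E₁ hπ _).mp (by simpa using h1)
    have h3 : τ⁻¹ • (σ • x - τ • x : intRing q E₁) ∈
        IsLocalRing.maximalIdeal (intRing q E₁) := by
      rw [IsLocalRing.mem_maximalIdeal, mem_nonunits_iff] at h2 ⊢
      intro hu
      apply h2
      have := hu.map (MulSemiringAction.toRingHom (E₁ ≃ₐ[E] E₁) (intRing q E₁) τ)
      simpa using this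
    rw [smul_sub, inv_smul_smul, ← mul_smul] at h3
    exact h3
  rw [inertia_eq_bot q E E₁ hur, Subgroup.mem_bot] at hmem
  have := congrArg (fun g => τ * g) hmem
  simpa using this

end

end Fermat.Agent.PT.LOC.Frob27
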