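/-
Program F (S55, Poitou–Tate), chapter LOC, leaf (ST-b) — helper27.

The two input `Prop`s of `UnramDef12` assigned to (ST-b), proved verbatim:
* `resCardStatement : UnramDef12.ResCardStatement q`;
* `ramResStatement : UnramDef12.RamResStatement q` (with `e = ramIdx q E E'`, `f = resDeg q E E'`).
-/
import Mathlib
import Fermat.Agent.PT.LOC.Interface12
import Fermat.Agent.PT.LOC.Structure14
import Fermat.Agent.PT.LOC.UnramDef12
import Fermat.Agent.PT.LOC.StructureTower27
import Fermat.Agent.PT.LOC.StructureTowerEF27

set_option autoImplicit false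

namespace Fermat.Agent.PT.LOC.RamRes27

open Fermat.Agent.PT.LOC.Interface12 Fermat.Agent.PT.LOC.Structure14
  Fermat.Agent.PT.LOC.StructureTower27 Fermat.Agent.PT.LOC.StructureTowerEF27

variable (q : ℕ) [Fact q.Prime]

theorem resCardStatement : UnramDef12.ResCardStatement q := by
  intro E _ _ _
  exact one_lt_resCard q E

theorem ramResStatement : UnramDef12.RamResStatement q := by
  intro E E' _ _ _ _ _ _ _ _
  exact ⟨ramIdx q E E', resDeg q E E', ramIdx_pos q E E', resDeg_pos q E E',
    ramIdx_mul_resDeg q E E', resCard_tower q E E', ord_algebraMap q E E'⟩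

end Fermat.Agent.PT.LOC.RamRes27
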