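/-
Program F (S55), chapter LOC, helper12: inflation–restriction in degree 2 for towers of fields
`E ⊆ E' ⊆ N` (with Hilbert 90), from the flexible group-theoretic statement of FG
(`InfResFlex19.infRes2_flex`).
-/
import Mathlib
import Fermat.Agent.PT.LOC.Interface12
import Fermat.Agent.PT.LOC.TowerCoh12
import Fermat.Agent.PT.FG.InfResFlex19

set_option autoImplicit false
set_option linter.unusedSectionVars false

open CategoryTheory groupCohomology

namespace Fermat.Agent.PT.LOC.TowerInfRes12

open Fermat.Agent.PT.LOC.Interface12 Fermat.Agent.PT.LOC.TowerCoh12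

noncomputable section

/-- The flexible form of inflation–restriction in degree 2 (FG chapter, `InfResFlex19`). -/
def InfResFlexStatement : Prop :=
  ∀ {k G Q S : Type} [CommRing k] [Group G] [Group Q] [Group S] (ι : S →* G) (π : G →* Q)
    (_ : Function.Injective ι) (_ : Function.Surjective π) (_ : ι.range = π.ker)
    (B : Rep k Q) (A : Rep k G) (C : Rep k S) (φ : Rep.res π B ⟶ A) (ψ : Rep.res ι A ⟶ C)
    (_ : Function.Bijective ψ.hom) (_ : Function.Injective φ.hom)
    (_ : ∀ a : A, (∀ s : S, A.ρ (ι s) a = a) → ∃ b : B, φ.hom b = a)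
    (_ : ∀ f : cocycles₁ C, ∃ c : C, ∀ s : S, f s = C.ρ s c - c),
    Function.Injective (groupCohomology.map π φ 2) ∧
      ∀ x : H2 A, groupCohomology.map ι ψ 2 x = 0 → ∃ y : H2 B, groupCohomology.map π φ 2 y = x

/-- `InfResFlexStatement` holds (helper19's `InfResFlex19.infRes2_flex`). -/
theorem infResFlexStatement : InfResFlexStatement :=
  fun ι π hι hπ hex B A C φ ψ hψ hφ hφim h1 =>
    Fermat.Agent.PT.FG.InfResFlex19.infRes2_flex ι π hι hπ hex B A C φ ψ hψ hφ hφim h1

section Tower

variable (E E' N : Type) [Field E] [Field E'] [Field N] [Algebra E E'] [Algebra E N]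
  [Algebra E' N] [IsScalarTower E E' N] [FiniteDimensional E N] [IsGalois E N]
  [FiniteDimensional E E'] [IsGalois E E']

theorem galIncl_injective : Function.Injective (galIncl E E' N) := by
  intro σ τ h
  ext x
  have := congrArg (fun f : N ≃ₐ[E] N => f x) h
  exact this

theorem range_galIncl :
    (galIncl E E' N).range = (AlgEquiv.restrictNormalHom (F := E) (K₁ := N) E').ker := by
  ext σ
  rw [MonoidHom.mem_range, MonoidHom.mem_ker]
  constructor
  · rintro ⟨τ, rfl⟩
    ext x
    apply (algebraMap E' N).injective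
    change algebraMap E' N ((galIncl E E' N τ).restrictNormal E' x) = algebraMap E' N x
    rw [AlgEquiv.restrictNormal_commutes]
    exact τ.commutes x
  · intro h
    have hfix : ∀ x : E', σ (algebraMap E' N x) = algebraMap E' N x := by
      intro x
      have h1 := AlgEquiv.restrictNormal_commutes σ E' x
      have h2 : σ.restrictNormal E' = 1 := h
      rw [h2] at h1
      exact h1.symm
    refine ⟨{ σ with commutes' := hfix }, ?_⟩
    ext x
    rfl

/-- Hilbert 90 in cocycle form. -/
theorem hilbert90_cocycle (K L : Type) [Field K] [Field L] [Algebra K L] [FiniteDimensional K L]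
    (f : cocycles₁ (unitsRep K L)) :
    ∃ c : unitsRep K L, ∀ s : L ≃ₐ[K] L, f s = (unitsRep K L).ρ s c - c := by
  have h0 : H1π (unitsRep K L) f = 0 := Subsingleton.elim _ _
  rw [H1π_eq_zero_iff] at h0
  obtain ⟨c, hc⟩ := h0
  refine ⟨c, fun s => ?_⟩
  have := congrFun hc s
  exact this.symm

theorem infHom_injective : Function.Injective (infHom E E' N).hom := by
  intro a b h
  rw [infHom_hom_apply, infHom_hom_apply] at h
  have h1 : ((toU E N (unitsUp E E' N a) : Nˣ) : N) = ((toU E N (unitsUp E E' N b) : Nˣ) : N) := by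
    rw [h]
  have h2 : algebraMap E' N ((toU E E' a : E'ˣ) : E') = algebraMap E' N ((toU E E' b : E'ˣ) : E') :=
    h1
  have h3 := (algebraMap E' N).injective h2
  have h4 : toU E E' a = toU E E' b := Units.ext h3
  have := congrArg (ofU E E') h4
  rwa [ofU_toU, ofU_toU] at this

theorem exists_infHom_eq_of_fixed (a : unitsRep E N)
    (ha : ∀ s : N ≃ₐ[E'] N, (unitsRep E N).ρ (galIncl E E' N s) a = a) :
    ∃ b : unitsRep E E', (infHom E E' N).hom b = a := by
  have : FiniteDimensional E' N := FiniteDimensional.right E E' N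
  have : IsGalois E' N := IsGalois.tower_top_of_isGalois E E' N
  have hfix : ∀ s : N ≃ₐ[E'] N, s ((toU E N a : Nˣ) : N) = ((toU E N a : Nˣ) : N) := by
    intro s
    have h1 := congrArg (fun t => ((toU E N t : Nˣ) : N)) (ha s)
    exact h1
  obtain ⟨y, hy⟩ := (IsGalois.mem_range_algebraMap_iff_fixed (F := E') (E := N) _).mpr hfix
  have hy0 : y ≠ 0 := by
    rintro rfl
    rw [map_zero] at hy
    exact (toU E N a).ne_zero hy.symm
  refine ⟨ofU E E' (Units.mk0 y hy0), ?_⟩
  have h4 : toU E N ((infHom E E' N).hom (ofU E E' (Units.mk0 y hy0))) = toU E N a :=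
    Units.ext hy
  have := congrArg (ofU E N) h4
  rwa [ofU_toU, ofU_toU] at this

theorem infRes_tower (h : InfResFlexStatement) :
    Function.Injective (infH2 E E' N) ∧
      ∀ x : H2 (unitsRep E N), resH2 E E' N x = 0 → ∃ y : H2 (unitsRep E E'), infH2 E E' N y = x := by
  have : FiniteDimensional E' N := FiniteDimensional.right E E' N
  exact h (galIncl E E' N) (AlgEquiv.restrictNormalHom (F := E) (K₁ := N) E')
    (galIncl_injective E E' N) (AlgEquiv.restrictNormalHom_surjective N)
    (range_galIncl E E' N) (unitsRep E E') (unitsRep E N) (unitsRep E' N) (infHom E E' N)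
    (resHom E E' N) Function.bijective_id (infHom_injective E E' N)
    (exists_infHom_eq_of_fixed E E' N) (hilbert90_cocycle E' N)

theorem infH2_injective : Function.Injective (infH2 E E' N) :=
  (infRes_tower E E' N infResFlexStatement).1

theorem exists_infH2_eq_of_resH2_eq_zero (x : H2 (unitsRep E N)) (hx : resH2 E E' N x = 0) :
    ∃ y : H2 (unitsRep E E'), infH2 E E' N y = x :=
  (infRes_tower E E' N infResFlexStatement).2 x hx

end Tower

end

end Fermat.Agent.PT.LOC.TowerInfRes12
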