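/-
Program F (S55), chapter LOC, helper12: fundamental classes, abstract part.

* unramified classes `ukappa φ π` (`φ` Frobenius, `π` uniformizer): independence of `π`, order;
* restriction of an inflated unramified class (`res_inf_unram`);
* Step 1 (existence of a class with prescribed inflation, from inflation–restriction);
* Step 2 (change of frame).
Conditional only on `UnitsNormStatement` (units are norms in unramified extensions).
-/
import Mathlib
import Fermat.Agent.PT.LOC.Interface12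
import Fermat.Agent.PT.LOC.Structure14
import Fermat.Agent.PT.LOC.UnramDef12
import Fermat.Agent.PT.LOC.TowerCoh12
import Fermat.Agent.PT.LOC.TowerInfRes12
import Fermat.Agent.PT.LOC.Frob27
import Fermat.Agent.PT.LOC.FrobRestrict14
import Fermat.Agent.PT.LOC.RamRes27
import Fermat.Agent.PT.LOC.StructureTowerEF27

set_option autoImplicit false
set_option linter.unusedSectionVars false

open CategoryTheory groupCohomology

namespace Fermat.Agent.PT.LOC.FundAbstract12

open Fermat.Agent.PT.LOC.Interface12 Fermat.Agent.PT.LOC.Structure14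
  Fermat.Agent.PT.LOC.UnramDef12 Fermat.Agent.PT.LOC.TowerCoh12
  Fermat.Agent.PT.LOC.TowerInfRes12 Fermat.Agent.PT.LOC.CyclicH2_12
  Fermat.Agent.PT.LOC.StructureTowerEF27 Fermat.Agent.PT.LOC.Frob27

noncomputable section

variable (q : ℕ) [Fact q.Prime]

/-- (UN-R) holds. -/
theorem frobRestrictStatement : FrobRestrictStatement q :=
  Fermat.Agent.PT.LOC.FrobRestrict14.frobRestrict_of q
    (Fermat.Agent.PT.LOC.Frob27.unramRigidStatement q)

/-! ### A. Unramified classes -/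

section Unram

variable (E E₁ : Type) [Field E] [Field E₁] [Algebra ℚ_[q] E] [Algebra ℚ_[q] E₁] [Algebra E E₁]
  [IsScalarTower ℚ_[q] E E₁] [FiniteDimensional ℚ_[q] E] [FiniteDimensional ℚ_[q] E₁]
  [FiniteDimensional E E₁] [IsGalois E E₁]

variable {E E₁} in
/-- The unramified class `κ(φ, a)`, `φ` a Frobenius of the unramified extension `E₁/E`. -/
def uclass (hur : IsUnramified q E E₁) {φ : E₁ ≃ₐ[E] E₁} (hF : IsFrob q E E₁ φ) (a : Eˣ) :
    H2 (unitsRep E E₁) :=
  ukappa φ (Fermat.Agent.PT.LOC.Frob27.mem_zpowers_frob q E E₁ hur hF) a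

variable {E E₁}
variable (hur : IsUnramified q E E₁) {φ : E₁ ≃ₐ[E] E₁} (hF : IsFrob q E E₁ φ)

theorem uclass_mul (a b : Eˣ) :
    uclass q hur hF (a * b) = uclass q hur hF a + uclass q hur hF b :=
  ukappa_mul _ _ a b

theorem uclass_pow (a : Eˣ) (k : ℕ) : uclass q hur hF (a ^ k) = k • uclass q hur hF a :=
  ukappa_pow _ _ a k

theorem uclass_eq_zero_iff (a : Eˣ) :
    uclass q hur hF a = 0 ↔ ∃ y : E₁ˣ, Algebra.norm E (y : E₁) = (a : E) :=
  ukappa_eq_zero_iff E E₁ _ _ a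

theorem uclass_frob_indep {ψ : E₁ ≃ₐ[E] E₁} (hG : IsFrob q E E₁ ψ) (a : Eˣ) :
    uclass q hur hF a = uclass q hur hG a := by
  have h := Fermat.Agent.PT.LOC.Frob27.isFrob_unique q E E₁ hur hF hG
  subst h
  rfl

theorem uclass_unit (hUN : UnitsNormStatement q) {u : Eˣ} (hu : u ∈ unitGroup q E) :
    uclass q hur hF u = 0 := by
  rw [uclass_eq_zero_iff]
  exact hUN E E₁ hur u hu

theorem uclass_unif_indep (hUN : UnitsNormStatement q) {π π' : Eˣ}
    (hπ : IsUniformizer q E (π : E)) (hπ' : IsUniformizer q E (π' : E)) :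
    uclass q hur hF π = uclass q hur hF π' := by
  have hu : π⁻¹ * π' ∈ unitGroup q E := by
    rw [mem_unitGroup_iff_ord, ord_mul, ord_inv, (isUniformizer_iff_ord q E π).1 hπ,
      (isUniformizer_iff_ord q E π').1 hπ']
    ring
  have h1 : π' = π * (π⁻¹ * π') := by group
  rw [h1, uclass_mul, uclass_unit q hur hF hUN hu, add_zero]

theorem uclass_nsmul_finrank {π : Eˣ} : Module.finrank E E₁ • uclass q hur hF π = 0 := by
  rw [← uclass_pow, uclass_eq_zero_iff]
  refine ⟨Units.map (algebraMap E E₁ : E →* E₁) π, ?_⟩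
  rw [Units.coe_map, MonoidHom.coe_coe, Algebra.norm_algebraMap, Units.val_pow_eq_pow_val]

theorem dvd_of_nsmul_uclass_eq_zero {π : Eˣ} (hπ : IsUniformizer q E (π : E)) {k : ℕ}
    (hk : k • uclass q hur hF π = 0) : Module.finrank E E₁ ∣ k := by
  rw [← uclass_pow, uclass_eq_zero_iff] at hk
  obtain ⟨y, hy⟩ := hk
  have h1 := Fermat.Agent.PT.LOC.FrobRestrict14.unramNormOrd q E E₁ hur y (π ^ k) hy
  rw [ord_pow, (isUniformizer_iff_ord q E π).1 hπ, mul_one] at h1
  exact_mod_cast h1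

theorem addOrderOf_uclass {π : Eˣ} (hπ : IsUniformizer q E (π : E)) :
    addOrderOf (uclass q hur hF π) = Module.finrank E E₁ := by
  apply Nat.dvd_antisymm
  · exact addOrderOf_dvd_of_nsmul_eq_zero (uclass_nsmul_finrank q hur hF)
  · exact dvd_of_nsmul_uclass_eq_zero q hur hF hπ (addOrderOf_nsmul_eq_zero _)

end Unram

/-! ### B. Restriction of an inflated unramified class -/

section ResInfUnram

variable (E E' E₁ N : Type) [Field E] [Field E'] [Field E₁] [Field N] [Algebra ℚ_[q] E]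
  [Algebra ℚ_[q] E'] [Algebra ℚ_[q] E₁] [Algebra ℚ_[q] N] [Algebra E E'] [Algebra E E₁]
  [Algebra E N] [Algebra E' N] [Algebra E₁ N] [IsScalarTower ℚ_[q] E E']
  [IsScalarTower ℚ_[q] E E₁] [IsScalarTower ℚ_[q] E N] [IsScalarTower E E' N]
  [IsScalarTower E E₁ N] [IsScalarTower ℚ_[q] E' N] [FiniteDimensional ℚ_[q] E]
  [FiniteDimensional ℚ_[q] E'] [FiniteDimensional ℚ_[q] E₁] [FiniteDimensional ℚ_[q] N]
  [FiniteDimensional E E₁] [FiniteDimensional E' N] [IsGalois E E₁] [IsGalois E' N]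

variable {E E' E₁ N}
variable (hur₁ : IsUnramified q E E₁) (hurN : IsUnramified q E' N)
  {φ₁ : E₁ ≃ₐ[E] E₁} (hF₁ : IsFrob q E E₁ φ₁) {φ' : N ≃ₐ[E'] N} (hF' : IsFrob q E' N φ')

theorem res_inf_uclass (hdeg : resDeg q E E' * Module.finrank E' N = Module.finrank E E₁)
    (a : Eˣ) :
    resH2 E E' N (infH2 E E₁ N (uclass q hur₁ hF₁ a)) =
      uclass q hurN hF' (Units.map (algebraMap E E' : E →* E') a) := by
  unfold uclass
  apply resH2_infH2_ukappa E E' E₁ N φ₁ _ φ' _ (d := resDeg q E E')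
  · exact frobRestrictStatement q E E' E₁ N hur₁ hurN φ₁ φ' hF₁ hF' _ (resCard_tower q E E')
  · rw [orderOf_frob q E' N hurN hF', orderOf_frob q E E₁ hur₁ hF₁, hdeg]

theorem uclass_map_unif (hUN : UnitsNormStatement q) {π : Eˣ} (hπ : IsUniformizer q E (π : E))
    {π' : E'ˣ} (hπ' : IsUniformizer q E' (π' : E')) :
    uclass q hurN hF' (Units.map (algebraMap E E' : E →* E') π) =
      ramIdx q E E' • uclass q hurN hF' π' := by
  have hord : ord q E' (Units.map (algebraMap E E' : E →* E') π) = ramIdx q E E' := by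
    rw [ord_algebraMap, (isUniformizer_iff_ord q E π).1 hπ, mul_one]
  have hu : (π' ^ ramIdx q E E')⁻¹ * Units.map (algebraMap E E' : E →* E') π ∈
      unitGroup q E' := by
    rw [mem_unitGroup_iff_ord, ord_mul, ord_inv, ord_pow, hord,
      (isUniformizer_iff_ord q E' π').1 hπ']
    ring
  have h1 : Units.map (algebraMap E E' : E →* E') π =
      π' ^ ramIdx q E E' * ((π' ^ ramIdx q E E')⁻¹ * Units.map (algebraMap E E' : E →* E') π) := by
    group
  rw [h1, uclass_mul, uclass_unit q hurN hF' hUN hu, add_zero, uclass_pow]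

theorem res_inf_unram (hUN : UnitsNormStatement q)
    (hdeg : resDeg q E E' * Module.finrank E' N = Module.finrank E E₁)
    {π : Eˣ} (hπ : IsUniformizer q E (π : E)) {π' : E'ˣ} (hπ' : IsUniformizer q E' (π' : E')) :
    resH2 E E' N (infH2 E E₁ N (uclass q hur₁ hF₁ π)) = ramIdx q E E' • uclass q hurN hF' π' := by
  rw [res_inf_uclass q hur₁ hurN hF₁ hF' hdeg, uclass_map_unif q hurN hF' hUN hπ hπ']

include hurN hF' in
/-- Step 1, vanishing: if `[N : E'] = e(E'/E)` the restricted class is zero. -/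
theorem res_inf_unram_eq_zero (hUN : UnitsNormStatement q)
    (hdeg : resDeg q E E' * Module.finrank E' N = Module.finrank E E₁)
    (hNe : Module.finrank E' N = ramIdx q E E')
    {π : Eˣ} (hπ : IsUniformizer q E (π : E)) :
    resH2 E E' N (infH2 E E₁ N (uclass q hur₁ hF₁ π)) = 0 := by
  obtain ⟨π', hπ'⟩ := exists_isUniformizer q E'
  rw [res_inf_unram q hur₁ hurN hF₁ hF' hUN hdeg hπ hπ', ← hNe]
  exact uclass_nsmul_finrank q hurN hF'

end ResInfUnram

/-! ### C. Step 1: existence of a class with prescribed inflation -/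

section Step1

variable (E E' E₁ N : Type) [Field E] [Field E'] [Field E₁] [Field N] [Algebra ℚ_[q] E]
  [Algebra ℚ_[q] E'] [Algebra ℚ_[q] E₁] [Algebra ℚ_[q] N] [Algebra E E'] [Algebra E E₁]
  [Algebra E N] [Algebra E' N] [Algebra E₁ N] [IsScalarTower ℚ_[q] E E']
  [IsScalarTower ℚ_[q] E E₁] [IsScalarTower ℚ_[q] E N] [IsScalarTower E E' N]
  [IsScalarTower E E₁ N] [IsScalarTower ℚ_[q] E' N] [FiniteDimensional ℚ_[q] E]
  [FiniteDimensional ℚ_[q] E'] [FiniteDimensional ℚ_[q] E₁] [FiniteDimensional ℚ_[q] N]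
  [FiniteDimensional E E₁] [FiniteDimensional E' N] [IsGalois E E₁] [IsGalois E' N]
  [FiniteDimensional E E'] [IsGalois E E'] [FiniteDimensional E N] [IsGalois E N]

variable {E E' E₁ N}

theorem exists_class_of_frame (hUN : UnitsNormStatement q)
    (hur₁ : IsUnramified q E E₁) (hurN : IsUnramified q E' N)
    {φ₁ : E₁ ≃ₐ[E] E₁} (hF₁ : IsFrob q E E₁ φ₁) {φ' : N ≃ₐ[E'] N} (hF' : IsFrob q E' N φ')
    (hdeg : resDeg q E E' * Module.finrank E' N = Module.finrank E E₁)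
    (hNe : Module.finrank E' N = ramIdx q E E')
    {π : Eˣ} (hπ : IsUniformizer q E (π : E)) :
    ∃ u : H2 (unitsRep E E'), infH2 E E' N u = infH2 E E₁ N (uclass q hur₁ hF₁ π) :=
  exists_infH2_eq_of_resH2_eq_zero E E' N _
    (res_inf_unram_eq_zero q hur₁ hurN hF₁ hF' hUN hdeg hNe hπ)

end Step1

/-! ### D. Fundamental classes: the characterisation -/

section IsFund

/-- `u ∈ H²(Gal(E'/E), E'ˣ)` is a fundamental class: for every finite Galois `N/E` containing `E'`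
and an unramified `E₁/E` of degree `k [E' : E]`, `Inf u = k • Inf (κ(Frob, π))`. -/
def IsFund (E E' : Type) [Field E] [Field E'] [Algebra ℚ_[q] E] [Algebra ℚ_[q] E']
    [Algebra E E'] [IsScalarTower ℚ_[q] E E'] [FiniteDimensional ℚ_[q] E]
    [FiniteDimensional ℚ_[q] E'] [FiniteDimensional E E'] [IsGalois E E']
    (u : H2 (unitsRep E E')) : Prop :=
  ∀ (E₁ N : Type) [Field E₁] [Field N] [Algebra ℚ_[q] E₁] [Algebra ℚ_[q] N] [Algebra E E₁]
    [Algebra E N] [Algebra E' N] [Algebra E₁ N] [IsScalarTower ℚ_[q] E E₁]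
    [IsScalarTower ℚ_[q] E N] [IsScalarTower E E' N] [IsScalarTower E E₁ N]
    [FiniteDimensional ℚ_[q] E₁] [FiniteDimensional ℚ_[q] N] [FiniteDimensional E E₁]
    [FiniteDimensional E N] [IsGalois E E₁] [IsGalois E N]
    (hur : IsUnramified q E E₁) (φ₁ : E₁ ≃ₐ[E] E₁) (hF : IsFrob q E E₁ φ₁) (π : Eˣ)
    (_ : IsUniformizer q E (π : E)) (k : ℕ) (_ : Module.finrank E E₁ = k * Module.finrank E E'),
    infH2 E E' N u = k • infH2 E E₁ N (uclass q hur hF π)

end IsFund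

/-! ### E. Step 2: change of frame -/

section Step2

variable (E E' E₀ N₀ E₁ N : Type) [Field E] [Field E'] [Field E₀] [Field N₀] [Field E₁] [Field N]
  [Algebra ℚ_[q] E] [Algebra ℚ_[q] E'] [Algebra ℚ_[q] E₀] [Algebra ℚ_[q] E₁]
  [Algebra E E'] [Algebra E E₀] [Algebra E N₀] [Algebra E E₁] [Algebra E N]
  [Algebra E' N₀] [Algebra E' N] [Algebra E₀ N₀] [Algebra E₀ N] [Algebra E₀ E₁]
  [Algebra E₁ N] [Algebra N₀ N]
  [IsScalarTower ℚ_[q] E E'] [IsScalarTower ℚ_[q] E E₀] [IsScalarTower ℚ_[q] E E₁]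
  [IsScalarTower E E' N₀] [IsScalarTower E E₀ N₀] [IsScalarTower E E' N] [IsScalarTower E E₁ N]
  [IsScalarTower E' N₀ N] [IsScalarTower E N₀ N] [IsScalarTower E₀ N₀ N] [IsScalarTower E E₀ N]
  [IsScalarTower E E₀ E₁] [IsScalarTower E₀ E₁ N]
  [FiniteDimensional ℚ_[q] E] [FiniteDimensional ℚ_[q] E'] [FiniteDimensional ℚ_[q] E₀]
  [FiniteDimensional ℚ_[q] E₁]
  [FiniteDimensional E E'] [FiniteDimensional E E₀] [FiniteDimensional E E₁]
  [FiniteDimensional E N₀] [FiniteDimensional E N]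
  [IsGalois E E'] [IsGalois E E₀] [IsGalois E E₁] [IsGalois E N₀] [IsGalois E N]

variable {E E' E₀ N₀ E₁ N}

theorem frob_restrict_unram (hur₀ : IsUnramified q E E₀) (hur₁ : IsUnramified q E E₁)
    {φ₀ : E₀ ≃ₐ[E] E₀} (hF₀ : IsFrob q E E₀ φ₀) {φ₁ : E₁ ≃ₐ[E] E₁} (hF₁ : IsFrob q E E₁ φ₁) :
    AlgEquiv.restrictNormalHom (F := E) (K₁ := E₁) E₀ φ₁ = φ₀ := by
  have h := frobRestrictStatement q E E E₀ E₁ hur₀ hur₁ φ₀ φ₁ hF₀ hF₁ 1 (pow_one _).symm
  rw [pow_one] at h
  rw [← h]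
  congr 1

theorem frame_change (hUN : UnitsNormStatement q)
    (hur₀ : IsUnramified q E E₀) (hur₁ : IsUnramified q E E₁)
    {φ₀ : E₀ ≃ₐ[E] E₀} (hF₀ : IsFrob q E E₀ φ₀) {φ₁ : E₁ ≃ₐ[E] E₁} (hF₁ : IsFrob q E E₁ φ₁)
    {π₀ π : Eˣ} (hπ₀ : IsUniformizer q E (π₀ : E)) (hπ : IsUniformizer q E (π : E))
    {k : ℕ} (hk : Module.finrank E E₁ = k * Module.finrank E E₀)
    {u : H2 (unitsRep E E')}
    (hu : infH2 E E' N₀ u = infH2 E E₀ N₀ (uclass q hur₀ hF₀ π₀)) :
    infH2 E E' N u = k • infH2 E E₁ N (uclass q hur₁ hF₁ π) := by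
  rw [← infH2_infH2 E E' N₀ N u, hu, infH2_infH2 E E₀ N₀ N, ← infH2_infH2 E E₀ E₁ N]
  have h1 : infH2 E E₀ E₁ (uclass q hur₀ hF₀ π₀) = k • uclass q hur₁ hF₁ π₀ := by
    unfold uclass
    apply infH2_ukappa E E₀ E₁
    · exact frob_restrict_unram q hur₀ hur₁ hF₀ hF₁
    · rw [orderOf_frob q E E₁ hur₁ hF₁, orderOf_frob q E E₀ hur₀ hF₀, hk]
  rw [h1, map_nsmul, uclass_unif_indep q hur₁ hF₁ hUN hπ₀ hπ]

end Step2

end

end Fermat.Agent.PT.LOC.FundAbstract12
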