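/-
Program F (S55, Poitou–Tate), chapter LOC, leaf (UN) — helper11.

UNRAMIFIED EXTENSIONS of `q`-adic fields in the abstract model of `Interface12`.

For a finite Galois extension `E'/E` of `q`-adic fields, `𝒪 = intRing q E`, `𝔪 = mI q E` its maximal
ideal, `k = resF q E = 𝒪 ⧸ 𝔪` (a finite field with `resCard q E` elements):

* `Algebra.IsInvariant 𝒪 𝒪' Gal(E'/E)`, `smul_mI : σ • 𝔪' = 𝔪'`, `liesOver_mI`;
* `redHom q E E' : Gal(E'/E) →* Gal(k'/k)` (reduction), `redHom_mk`, `redHom_surjective`
  (Mathlib's `Ideal.Quotient.stabilizerHom_surjective`);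
* `resFrob q E E'` (the Frobenius `x ↦ x ^ Q` of `k'/k`), `redHom_eq_resFrob_iff_isFrob :
  redHom φ = resFrob ↔ IsFrob q E E' φ`, **`exists_isFrob`** (every finite Galois extension has a
  Frobenius);
* roots of unity of order `m` prime to `q`: `apply_eq_of_redHom_eq_one`,
  `redHom_injective_of_adjoin` (if `E' = E(S)`, `S ⊆ μ_m`, then `redHom` is injective),
  `isFrob_apply_root : φ ζ = ζ ^ Q`, `isFrob_pow_apply_root : (φ ^ j) ζ = ζ ^ (Q ^ j)`;
* `mem_zpowers_of_redHom_injective` (then every Frobenius generates the Galois group),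
  `finrank_eq_of_redHom_injective`, `resDeg_eq_finrank_resF`,
  `isUnramified_of_redHom_injective`, `redHom_injective_of_isUnramified`;
* the statements of `UnramDef12`, VERBATIM: **`unramRigidStatement : UnramRigidStatement q`**,
  **`unramSplittingStatement : UnramSplittingStatement q`**.
-/
import Mathlib
import Fermat.Agent.PT.LOC.Interface12
import Fermat.Agent.PT.LOC.Structure14
import Fermat.Agent.PT.LOC.StructureNorm14
import Fermat.Agent.PT.LOC.StructureTower27
import Fermat.Agent.PT.LOC.StructureTowerEF27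
import Fermat.Agent.PT.LOC.RootsUnity14
import Fermat.Agent.PT.LOC.UnramDef12
import Fermat.Agent.PT.LOC.RamRes27

set_option autoImplicit false
set_option linter.unusedSectionVars false

open scoped Fermat.Agent.PT.LOC.Interface12 Fermat.Agent.PT.LOC.StructureTower27
open Fermat.Agent.PT.LOC.Interface12 Fermat.Agent.PT.LOC.Structure14
  Fermat.Agent.PT.LOC.StructureNorm14 Fermat.Agent.PT.LOC.StructureTower27
  Fermat.Agent.PT.LOC.StructureTowerEF27 Fermat.Agent.PT.LOC.RootsUnity14
  Fermat.Agent.PT.LOC.UnramDef12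

namespace Fermat.Agent.PT.LOC.Unram11

noncomputable section

variable (q : ℕ) [Fact q.Prime] (E : Type) [Field E] [Algebra ℚ_[q] E] [FiniteDimensional ℚ_[q] E]
  (E' : Type) [Field E'] [Algebra ℚ_[q] E'] [FiniteDimensional ℚ_[q] E'] [Algebra E E']
  [IsScalarTower ℚ_[q] E E']

include q in
theorem finiteDimensional_tower : FiniteDimensional E E' :=
  Module.Finite.of_restrictScalars_finite ℚ_[q] E E'

open Pointwise

/-- The maximal ideal of the ring of integers. -/
abbrev mI : Ideal (intRing q E) := IsLocalRing.maximalIdeal (intRing q E)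

/-- The residue field of a `q`-adic field. -/
abbrev resF : Type := intRing q E ⧸ mI q E

instance field_resF : Field (resF q E) := Ideal.Quotient.field (mI q E)

instance finite_resF : Finite (resF q E) := by
  have h := finite_quot_maxId q E
  rwa [maxId_eq_maximalIdeal] at h

theorem card_resF : Nat.card (resF q E) = resCard q E := by
  rw [resCard_def, maxId_eq_maximalIdeal]

instance smulCommClass_intRing : SMulCommClass (E' ≃ₐ[E] E') (intRing q E) (intRing q E') where
  smul_comm σ a x := by
    apply Subtype.ext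
    rw [integralClosure.coe_smul, Algebra.smul_def, Algebra.smul_def]
    show σ (algebraMap E E' (a : E) * (x : E')) = algebraMap E E' (a : E) * σ (x : E')
    rw [map_mul, σ.commutes]

theorem coe_smul_intRing (σ : E' ≃ₐ[E] E') (x : intRing q E') :
    ((σ • x : intRing q E') : E') = σ (x : E') := rfl

instance isInvariant_intRing [IsGalois E E'] :
    Algebra.IsInvariant (intRing q E) (intRing q E') (E' ≃ₐ[E] E') where
  isInvariant x hx := by
    have := finiteDimensional_tower q E E'
    have h1 : (x : E') ∈ Set.range (algebraMap E E') := by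
      rw [← IntermediateField.mem_bot, IsGalois.mem_bot_iff_fixed]
      intro σ
      exact congrArg Subtype.val (hx σ)
    obtain ⟨a, ha⟩ := h1
    have ha' : a ∈ intRing q E := by
      rw [← algebraMap_mem_intRing_iff q E E', ha]; exact x.2
    exact ⟨⟨a, ha'⟩, Subtype.ext ha⟩

/-- `σ` preserves the maximal ideal of `𝒪'`. -/
theorem smul_mem_mI_iff (σ : E' ≃ₐ[E] E') (x : intRing q E') :
    σ • x ∈ mI q E' ↔ x ∈ mI q E' := by
  rw [mem_maximalIdeal_iff_snorm, mem_maximalIdeal_iff_snorm, coe_smul_intRing, snorm_galois]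

theorem smul_mI (σ : E' ≃ₐ[E] E') : σ • mI q E' = mI q E' := by
  ext x
  rw [Ideal.mem_pointwise_smul_iff_inv_smul_mem, smul_mem_mI_iff]

theorem stabilizer_mI : MulAction.stabilizer (E' ≃ₐ[E] E') (mI q E') = ⊤ := by
  ext σ
  simp only [MulAction.mem_stabilizer_iff, Subgroup.mem_top, iff_true]
  exact smul_mI q E E' σ

theorem mem_mI_algebraMap_iff (a : intRing q E) :
    algebraMap (intRing q E) (intRing q E') a ∈ mI q E' ↔ a ∈ mI q E := by
  rw [mem_maximalIdeal_iff_snorm, mem_maximalIdeal_iff_snorm, coe_algebraMap_intRing,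
    snorm_algebraMap_tower]

instance liesOver_mI : (mI q E').LiesOver (mI q E) :=
  ⟨by
    ext a
    rw [Ideal.under_def, Ideal.mem_comap, mem_mI_algebraMap_iff]⟩


/-- Elements of the maximal ideal are divisible by any uniformizer. -/
theorem mul_inv_mem_of_mem_mI {π : E} (hπ : IsUniformizer q E π) (y : intRing q E)
    (hy : y ∈ mI q E) : (y : E) * π⁻¹ ∈ intRing q E := by
  by_cases h0 : (y : E) = 0
  · rw [h0, zero_mul]; exact zero_mem _
  · refine hπ.2.2.2 _ y.2 ?_
    intro hinv
    rw [mem_maximalIdeal_iff_snorm] at hy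
    rw [mem_intRing_iff] at hinv
    change snorm q E (y : E)⁻¹ ≤ 1 at hinv
    rw [snorm_inv] at hinv
    have hpos : 0 < snorm q E (y : E) := snorm_pos q E h0
    have : 1 ≤ snorm q E (y : E) := by
      rwa [inv_le_one₀ hpos] at hinv
    linarith

/-- Conversely, multiples of a uniformizer have norm `< 1`. -/
theorem snorm_lt_one_of_mul_inv_mem {π : E} (hπ : IsUniformizer q E π) (y : E)
    (hy : y * π⁻¹ ∈ intRing q E) : snorm q E y < 1 := by
  have h1 : snorm q E (y * π⁻¹) ≤ 1 := (mem_intRing_iff q E _).1 hy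
  rw [snorm_mul, snorm_inv] at h1
  have hπ1 : snorm q E π < 1 := snorm_uniformizer_lt_one q E π hπ
  have hπ0 : 0 < snorm q E π := snorm_pos q E hπ.2.1
  have : snorm q E y ≤ snorm q E π := by
    rwa [← div_eq_mul_inv, div_le_one hπ0] at h1
  linarith


instance algebra_resF : Algebra (resF q E) (resF q E') :=
  Ideal.Quotient.algebraOfLiesOver (mI q E') (mI q E)

instance module_resF : Module (resF q E) (resF q E') := Algebra.toModule

instance fintype_resF : Fintype (resF q E) := Fintype.ofFinite _

instance moduleFinite_resF : Module.Finite (resF q E) (resF q E') := Module.Finite.of_finite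

theorem fintypeCard_resF : Fintype.card (resF q E) = resCard q E := by
  rw [Fintype.card_eq_nat_card, card_resF]

/-! ### Reduction of Galois automorphisms -/

section Red

variable [IsGalois E E']

/-- Reduction `Gal(E'/E) → Gal(k'/k)`. -/
def redHom : (E' ≃ₐ[E] E') →* (resF q E' ≃ₐ[resF q E] resF q E') :=
  (Ideal.Quotient.stabilizerHom (mI q E') (mI q E) (E' ≃ₐ[E] E')).comp
    ((MonoidHom.id (E' ≃ₐ[E] E')).codRestrict _ (fun σ => smul_mI q E E' σ))

theorem redHom_mk (σ : E' ≃ₐ[E] E') (x : intRing q E') :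
    redHom q E E' σ (Ideal.Quotient.mk (mI q E') x) = Ideal.Quotient.mk (mI q E') (σ • x) := rfl

theorem redHom_surjective : Function.Surjective (redHom q E E') := by
  have := finiteDimensional_tower q E E'
  intro f
  obtain ⟨g, hg⟩ := Ideal.Quotient.stabilizerHom_surjective (E' ≃ₐ[E] E') (mI q E) (mI q E') f
  exact ⟨g.1, hg⟩

end Red


section Frob
variable [IsGalois E E']

/-- The Frobenius of the residue field extension. -/
abbrev resFrob : resF q E' ≃ₐ[resF q E] resF q E' :=
  FiniteField.frobeniusAlgEquivOfAlgebraic (resF q E) (resF q E')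

theorem resFrob_apply (x : resF q E') : resFrob q E E' x = x ^ resCard q E := by
  rw [resFrob, FiniteField.coe_frobeniusAlgEquivOfAlgebraic, fintypeCard_resF]

theorem redHom_eq_resFrob_iff (φ : E' ≃ₐ[E] E') :
    redHom q E E' φ = resFrob q E E' ↔
      ∀ x : intRing q E', φ • x - x ^ resCard q E ∈ mI q E' := by
  constructor
  · intro h x
    have h1 := DFunLike.congr_fun h (Ideal.Quotient.mk (mI q E') x)
    rw [redHom_mk, resFrob_apply, ← map_pow] at h1
    exact (Ideal.Quotient.eq).1 h1
  · intro h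
    ext y
    obtain ⟨x, rfl⟩ := Ideal.Quotient.mk_surjective y
    rw [redHom_mk, resFrob_apply, ← map_pow]
    exact (Ideal.Quotient.eq).2 (h x)

theorem mem_mI_iff_snorm (x : intRing q E) : x ∈ mI q E ↔ snorm q E (x : E) < 1 :=
  mem_maximalIdeal_iff_snorm q E x

theorem redHom_eq_resFrob_iff_isFrob (φ : E' ≃ₐ[E] E') :
    redHom q E E' φ = resFrob q E E' ↔ IsFrob q E E' φ := by
  rw [redHom_eq_resFrob_iff, isFrob_iff]
  constructor
  · intro h x hx
    have := (mem_mI_iff_snorm q E' _).1 (h ⟨x, hx⟩)
    exact this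
  · intro h x
    rw [mem_mI_iff_snorm]
    exact h x x.2

/-- **Existence of Frobenius** in every finite Galois extension of `q`-adic fields. -/
theorem exists_isFrob : ∃ φ : E' ≃ₐ[E] E', IsFrob q E E' φ := by
  obtain ⟨φ, hφ⟩ := redHom_surjective q E E' (resFrob q E E')
  exact ⟨φ, (redHom_eq_resFrob_iff_isFrob q E E' φ).1 hφ⟩

end Frob


/-! ### Extensions generated by roots of unity of order prime to `q` -/

section Cyclo
variable [IsGalois E E']

include q in
theorem ne_zero_of_not_dvd {m : ℕ} (hm : ¬ q ∣ m) : m ≠ 0 := by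
  rintro rfl
  exact hm (dvd_zero q)

/-- If `σ` reduces to the identity then it fixes the roots of unity of order prime to `q`. -/
theorem apply_eq_of_redHom_eq_one {m : ℕ} (hm : ¬ q ∣ m) (σ : E' ≃ₐ[E] E')
    (hσ : redHom q E E' σ = 1) {ζ : E'} (hζ : ζ ^ m = 1) : σ ζ = ζ := by
  have hζi : ζ ∈ intRing q E' := mem_intRing_of_pow_eq_one q E' (ne_zero_of_not_dvd q hm) hζ
  have h1 := DFunLike.congr_fun hσ (Ideal.Quotient.mk (mI q E') ⟨ζ, hζi⟩)
  rw [redHom_mk, AlgEquiv.one_apply] at h1
  have h2 := (mem_mI_iff_snorm q E' _).1 ((Ideal.Quotient.eq).1 h1)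
  have h3 : snorm q E' (σ ζ - ζ) < 1 := h2
  refine eq_of_snorm_sub_lt_one q E' hm ?_ hζ h3
  rw [← map_pow, hζ, map_one]

/-- The reduction map is injective on the Galois group of an extension generated by roots of unity
of order prime to `q`. -/
theorem redHom_injective_of_adjoin {m : ℕ} (hm : ¬ q ∣ m) (S : Set E') (hS : ∀ ζ ∈ S, ζ ^ m = 1)
    (hgen : Algebra.adjoin E S = ⊤) : Function.Injective (redHom q E E') := by
  rw [injective_iff_map_eq_one]
  intro σ hσ
  have h : (σ : E' →ₐ[E] E') = AlgHom.id E E' := by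
    refine AlgHom.ext_of_adjoin_eq_top hgen (fun ζ hζ => ?_)
    exact apply_eq_of_redHom_eq_one q E E' hm σ hσ (hS ζ hζ)
  ext x
  exact DFunLike.congr_fun h x

/-- A Frobenius raises roots of unity of order prime to `q` to the power `Q`. -/
theorem isFrob_apply_root {m : ℕ} (hm : ¬ q ∣ m) (φ : E' ≃ₐ[E] E') (hφ : IsFrob q E E' φ)
    {ζ : E'} (hζ : ζ ^ m = 1) : φ ζ = ζ ^ resCard q E := by
  have hζi : ζ ∈ intRing q E' := mem_intRing_of_pow_eq_one q E' (ne_zero_of_not_dvd q hm) hζ
  have h := (isFrob_iff q E E' φ).1 hφ ζ hζi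
  refine eq_of_snorm_sub_lt_one q E' hm ?_ ?_ h
  · rw [← map_pow, hζ, map_one]
  · rw [← pow_mul, mul_comm, pow_mul, hζ, one_pow]

theorem isFrob_pow_apply_root {m : ℕ} (hm : ¬ q ∣ m) (φ : E' ≃ₐ[E] E') (hφ : IsFrob q E E' φ)
    {ζ : E'} (hζ : ζ ^ m = 1) (j : ℕ) : (φ ^ j) ζ = ζ ^ (resCard q E ^ j) := by
  induction j generalizing ζ with
  | zero => simp
  | succ j ih =>
    rw [pow_succ, AlgEquiv.mul_apply, isFrob_apply_root q E E' hm φ hφ hζ, map_pow, ih hζ,
      ← pow_mul, pow_succ]

/-- If the reduction map is injective, every Frobenius generates the Galois group. -/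
theorem mem_zpowers_of_redHom_injective (hinj : Function.Injective (redHom q E E'))
    (φ : E' ≃ₐ[E] E') (hφ : IsFrob q E E' φ) (σ : E' ≃ₐ[E] E') : σ ∈ Subgroup.zpowers φ := by
  have hφ' := (redHom_eq_resFrob_iff_isFrob q E E' φ).2 hφ
  obtain ⟨j, hj⟩ := (FiniteField.bijective_frobeniusAlgEquivOfAlgebraic_pow (resF q E)
    (resF q E')).2 (redHom q E E' σ)
  refine ⟨(j.1 : ℤ), ?_⟩
  apply hinj
  beta_reduce
  rw [zpow_natCast, map_pow, hφ']
  exact hj

/-- If the reduction map is injective, the degree is the residue degree. -/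
theorem finrank_eq_of_redHom_injective (hinj : Function.Injective (redHom q E E')) :
    Module.finrank E E' = Module.finrank (resF q E) (resF q E') := by
  have := finiteDimensional_tower q E E'
  have hbij : Function.Bijective (redHom q E E') := ⟨hinj, redHom_surjective q E E'⟩
  rw [← IsGalois.card_aut_eq_finrank, Nat.card_congr (Equiv.ofBijective _ hbij)]
  have := Nat.card_congr (Equiv.ofBijective _
    (FiniteField.bijective_frobeniusAlgEquivOfAlgebraic_pow (resF q E) (resF q E')))
  rw [← this, Nat.card_fin]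

end Cyclo


/-! ### Residue degree -/

section ResDeg

/-- The residue degree is the degree of the residue field extension. -/
theorem resDeg_eq_finrank_resF :
    resDeg q E E' = Module.finrank (resF q E) (resF q E') := by
  have h1 := resCard_tower q E E'
  have h2 : Nat.card (resF q E') = Nat.card (resF q E) ^ Module.finrank (resF q E) (resF q E') :=
    Module.natCard_eq_pow_finrank
  rw [card_resF, card_resF, h1] at h2
  exact Nat.pow_right_injective (one_lt_resCard q E) h2

variable [IsGalois E E']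

/-- If the reduction map is injective the extension is unramified. -/
theorem isUnramified_of_redHom_injective (hinj : Function.Injective (redHom q E E')) :
    IsUnramified q E E' := by
  rw [isUnramified_iff_resDeg, resDeg_eq_finrank_resF, finrank_eq_of_redHom_injective q E E' hinj]

/-- **Rigidity**: in an unramified Galois extension the reduction map is injective. -/
theorem redHom_injective_of_isUnramified (h : IsUnramified q E E') :
    Function.Injective (redHom q E E') := by
  have := finiteDimensional_tower q E E'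
  have h1 : Nat.card (E' ≃ₐ[E] E') = Nat.card (resF q E' ≃ₐ[resF q E] resF q E') := by
    rw [IsGalois.card_aut_eq_finrank, ← (isUnramified_iff_resDeg q E E').1 h,
      resDeg_eq_finrank_resF]
    have := Nat.card_congr (Equiv.ofBijective _
      (FiniteField.bijective_frobeniusAlgEquivOfAlgebraic_pow (resF q E) (resF q E')))
    rw [← this, Nat.card_fin]
  have : Finite (resF q E' ≃ₐ[resF q E] resF q E') :=
    Finite.of_surjective _ (redHom_surjective q E E')
  exact ((Nat.bijective_iff_surjective_and_card _).2 ⟨redHom_surjective q E E', h1⟩).1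

end ResDeg


/-! ### The statements of `UnramDef12` -/

section Statements

open Polynomial

/-- **(UN3) rigidity**, verbatim. -/
theorem unramRigidStatement : UnramRigidStatement q := by
  intro E E₁ _ _ _ _ _ _ _ _ _ hun σ τ h
  apply redHom_injective_of_isUnramified q E E₁ hun
  ext y
  obtain ⟨x, rfl⟩ := Ideal.Quotient.mk_surjective y
  rw [redHom_mk, redHom_mk]
  apply (Ideal.Quotient.eq).2
  rw [mem_mI_iff_snorm]
  obtain ⟨π₁, hπ₁⟩ := exists_isUniformizer q E₁
  exact (mul_inv_uniformizer_mem_iff q E₁ _ hπ₁ _).1 (h π₁ hπ₁ x x.2)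

theorem exists_primitiveRoot_of_splits {N : Type*} [Field N] {m : ℕ} (hm : (m : N) ≠ 0)
    (hs : (X ^ m - 1 : N[X]).Splits) : ∃ ζ : N, IsPrimitiveRoot ζ m := by
  have : NeZero (m : N) := ⟨hm⟩
  have hmpos : 0 < m := Nat.pos_of_ne_zero (by rintro rfl; simp at hm)
  have hne : (X ^ m - 1 : N[X]) ≠ 0 := X_pow_sub_C_ne_zero hmpos 1
  have hs' := hs.of_dvd hne (cyclotomic.dvd_X_pow_sub_one m N)
  obtain ⟨ζ, hζ⟩ := hs'.exists_eval_eq_zero (degree_cyclotomic_pos m N hmpos).ne'
  exact ⟨ζ, isRoot_cyclotomic_iff.1 hζ⟩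

/-- `q` does not divide `Q ^ n - 1`. -/
theorem not_dvd_resCard_pow_sub_one (n : ℕ) (hn : 0 < n) : ¬ q ∣ resCard q E ^ n - 1 := by
  obtain ⟨k, hk, hQ⟩ := exists_resCard_eq_pow q E
  have hq : q.Prime := Fact.out
  intro h
  have h1 : q ∣ resCard q E ^ n := by
    rw [hQ, ← pow_mul]
    exact dvd_pow_self q (Nat.mul_ne_zero hk.ne' hn.ne')
  have h2 : 1 ≤ resCard q E ^ n := Nat.one_le_pow _ _ (resCard_pos q E)
  have h3 : q ∣ 1 := by
    have := Nat.dvd_sub h1 h
    rwa [Nat.sub_sub_self h2] at this
  exact hq.one_lt.ne' (Nat.dvd_one.1 h3)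

theorem map_unramPoly (N : Type) [Field N] [Algebra E N] (n : ℕ) :
    (unramPoly q E n).map (algebraMap E N) = X ^ (resCard q E ^ n - 1) - 1 := by
  simp [unramPoly]

include q in
theorem isGalois_of_isSplittingField (N : Type) [Field N] [Algebra E N] (p : E[X])
    [Polynomial.IsSplittingField E N p] : IsGalois E N := by
  have : CharZero E := charZero_of_padicAlgebra q E
  have : Normal E N := Normal.of_isSplittingField p
  exact ⟨⟩

/-- **(UN2') the standard unramified extension**, verbatim. -/
theorem unramSplittingStatement : UnramSplittingStatement q := by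
  intro E N _ _ _ _ _ _ _ _ n hn hsplit
  have : IsGalois E N := isGalois_of_isSplittingField q E N (unramPoly q E n)
  have := finiteDimensional_tower q E N
  set Q := resCard q E with hQdef
  set m := Q ^ n - 1 with hmdef
  have hQ1 : 1 ≤ Q ^ n := Nat.one_le_pow _ _ (resCard_pos q E)
  have hQm : Q ^ n = m + 1 := by omega
  have hm : ¬ q ∣ m := not_dvd_resCard_pow_sub_one q E n hn
  have hm0 : m ≠ 0 := ne_zero_of_not_dvd q hm
  -- the roots
  have hS : ∀ ζ ∈ (unramPoly q E n).rootSet N, ζ ^ m = 1 := by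
    intro ζ hζ
    have h1 := (mem_rootSet.1 hζ).2
    simpa [unramPoly, sub_eq_zero] using h1
  have hgen : Algebra.adjoin E ((unramPoly q E n).rootSet N) = ⊤ :=
    IsSplittingField.adjoin_rootSet N (unramPoly q E n)
  have hinj := redHom_injective_of_adjoin q E N hm _ hS hgen
  obtain ⟨φ, hφ⟩ := exists_isFrob q E N
  have hgenφ := mem_zpowers_of_redHom_injective q E N hinj φ hφ
  refine ⟨?_, isUnramified_of_redHom_injective q E N hinj, φ, hφ, hgenφ⟩
  -- the degree
  have hord : orderOf φ = n := by
    rw [orderOf_eq_iff hn]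
    constructor
    · have h : ((φ ^ n : N ≃ₐ[E] N) : N →ₐ[E] N) = AlgHom.id E N := by
        refine AlgHom.ext_of_adjoin_eq_top hgen (fun ζ hζ => ?_)
        have := isFrob_pow_apply_root q E N hm φ hφ (hS ζ hζ) n
        change (φ ^ n) ζ = ζ
        rw [this, ← hQdef, hQm, pow_succ, hS ζ hζ, one_mul]
      ext x
      exact DFunLike.congr_fun h x
    · intro j hjn hj0 hφj
      have hsp : (X ^ m - 1 : N[X]).Splits := by
        have := hsplit.splits
        rwa [map_unramPoly] at this
      have : CharZero N := charZero_of_padicAlgebra q N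
      obtain ⟨ζ, hζ⟩ := exists_primitiveRoot_of_splits (N := N) (m := m)
        (by exact_mod_cast hm0) hsp
      have h1 := isFrob_pow_apply_root q E N hm φ hφ hζ.pow_eq_one j
      rw [hφj, AlgEquiv.one_apply, ← hQdef] at h1
      have hQj1 : 1 ≤ Q ^ j := Nat.one_le_pow _ _ (resCard_pos q E)
      have h2 : ζ ^ (Q ^ j - 1) = 1 := by
        have hζ0 : ζ ≠ 0 := hζ.ne_zero hm0
        have : ζ ^ (Q ^ j - 1) * ζ = 1 * ζ := by
          rw [← pow_succ, Nat.sub_add_cancel hQj1, one_mul]
          exact h1.symm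
        exact mul_right_cancel₀ hζ0 this
      have h3 : m ∣ Q ^ j - 1 := hζ.dvd_of_pow_eq_one _ h2
      have hlt : Q ^ j < Q ^ n := Nat.pow_lt_pow_right (one_lt_resCard q E) hjn
      have hgt : Q ^ 1 ≤ Q ^ j := Nat.pow_le_pow_right (resCard_pos q E) hj0
      have hQ2 : 2 ≤ Q := one_lt_resCard q E
      have h4 : 0 < Q ^ j - 1 := by
        rw [pow_one] at hgt
        omega
      have h5 := Nat.le_of_dvd h4 h3
      omega
  rw [← IsGalois.card_aut_eq_finrank, ← hord, ← Nat.card_zpowers]
  have htop : Subgroup.zpowers φ = ⊤ := by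
    rw [Subgroup.eq_top_iff']
    exact hgenφ
  rw [htop]
  exact (Nat.card_congr Subgroup.topEquiv.toEquiv).symm

end Statements

end
end Fermat.Agent.PT.LOC.Unram11
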