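/-
Program F (S55), chapter LOC, helper12: fundamental classes, concrete part.

The special frame `E(μ_{Q^n-1}) ⊆ E'(μ_{Q^n-1})` (`n = [E' : E]`), existence and uniqueness of the
fundamental class `IsFund`, and the class formation axioms.
Conditional only on `UnitsNormStatement` and `H2BoundStatement`.
-/
import Mathlib
import Fermat.Agent.PT.LOC.Interface12
import Fermat.Agent.PT.LOC.UnramDef12
import Fermat.Agent.PT.LOC.FundAbstract12
import Fermat.Agent.PT.LOC.Unram11
import Fermat.Agent.PT.LOC.Teichmuller14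

set_option autoImplicit false
set_option linter.unusedSectionVars false
set_option linter.style.haveILetI false

open CategoryTheory groupCohomology Polynomial

namespace Fermat.Agent.PT.LOC.FundClass12

open Fermat.Agent.PT.LOC.Interface12 Fermat.Agent.PT.LOC.Structure14
  Fermat.Agent.PT.LOC.UnramDef12 Fermat.Agent.PT.LOC.TowerCoh12
  Fermat.Agent.PT.LOC.TowerInfRes12 Fermat.Agent.PT.LOC.CyclicH2_12
  Fermat.Agent.PT.LOC.StructureTowerEF27 Fermat.Agent.PT.LOC.Frob27
  Fermat.Agent.PT.LOC.FundAbstract12

noncomputable section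

variable (q : ℕ) [Fact q.Prime]

/-! ### Polynomial facts -/

section Poly

variable (E : Type) [Field E] [Algebra ℚ_[q] E] [FiniteDimensional ℚ_[q] E]

theorem one_le_resCard_pow (n : ℕ) : 1 ≤ resCard q E ^ n :=
  Nat.one_le_pow _ _ (Fermat.Agent.PT.LOC.StructureTower27.resCard_pos q E)

theorem resCard_pow_sub_one_pos {n : ℕ} (hn : 0 < n) : 0 < resCard q E ^ n - 1 := by
  have h2 : 2 ≤ resCard q E := Fermat.Agent.PT.LOC.StructureTower27.one_lt_resCard q E
  have h3 : 2 ^ n ≤ resCard q E ^ n := Nat.pow_le_pow_left h2 n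
  have h4 : 2 ≤ 2 ^ n := by
    calc 2 = 2 ^ 1 := (pow_one 2).symm
      _ ≤ 2 ^ n := Nat.pow_le_pow_right (by norm_num) hn
  omega

theorem unramPoly_ne_zero {n : ℕ} (hn : 0 < n) : unramPoly q E n ≠ 0 := by
  unfold unramPoly
  have := X_pow_sub_C_ne_zero (R := E) (resCard_pow_sub_one_pos q E hn) 1
  simpa using this

theorem unramPoly_dvd (n k : ℕ) : unramPoly q E n ∣ unramPoly q E (k * n) := by
  unfold unramPoly
  have h1 : resCard q E ^ n - 1 ∣ resCard q E ^ (k * n) - 1 := by
    rw [mul_comm, pow_mul]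
    simpa using Nat.sub_dvd_pow_sub_pow (resCard q E ^ n) 1 k
  obtain ⟨c, hc⟩ := h1
  rw [hc, pow_mul]
  simpa using sub_dvd_pow_sub_pow (X ^ (resCard q E ^ n - 1) : E[X]) 1 c

end Poly

/-! ### The special frame -/

section Special

variable (E E' : Type) [Field E] [Field E'] [Algebra ℚ_[q] E] [Algebra ℚ_[q] E'] [Algebra E E']
  [IsScalarTower ℚ_[q] E E'] [FiniteDimensional ℚ_[q] E] [FiniteDimensional ℚ_[q] E']
  [FiniteDimensional E E'] [IsGalois E E']

/-- The top field of the special frame: `E'(μ_{Q^n - 1})`, `n = [E' : E]`. -/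
abbrev Nsp : Type :=
  ((unramPoly q E (Module.finrank E E')).map (algebraMap E E')).SplittingField

/-- The bottom unramified field of the special frame: `E(μ_{Q^n - 1})`. -/
abbrev Esp : Type := Eun q E (Module.finrank E E')

theorem towerNsp : IsScalarTower ℚ_[q] E (Nsp q E E') := by
  refine IsScalarTower.of_algebraMap_eq fun a => ?_
  rw [IsScalarTower.algebraMap_apply ℚ_[q] E' (Nsp q E E'),
    IsScalarTower.algebraMap_apply ℚ_[q] E E', ← IsScalarTower.algebraMap_apply E E' (Nsp q E E')]

theorem finiteDimensionalNsp : FiniteDimensional ℚ_[q] (Nsp q E E') :=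
  FiniteDimensional.trans ℚ_[q] E' (Nsp q E E')

theorem finiteDimensionalNsp' : FiniteDimensional E (Nsp q E E') :=
  FiniteDimensional.trans E E' (Nsp q E E')

theorem finrank_pos' : 0 < Module.finrank E E' := Module.finrank_pos

theorem isGaloisNsp : IsGalois E (Nsp q E E') := by
  obtain ⟨p, hp⟩ := Normal.exists_isSplittingField E E'
  have hP : unramPoly q E (Module.finrank E E') ≠ 0 := unramPoly_ne_zero q E (finrank_pos' E E')
  by_cases hp0 : p = 0
  · subst hp0
    have h1 : Polynomial.IsSplittingField E E' (1 : E[X]) := by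
      refine ⟨by simp, ?_⟩
      have := hp.adjoin_rootSet
      simpa [Polynomial.rootSet] using this
    have := Polynomial.IsSplittingField.mul (F := E) (K := E') (Nsp q E E') (1 : E[X])
      (unramPoly q E (Module.finrank E E')) one_ne_zero hP
    exact Fermat.Agent.PT.LOC.Unram11.isGalois_of_isSplittingField q E (Nsp q E E')
      (1 * unramPoly q E (Module.finrank E E'))
  · have := Polynomial.IsSplittingField.mul (F := E) (K := E') (Nsp q E E') p
      (unramPoly q E (Module.finrank E E')) hp0 hP
    exact Fermat.Agent.PT.LOC.Unram11.isGalois_of_isSplittingField q E (Nsp q E E')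
      (p * unramPoly q E (Module.finrank E E'))

theorem splits_in_Nsp :
    ((unramPoly q E (Module.finrank E E')).map (algebraMap E (Nsp q E E'))).Splits := by
  have h := Polynomial.SplittingField.splits
    ((unramPoly q E (Module.finrank E E')).map (algebraMap E E'))
  rwa [Polynomial.map_map, ← IsScalarTower.algebraMap_eq] at h

/-- `E(μ_{Q^n-1}) → E'(μ_{Q^n-1})`. -/
def espToNsp : Esp q E E' →ₐ[E] Nsp q E E' :=
  EunLift q E (Module.finrank E E') (Nsp q E E') (splits_in_Nsp q E E')

/-- The algebra structure of the special frame. -/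
@[reducible] def algEspNsp : Algebra (Esp q E E') (Nsp q E E') :=
  (espToNsp q E E').toRingHom.toAlgebra

theorem towerEspNsp :
    @IsScalarTower E (Esp q E E') (Nsp q E E') _ (algEspNsp q E E').toSMul _ := by
  let _ := algEspNsp q E E'
  exact IsScalarTower.of_algebraMap_eq fun a => ((espToNsp q E E').commutes a).symm

attribute [local instance] towerNsp finiteDimensionalNsp finiteDimensionalNsp' isGaloisNsp
  algEspNsp towerEspNsp

theorem isGaloisNsp' : IsGalois E' (Nsp q E E') :=
  Fermat.Agent.PT.LOC.Unram11.isGalois_of_isSplittingField q E' (Nsp q E E')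
    ((unramPoly q E (Module.finrank E E')).map (algebraMap E E'))

attribute [local instance] isGaloisNsp'

theorem map_unramPoly_eq :
    (unramPoly q E (Module.finrank E E')).map (algebraMap E E') =
      unramPoly q E' (ramIdx q E E') := by
  rw [Fermat.Agent.PT.LOC.Unram11.map_unramPoly]
  unfold unramPoly
  rw [resCard_tower q E E', ← pow_mul, mul_comm (resDeg q E E'), ramIdx_mul_resDeg]

/-- **Step 1 for the special frame.** -/
theorem exists_special (hUN : UnitsNormStatement q) :
    ∃ (hur₀ : IsUnramified q E (Esp q E E')) (φ₀ : Esp q E E' ≃ₐ[E] Esp q E E')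
      (hF₀ : IsFrob q E (Esp q E E') φ₀) (π₀ : Eˣ) (_ : IsUniformizer q E (π₀ : E))
      (u : H2 (unitsRep E E')),
      Module.finrank E (Esp q E E') = Module.finrank E E' ∧
        infH2 E E' (Nsp q E E') u =
          infH2 E (Esp q E E') (Nsp q E E') (uclass q hur₀ hF₀ π₀) := by
  have hn := finrank_pos' E E'
  obtain ⟨hdeg₀, hur₀, φ₀, hF₀, -⟩ :=
    Fermat.Agent.PT.LOC.Unram11.unramSplittingStatement q E (Esp q E E') (Module.finrank E E') hn
      inferInstance
  have hsp : Polynomial.IsSplittingField E' (Nsp q E E') (unramPoly q E' (ramIdx q E E')) := by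
    rw [← map_unramPoly_eq]
    infer_instance
  obtain ⟨hdegN, hurN, φ', hF', -⟩ :=
    Fermat.Agent.PT.LOC.Unram11.unramSplittingStatement q E' (Nsp q E E') (ramIdx q E E')
      (ramIdx_pos q E E') hsp
  obtain ⟨π₀, hπ₀⟩ := exists_isUniformizer q E
  obtain ⟨u, hu⟩ := exists_class_of_frame q hUN hur₀ hurN hF₀ hF'
    (by rw [hdegN, hdeg₀, mul_comm, ramIdx_mul_resDeg]) hdegN hπ₀
  exact ⟨hur₀, φ₀, hF₀, π₀, hπ₀, u, hdeg₀, hu⟩

/-- **Existence of the fundamental class.** -/
theorem exists_isFund (hUN : UnitsNormStatement q) :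
    ∃ u : H2 (unitsRep E E'), IsFund q E E' u := by
  obtain ⟨hur₀, φ₀, hF₀, π₀, hπ₀, u, hdeg₀, hu⟩ := exists_special q E E' hUN
  refine ⟨u, ?_⟩
  intro E₁ N _ _ _ _ _ _ _ _ _ _ _ _ _ _ _ _ _ _ hur φ₁ hF π hπ k hk
  have hne : (unramPoly q E (k * Module.finrank E E')).map (algebraMap E E₁) ≠ 0 := by
    rw [Polynomial.map_ne_zero_iff (algebraMap E E₁).injective]
    apply unramPoly_ne_zero
    rw [← hk]
    exact Module.finrank_pos
  have hsplit₁ : ((unramPoly q E (Module.finrank E E')).map (algebraMap E E₁)).Splits := by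
    have h1 := Fermat.Agent.PT.LOC.Teichmuller14.unramRecog q E E₁ hur
    rw [hk] at h1
    exact h1.of_dvd hne (Polynomial.map_dvd _ (unramPoly_dvd q E (Module.finrank E E') k))
  have hsplitN' : (((unramPoly q E (Module.finrank E E')).map (algebraMap E E')).map
      (algebraMap E' N)).Splits := by
    have := hsplit₁.map (algebraMap E₁ N)
    rw [Polynomial.map_map, ← IsScalarTower.algebraMap_eq] at this
    rwa [Polynomial.map_map, ← IsScalarTower.algebraMap_eq]
  let j : Nsp q E E' →ₐ[E'] N := Polynomial.SplittingField.lift _ hsplitN'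
  let algN₀N : Algebra (Nsp q E E') N := j.toRingHom.toAlgebra
  have t1 : IsScalarTower E' (Nsp q E E') N :=
    IsScalarTower.of_algebraMap_eq fun a => (j.commutes a).symm
  have t2 : IsScalarTower E (Nsp q E E') N := IsScalarTower.of_algebraMap_eq fun a => by
    rw [IsScalarTower.algebraMap_apply E E' N, IsScalarTower.algebraMap_apply E E' (Nsp q E E')]
    exact (j.commutes _).symm
  let algE₀N : Algebra (Esp q E E') N :=
    ((algebraMap (Nsp q E E') N).comp (algebraMap (Esp q E E') (Nsp q E E'))).toAlgebra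
  have t3 : IsScalarTower (Esp q E E') (Nsp q E E') N :=
    IsScalarTower.of_algebraMap_eq fun a => rfl
  have t4 : IsScalarTower E (Esp q E E') N := IsScalarTower.of_algebraMap_eq fun a => by
    change algebraMap E N a =
      algebraMap (Nsp q E E') N (algebraMap (Esp q E E') (Nsp q E E') (algebraMap E (Esp q E E') a))
    rw [← IsScalarTower.algebraMap_apply E (Esp q E E') (Nsp q E E'),
      ← IsScalarTower.algebraMap_apply E (Nsp q E E') N]
  let ι₀ : Esp q E E' →ₐ[E] E₁ := EunLift q E _ E₁ hsplit₁
  obtain ⟨ι, hι⟩ := exists_compatible_algHom E (Esp q E E') E₁ N ι₀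
  let algE₀E₁ : Algebra (Esp q E E') E₁ := ι.toRingHom.toAlgebra
  have t5 : IsScalarTower E (Esp q E E') E₁ :=
    IsScalarTower.of_algebraMap_eq fun a => (ι.commutes a).symm
  have t6 : IsScalarTower (Esp q E E') E₁ N :=
    IsScalarTower.of_algebraMap_eq fun a => (hι a).symm
  exact frame_change q hUN hur₀ hur hF₀ hF hπ₀ hπ (by rw [hk, hdeg₀]) hu

/-- **Uniqueness of the fundamental class.** -/
theorem isFund_unique (hUN : UnitsNormStatement q) {u u' : H2 (unitsRep E E')}
    (hu : IsFund q E E' u) (hu' : IsFund q E E' u') : u = u' := by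
  obtain ⟨hur₀, φ₀, hF₀, π₀, hπ₀, -, hdeg₀, -⟩ := exists_special q E E' hUN
  have h1 := hu (Esp q E E') (Nsp q E E') hur₀ φ₀ hF₀ π₀ hπ₀ 1 (by rw [hdeg₀, one_mul])
  have h2 := hu' (Esp q E E') (Nsp q E E') hur₀ φ₀ hF₀ π₀ hπ₀ 1 (by rw [hdeg₀, one_mul])
  exact infH2_injective E E' (Nsp q E E') (h1.trans h2.symm)

/-- The fundamental class (a choice). -/
def fundClass (hUN : UnitsNormStatement q) : H2 (unitsRep E E') :=
  Classical.choose (exists_isFund q E E' hUN)

theorem isFund_fundClass (hUN : UnitsNormStatement q) : IsFund q E E' (fundClass q E E' hUN) :=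
  Classical.choose_spec (exists_isFund q E E' hUN)

/-- The fundamental class of an unramified extension is the unramified class. -/
theorem fundClass_unram (hUN : UnitsNormStatement q) (hur : IsUnramified q E E')
    {φ : E' ≃ₐ[E] E'} (hF : IsFrob q E E' φ) {π : Eˣ} (hπ : IsUniformizer q E (π : E)) :
    fundClass q E E' hUN = uclass q hur hF π := by
  have h := isFund_fundClass q E E' hUN E' E' hur φ hF π hπ 1 (one_mul _).symm
  rwa [infH2_self, infH2_self, one_smul] at h

/-- The inflation of the fundamental class to the special frame. -/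
theorem infH2_fundClass_special (hUN : UnitsNormStatement q) :
    ∃ (hur₀ : IsUnramified q E (Esp q E E')) (φ₀ : Esp q E E' ≃ₐ[E] Esp q E E')
      (hF₀ : IsFrob q E (Esp q E E') φ₀) (π₀ : Eˣ) (_ : IsUniformizer q E (π₀ : E)),
      Module.finrank E (Esp q E E') = Module.finrank E E' ∧
        infH2 E E' (Nsp q E E') (fundClass q E E' hUN) =
          infH2 E (Esp q E E') (Nsp q E E') (uclass q hur₀ hF₀ π₀) := by
  obtain ⟨hur₀, φ₀, hF₀, π₀, hπ₀, -, hdeg₀, -⟩ := exists_special q E E' hUN
  have h1 := isFund_fundClass q E E' hUN (Esp q E E') (Nsp q E E') hur₀ φ₀ hF₀ π₀ hπ₀ 1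
    (by rw [hdeg₀, one_mul])
  rw [one_smul] at h1
  exact ⟨hur₀, φ₀, hF₀, π₀, hπ₀, hdeg₀, h1⟩

theorem addOrderOf_fundClass (hUN : UnitsNormStatement q) :
    addOrderOf (fundClass q E E' hUN) = Module.finrank E E' := by
  obtain ⟨hur₀, φ₀, hF₀, π₀, hπ₀, hdeg₀, h1⟩ := infH2_fundClass_special q E E' hUN
  have i1 : Function.Injective (infH2 E E' (Nsp q E E')).hom.toAddMonoidHom :=
    infH2_injective E E' (Nsp q E E')
  have i2 : Function.Injective (infH2 E (Esp q E E') (Nsp q E E')).hom.toAddMonoidHom :=
    infH2_injective E (Esp q E E') (Nsp q E E')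
  have e1 := addOrderOf_injective _ i1 (fundClass q E E' hUN)
  have e2 := addOrderOf_injective _ i2 (uclass q hur₀ hF₀ π₀)
  have h1' : (infH2 E E' (Nsp q E E')).hom.toAddMonoidHom (fundClass q E E' hUN) =
      (infH2 E (Esp q E E') (Nsp q E E')).hom.toAddMonoidHom (uclass q hur₀ hF₀ π₀) := h1
  rw [← e1, h1', e2, addOrderOf_uclass q hur₀ hF₀ hπ₀, hdeg₀]

end Special

/-! ### Inflation of fundamental classes -/

section InfAxiom

variable (E E' E'' : Type) [Field E] [Field E'] [Field E''] [Algebra ℚ_[q] E] [Algebra ℚ_[q] E']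
  [Algebra ℚ_[q] E''] [Algebra E E'] [Algebra E E''] [Algebra E' E''] [IsScalarTower ℚ_[q] E E']
  [IsScalarTower ℚ_[q] E E''] [IsScalarTower ℚ_[q] E' E''] [IsScalarTower E E' E'']
  [FiniteDimensional ℚ_[q] E] [FiniteDimensional ℚ_[q] E'] [FiniteDimensional ℚ_[q] E'']
  [FiniteDimensional E E'] [FiniteDimensional E E''] [IsGalois E E'] [IsGalois E E'']

attribute [local instance] towerNsp finiteDimensionalNsp finiteDimensionalNsp' isGaloisNsp
  algEspNsp towerEspNsp isGaloisNsp'

theorem infH2_fundClass (hUN : UnitsNormStatement q) :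
    infH2 E E' E'' (fundClass q E E' hUN) = Module.finrank E' E'' • fundClass q E E'' hUN := by
  obtain ⟨hur₀, φ₀, hF₀, π₀, hπ₀, hdeg₀, h1⟩ := infH2_fundClass_special q E E'' hUN
  have t1 : IsScalarTower E E' (Nsp q E E'') := IsScalarTower.of_algebraMap_eq fun a => by
    rw [IsScalarTower.algebraMap_apply E' E'' (Nsp q E E''),
      ← IsScalarTower.algebraMap_apply E E' E'', ← IsScalarTower.algebraMap_apply E E'' (Nsp q E E'')]
  have h2 := isFund_fundClass q E E' hUN (Esp q E E'') (Nsp q E E'') hur₀ φ₀ hF₀ π₀ hπ₀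
    (Module.finrank E' E'') (by rw [hdeg₀, mul_comm, Module.finrank_mul_finrank])
  apply infH2_injective E E'' (Nsp q E E'')
  rw [infH2_infH2 E E' E'' (Nsp q E E''), h2, map_nsmul, h1]

end InfAxiom

/-! ### Restriction of fundamental classes -/

section ResAxiom

variable (E E' E'' : Type) [Field E] [Field E'] [Field E''] [Algebra ℚ_[q] E] [Algebra ℚ_[q] E']
  [Algebra ℚ_[q] E''] [Algebra E E'] [Algebra E E''] [Algebra E' E''] [IsScalarTower ℚ_[q] E E']
  [IsScalarTower ℚ_[q] E E''] [IsScalarTower ℚ_[q] E' E''] [IsScalarTower E E' E'']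
  [FiniteDimensional ℚ_[q] E] [FiniteDimensional ℚ_[q] E'] [FiniteDimensional ℚ_[q] E'']
  [FiniteDimensional E E'] [FiniteDimensional E E''] [FiniteDimensional E' E'']
  [IsGalois E E''] [IsGalois E' E'']

attribute [local instance] towerNsp finiteDimensionalNsp finiteDimensionalNsp' isGaloisNsp
  algEspNsp towerEspNsp isGaloisNsp'

theorem resH2_fundClass (hUN : UnitsNormStatement q) :
    resH2 E E' E'' (fundClass q E E'' hUN) = fundClass q E' E'' hUN := by
  obtain ⟨hur₀, φ₀, hF₀, π₀, hπ₀, hdeg₀, h1⟩ := infH2_fundClass_special q E E'' hUN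
  -- numerology
  have hnum : resDeg q E E' * (Module.finrank E' E'' * ramIdx q E E') = Module.finrank E E'' := by
    rw [← Module.finrank_mul_finrank E E' E'', ← ramIdx_mul_resDeg q E E']
    ring
  have hme : 0 < Module.finrank E' E'' * ramIdx q E E' :=
    Nat.mul_pos Module.finrank_pos (ramIdx_pos q E E')
  -- the top field `N`
  have t1 : IsScalarTower E E' (Nsp q E E'') := IsScalarTower.of_algebraMap_eq fun a => by
    rw [IsScalarTower.algebraMap_apply E' E'' (Nsp q E E''),
      ← IsScalarTower.algebraMap_apply E E' E'', ← IsScalarTower.algebraMap_apply E E'' (Nsp q E E'')]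
  have t2 : IsScalarTower ℚ_[q] E' (Nsp q E E'') := IsScalarTower.of_algebraMap_eq fun a => by
    rw [IsScalarTower.algebraMap_apply E' E'' (Nsp q E E''),
      ← IsScalarTower.algebraMap_apply ℚ_[q] E' E'',
      ← IsScalarTower.algebraMap_apply ℚ_[q] E'' (Nsp q E E'')]
  have fdN : FiniteDimensional E' (Nsp q E E'') := FiniteDimensional.trans E' E'' (Nsp q E E'')
  have galN : IsGalois E' (Nsp q E E'') := IsGalois.tower_top_of_isGalois E E' (Nsp q E E'')
  -- the unramified extension `N'` of `E'`
  have hpoly : unramPoly q E' (Module.finrank E' E'' * ramIdx q E E') =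
      (unramPoly q E (Module.finrank E E'')).map (algebraMap E E') := by
    rw [Fermat.Agent.PT.LOC.Unram11.map_unramPoly]
    unfold unramPoly
    rw [resCard_tower q E E', ← pow_mul, hnum]
  have hsplitN : ((unramPoly q E' (Module.finrank E' E'' * ramIdx q E E')).map
      (algebraMap E' (Nsp q E E''))).Splits := by
    rw [hpoly, Polynomial.map_map, ← IsScalarTower.algebraMap_eq]
    exact splits_in_Nsp q E E''
  let j : Eun q E' (Module.finrank E' E'' * ramIdx q E E') →ₐ[E'] Nsp q E E'' :=
    EunLift q E' _ (Nsp q E E'') hsplitN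
  let algN'N : Algebra (Eun q E' (Module.finrank E' E'' * ramIdx q E E')) (Nsp q E E'') :=
    j.toRingHom.toAlgebra
  have t3 : IsScalarTower E' (Eun q E' (Module.finrank E' E'' * ramIdx q E E')) (Nsp q E E'') :=
    IsScalarTower.of_algebraMap_eq fun a => (j.commutes a).symm
  have t4 : IsScalarTower E (Eun q E' (Module.finrank E' E'' * ramIdx q E E')) (Nsp q E E'') :=
    IsScalarTower.of_algebraMap_eq fun a => by
      rw [IsScalarTower.algebraMap_apply E E' (Nsp q E E''),
        IsScalarTower.algebraMap_apply E E' (Eun q E' (Module.finrank E' E'' * ramIdx q E E'))]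
      exact (j.commutes _).symm
  have t5 : IsScalarTower ℚ_[q] E (Eun q E' (Module.finrank E' E'' * ramIdx q E E')) :=
    IsScalarTower.of_algebraMap_eq fun a => by
      rw [IsScalarTower.algebraMap_apply ℚ_[q] E'
          (Eun q E' (Module.finrank E' E'' * ramIdx q E E')),
        IsScalarTower.algebraMap_apply ℚ_[q] E E',
        ← IsScalarTower.algebraMap_apply E E' (Eun q E' (Module.finrank E' E'' * ramIdx q E E'))]
  -- `Esp → N'`
  have hsplitN' : ((unramPoly q E (Module.finrank E E'')).map
      (algebraMap E (Eun q E' (Module.finrank E' E'' * ramIdx q E E')))).Splits := by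
    have h := Polynomial.SplittingField.splits
      (unramPoly q E' (Module.finrank E' E'' * ramIdx q E E'))
    have e1 : (unramPoly q E (Module.finrank E E'')).map
        (algebraMap E (Eun q E' (Module.finrank E' E'' * ramIdx q E E'))) =
        (unramPoly q E' (Module.finrank E' E'' * ramIdx q E E')).map
          (algebraMap E' (Eun q E' (Module.finrank E' E'' * ramIdx q E E'))) := by
      rw [Fermat.Agent.PT.LOC.Unram11.map_unramPoly, Fermat.Agent.PT.LOC.Unram11.map_unramPoly,
        resCard_tower q E E', ← pow_mul, hnum]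
    rw [e1]
    exact h
  let ι₀ : Esp q E E'' →ₐ[E] Eun q E' (Module.finrank E' E'' * ramIdx q E E') :=
    EunLift q E _ _ hsplitN'
  obtain ⟨ι, hι⟩ := exists_compatible_algHom E (Esp q E E'')
    (Eun q E' (Module.finrank E' E'' * ramIdx q E E')) (Nsp q E E'') ι₀
  let algE₀N' : Algebra (Esp q E E'') (Eun q E' (Module.finrank E' E'' * ramIdx q E E')) :=
    ι.toRingHom.toAlgebra
  have t6 : IsScalarTower E (Esp q E E'') (Eun q E' (Module.finrank E' E'' * ramIdx q E E')) :=
    IsScalarTower.of_algebraMap_eq fun a => (ι.commutes a).symm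
  have t7 : IsScalarTower (Esp q E E'') (Eun q E' (Module.finrank E' E'' * ramIdx q E E'))
      (Nsp q E E'') := IsScalarTower.of_algebraMap_eq fun a => (hι a).symm
  -- unramifiedness of `N'/E'`
  obtain ⟨hdegN', hurN', φ', hF', -⟩ :=
    Fermat.Agent.PT.LOC.Unram11.unramSplittingStatement q E'
      (Eun q E' (Module.finrank E' E'' * ramIdx q E E')) _ hme inferInstance
  obtain ⟨π', hπ'⟩ := exists_isUniformizer q E'
  -- the two computations
  have hA : infH2 E' E'' (Nsp q E E'') (resH2 E E' E'' (fundClass q E E'' hUN)) =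
      ramIdx q E E' • infH2 E' (Eun q E' (Module.finrank E' E'' * ramIdx q E E')) (Nsp q E E'')
        (uclass q hurN' hF' π') := by
    rw [← resH2_infH2 E E' E'' (Nsp q E E''), h1,
      resH2_infH2_via E E' (Esp q E E'') (Eun q E' (Module.finrank E' E'' * ramIdx q E E'))
        (Nsp q E E''),
      res_inf_unram q hur₀ hurN' hF₀ hF' hUN (by rw [hdegN', hdeg₀, hnum]) hπ₀ hπ', map_nsmul]
  have hB := isFund_fundClass q E' E'' hUN (Eun q E' (Module.finrank E' E'' * ramIdx q E E'))
    (Nsp q E E'') hurN' φ' hF' π' hπ' (ramIdx q E E') (by rw [hdegN', mul_comm])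
  apply infH2_injective E' E'' (Nsp q E E'')
  rw [hA, hB]

end ResAxiom

/-! ### The local class formation -/

section Final

theorem fdBase (E E' : Type) [Field E] [Field E'] [Algebra ℚ_[q] E] [Algebra ℚ_[q] E']
    [Algebra E E'] [IsScalarTower ℚ_[q] E E'] [FiniteDimensional ℚ_[q] E'] :
    FiniteDimensional ℚ_[q] E :=
  FiniteDimensional.of_injective (IsScalarTower.toAlgHom ℚ_[q] E E').toLinearMap
    (algebraMap E E').injective

/-- The family of fundamental classes. -/
def fundFamily (hUN : UnitsNormStatement q) : ClassFamily q :=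
  fun E E' _ _ _ _ _ _ _ _ =>
    haveI : FiniteDimensional ℚ_[q] E := fdBase q E E'
    haveI : FiniteDimensional E E' := FiniteDimensional.right ℚ_[q] E E'
    fundClass q E E' hUN

theorem isClassFormationCore_fundFamily (hUN : UnitsNormStatement q) (hH2 : H2BoundStatement q) :
    IsClassFormationCore q (fundFamily q hUN) where
  card := by
    intro E E' _ _ _ _ _ _ _ _
    haveI : FiniteDimensional ℚ_[q] E := fdBase q E E'
    haveI : FiniteDimensional E E' := FiniteDimensional.right ℚ_[q] E E'
    obtain ⟨hfin, hle⟩ := hH2 E E'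
    apply le_antisymm hle
    rw [← addOrderOf_fundClass q E E' hUN]
    exact addOrderOf_le_card
  order := by
    intro E E' _ _ _ _ _ _ _ _
    haveI : FiniteDimensional ℚ_[q] E := fdBase q E E'
    haveI : FiniteDimensional E E' := FiniteDimensional.right ℚ_[q] E E'
    exact addOrderOf_fundClass q E E' hUN
  res := by
    intro E E' E'' _ _ _ _ _ _ _ _ _ _ _ _ _ _ _ _
    haveI : FiniteDimensional ℚ_[q] E := fdBase q E E''
    haveI : FiniteDimensional ℚ_[q] E' := fdBase q E' E''
    haveI : FiniteDimensional E E'' := FiniteDimensional.right ℚ_[q] E E''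
    haveI : FiniteDimensional E' E'' := FiniteDimensional.right ℚ_[q] E' E''
    haveI : FiniteDimensional E E' := FiniteDimensional.right ℚ_[q] E E'
    exact resH2_fundClass q E E' E'' hUN
  inf := by
    intro E E' E'' _ _ _ _ _ _ _ _ _ _ _ _ _ _ _ _ _
    haveI : FiniteDimensional ℚ_[q] E := fdBase q E E'
    haveI : FiniteDimensional E E'' := FiniteDimensional.right ℚ_[q] E E''
    haveI : FiniteDimensional E E' := FiniteDimensional.right ℚ_[q] E E'
    exact infH2_fundClass q E E' E'' hUN

theorem isLocalClassFormation_fundFamily (hUN : UnitsNormStatement q)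
    (hH2 : H2BoundStatement q) : IsLocalClassFormation q (fundFamily q hUN) where
  toIsClassFormationCore := isClassFormationCore_fundFamily q hUN hH2
  unram := by
    intro E E' _ _ _ _ _ _ _ _ hur φ hF π hπ
    haveI : FiniteDimensional ℚ_[q] E := fdBase q E E'
    haveI : FiniteDimensional E E' := FiniteDimensional.right ℚ_[q] E E'
    have hφ := mem_zpowers_frob q E E' hur hF
    refine ⟨cyc φ hφ (unitsRep E E') (baseUnit_fixed E E' π φ), ?_, ?_⟩
    · exact (fundClass_unram q E E' hUN hur hF hπ).symm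
    · intro i j hi hj
      rw [← orderOf_frob q E E' hur hF] at hi hj ⊢
      exact cyc_pow_pow φ hφ (unitsRep E E') (baseUnit_fixed E E' π φ) hi hj

/-- **(LCF)**, conditional on the two remaining inputs. -/
theorem localClassFormation_of (hUN : UnitsNormStatement q) (hH2 : H2BoundStatement q) :
    LocalClassFormation q :=
  ⟨fundFamily q hUN, isLocalClassFormation_fundFamily q hUN hH2⟩

end Final

end

end Fermat.Agent.PT.LOC.FundClass12
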