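/-
Program F (S55, Poitou–Tate), chapter LOC, helper26: the bound (H2)
`#H²(Gal(E'/E), E'ˣ) ≤ [E' : E]` for ALL finite Galois extensions of `q`-adic fields
(`UnramDef12.H2BoundStatement q`), reduced to the case of PRIME degree
(`CyclicPrimeH2Statement q`, the cyclic case (UC-b)).

Proof: (1) Sylow reduction `card_H2_le_of_sylow` (abstract transfer of `FG/Transfer2`): it suffices
to bound `H²(P, E'ˣ)` for the Sylow subgroups `P`; (2) `H²(P, E'ˣ) ≅ H²(Gal(E'/E'^P), E'ˣ)`
(`h2ResIso`); (3) for an extension of prime power degree induct on the exponent (`pgroup_bound`):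
an `ℓ`-group has a normal subgroup of index `ℓ`, and for the tower `E ⊆ F ⊆ E'`
inflation–restriction + Hilbert 90 (`TowerInfRes12`) give
`#H²(E'/E) ≤ #H²(F/E) · #H²(E'/F)` (`tower_bound`).
-/
import Mathlib
import Fermat.Agent.PT.LOC.Interface12
import Fermat.Agent.PT.LOC.UnramDef12
import Fermat.Agent.PT.LOC.TowerInfRes12
import Fermat.Agent.PT.FG.Transfer2

set_option autoImplicit false
set_option linter.style.haveILetI false
set_option linter.unusedSectionVars false

open CategoryTheory groupCohomology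

namespace Fermat.Agent.PT.LOC.H2Bound26

open Fermat.Agent.PT.LOC.Interface12 Fermat.Agent.PT.LOC Fermat.Agent.PT.FG

/-- Counting in a left exact sequence `0 → X → Y → Z` of abelian groups. -/
theorem finite_and_card_le_of_exact {X Y Z : Type*} [AddCommGroup X] [AddCommGroup Y]
    [AddCommGroup Z] (f : X →+ Y) (g : Y →+ Z)
    (hex : ∀ y : Y, g y = 0 → ∃ x : X, f x = y) [Finite X] [Finite Z] :
    Finite Y ∧ Nat.card Y ≤ Nat.card X * Nat.card Z := by
  classical
  have hker : ∀ y : g.ker, ∃ x : X, f x = y := fun y => hex y y.2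
  choose s hs using hker
  have hr : ∀ z : Z, ∃ y : Y, (∃ y' : Y, g y' = z) → g y = z := fun z => by
    by_cases h : ∃ y' : Y, g y' = z
    · obtain ⟨y', hy'⟩ := h; exact ⟨y', fun _ => hy'⟩
    · exact ⟨0, fun h' => absurd h' h⟩
  choose r hr' using hr
  have hmem : ∀ y : Y, y - r (g y) ∈ g.ker := fun y => by
    rw [AddMonoidHom.mem_ker, map_sub, hr' (g y) ⟨y, rfl⟩, sub_self]
  let F : Y → Z × X := fun y => (g y, s ⟨y - r (g y), hmem y⟩)
  have hF : Function.Injective F := by
    intro y y' h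
    have h1 : g y = g y' := congrArg Prod.fst h
    have h2 : s ⟨y - r (g y), hmem y⟩ = s ⟨y' - r (g y'), hmem y'⟩ := congrArg Prod.snd h
    have h3 := congrArg f h2
    rw [hs, hs] at h3
    simp only at h3
    rw [h1] at h3
    exact sub_left_injective h3
  have : Finite Y := Finite.of_injective F hF
  refine ⟨this, ?_⟩
  calc Nat.card Y ≤ Nat.card (Z × X) := Nat.card_le_card_of_injective F hF
    _ = Nat.card Z * Nat.card X := Nat.card_prod Z X
    _ = Nat.card X * Nat.card Z := Nat.mul_comm _ _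

/-- **Tower step**: for `E ⊆ E' ⊆ N` with `N/E` and `E'/E` Galois,
`#H²(N/E) ≤ #H²(E'/E) · #H²(N/E')` (inflation–restriction + Hilbert 90). -/
theorem tower_bound (E E' N : Type) [Field E] [Field E'] [Field N] [Algebra E E'] [Algebra E N]
    [Algebra E' N] [IsScalarTower E E' N] [FiniteDimensional E N] [IsGalois E N]
    [FiniteDimensional E E'] [IsGalois E E']
    [Finite (H2 (unitsRep E E'))] [Finite (H2 (unitsRep E' N))] :
    Finite (H2 (unitsRep E N)) ∧
      Nat.card (H2 (unitsRep E N)) ≤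
        Nat.card (H2 (unitsRep E E')) * Nat.card (H2 (unitsRep E' N)) :=
  finite_and_card_le_of_exact (infH2 E E' N).hom.toAddMonoidHom (resH2 E E' N).hom.toAddMonoidHom
    (fun y hy => TowerInfRes12.exists_infH2_eq_of_resH2_eq_zero E E' N y hy)

/-- **Sylow reduction**: if `#H²(P, M) ≤ #P` for all Sylow subgroups `P` of the finite group `G`
then `#H²(G, M) ≤ #G` (via the abstract transfer of `Transfer2`). -/
theorem card_H2_le_of_sylow (G : Type) [Group G] [Finite G] (M : Rep ℤ G)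
    (h : ∀ (ℓ : ℕ) [Fact ℓ.Prime] (P : Sylow ℓ G),
      Finite (H2 (Rep.res (P : Subgroup G).subtype M)) ∧
        Nat.card (H2 (Rep.res (P : Subgroup G).subtype M)) ≤ Nat.card (P : Subgroup G)) :
    Finite (H2 M) ∧ Nat.card (H2 M) ≤ Nat.card G := by
  classical
  have hn0 : Nat.card G ≠ 0 := Nat.card_pos.ne'
  by_cases hn1 : Nat.card G = 1
  · -- trivial group
    haveI : Subsingleton G := (Nat.card_eq_one_iff_unique.mp hn1).1
    have hz : Limits.IsZero (groupCohomology M (1 + 1)) :=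
      isZero_groupCohomology_succ_of_subsingleton M 1
    haveI : Subsingleton (H2 M) := ModuleCat.isZero_iff_subsingleton.mp hz
    refine ⟨inferInstance, ?_⟩
    rw [hn1]
    exact Finite.card_le_one_iff_subsingleton.mpr inferInstance
  set T := (Nat.card G).primeFactors with hT
  have hprime : ∀ ℓ : T, Fact (ℓ : ℕ).Prime := fun ℓ => ⟨Nat.prime_of_mem_primeFactors ℓ.2⟩
  have hP : ∀ ℓ : T, Nonempty (Sylow (ℓ : ℕ) G) := fun ℓ => by
    haveI := hprime ℓ
    exact Sylow.nonempty
  let P : ∀ ℓ : T, Sylow (ℓ : ℕ) G := fun ℓ => Classical.choice (hP ℓ)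
  let Y : T → Type := fun ℓ =>
    H2 (Rep.res ((P ℓ : Sylow (ℓ : ℕ) G) : Subgroup G).subtype M)
  have hY : ∀ ℓ : T,
      Finite (Y ℓ) ∧ Nat.card (Y ℓ) ≤ Nat.card ((P ℓ : Sylow (ℓ : ℕ) G) : Subgroup G) :=
    fun ℓ => by
      haveI := hprime ℓ
      exact h (ℓ : ℕ) (P ℓ)
  haveI : ∀ ℓ : T, Finite (Y ℓ) := fun ℓ => (hY ℓ).1
  let Φ : H2 M → ∀ ℓ : T, Y ℓ := fun x ℓ =>
    (Transfer2.jMap ((P ℓ : Sylow (ℓ : ℕ) G) : Subgroup G) M 2).hom x
  have hΦ : Function.Injective Φ := by
    intro x y hxy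
    rw [← sub_eq_zero]
    set z := x - y with hz
    have hkill : ∀ ℓ : T, ((P ℓ : Sylow (ℓ : ℕ) G) : Subgroup G).index • z = 0 := by
      intro ℓ
      have h1 : (Transfer2.jMap ((P ℓ : Sylow (ℓ : ℕ) G) : Subgroup G) M 2).hom z = 0 := by
        have := congrFun hxy ℓ
        simp only [Φ] at this
        rw [hz, map_sub, this, sub_self]
      rw [← Transfer2.tMap_jMap_apply ((P ℓ : Sylow (ℓ : ℕ) G) : Subgroup G) M 2 z, h1, map_zero]
    by_contra hz0
    have hd : ∀ ℓ : T, addOrderOf z ∣ ((P ℓ : Sylow (ℓ : ℕ) G) : Subgroup G).index := fun ℓ =>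
      addOrderOf_dvd_of_nsmul_eq_zero (hkill ℓ)
    have hd1 : addOrderOf z ≠ 1 := fun h1 => hz0 (AddMonoid.addOrderOf_eq_one_iff.mp h1)
    obtain ⟨r, hr, hrd⟩ := Nat.exists_prime_and_dvd hd1
    have hmin : (Nat.card G).minFac ∈ T :=
      Nat.mem_primeFactors.mpr ⟨Nat.minFac_prime hn1, Nat.minFac_dvd _, hn0⟩
    have hrG : r ∣ Nat.card G :=
      (hrd.trans (hd ⟨_, hmin⟩)).trans (Subgroup.index_dvd_card _)
    have hrT : r ∈ T := Nat.mem_primeFactors.mpr ⟨hr, hrG, hn0⟩
    haveI := hprime ⟨r, hrT⟩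
    exact (P ⟨r, hrT⟩).not_dvd_index (hrd.trans (hd ⟨r, hrT⟩))
  haveI : Finite (H2 M) := Finite.of_injective Φ hΦ
  refine ⟨inferInstance, ?_⟩
  calc Nat.card (H2 M) ≤ Nat.card (∀ ℓ : T, Y ℓ) := Nat.card_le_card_of_injective Φ hΦ
    _ = ∏ ℓ : T, Nat.card (Y ℓ) := Nat.card_pi
    _ ≤ ∏ ℓ : T, Nat.card ((P ℓ : Sylow (ℓ : ℕ) G) : Subgroup G) :=
        Finset.prod_le_prod' fun ℓ _ => (hY ℓ).2
    _ = ∏ ℓ : T, (ℓ : ℕ) ^ (Nat.card G).factorization (ℓ : ℕ) := by
        refine Finset.prod_congr rfl fun ℓ _ => ?_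
        haveI := hprime ℓ
        exact (P ℓ).card_eq_multiplicity
    _ = ∏ ℓ ∈ T, ℓ ^ (Nat.card G).factorization ℓ :=
        Finset.prod_coe_sort T fun ℓ => ℓ ^ (Nat.card G).factorization ℓ
    _ = Nat.card G := Nat.prod_factorization_pow_eq_self hn0

variable (q : ℕ) [Fact q.Prime]

/-- **Hypothesis (UC-b, prime degree)**: the bound `#H²(Gal(E'/E), E'ˣ) ≤ [E' : E]` for Galois
extensions of prime degree of `q`-adic fields (these are cyclic). -/
def CyclicPrimeH2Statement : Prop :=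
  ∀ (E E' : Type) [Field E] [Field E'] [Algebra ℚ_[q] E] [Algebra ℚ_[q] E'] [Algebra E E']
    [IsScalarTower ℚ_[q] E E'] [FiniteDimensional ℚ_[q] E] [FiniteDimensional ℚ_[q] E']
    [IsGalois E E'], (Module.finrank E E').Prime →
    Finite (H2 (unitsRep E E')) ∧ Nat.card (H2 (unitsRep E E')) ≤ Module.finrank E E'

section Inter

variable {q}
variable {E E' : Type} [Field E] [Field E'] [Algebra ℚ_[q] E] [Algebra ℚ_[q] E'] [Algebra E E']
    [IsScalarTower ℚ_[q] E E']

/-- The tower `ℚ_q ⊆ F ⊆ E'` for an intermediate field `F` of `E'/E`. -/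
theorem isScalarTower_inter (F : IntermediateField E E') : IsScalarTower ℚ_[q] ↥F E' :=
  IsScalarTower.of_algebraMap_eq' rfl

end Inter

/-- The bound for Galois extensions of prime power degree (induction on the exponent; the Galois
group is an `ℓ`-group, hence has a normal subgroup of index `ℓ`). -/
theorem pgroup_bound (hcyc : CyclicPrimeH2Statement q) (ℓ : ℕ) (hℓ : ℓ.Prime) (k : ℕ) :
    ∀ (E E' : Type) [Field E] [Field E'] [Algebra ℚ_[q] E] [Algebra ℚ_[q] E']
      [Algebra E E'] [IsScalarTower ℚ_[q] E E'] [FiniteDimensional ℚ_[q] E]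
      [FiniteDimensional ℚ_[q] E'] [IsGalois E E'], Module.finrank E E' = ℓ ^ k →
      Finite (H2 (unitsRep E E')) ∧ Nat.card (H2 (unitsRep E E')) ≤ ℓ ^ k := by
  induction k with
  | zero =>
    intro E E' _ _ _ _ _ _ _ _ _ hdeg
    haveI : FiniteDimensional E E' := FiniteDimensional.right ℚ_[q] E E'
    have hG : Nat.card (E' ≃ₐ[E] E') = 1 := by
      rw [IsGalois.card_aut_eq_finrank, hdeg, pow_zero]
    haveI : Subsingleton (E' ≃ₐ[E] E') := (Nat.card_eq_one_iff_unique.mp hG).1
    have hz : Limits.IsZero (groupCohomology (unitsRep E E') (1 + 1)) :=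
      isZero_groupCohomology_succ_of_subsingleton (unitsRep E E') 1
    haveI : Subsingleton (H2 (unitsRep E E')) := ModuleCat.isZero_iff_subsingleton.mp hz
    refine ⟨inferInstance, ?_⟩
    rw [pow_zero]
    exact Finite.card_le_one_iff_subsingleton.mpr inferInstance
  | succ k ih =>
    intro E E' _ _ _ _ _ _ _ _ _ hdeg
    haveI : Fact ℓ.Prime := ⟨hℓ⟩
    haveI : FiniteDimensional E E' := FiniteDimensional.right ℚ_[q] E E'
    have hG : Nat.card (E' ≃ₐ[E] E') = ℓ ^ (k + 1) := by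
      rw [IsGalois.card_aut_eq_finrank, hdeg]
    obtain ⟨H, hH⟩ := Sylow.exists_subgroup_card_pow_prime (G := E' ≃ₐ[E] E') ℓ (n := k)
      (by rw [hG]; exact pow_dvd_pow ℓ (Nat.le_succ k))
    have hidx : H.index = ℓ := by
      have h1 := H.card_mul_index
      rw [hH, hG, pow_succ] at h1
      exact Nat.eq_of_mul_eq_mul_left (pow_pos hℓ.pos k) h1
    haveI : H.Normal := Subgroup.normal_of_index_eq_minFac_card (by
      rw [hidx, hG, hℓ.pow_minFac (Nat.succ_ne_zero k)])
    -- the intermediate field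
    set F : IntermediateField E E' := IntermediateField.fixedField H with hF
    haveI : IsScalarTower ℚ_[q] ↥F E' := isScalarTower_inter F
    haveI : FiniteDimensional ℚ_[q] ↥F := Module.Finite.trans E ↥F
    haveI : IsGalois E ↥F := IsGalois.of_fixedField_normal_subgroup H
    have hFE' : Module.finrank ↥F E' = ℓ ^ k := by
      rw [hF, IntermediateField.finrank_fixedField_eq_card, hH]
    have hEF : Module.finrank E ↥F = ℓ := by
      have h1 := Module.finrank_mul_finrank E ↥F E'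
      rw [hFE', hdeg, pow_succ, mul_comm] at h1
      exact Nat.eq_of_mul_eq_mul_left (pow_pos hℓ.pos k) h1
    obtain ⟨hfin1, hcard1⟩ := hcyc E ↥F (by rw [hEF]; exact hℓ)
    obtain ⟨hfin2, hcard2⟩ := ih ↥F E' hFE'
    haveI := hfin1
    haveI := hfin2
    obtain ⟨hfin, hcard⟩ := tower_bound E ↥F E'
    refine ⟨hfin, hcard.trans ?_⟩
    rw [hEF] at hcard1
    calc Nat.card (H2 (unitsRep E ↥F)) * Nat.card (H2 (unitsRep ↥F E'))
        ≤ ℓ * ℓ ^ k := Nat.mul_le_mul hcard1 hcard2
      _ = ℓ ^ (k + 1) := by rw [pow_succ, mul_comm]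


section Transport

variable (E E' : Type) [Field E] [Field E'] [Algebra E E'] [FiniteDimensional E E']

/-- A subgroup `H` of `Gal(E'/E)` is the Galois group of `E'` over its fixed field. -/
noncomputable def subgroupEquivFixed (H : Subgroup (E' ≃ₐ[E] E')) :
    ↥H ≃* (E' ≃ₐ[↥(IntermediateField.fixedField H)] E') :=
  (MulEquiv.subgroupCongr (IntermediateField.fixingSubgroup_fixedField H).symm).trans
    (IntermediateField.fixingSubgroupEquiv (IntermediateField.fixedField H))

theorem subgroupEquivFixed_apply (H : Subgroup (E' ≃ₐ[E] E')) (g : ↥H) (x : E') :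
    subgroupEquivFixed E E' H g x = (g : E' ≃ₐ[E] E') x := rfl

/-- `H²(H, E'ˣ) ≅ H²(Gal(E'/E'^H), E'ˣ)`. -/
noncomputable def h2ResIso (H : Subgroup (E' ≃ₐ[E] E')) :
    H2 (Rep.res H.subtype (unitsRep E E')) ≅
      H2 (unitsRep (↥(IntermediateField.fixedField H)) E') :=
  groupCohomology.mapIso (subgroupEquivFixed E E' H) (LinearEquiv.refl ℤ _) (fun g => by
    ext x
    rfl) 2

end Transport


/-- **(H2)** the bound `#H²(Gal(E'/E), E'ˣ) ≤ [E' : E]` for all finite Galois extensions of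
`q`-adic fields, from the case of prime degree. -/
theorem h2Bound_of (hcyc : CyclicPrimeH2Statement q) : UnramDef12.H2BoundStatement q := by
  intro E E' _ _ _ _ _ _ _ _ _
  haveI : FiniteDimensional E E' := FiniteDimensional.right ℚ_[q] E E'
  have key := card_H2_le_of_sylow (E' ≃ₐ[E] E') (unitsRep E E') (fun ℓ _ P => ?_)
  · rwa [IsGalois.card_aut_eq_finrank] at key
  · set F : IntermediateField E E' := IntermediateField.fixedField (P : Subgroup (E' ≃ₐ[E] E'))
      with hF
    haveI : IsScalarTower ℚ_[q] ↥F E' := isScalarTower_inter F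
    haveI : FiniteDimensional ℚ_[q] ↥F := Module.Finite.trans E ↥F
    have hdeg : Module.finrank ↥F E' =
        ℓ ^ (Nat.card (E' ≃ₐ[E] E')).factorization ℓ := by
      rw [hF, IntermediateField.finrank_fixedField_eq_card, P.card_eq_multiplicity]
    obtain ⟨hfin, hcard⟩ := pgroup_bound q hcyc ℓ Fact.out _ ↥F E' hdeg
    have e := (h2ResIso E E' (P : Subgroup (E' ≃ₐ[E] E'))).toLinearEquiv.toEquiv
    haveI := hfin
    refine ⟨Finite.of_equiv _ e.symm, ?_⟩
    rw [Nat.card_congr e, P.card_eq_multiplicity]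
    exact hcard

end Fermat.Agent.PT.LOC.H2Bound26
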