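/-
Program F (S55), chapter LOC (helper10): abstract Herbrand-quotient assembly for the multiplicative
group of a local field.

`X` (`= E'ˣ`) and `Y` (`= 𝒪'ˣ`) commutative groups with endomorphisms `s`, `t` of order dividing `n`,
`1 → Y → X → ℤ → 0` exact and equivariant (trivial action on `ℤ`), `V ≤ Y` a stable subgroup of finite
index with trivial `Ĥ⁰` and `Ĥ⁻¹`, and Hilbert 90 for `X`.  Then `[X^s : N X] = n`; if moreover
`ord` is surjective on `X^s` (unramified case), then `Ĥ⁰(Y) = Ĥ⁻¹(Y) = 1`.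
-/
import Mathlib
import Fermat.Agent.PT.FG.HerbrandQuot18
import Fermat.Agent.PT.GLOB.HerbrandGroup24

set_option autoImplicit false
set_option linter.unusedSectionVars false

namespace Fermat.Agent.PT.LOC.HerbrandUnits10

open Fermat.Agent.CFT.Herbrand Fermat.Agent.PT.FG.HerbrandQuot18
  Fermat.Agent.PT.GLOB.HerbrandGroup24
open Fermat.Agent.CFT.HerbrandAbstract (normEnd)

section Pairs

variable {A : Type*} [AddCommGroup A]

theorem subsingleton_H_of (P : Pair A) (h : ∀ a, P.f a = 0 → ∃ b, P.g b = a) :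
    Subsingleton P.H := by
  have key : ∀ x : P.f.ker, P.cls x = 0 := by
    intro x
    rw [Pair.cls_eq_zero_iff']
    exact h x x.2
  constructor
  intro a b
  obtain ⟨a, rfl⟩ := P.cls_surjective a
  obtain ⟨b, rfl⟩ := P.cls_surjective b
  rw [key a, key b]

theorem exists_of_subsingleton_H (P : Pair A) [Subsingleton P.H] (a : A) (ha : P.f a = 0) :
    ∃ b, P.g b = a := by
  have : P.cls ⟨a, ha⟩ = 0 := Subsingleton.elim _ _
  exact (Pair.cls_eq_zero_iff' P ⟨a, ha⟩).mp this

theorem isFin_hq_of_subsingleton (P : Pair A) [Subsingleton P.H] [Subsingleton P.swap.H] :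
    IsFin P ∧ hq P = 1 := by
  refine ⟨⟨inferInstance, inferInstance⟩, ?_⟩
  unfold hq
  rw [Nat.card_unique, Nat.card_unique]
  simp

end Pairs

section Main

variable {X Y : Type*} [CommGroup X] [CommGroup Y] (s : X →* X) (t : Y →* Y) (n : ℕ)

/-- the cyclic pair of a group endomorphism of finite order -/
noncomputable def mpair (hs : ∀ x, (s^[n]) x = x) : Pair (Additive X) :=
  cyc (toEnd s) n (toEnd_pow_eq_one s n hs)

theorem mpair_f_apply (hs : ∀ x, (s^[n]) x = x) (x : X) :
    (mpair s n hs).f (Additive.ofMul x) = Additive.ofMul (s x / x) := by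
  show (toEnd s - 1) (Additive.ofMul x) = _
  rw [toEnd_sub_one_apply, divHom_apply]

theorem mpair_g_apply (hs : ∀ x, (s^[n]) x = x) (x : X) :
    (mpair s n hs).g (Additive.ofMul x) = Additive.ofMul (normHom s n x) := by
  show normEnd (toEnd s) n (Additive.ofMul x) = _
  rw [Fermat.Agent.PT.GLOB.HerbrandGroup24.normEnd_apply]

theorem card_H_mpair (hs : ∀ x, (s^[n]) x = x) :
    Nat.card (mpair s n hs).H = (normHom s n).range.relIndex (fixedSubgroup s) := by
  have e1 : Nat.card (mpair s n hs).H = (LinearMap.range (normEnd (toEnd s) n)).toAddSubgroup.relIndex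
      (LinearMap.ker (toEnd s - 1)).toAddSubgroup := rfl
  rw [e1, range_normEnd, ker_toEnd_sub_one, Subgroup.relIndex_toAddSubgroup]

theorem card_swap_H_mpair (hs : ∀ x, (s^[n]) x = x) :
    Nat.card (mpair s n hs).swap.H = (divHom s).range.relIndex (normHom s n).ker := by
  have e2 : Nat.card (mpair s n hs).swap.H = (LinearMap.range (toEnd s - 1)).toAddSubgroup.relIndex
      (LinearMap.ker (normEnd (toEnd s) n)).toAddSubgroup := rfl
  rw [e2, range_toEnd_sub_one, ker_normEnd, Subgroup.relIndex_toAddSubgroup]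

end Main

section Assembly

variable {X Y : Type*} [CommGroup X] [CommGroup Y] (s : X →* X) (t : Y →* Y) (n : ℕ)
  (hs : ∀ x, (s^[n]) x = x) (ht : ∀ y, (t^[n]) y = y)

theorem iterate_mem (V : Subgroup Y) (hVt : ∀ v ∈ V, t v ∈ V) (j : ℕ) (v : Y) (hv : v ∈ V) :
    (t^[j]) v ∈ V := by
  induction j with
  | zero => exact hv
  | succ j ih =>
    rw [Function.iterate_succ_apply']
    exact hVt _ ih

/-- `h(Y) = 1` if `Y` has a stable subgroup of finite index with trivial `Ĥ⁰`, `Ĥ⁻¹`. -/
theorem isFin_hq_of_trivial_subgroup (V : Subgroup Y) [V.FiniteIndex] (hVt : ∀ v ∈ V, t v ∈ V)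
    (hV0 : ∀ v ∈ V, t v = v → ∃ w ∈ V, normHom t n w = v)
    (hV1 : ∀ v ∈ V, normHom t n v = 1 → ∃ w ∈ V, t w / w = v) :
    IsFin (mpair t n ht) ∧ hq (mpair t n ht) = 1 := by
  set P := mpair t n ht with hP
  set V' : AddSubgroup (Additive Y) := Subgroup.toAddSubgroup V with hV'
  have hst : Stable P V' := by
    refine ⟨fun a ha => ?_, fun a ha => ?_⟩
    · obtain ⟨v, rfl⟩ := Additive.ofMul.surjective a
      rw [hP, mpair_f_apply]
      exact V.div_mem (hVt v ha) ha
    · obtain ⟨v, rfl⟩ := Additive.ofMul.surjective a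
      rw [hP, mpair_g_apply, Fermat.Agent.PT.GLOB.HerbrandGroup24.normHom_apply]
      show (∏ i ∈ Finset.range n, (⇑t)^[i] v) ∈ V
      exact Subgroup.prod_mem _ fun j _ => iterate_mem t V hVt j v ha
  have h1 : Subsingleton (subPair P V' hst).H := by
    refine subsingleton_H_of _ (fun a ha => ?_)
    obtain ⟨a, haV⟩ := a
    obtain ⟨v, rfl⟩ := Additive.ofMul.surjective a
    have ha' : P.f (Additive.ofMul v) = 0 := congrArg Subtype.val ha
    rw [hP, mpair_f_apply] at ha'
    have hv : t v = v := div_eq_one.mp (Additive.ofMul.injective ha')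
    obtain ⟨w, hw, hw'⟩ := hV0 v haV hv
    refine ⟨⟨Additive.ofMul w, hw⟩, Subtype.ext ?_⟩
    show P.g (Additive.ofMul w) = Additive.ofMul v
    rw [hP, mpair_g_apply, hw']
  have h2 : Subsingleton (subPair P V' hst).swap.H := by
    refine subsingleton_H_of _ (fun a ha => ?_)
    obtain ⟨a, haV⟩ := a
    obtain ⟨v, rfl⟩ := Additive.ofMul.surjective a
    have ha' : P.g (Additive.ofMul v) = 0 := congrArg Subtype.val ha
    rw [hP, mpair_g_apply] at ha'
    have hv : normHom t n v = 1 := Additive.ofMul.injective ha'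
    obtain ⟨w, hw, hw'⟩ := hV1 v haV hv
    refine ⟨⟨Additive.ofMul w, hw⟩, Subtype.ext ?_⟩
    show P.f (Additive.ofMul w) = Additive.ofMul v
    rw [hP, mpair_f_apply, hw']
  obtain ⟨hfin, hq1⟩ := isFin_hq_of_subsingleton (subPair P V' hst)
  have hfi : V'.FiniteIndex := ⟨by rw [hV', Subgroup.index_toAddSubgroup]; exact Subgroup.FiniteIndex.index_ne_zero⟩
  have : Finite (Additive Y ⧸ V') := V'.finite_quotient_of_finiteIndex
  have hPfin : IsFin P := (isFin_sub_iff_of_finite_quotient P V' hst).mp hfin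
  exact ⟨hPfin, by rw [← hq_sub_eq_of_finite_quotient P V' hst hPfin, hq1]⟩

variable (ι : Y →* X) (hι : Function.Injective ι) (hιt : ∀ y, ι (t y) = s (ι y))
  (ord : Additive X →+ ℤ) (hord : Function.Surjective ord)
  (hords : ∀ x, ord (Additive.ofMul (s x)) = ord (Additive.ofMul x))
  (hker : ∀ x, ord (Additive.ofMul x) = 0 ↔ ∃ y, ι y = x)

include hι hιt hord hords hker

/-- the short exact sequence `0 → Y → X → ℤ → 0` of cyclic pairs -/
noncomputable def unitsShortExact :
    ShortExact (mpair t n ht) (mpair s n hs) (cyc (1 : Module.End ℤ ℤ) n (one_pow n)) :=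
  cycShortExact (toEnd_pow_eq_one t n ht) (toEnd_pow_eq_one s n hs) (one_pow n)
    (MonoidHom.toAdditive ι) ord
    (fun a => by
      obtain ⟨y, rfl⟩ := Additive.ofMul.surjective a
      exact congrArg Additive.ofMul (hιt y))
    (fun a => by
      obtain ⟨x, rfl⟩ := Additive.ofMul.surjective a
      exact hords x)
    (fun a b hab => by
      obtain ⟨y, rfl⟩ := Additive.ofMul.surjective a
      obtain ⟨y', rfl⟩ := Additive.ofMul.surjective b
      exact congrArg Additive.ofMul (hι (Additive.ofMul.injective hab)))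
    hord
    (fun b => by
      obtain ⟨x, rfl⟩ := Additive.ofMul.surjective b
      rw [hker x]
      constructor
      · rintro ⟨y, rfl⟩
        exact ⟨Additive.ofMul y, rfl⟩
      · rintro ⟨a, ha⟩
        exact ⟨Additive.toMul a, Additive.ofMul.injective ha⟩)

include hs ht

/-- **`h(X) = n`** and, with Hilbert 90, **the norm index is `n`**. -/
theorem norm_index_eq (hn : n ≠ 0) (V : Subgroup Y) [V.FiniteIndex] (hVt : ∀ v ∈ V, t v ∈ V)
    (hV0 : ∀ v ∈ V, t v = v → ∃ w ∈ V, normHom t n w = v)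
    (hV1 : ∀ v ∈ V, normHom t n v = 1 → ∃ w ∈ V, t w / w = v)
    (h90 : ∀ x, normHom s n x = 1 → ∃ y, s y / y = x) :
    (normHom s n).range.relIndex (fixedSubgroup s) = n := by
  obtain ⟨hY, hqY⟩ := isFin_hq_of_trivial_subgroup t n ht V hVt hV0 hV1
  have S := unitsShortExact s t n hs ht ι hι hιt ord hord hords hker
  have hZ := isFin_cyc_int n hn
  have hX : IsFin (mpair s n hs) :=
    Fermat.Agent.PT.FG.HerbrandQuot18.ShortExact.isFin_mid S hY hZ
  have hqX : hq (mpair s n hs) = n := by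
    rw [Fermat.Agent.PT.FG.HerbrandQuot18.ShortExact.hq_mul S hY hZ, hqY, hq_cyc_int n hn, one_mul]
  have h2 : Subsingleton (mpair s n hs).swap.H := by
    refine subsingleton_H_of _ (fun a ha => ?_)
    obtain ⟨x, rfl⟩ := Additive.ofMul.surjective a
    have ha' : (mpair s n hs).g (Additive.ofMul x) = 0 := ha
    rw [mpair_g_apply] at ha'
    obtain ⟨y, hy⟩ := h90 x (Additive.ofMul.injective ha')
    refine ⟨Additive.ofMul y, ?_⟩
    show (mpair s n hs).f (Additive.ofMul y) = Additive.ofMul x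
    rw [mpair_f_apply, hy]
  have h3 : (Nat.card (mpair s n hs).H : ℚ) = n := by
    have hc : Nat.card (mpair s n hs).swap.H = 1 := Nat.card_unique
    have := hqX
    unfold hq at this
    rwa [hc, Nat.cast_one, div_one] at this
  rw [← card_H_mpair s n hs]
  exact_mod_cast h3

omit hs ht hι hord hords hker in
theorem map_iterate_eq (j : ℕ) (y : Y) : ι ((t^[j]) y) = (s^[j]) (ι y) := by
  induction j with
  | zero => rfl
  | succ j ih => rw [Function.iterate_succ_apply', Function.iterate_succ_apply', hιt, ih]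

omit hs ht hι hord hords hker in
theorem map_normHom (y : Y) : ι (normHom t n y) = normHom s n (ι y) := by
  rw [Fermat.Agent.PT.GLOB.HerbrandGroup24.normHom_apply,
    Fermat.Agent.PT.GLOB.HerbrandGroup24.normHom_apply, map_prod]
  exact Finset.prod_congr rfl fun j _ => map_iterate_eq s t ι hιt j y

/-- **Unramified case**: if `ord` takes the value `1` on a fixed element, then
`Ĥ⁻¹(Y) = Ĥ⁰(Y) = 1`. -/
theorem units_trivial_of_unramified (V : Subgroup Y) [V.FiniteIndex]
    (hVt : ∀ v ∈ V, t v ∈ V)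
    (hV0 : ∀ v ∈ V, t v = v → ∃ w ∈ V, normHom t n w = v)
    (hV1 : ∀ v ∈ V, normHom t n v = 1 → ∃ w ∈ V, t w / w = v)
    (h90 : ∀ x, normHom s n x = 1 → ∃ y, s y / y = x)
    (x₀ : X) (hx₀ : s x₀ = x₀) (hx₀1 : ord (Additive.ofMul x₀) = 1) :
    (∀ u : Y, normHom t n u = 1 → ∃ v : Y, t v / v = u) ∧
      (∀ u : Y, t u = u → ∃ v : Y, normHom t n v = u) := by
  have part1 : ∀ u : Y, normHom t n u = 1 → ∃ v : Y, t v / v = u := by
    intro u hu
    have h1 : normHom s n (ι u) = 1 := by rw [← map_normHom s t n ι hιt, hu, map_one]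
    obtain ⟨x, hx⟩ := h90 (ι u) h1
    set m : ℤ := ord (Additive.ofMul x) with hm
    have h2 : ord (Additive.ofMul (x / x₀ ^ m)) = 0 := by
      rw [ofMul_div, ofMul_zpow, map_sub, map_zsmul, hx₀1, smul_eq_mul, mul_one, ← hm, sub_self]
    obtain ⟨v, hv⟩ := (hker _).mp h2
    refine ⟨v, hι ?_⟩
    rw [map_div, hιt, hv, map_div, map_zpow, hx₀, ← hx]
    rw [div_div_div_cancel_right]
  refine ⟨part1, ?_⟩
  obtain ⟨hY, hqY⟩ := isFin_hq_of_trivial_subgroup t n ht V hVt hV0 hV1
  have h2 : Subsingleton (mpair t n ht).swap.H := by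
    refine subsingleton_H_of _ (fun a ha => ?_)
    obtain ⟨u, rfl⟩ := Additive.ofMul.surjective a
    have ha' : (mpair t n ht).g (Additive.ofMul u) = 0 := ha
    rw [mpair_g_apply] at ha'
    obtain ⟨v, hv⟩ := part1 u (Additive.ofMul.injective ha')
    refine ⟨Additive.ofMul v, ?_⟩
    show (mpair t n ht).f (Additive.ofMul v) = Additive.ofMul u
    rw [mpair_f_apply, hv]
  have hc : Nat.card (mpair t n ht).swap.H = 1 := Nat.card_unique
  have h3 : (Nat.card (mpair t n ht).H : ℚ) = 1 := by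
    have := hqY
    unfold hq at this
    rwa [hc, Nat.cast_one, div_one] at this
  have h4 : Nat.card (mpair t n ht).H = 1 := by exact_mod_cast h3
  have h5 : Subsingleton (mpair t n ht).H := (Nat.card_eq_one_iff_unique.mp h4).1
  intro u hu
  obtain ⟨b, hb⟩ := exists_of_subsingleton_H (mpair t n ht) (Additive.ofMul u) (by
    rw [mpair_f_apply, hu, div_self']; rfl)
  obtain ⟨v, rfl⟩ := Additive.ofMul.surjective b
  rw [mpair_g_apply] at hb
  exact ⟨v, Additive.ofMul.injective hb⟩

end Assembly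

end Fermat.Agent.PT.LOC.HerbrandUnits10
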