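/-
Program F (S55), chapter LOC, leaf (UC) (helper10): cohomology of the units of a cyclic extension
`E'/E` of `q`-adic fields.

* `norm_index_eq_finrank` (UC-b): `[Eˣ : N(E'ˣ)] = [E' : E]` for `E'/E` cyclic;
* `unitsNorm_of_cyclic` (UC-a): `E'/E` unramified cyclic: every unit of `E` is the norm of a unit of
  `E'`; `units_hilbert90_of_cyclic`: a unit of norm one is `σ v / v` with `v` a unit.
-/
import Mathlib
import Fermat.Agent.PT.LOC.Interface12
import Fermat.Agent.PT.LOC.Structure14
import Fermat.Agent.PT.LOC.StructureNorm14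
import Fermat.Agent.PT.LOC.StructureTower27
import Fermat.Agent.PT.LOC.IntRingCyclic10
import Fermat.Agent.PT.LOC.HerbrandUnits10

set_option autoImplicit false
set_option linter.unusedSectionVars false

open scoped Fermat.Agent.PT.LOC.Interface12
open Fermat.Agent.PT.LOC.Interface12 Fermat.Agent.PT.LOC.Structure14
  Fermat.Agent.PT.LOC.StructureNorm14 Fermat.Agent.PT.LOC.StructureTower27
  Fermat.Agent.PT.LOC.UnitFiltration10 Fermat.Agent.PT.LOC.IntRingCyclic10
  Fermat.Agent.PT.LOC.HerbrandUnits10 Fermat.Agent.PT.GLOB.HerbrandGroup24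

namespace Fermat.Agent.PT.LOC.UnitsCoh10

noncomputable section

variable (q : ℕ) [Fact q.Prime] {E E' : Type} [Field E] [Field E'] [Algebra ℚ_[q] E]
  [Algebra ℚ_[q] E'] [Algebra E E'] [IsScalarTower ℚ_[q] E E'] [FiniteDimensional ℚ_[q] E']

/-- `ord` as an additive homomorphism -/
def ordAdd (F : Type) [Field F] [Algebra ℚ_[q] F] [FiniteDimensional ℚ_[q] F] :
    Additive Fˣ →+ ℤ := MonoidHom.toAdditiveLeft (ordHom q F)

theorem ordAdd_apply (F : Type) [Field F] [Algebra ℚ_[q] F] [FiniteDimensional ℚ_[q] F] (x : Fˣ) :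
    ordAdd q F (Additive.ofMul x) = ord q F x := rfl

theorem ordAdd_surjective (F : Type) [Field F] [Algebra ℚ_[q] F] [FiniteDimensional ℚ_[q] F] :
    Function.Surjective (ordAdd q F) := by
  intro m
  obtain ⟨x, hx⟩ := ord_surjective q F m
  exact ⟨Additive.ofMul x, hx⟩

/-- the inclusion `𝒪'ˣ → E'ˣ` -/
def unitsIncl (F : Type) [Field F] [Algebra ℚ_[q] F] : (intRing q F)ˣ →* Fˣ :=
  Units.map ((intRing q F).val : intRing q F →* F)

theorem coe_unitsIncl (F : Type) [Field F] [Algebra ℚ_[q] F] (y : (intRing q F)ˣ) :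
    ((unitsIncl q F y : Fˣ) : F) = ((y : intRing q F) : F) := rfl

theorem unitsIncl_injective (F : Type) [Field F] [Algebra ℚ_[q] F] :
    Function.Injective (unitsIncl q F) := by
  intro a b hab
  apply Units.ext
  apply Subtype.ext
  exact congrArg (fun z : Fˣ => (z : F)) hab

theorem unitsIncl_mem (F : Type) [Field F] [Algebra ℚ_[q] F] (y : (intRing q F)ˣ) :
    unitsIncl q F y ∈ unitGroup q F := by
  refine ⟨(y : intRing q F).2, ?_⟩
  have : ((unitsIncl q F y)⁻¹ : Fˣ) = unitsIncl q F y⁻¹ := (map_inv _ _).symm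
  rw [this]
  exact ((y⁻¹ : (intRing q F)ˣ) : intRing q F).2

theorem exists_unitsIncl_eq (F : Type) [Field F] [Algebra ℚ_[q] F] (x : Fˣ)
    (hx : x ∈ unitGroup q F) : ∃ y, unitsIncl q F y = x := by
  refine ⟨⟨⟨(x : F), hx.1⟩, ⟨((x⁻¹ : Fˣ) : F), hx.2⟩, ?_, ?_⟩, Units.ext rfl⟩
  · apply Subtype.ext
    show (x : F) * ((x⁻¹ : Fˣ) : F) = 1
    rw [← Units.val_mul, mul_inv_cancel, Units.val_one]
  · apply Subtype.ext
    show ((x⁻¹ : Fˣ) : F) * (x : F) = 1
    rw [← Units.val_mul, inv_mul_cancel, Units.val_one]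

section Cyclic

variable [IsGalois E E'] (σ : E' ≃ₐ[E] E')

/-- `σ` on `E'ˣ` -/
def sX : E'ˣ →* E'ˣ := Units.map (σ : E' →* E')

/-- `σ` on `𝒪'ˣ` -/
def tY : (intRing q E')ˣ →* (intRing q E')ˣ := unitsEnd (intAut q σ)

theorem coe_sX (x : E'ˣ) : ((sX σ x : E'ˣ) : E') = σ (x : E') := rfl

theorem iterate_sX (j : ℕ) (x : E'ˣ) : (((sX σ)^[j] x : E'ˣ) : E') = (σ ^ j) (x : E') := by
  induction j with
  | zero => rfl
  | succ j ih => rw [Function.iterate_succ_apply', coe_sX, ih, pow_succ']; rfl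

theorem sX_iterate_orderOf (x : E'ˣ) : (sX σ)^[orderOf σ] x = x := by
  apply Units.ext
  rw [iterate_sX, pow_orderOf_eq_one]
  rfl

theorem iterate_tY (j : ℕ) (y : (intRing q E')ˣ) :
    (((tY q σ)^[j] y : (intRing q E')ˣ) : intRing q E') = (⇑(intAut q σ))^[j] (y : intRing q E') := by
  induction j with
  | zero => rfl
  | succ j ih =>
    rw [Function.iterate_succ_apply', Function.iterate_succ_apply', ← ih]
    rfl

theorem tY_iterate_orderOf (y : (intRing q E')ˣ) : (tY q σ)^[orderOf σ] y = y := by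
  apply Units.ext
  rw [iterate_tY, iterate_orderOf]

theorem unitsIncl_tY (y : (intRing q E')ˣ) :
    unitsIncl q E' (tY q σ y) = sX σ (unitsIncl q E' y) := Units.ext rfl

variable {σ} (hσ : ∀ τ, τ ∈ Subgroup.zpowers σ)

include hσ

theorem exists_algebraMap_eq_of_fixed [FiniteDimensional E E'] (x : E') (hx : σ x = x) :
    ∃ a : E, algebraMap E E' a = x := by
  have h2 : ∀ τ : E' ≃ₐ[E] E', τ x = x := by
    intro τ
    have hle : Subgroup.zpowers σ ≤ MulAction.stabilizer (E' ≃ₐ[E] E') x := by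
      rw [Subgroup.zpowers_le, MulAction.mem_stabilizer_iff, AlgEquiv.smul_def]
      exact hx
    have := hle (hσ τ)
    rwa [MulAction.mem_stabilizer_iff, AlgEquiv.smul_def] at this
  exact (IsGalois.mem_range_algebraMap_iff_fixed _).mpr h2

theorem prod_pow_eq_prod_univ [FiniteDimensional E E'] (x : E') :
    ∏ j ∈ Finset.range (orderOf σ), (σ ^ j) x = ∏ τ : E' ≃ₐ[E] E', τ x := by
  rw [Finset.prod_range]
  have hbij : Function.Bijective (fun i : Fin (orderOf σ) => σ ^ (i : ℕ)) := by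
    have hinj : Function.Injective (fun i : Fin (orderOf σ) => σ ^ (i : ℕ)) :=
      fun a b h => Fin.ext (pow_injOn_Iio_orderOf a.2 b.2 h)
    refine hinj.bijective_of_nat_card_le ?_
    rw [Nat.card_fin, orderOf_eq_card_of_forall_mem_zpowers hσ]
  exact Fintype.prod_bijective _ hbij _ _ (fun i => rfl)

theorem coe_normHom_sX [FiniteDimensional E E'] (x : E'ˣ) :
    ((normHom (sX σ) (orderOf σ) x : E'ˣ) : E') = algebraMap E E' (Algebra.norm E (x : E')) := by
  rw [Algebra.norm_eq_prod_automorphisms, ← prod_pow_eq_prod_univ hσ,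
    Fermat.Agent.PT.GLOB.HerbrandGroup24.normHom_apply, Units.coe_prod]
  exact Finset.prod_congr rfl fun j _ => iterate_sX σ j x

end Cyclic

section Main

variable [IsGalois E E'] {σ : E' ≃ₐ[E] E'} (hσ : ∀ τ, τ ∈ Subgroup.zpowers σ)

include hσ

/-- Hilbert 90 in the form used by the Herbrand assembly -/
theorem hilbert90_sX [FiniteDimensional E E'] (x : E'ˣ)
    (hx : normHom (sX σ) (orderOf σ) x = 1) : ∃ y : E'ˣ, sX σ y / y = x := by
  have h1 : Algebra.norm E (x : E') = 1 := by
    have := coe_normHom_sX hσ x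
    rw [hx, Units.val_one] at this
    exact (algebraMap E E').injective (by rw [← this, map_one])
  have : IsCyclic (E' ≃ₐ[E] E') := ⟨σ, hσ⟩
  obtain ⟨y, hy⟩ := groupCohomology.exists_div_of_norm_eq_one hσ h1
  refine ⟨y⁻¹, Units.ext ?_⟩
  rw [Units.val_div_eq_div_val, coe_sX, ← hy, Units.val_inv_eq_inv_val, map_inv₀]
  have hy0 : (y : E') ≠ 0 := y.ne_zero
  have hσy0 : σ (y : E') ≠ 0 := by simp [hy0]
  field_simp

theorem hords_sX (x : E'ˣ) :
    ordAdd q E' (Additive.ofMul (sX σ x)) = ordAdd q E' (Additive.ofMul x) := by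
  have : FiniteDimensional ℚ_[q] E := FiniteDimensional.left ℚ_[q] E E'
  exact ord_galois q E E' σ x

theorem hker_unitsIncl (x : E'ˣ) :
    ordAdd q E' (Additive.ofMul x) = 0 ↔ ∃ y, unitsIncl q E' y = x := by
  rw [ordAdd_apply, ← mem_unitGroup_iff_ord]
  constructor
  · exact exists_unitsIncl_eq q E' x
  · rintro ⟨y, rfl⟩
    exact unitsIncl_mem q E' y

include q in
/-- **(UC-b), index form inside `E'ˣ`.** -/
theorem relIndex_norm_fixed :
    (normHom (sX σ) (orderOf σ)).range.relIndex (fixedSubgroup (sX σ)) = orderOf σ := by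
  have : FiniteDimensional E E' := FiniteDimensional.right ℚ_[q] E E'
  obtain ⟨V, hVfin, hVt, hV0, hV1⟩ := exists_trivial_subgroup q hσ
  exact norm_index_eq (sX σ) (tY q σ) (orderOf σ) (sX_iterate_orderOf σ) (tY_iterate_orderOf q σ)
    (unitsIncl q E') (unitsIncl_injective q E') (unitsIncl_tY q σ) (ordAdd q E')
    (ordAdd_surjective q E') (hords_sX q hσ) (hker_unitsIncl q hσ) (orderOf_pos σ).ne' V hVt hV0 hV1
    (hilbert90_sX hσ)

include q in
/-- **(UC-b)**: for a cyclic extension `E'/E` of `q`-adic fields the norm group `N(E'ˣ)` has index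
`[E' : E]` in `Eˣ`. -/
theorem norm_index_eq_finrank :
    (Units.map (Algebra.norm E : E' →* E)).range.index = Module.finrank E E' := by
  have : FiniteDimensional E E' := FiniteDimensional.right ℚ_[q] E E'
  have key := relIndex_norm_fixed q hσ
  set j : Eˣ →* E'ˣ := Units.map (algebraMap E E' : E →* E') with hj
  have hjinj : Function.Injective j := Units.map_injective (algebraMap E E').injective
  have h1 : fixedSubgroup (sX σ) = Subgroup.map j ⊤ := by
    ext x
    rw [mem_fixedSubgroup, Subgroup.mem_map]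
    constructor
    · intro hx
      obtain ⟨a, ha⟩ := exists_algebraMap_eq_of_fixed hσ (x : E') (congrArg Units.val hx)
      have ha0 : a ≠ 0 := by
        rintro rfl
        rw [map_zero] at ha
        exact x.ne_zero ha.symm
      exact ⟨Units.mk0 a ha0, Subgroup.mem_top _, Units.ext ha⟩
    · rintro ⟨a, -, rfl⟩
      exact Units.ext (σ.commutes _)
  have h2 : (normHom (sX σ) (orderOf σ)).range =
      Subgroup.map j (Units.map (Algebra.norm E : E' →* E)).range := by
    have h3 : normHom (sX σ) (orderOf σ) = j.comp (Units.map (Algebra.norm E : E' →* E)) := by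
      ext x
      exact coe_normHom_sX hσ x
    rw [h3, MonoidHom.map_range]
  rw [h1, h2, Subgroup.relIndex_map_map_of_injective _ _ hjinj, Subgroup.relIndex_top_right] at key
  rw [key, orderOf_eq_card_of_forall_mem_zpowers hσ, IsGalois.card_aut_eq_finrank]

include q in
/-- unramified cyclic case, in terms of `𝒪'ˣ` -/
theorem intUnits_trivial_of_unramified (hunr : IsUnramified q E E') :
    (∀ u : (intRing q E')ˣ, normHom (tY q σ) (orderOf σ) u = 1 → ∃ v, tY q σ v / v = u) ∧
      (∀ u : (intRing q E')ˣ, tY q σ u = u → ∃ v, normHom (tY q σ) (orderOf σ) v = u) := by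
  have : FiniteDimensional E E' := FiniteDimensional.right ℚ_[q] E E'
  have : FiniteDimensional ℚ_[q] E := FiniteDimensional.left ℚ_[q] E E'
  obtain ⟨V, hVfin, hVt, hV0, hV1⟩ := exists_trivial_subgroup q hσ
  obtain ⟨π, hπ⟩ := exists_isUniformizer q E
  set x₀ : E'ˣ := Units.map (algebraMap E E' : E →* E') π with hx₀
  have h1 : sX σ x₀ = x₀ := Units.ext (σ.commutes _)
  have h2 : ordAdd q E' (Additive.ofMul x₀) = 1 := by
    rw [ordAdd_apply]
    exact (isUniformizer_iff_ord q E' x₀).1 (hunr _ hπ)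
  exact units_trivial_of_unramified (sX σ) (tY q σ) (orderOf σ) (sX_iterate_orderOf σ)
    (tY_iterate_orderOf q σ) (unitsIncl q E') (unitsIncl_injective q E') (unitsIncl_tY q σ)
    (ordAdd q E') (ordAdd_surjective q E') (hords_sX q hσ) (hker_unitsIncl q hσ) V hVt hV0 hV1
    (hilbert90_sX hσ) x₀ h1 h2

include q in
/-- **(UC-a)**: `E'/E` unramified cyclic: every unit of `E` is the norm of a unit of `E'`. -/
theorem unitsNorm_of_cyclic (hunr : IsUnramified q E E') (u : Eˣ) (hu : u ∈ unitGroup q E) :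
    ∃ y : E'ˣ, y ∈ unitGroup q E' ∧ Algebra.norm E (y : E') = (u : E) := by
  have : FiniteDimensional E E' := FiniteDimensional.right ℚ_[q] E E'
  have : FiniteDimensional ℚ_[q] E := FiniteDimensional.left ℚ_[q] E E'
  obtain ⟨-, h0⟩ := intUnits_trivial_of_unramified q hσ hunr
  set x : E'ˣ := Units.map (algebraMap E E' : E →* E') u with hx
  have hxU : x ∈ unitGroup q E' := (mem_unitGroup_algebraMap_iff q E E' u).2 hu
  obtain ⟨u', hu'⟩ := exists_unitsIncl_eq q E' x hxU
  have hfix : tY q σ u' = u' := by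
    apply unitsIncl_injective q E'
    rw [unitsIncl_tY, hu']
    exact Units.ext (σ.commutes _)
  obtain ⟨v, hv⟩ := h0 u' hfix
  refine ⟨unitsIncl q E' v, unitsIncl_mem q E' v, ?_⟩
  have h3 := map_normHom (sX σ) (tY q σ) (orderOf σ) (unitsIncl q E') (unitsIncl_tY q σ) v
  rw [hv, hu'] at h3
  have h4 := coe_normHom_sX hσ (unitsIncl q E' v)
  rw [← h3] at h4
  exact ((algebraMap E E').injective h4).symm

include q in
/-- **(UC-a)**, `Ĥ⁻¹`: `E'/E` unramified cyclic with generator `σ`: a unit of `E'` of norm `1` is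
`σ v / v` for a unit `v`. -/
theorem units_hilbert90_of_cyclic (hunr : IsUnramified q E E') (u : E'ˣ)
    (hu : u ∈ unitGroup q E') (hN : Algebra.norm E (u : E') = 1) :
    ∃ v : E'ˣ, v ∈ unitGroup q E' ∧ Units.map (σ : E' →* E') v / v = u := by
  have : FiniteDimensional E E' := FiniteDimensional.right ℚ_[q] E E'
  obtain ⟨h1, -⟩ := intUnits_trivial_of_unramified q hσ hunr
  obtain ⟨u', hu'⟩ := exists_unitsIncl_eq q E' u hu
  have hN' : normHom (tY q σ) (orderOf σ) u' = 1 := by
    apply unitsIncl_injective q E'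
    rw [map_normHom (sX σ) (tY q σ) (orderOf σ) (unitsIncl q E') (unitsIncl_tY q σ), hu', map_one]
    apply Units.ext
    rw [coe_normHom_sX hσ, hN, map_one, Units.val_one]
  obtain ⟨v, hv⟩ := h1 u' hN'
  refine ⟨unitsIncl q E' v, unitsIncl_mem q E' v, ?_⟩
  have := congrArg (unitsIncl q E') hv
  rw [map_div, unitsIncl_tY, hu'] at this
  exact this

end Main

end

end Fermat.Agent.PT.LOC.UnitsCoh10
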