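/-
Program F (S55, Poitou–Tate), chapter LOC — helper14.  FINAL ASSEMBLY of (LCF).

* `unitsNorm : UnramDef12.UnitsNormStatement q` (helper10's `UnitsCoh10.unitsNorm_of_cyclic` + helper27's
  `Frob27`: unramified Galois extensions are cyclic, generated by a Frobenius);
* `cyclicPrimeH2 : H2Bound26.CyclicPrimeH2Statement q` (helper10's `norm_index_eq_finrank` + helper26's
  `CyclicNormIndex26.card_H2_le_of_normIndex`);
* `h2Bound : UnramDef12.H2BoundStatement q` (helper26's `H2Bound26.h2Bound_of`);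
* `localClassFormation : Interface12.LocalClassFormation q` (helper12's
  `FundClass12.localClassFormation_of`), UNCONDITIONAL.
-/
import Mathlib
import Fermat.Agent.PT.LOC.FundClass12
import Fermat.Agent.PT.LOC.UnitsCoh10
import Fermat.Agent.PT.LOC.H2Bound26
import Fermat.Agent.PT.LOC.CyclicNormIndex26
import Fermat.Agent.PT.LOC.Frob27

set_option autoImplicit false
set_option linter.unusedSectionVars false

namespace Fermat.Agent.PT.LOC.LCFFinal14

open Fermat.Agent.PT.LOC.Interface12 Fermat.Agent.PT.LOC.UnramDef12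

variable (q : ℕ) [Fact q.Prime]

/-- (UC-a) in an unramified Galois extension every unit is a norm: the Galois group is cyclic,
generated by a Frobenius (`Frob27`), and the cyclic case is `UnitsCoh10.unitsNorm_of_cyclic`. -/
theorem unitsNorm : UnitsNormStatement q := by
  intro E E₁ _ _ _ _ _ _ _ _ _ hun u hu
  obtain ⟨φ, hφ⟩ := Frob27.exists_isFrob q E E₁
  have hgen : ∀ τ : E₁ ≃ₐ[E] E₁, τ ∈ Subgroup.zpowers φ := Frob27.mem_zpowers_frob q E E₁ hun hφ
  obtain ⟨y, -, hy⟩ := UnitsCoh10.unitsNorm_of_cyclic q hgen hun u hu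
  exact ⟨y, hy⟩

/-- (UC-b) `#H² ≤ [E' : E]` for Galois extensions of prime degree. -/
theorem cyclicPrimeH2 : H2Bound26.CyclicPrimeH2Statement q := by
  classical
  intro E E' _ _ _ _ _ _ _ _ _ hprime
  have hfd : FiniteDimensional E E' := FiniteDimensional.right ℚ_[q] E E'
  have hcard : Nat.card (E' ≃ₐ[E] E') = Module.finrank E E' := IsGalois.card_aut_eq_finrank E E'
  have hcyc : IsCyclic (E' ≃ₐ[E] E') := by
    have : Fact (Module.finrank E E').Prime := ⟨hprime⟩
    exact isCyclic_of_prime_card hcard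
  obtain ⟨φ, hφ⟩ := hcyc.exists_generator
  have hidx := UnitsCoh10.norm_index_eq_finrank q hφ
  -- a finite set of representatives of `Eˣ` modulo norms
  set Nrm : Subgroup Eˣ := (Units.map (Algebra.norm E : E' →* E)).range with hN
  have hfi : Nrm.FiniteIndex := ⟨by rw [hidx]; exact hprime.ne_zero⟩
  have := Fintype.ofFinite (Eˣ ⧸ Nrm)
  set S : Finset Eˣ := Finset.univ.image (fun c : Eˣ ⧸ Nrm => Quotient.out c) with hS
  have hScard : S.card ≤ Module.finrank E E' := by
    calc S.card ≤ (Finset.univ : Finset (Eˣ ⧸ Nrm)).card := Finset.card_image_le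
      _ = Nrm.index := by rw [Finset.card_univ, Subgroup.index, Nat.card_eq_fintype_card]
      _ = Module.finrank E E' := hidx
  have hrep : ∀ x : Eˣ, ∃ s ∈ S, ∃ y : E'ˣ, (x : E) = (s : E) * Algebra.norm E (y : E') := by
    intro x
    refine ⟨Quotient.out (x : Eˣ ⧸ Nrm), Finset.mem_image_of_mem _ (Finset.mem_univ _), ?_⟩
    have h1 : ((Quotient.out (x : Eˣ ⧸ Nrm) : Eˣ) : Eˣ ⧸ Nrm) = (x : Eˣ ⧸ Nrm) :=
      Quotient.out_eq _
    rw [QuotientGroup.eq] at h1
    obtain ⟨y, hy⟩ := h1
    refine ⟨y, ?_⟩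
    have h2 := congrArg (fun w : Eˣ => (w : E)) hy
    simp only [Units.coe_map, Units.val_mul, Units.val_inv_eq_inv_val] at h2
    rw [h2]
    field_simp
  obtain ⟨hfin, hle⟩ := CyclicNormIndex26.card_H2_le_of_normIndex E E' φ hφ S hrep
  exact ⟨hfin, hle.trans hScard⟩

/-- (H2) `#H²(Gal(E'/E), E'ˣ) ≤ [E' : E]` for every finite Galois extension of `q`-adic fields. -/
theorem h2Bound : H2BoundStatement q := H2Bound26.h2Bound_of q (cyclicPrimeH2 q)

/-- **(LCF)**: the local class formation, unconditionally. -/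
theorem localClassFormation : LocalClassFormation q :=
  FundClass12.localClassFormation_of q (unitsNorm q) (h2Bound q)

end Fermat.Agent.PT.LOC.LCFFinal14
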