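/-
Program F (S55), chapter LOC, helper12: from LOC's class formation axioms (`IsClassFormationCore`) to
FG's finite-level hypotheses `Interface8.IsFundClassFull` for `(Gal(E'/E), E'ˣ, u_{E'/E})`.
-/
import Mathlib
import Fermat.Agent.PT.LOC.Interface12
import Fermat.Agent.PT.LOC.TowerCoh12
import Fermat.Agent.PT.LOC.H2Bound26
import Fermat.Agent.PT.FG.Interface8
import Fermat.Agent.PT.LOC.UnramDef12
import Fermat.Agent.PT.LOC.FundClass12

set_option autoImplicit false
set_option linter.unusedSectionVars false
set_option linter.style.haveILetI false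

open CategoryTheory groupCohomology

namespace Fermat.Agent.PT.LOC.Bridge12

open Fermat.Agent.PT.LOC.Interface12 Fermat.Agent.PT.LOC.TowerCoh12
  Fermat.Agent.PT.LOC.H2Bound26 Fermat.Agent.PT.FG

noncomputable section

/-- The effect of `groupCohomology.mapIso` on the class of a 2-cocycle. -/
theorem mapIso_hom_H2π {k G H : Type} [CommRing k] [Group G] [Group H] {A : Rep k H}
    {B : Rep k G} (e : G ≃* H) (e' : B.V ≃ₗ[k] A.V)
    (he : ∀ g, e' ∘ₗ B.ρ g = A.ρ (e g) ∘ₗ e') (y : cocycles₂ B) :
    ∃ z : cocycles₂ A, (groupCohomology.mapIso e e' he 2).hom (H2π B y) = H2π A z ∧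
      ∀ σ τ : H, z (σ, τ) = e' (y (e.symm σ, e.symm τ)) :=
  ⟨mapCocycles₂ _ _ y, H2π_comp_map_apply _ _ y, fun _ _ => rfl⟩

section Transport

variable (E E' : Type) [Field E] [Field E'] [Algebra E E'] [FiniteDimensional E E']

/-- `H¹(H, E'ˣ) ≅ H¹(Gal(E'/E'^H), E'ˣ)`. -/
def h1ResIso (H : Subgroup (E' ≃ₐ[E] E')) :
    H1 (Rep.res H.subtype (unitsRep E E')) ≅
      H1 (unitsRep (↥(IntermediateField.fixedField H)) E') :=
  groupCohomology.mapIso (subgroupEquivFixed E E' H) (LinearEquiv.refl ℤ _) (fun g => by
    ext x
    rfl) 1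

theorem subsingleton_H1_res (H : Subgroup (E' ≃ₐ[E] E')) :
    Subsingleton (H1 (Rep.res H.subtype (unitsRep E E'))) :=
  (h1ResIso E E' H).toLinearEquiv.toEquiv.subsingleton

theorem subtype_symm_subgroupEquivFixed (H : Subgroup (E' ≃ₐ[E] E'))
    (τ : E' ≃ₐ[↥(IntermediateField.fixedField H)] E') :
    (((subgroupEquivFixed E E' H).symm τ : ↥H) : E' ≃ₐ[E] E') =
      galIncl E (↥(IntermediateField.fixedField H)) E' τ := by
  ext x
  have h := subgroupEquivFixed_apply E E' H ((subgroupEquivFixed E E' H).symm τ) x
  rw [MulEquiv.apply_symm_apply] at h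
  exact h.symm

/-- The restriction to a subgroup, transported to the fixed field, is the field-theoretic
restriction. -/
theorem h2ResIso_resMap (H : Subgroup (E' ≃ₐ[E] E')) (x : H2 (unitsRep E E')) :
    (h2ResIso E E' H).hom (Interface8.resMap H (unitsRep E E') 2 x) =
      resH2 E (↥(IntermediateField.fixedField H)) E' x := by
  induction x using H2_induction_on with
  | h c =>
    have h1 : Interface8.resMap H (unitsRep E E') 2 (H2π _ c) =
        H2π _ (mapCocycles₂ H.subtype (𝟙 (Interface8.resSub H (unitsRep E E'))) c) :=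
      H2π_comp_map_apply _ _ c
    rw [h1]
    unfold h2ResIso
    obtain ⟨z, hz, hz'⟩ := mapIso_hom_H2π
      (A := unitsRep (↥(IntermediateField.fixedField H)) E')
      (B := Rep.res H.subtype (unitsRep E E')) (subgroupEquivFixed E E' H)
      (LinearEquiv.refl ℤ _) (fun g => by ext x; rfl)
      (mapCocycles₂ H.subtype (𝟙 (Interface8.resSub H (unitsRep E E'))) c)
    rw [hz, resH2_H2π]
    congr 1
    apply cocycles₂_ext
    intro σ τ
    rw [hz', res_cocycle_apply, ← subtype_symm_subgroupEquivFixed,
      ← subtype_symm_subgroupEquivFixed]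
    rfl

end Transport

section Main

variable (q : ℕ) [Fact q.Prime]

/-- **LOC ⇒ FG**: the class formation axioms give `IsFundClassFull` for every finite Galois
extension of `q`-adic fields. -/
theorem isFundClassFull_of {u : ClassFamily q} (h : IsClassFormationCore q u)
    (E E' : Type) [Field E] [Field E'] [Algebra ℚ_[q] E] [Algebra ℚ_[q] E'] [Algebra E E']
    [IsScalarTower ℚ_[q] E E'] [FiniteDimensional ℚ_[q] E'] [IsGalois E E'] :
    Interface8.IsFundClassFull (unitsRep E E') (u E E') := by
  haveI : FiniteDimensional E E' := FiniteDimensional.right ℚ_[q] E E'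
  refine ⟨fun H => subsingleton_H1_res E E' H, fun H => ?_, fun H => ?_⟩
  · haveI : IsScalarTower ℚ_[q] ↥(IntermediateField.fixedField H) E' :=
      isScalarTower_inter (IntermediateField.fixedField H)
    rw [Nat.card_congr (h2ResIso E E' H).toLinearEquiv.toEquiv,
      h.card (↥(IntermediateField.fixedField H)) E',
      IntermediateField.finrank_fixedField_eq_card]
  · haveI : IsScalarTower ℚ_[q] ↥(IntermediateField.fixedField H) E' :=
      isScalarTower_inter (IntermediateField.fixedField H)
    have hinj : Function.Injective (h2ResIso E E' H).hom.hom.toAddMonoidHom :=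
      (h2ResIso E E' H).toLinearEquiv.injective
    have e1 := addOrderOf_injective _ hinj
      (Interface8.resMap H (unitsRep E E') 2 (u E E'))
    have e2 : (h2ResIso E E' H).hom.hom.toAddMonoidHom
        (Interface8.resMap H (unitsRep E E') 2 (u E E')) =
        resH2 E (↥(IntermediateField.fixedField H)) E' (u E E') :=
      h2ResIso_resMap E E' H (u E E')
    rw [← e1, e2, h.res E (↥(IntermediateField.fixedField H)) E',
      h.order (↥(IntermediateField.fixedField H)) E',
      IntermediateField.finrank_fixedField_eq_card]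

/-- The same for the constructed family of fundamental classes. -/
theorem isFundClassFull_fundFamily (hUN : UnramDef12.UnitsNormStatement q)
    (hH2 : UnramDef12.H2BoundStatement q)
    (E E' : Type) [Field E] [Field E'] [Algebra ℚ_[q] E] [Algebra ℚ_[q] E'] [Algebra E E']
    [IsScalarTower ℚ_[q] E E'] [FiniteDimensional ℚ_[q] E'] [IsGalois E E'] :
    Interface8.IsFundClassFull (unitsRep E E') (FundClass12.fundFamily q hUN E E') :=
  isFundClassFull_of q (FundClass12.isClassFormationCore_fundFamily q hUN hH2) E E'

end Main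

end

end Fermat.Agent.PT.LOC.Bridge12
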