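/-
Program F (S55, Poitou–Tate), chapter LOC — helper14.  (UC-b) glue (II-d): the norm index of a cyclic
extension `E'/E` of `q`-adic fields is at most `[E' : E]`, given `LocalHerbrand14.UnitsCohTrivStatement`.

* `tauOf`, `orderOf_tauOf`, `coe_normHom` (`∏_{k<n} σ^k u = N_{E'/E} u`), `exists_of_fixed`;
* `exists_finset_normIndex : ∃ S : Finset Eˣ, S.card ≤ [E' : E] ∧ ∀ x, ∃ s ∈ S, ∃ y, x = s * N y`
  (Herbrand quotient `= n`, `Ĥ⁻¹ = 0` by Hilbert 90, so `#Ĥ⁰ = n`).
-/
import Mathlib
import Fermat.Agent.PT.LOC.LocalHerbrand14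
import Fermat.Agent.PT.LOC.TowerCoh12

set_option autoImplicit false
set_option linter.unusedSectionVars false

namespace Fermat.Agent.PT.LOC.CyclicNormIndex14

open scoped Fermat.Agent.PT.LOC.Interface12
open Fermat.Agent.PT.LOC.Interface12 Fermat.Agent.PT.LOC.Structure14
  Fermat.Agent.PT.LOC.StructureNorm14 Fermat.Agent.PT.LOC.LocalHerbrand14
  Fermat.Agent.CFT.Herbrand Fermat.Agent.PT.FG.HerbrandQuot18
open Fermat.Agent.PT.GLOB Fermat.Agent.PT.FG
open Fermat.Agent.PT.GLOB.HerbrandGroup24 (toEnd divHom toEnd_apply toEnd_pow_apply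
  toEnd_sub_one_apply toEnd_pow_eq_one divHom_apply)

noncomputable section

variable (q : ℕ) [Fact q.Prime] (E E' : Type) [Field E] [Field E'] [Algebra ℚ_[q] E]
  [Algebra ℚ_[q] E'] [Algebra E E'] [IsScalarTower ℚ_[q] E E'] [FiniteDimensional ℚ_[q] E]
  [FiniteDimensional ℚ_[q] E'] [IsGalois E E']

/-- `σ ∈ Gal(E'/E)` as an automorphism over `ℚ_[q]`. -/
abbrev tauOf (σ : E' ≃ₐ[E] E') : E' ≃ₐ[ℚ_[q]] E' := galIncl ℚ_[q] E E' σ

theorem galIncl_injective : Function.Injective (galIncl ℚ_[q] E E') := by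
  intro σ τ h
  ext x
  exact congrArg (fun f : E' ≃ₐ[ℚ_[q]] E' => f x) h

theorem orderOf_tauOf (σ : E' ≃ₐ[E] E') : orderOf (tauOf q E E' σ) = orderOf σ :=
  orderOf_injective (galIncl ℚ_[q] E E') (galIncl_injective q E E') σ

theorem tauU_tauOf_apply (σ : E' ≃ₐ[E] E') (u : E'ˣ) :
    ((tauU q E' (tauOf q E E' σ) u : E'ˣ) : E') = σ (u : E') := rfl

theorem tauU_tauOf_iterate (σ : E' ≃ₐ[E] E') (k : ℕ) (u : E'ˣ) :
    (((tauU q E' (tauOf q E E' σ))^[k] u : E'ˣ) : E') = (σ ^ k) (u : E') := by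
  induction k with
  | zero => rfl
  | succ k ih =>
    rw [Function.iterate_succ_apply', tauU_tauOf_apply, ih, pow_succ']
    rfl

variable (σ : E' ≃ₐ[E] E') (hσ : ∀ g, g ∈ Subgroup.zpowers σ)

include hσ in
theorem coe_normHom (u : E'ˣ) :
    ((HerbrandGroup24.normHom (tauU q E' (tauOf q E E' σ)) (orderOf σ) u : E'ˣ) : E') =
      algebraMap E E' (Algebra.norm E (u : E')) := by
  have : FiniteDimensional E E' := FiniteDimensional.right ℚ_[q] E E'
  rw [HerbrandGroup24.normHom_apply, Units.coe_prod, ← TowerCoh12.prod_pow_eq_norm E E' σ hσ]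
  exact Finset.prod_congr rfl fun k _ => tauU_tauOf_iterate q E E' σ k u

include q hσ in
theorem orderOf_eq_finrank : orderOf σ = Module.finrank E E' := by
  have : FiniteDimensional E E' := FiniteDimensional.right ℚ_[q] E E'
  exact TowerCoh12.orderOf_gen E E' σ hσ

include q hσ in
/-- Elements fixed by the generator come from `E`. -/
theorem exists_of_fixed (u : E'ˣ) (hu : σ (u : E') = (u : E')) :
    ∃ x : Eˣ, Units.map (algebraMap E E' : E →* E') x = u := by
  have : FiniteDimensional E E' := FiniteDimensional.right ℚ_[q] E E'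
  have hall : ∀ g : E' ≃ₐ[E] E', g (u : E') = (u : E') := by
    intro g
    have hmem : σ ∈ MulAction.stabilizer (E' ≃ₐ[E] E') (u : E') := hu
    have hle := (Subgroup.zpowers_le (g := σ)).2 hmem
    exact hle (hσ g)
  obtain ⟨x, hx⟩ := (IsGalois.mem_range_algebraMap_iff_fixed (F := E) (E := E') (u : E')).2 hall
  have hx0 : x ≠ 0 := by
    intro h
    rw [h, map_zero] at hx
    exact u.ne_zero hx.symm
  exact ⟨Units.mk0 x hx0, Units.ext hx⟩

include hσ in
/-- **The norm index of a cyclic extension is at most (in fact equal to) the degree**: `Eˣ` is covered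
by `[E' : E]` cosets of the norm group. -/
theorem exists_finset_normIndex (hUC : UnitsCohTrivStatement q) :
    ∃ S : Finset Eˣ, S.card ≤ Module.finrank E E' ∧
      ∀ x : Eˣ, ∃ s ∈ S, ∃ y : E'ˣ, (x : E) = (s : E) * Algebra.norm E (y : E') := by
  classical
  have hfd : FiniteDimensional E E' := FiniteDimensional.right ℚ_[q] E E'
  have hnτ : orderOf (tauOf q E E' σ) = orderOf σ := orderOf_tauOf q E E' σ
  have hn0 : orderOf σ ≠ 0 := by
    rw [← hnτ]; exact LocalHerbrand14.orderOf_ne_zero q E' (tauOf q E E' σ)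
  obtain ⟨V, hV⟩ := hUC E' (tauOf q E E' σ)
  rw [hnτ] at hV
  have h : toEnd (tauU q E' (tauOf q E E' σ)) ^ orderOf σ = 1 :=
    toEnd_tauU_pow_eq_one q E' (tauOf q E E' σ) (orderOf σ)
      (by rw [← hnτ]; exact pow_orderOf_eq_one _)
  obtain ⟨hfin, hhq⟩ := isFin_hq_pairE q E' (tauOf q E E' σ) V hV h hn0
  -- Hilbert 90: `Ĥ⁻¹ = 0`
  have hcyc : IsCyclic (E' ≃ₐ[E] E') := ⟨σ, hσ⟩
  have hsub : Subsingleton (pairE q E' (tauOf q E E' σ) h).swap.H := by
    refine ⟨fun x y => ?_⟩
    suffices hz : ∀ z : (pairE q E' (tauOf q E E' σ) h).swap.H, z = 0 by rw [hz x, hz y]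
    intro z
    induction z using Pair.induction_H with
    | h x =>
      rw [Pair.cls_eq_zero_iff']
      obtain ⟨a, hx⟩ := x
      obtain ⟨u, rfl⟩ := Additive.ofMul.surjective a
      have hN : (pairE q E' (tauOf q E E' σ) h).g (Additive.ofMul u) = 0 := hx
      rw [pairE_g_ofMul] at hN
      have hN' : HerbrandGroup24.normHom (tauU q E' (tauOf q E E' σ)) (orderOf σ) u = 1 :=
        Additive.ofMul.injective hN
      have hN'' : Algebra.norm E (u : E') = 1 := by
        apply (algebraMap E E').injective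
        rw [← coe_normHom q E E' σ hσ u, hN', Units.val_one, map_one]
      obtain ⟨y, hy⟩ := groupCohomology.exists_div_of_norm_eq_one (K := E) (L := E') hσ hN''
      refine ⟨Additive.ofMul y⁻¹, ?_⟩
      change (pairE q E' (tauOf q E E' σ) h).f (Additive.ofMul y⁻¹) = Additive.ofMul u
      rw [pairE_f_ofMul]
      congr 1
      apply Units.ext
      rw [divHom_apply, Units.val_div_eq_div_val, tauU_tauOf_apply, ← hy, Units.val_inv_eq_inv_val,
        map_inv₀]
      field_simp
  have hcard : Nat.card (pairE q E' (tauOf q E E' σ) h).H = orderOf σ := by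
    rw [card_H_eq_mul _ hfin (orderOf σ) hhq, Nat.card_unique, mul_one]
  have hfinH : Finite (pairE q E' (tauOf q E E' σ) h).H := hfin.1
  have := Fintype.ofFinite (pairE q E' (tauOf q E E' σ) h).H
  -- every class is represented by an element of `E`
  have hmemker : ∀ e : Eˣ, Additive.ofMul (Units.map (algebraMap E E' : E →* E') e) ∈
      (pairE q E' (tauOf q E E' σ) h).f.ker := by
    intro e
    rw [AddMonoidHom.mem_ker, pairE_f_ofMul, divHom_apply]
    have : tauU q E' (tauOf q E E' σ) (Units.map (algebraMap E E' : E →* E') e) =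
        Units.map (algebraMap E E' : E →* E') e := by
      apply Units.ext
      rw [tauU_tauOf_apply]
      exact σ.commutes _
    rw [this, div_self']
    rfl
  have hrep : ∀ c : (pairE q E' (tauOf q E E' σ) h).H, ∃ e : Eˣ,
      (pairE q E' (tauOf q E E' σ) h).cls ⟨_, hmemker e⟩ = c := by
    intro c
    obtain ⟨⟨a, ha⟩, rfl⟩ := (pairE q E' (tauOf q E E' σ) h).cls_surjective c
    obtain ⟨u, rfl⟩ := Additive.ofMul.surjective a
    have ha' := ha
    rw [AddMonoidHom.mem_ker, pairE_f_ofMul, divHom_apply] at ha'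
    have hfix : tauU q E' (tauOf q E E' σ) u = u := div_eq_one.1 (Additive.ofMul.injective ha')
    have hfix' : σ (u : E') = (u : E') := by
      rw [← tauU_tauOf_apply q E E' σ u, hfix]
    obtain ⟨e, he⟩ := exists_of_fixed q E E' σ hσ u hfix'
    refine ⟨e, ?_⟩
    congr 1
    exact Subtype.ext (congrArg Additive.ofMul he)
  choose e he using hrep
  refine ⟨Finset.univ.image e, ?_, fun x => ?_⟩
  · calc (Finset.univ.image e).card ≤ (Finset.univ : Finset _).card := Finset.card_image_le
      _ = Nat.card (pairE q E' (tauOf q E E' σ) h).H := by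
        rw [Finset.card_univ, Nat.card_eq_fintype_card]
      _ = Module.finrank E E' := by rw [hcard, orderOf_eq_finrank q E E' σ hσ]
  · refine ⟨e ((pairE q E' (tauOf q E E' σ) h).cls ⟨_, hmemker x⟩),
      Finset.mem_image_of_mem _ (Finset.mem_univ _), ?_⟩
    have h1 := he ((pairE q E' (tauOf q E E' σ) h).cls ⟨_, hmemker x⟩)
    rw [eq_comm, Pair.cls_eq_cls_iff] at h1
    obtain ⟨b, hb⟩ := h1
    obtain ⟨y, rfl⟩ := Additive.ofMul.surjective b
    refine ⟨y, ?_⟩
    rw [pairE_g_ofMul] at hb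
    have hb' : Units.map (algebraMap E E' : E →* E') x =
        Units.map (algebraMap E E' : E →* E') (e _) *
          HerbrandGroup24.normHom (tauU q E' (tauOf q E E' σ)) (orderOf σ) y :=
      Additive.ofMul.injective hb
    have hb'' := congrArg (fun w : E'ˣ => (w : E')) hb'
    simp only [Units.val_mul, Units.coe_map, MonoidHom.coe_coe] at hb''
    rw [coe_normHom q E E' σ hσ y, ← map_mul] at hb''
    exact (algebraMap E E').injective hb''

end
end Fermat.Agent.PT.LOC.CyclicNormIndex14
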