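/-
Program F (S55, Poitou–Tate), chapter LOC, helper26: **(H2) unconditionally**:
`theorem h2Bound : UnramDef12.H2BoundStatement q`, i.e. `#H²(Gal(E'/E), E'ˣ) ≤ [E' : E]` (and
finiteness) for every finite Galois extension of `q`-adic fields.

Assembly: cyclic norm index `≤ n` (helper14 `CyclicNormIndex14.exists_finset_normIndex`, from the
Herbrand quotient `h(E'ˣ) = n`, with the cohomologically trivial unit subgroup of
helper10/helper27 `UnitsCohTriv27.unitsCohTriv`) ⇒ `#H² ≤ n` for cyclic extensions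
(`CyclicNormIndex26.card_H2_le_of_normIndex`) ⇒ prime degree case ⇒ general case by the dévissage
`H2Bound26.h2Bound_of` (ℓ-groups by towers + Sylow/transfer).
-/
import Mathlib
import Fermat.Agent.PT.LOC.H2Bound26
import Fermat.Agent.PT.LOC.CyclicNormIndex26
import Fermat.Agent.PT.LOC.CyclicNormIndex14
import Fermat.Agent.PT.LOC.UnitsCohTriv27

set_option autoImplicit false
set_option linter.style.haveILetI false
set_option linter.unusedSectionVars false

open CategoryTheory groupCohomology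

namespace Fermat.Agent.PT.LOC.H2BoundFinal26

open Fermat.Agent.PT.LOC.Interface12 Fermat.Agent.PT.LOC

variable (q : ℕ) [Fact q.Prime]

/-- (UC-b), norm index form: in a cyclic extension `E'/E` of `q`-adic fields of degree `n`, at most
`n` elements represent `Eˣ` modulo norms. -/
def CyclicNormIndexStatement : Prop :=
  ∀ (E E' : Type) [Field E] [Field E'] [Algebra ℚ_[q] E] [Algebra ℚ_[q] E'] [Algebra E E']
    [IsScalarTower ℚ_[q] E E'] [FiniteDimensional ℚ_[q] E] [FiniteDimensional ℚ_[q] E']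
    [IsGalois E E'] (σ : E' ≃ₐ[E] E'), (∀ g, g ∈ Subgroup.zpowers σ) →
    ∃ S : Finset Eˣ, S.card ≤ Module.finrank E E' ∧
      ∀ x : Eˣ, ∃ s ∈ S, ∃ y : E'ˣ, (x : E) = (s : E) * Algebra.norm E (y : E')

/-- The norm index statement holds (helper14 + helper10/helper27). -/
theorem cyclicNormIndex : CyclicNormIndexStatement q :=
  fun E E' _ _ _ _ _ _ _ _ _ σ hσ =>
    CyclicNormIndex14.exists_finset_normIndex q E E' σ hσ (UnitsCohTriv27.unitsCohTriv q)

/-- The bound `#H² ≤ [E' : E]` for ALL cyclic extensions, from the norm index. -/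
theorem cyclicH2_of_normIndex (h : CyclicNormIndexStatement q)
    (E E' : Type) [Field E] [Field E'] [Algebra ℚ_[q] E] [Algebra ℚ_[q] E'] [Algebra E E']
    [IsScalarTower ℚ_[q] E E'] [FiniteDimensional ℚ_[q] E] [FiniteDimensional ℚ_[q] E']
    [IsGalois E E'] (σ : E' ≃ₐ[E] E') (hσ : ∀ g, g ∈ Subgroup.zpowers σ) :
    Finite (H2 (unitsRep E E')) ∧ Nat.card (H2 (unitsRep E E')) ≤ Module.finrank E E' := by
  haveI : FiniteDimensional E E' := FiniteDimensional.right ℚ_[q] E E'
  obtain ⟨S, hcard, hS⟩ := h E E' σ hσ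
  obtain ⟨hfin, hle⟩ := CyclicNormIndex26.card_H2_le_of_normIndex E E' σ hσ S hS
  exact ⟨hfin, hle.trans hcard⟩

/-- The prime degree case, from the norm index. -/
theorem cyclicPrimeH2_of_normIndex (h : CyclicNormIndexStatement q) :
    H2Bound26.CyclicPrimeH2Statement q := by
  intro E E' _ _ _ _ _ _ _ _ _ hprime
  haveI : FiniteDimensional E E' := FiniteDimensional.right ℚ_[q] E E'
  haveI : Fact (Module.finrank E E').Prime := ⟨hprime⟩
  haveI : IsCyclic (E' ≃ₐ[E] E') :=
    isCyclic_of_prime_card (p := Module.finrank E E') (IsGalois.card_aut_eq_finrank E E')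
  obtain ⟨σ, hσ⟩ := IsCyclic.exists_generator (α := E' ≃ₐ[E] E')
  exact cyclicH2_of_normIndex q h E E' σ hσ

/-- **The cyclic case** `#H²(Gal(E'/E), E'ˣ) ≤ [E' : E]`, unconditionally. -/
theorem cyclicH2 (E E' : Type) [Field E] [Field E'] [Algebra ℚ_[q] E] [Algebra ℚ_[q] E']
    [Algebra E E'] [IsScalarTower ℚ_[q] E E'] [FiniteDimensional ℚ_[q] E]
    [FiniteDimensional ℚ_[q] E'] [IsGalois E E'] (σ : E' ≃ₐ[E] E')
    (hσ : ∀ g, g ∈ Subgroup.zpowers σ) :
    Finite (H2 (unitsRep E E')) ∧ Nat.card (H2 (unitsRep E E')) ≤ Module.finrank E E' :=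
  cyclicH2_of_normIndex q (cyclicNormIndex q) E E' σ hσ

/-- **The prime degree case**, unconditionally. -/
theorem cyclicPrimeH2 : H2Bound26.CyclicPrimeH2Statement q :=
  cyclicPrimeH2_of_normIndex q (cyclicNormIndex q)

/-- **(H2)** `#H²(Gal(E'/E), E'ˣ) ≤ [E' : E]` for every finite Galois extension of `q`-adic
fields, unconditionally. -/
theorem h2Bound : UnramDef12.H2BoundStatement q :=
  H2Bound26.h2Bound_of q (cyclicPrimeH2 q)

end Fermat.Agent.PT.LOC.H2BoundFinal26
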