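/-
Program F (S55, Poitou–Tate), chapter LOC — helper11.  Support for (UC-a) `UnitsNormStatement`.

NORM AND TRACE ON RESIDUE FIELDS.  For a finite Galois extension `E₁/E` of `q`-adic fields whose
reduction map `redHom : Gal(E₁/E) → Gal(k₁/k)` is injective (e.g. `E₁/E` unramified):

* `norm_mem_intRing`, `trace_mem_intRing` (no hypothesis): norm and trace preserve integers;
* `mk_norm`, `mk_trace`: reduction commutes with norm and trace;
* `exists_norm_sub_lt_one` (S0): every unit of `E` is congruent mod `𝔪` to the norm of a unit of `E₁`;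
* `exists_trace_sub_lt_one` (S1): every integer of `E` is congruent mod `𝔪` to a trace of an
  integer of `E₁`;
* `prod_one_add_mul` / `exists_norm_one_add_eq` (S1'): `N(1 + t b) = 1 + t Tr(b) + t² c`,
  `c` integral, for `t ∈ 𝒪_E`, `b ∈ 𝒪_{E₁}`.
-/
import Mathlib
import Fermat.Agent.PT.LOC.Unram11

set_option autoImplicit false
set_option linter.unusedSectionVars false

open scoped Fermat.Agent.PT.LOC.Interface12 Fermat.Agent.PT.LOC.StructureTower27
open Fermat.Agent.PT.LOC.Interface12 Fermat.Agent.PT.LOC.Structure14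
  Fermat.Agent.PT.LOC.StructureNorm14 Fermat.Agent.PT.LOC.StructureTower27
  Fermat.Agent.PT.LOC.StructureTowerEF27 Fermat.Agent.PT.LOC.RootsUnity14
  Fermat.Agent.PT.LOC.UnramDef12 Fermat.Agent.PT.LOC.Unram11

namespace Fermat.Agent.PT.LOC.ResNormTrace11

noncomputable section

variable (q : ℕ) [Fact q.Prime] (E : Type) [Field E] [Algebra ℚ_[q] E] [FiniteDimensional ℚ_[q] E]
  (E' : Type) [Field E'] [Algebra ℚ_[q] E'] [FiniteDimensional ℚ_[q] E'] [Algebra E E']
  [IsScalarTower ℚ_[q] E E']

instance isGalois_resF : IsGalois (resF q E) (resF q E') := GaloisField.instIsGaloisOfFinite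

instance isSeparable_resF : Algebra.IsSeparable (resF q E) (resF q E') := IsGalois.to_isSeparable

instance moduleFree_resF : Module.Free (resF q E) (resF q E') := Module.Free.of_divisionRing _ _

theorem norm_mem_intRing {x : E'} (hx : x ∈ intRing q E') : Algebra.norm E x ∈ intRing q E :=
  Algebra.isIntegral_norm E (R := ℤ_[q]) hx

theorem trace_mem_intRing {x : E'} (hx : x ∈ intRing q E') : Algebra.trace E E' x ∈ intRing q E := by
  have := finiteDimensional_tower q E E'
  exact Algebra.isIntegral_trace (R := ℤ_[q]) hx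

/-- The norm on integers. -/
def normInt (x : intRing q E') : intRing q E := ⟨Algebra.norm E (x : E'), norm_mem_intRing q E E' x.2⟩

/-- The trace on integers. -/
def traceInt (x : intRing q E') : intRing q E :=
  ⟨Algebra.trace E E' (x : E'), trace_mem_intRing q E E' x.2⟩

@[simp] theorem coe_normInt (x : intRing q E') :
    ((normInt q E E' x : intRing q E) : E) = Algebra.norm E (x : E') := rfl

@[simp] theorem coe_traceInt (x : intRing q E') :
    ((traceInt q E E' x : intRing q E) : E) = Algebra.trace E E' (x : E') := rfl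

section Galois

variable [IsGalois E E'] [FiniteDimensional E E']

theorem algebraMap_normInt (x : intRing q E') :
    algebraMap (intRing q E) (intRing q E') (normInt q E E' x) = ∏ σ : E' ≃ₐ[E] E', σ • x := by
  apply Subtype.ext
  rw [coe_algebraMap_intRing, coe_normInt, Algebra.norm_eq_prod_automorphisms]
  rw [← Subalgebra.coe_val, map_prod]
  rfl

theorem algebraMap_traceInt (x : intRing q E') :
    algebraMap (intRing q E) (intRing q E') (traceInt q E E' x) = ∑ σ : E' ≃ₐ[E] E', σ • x := by
  apply Subtype.ext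
  rw [coe_algebraMap_intRing, coe_traceInt, trace_eq_sum_automorphisms]
  rw [← Subalgebra.coe_val, map_sum]
  rfl

/-- Reduction commutes with the norm (when the reduction map on Galois groups is injective). -/
theorem mk_norm (hinj : Function.Injective (redHom q E E')) (x : intRing q E') :
    Ideal.Quotient.mk (mI q E) (normInt q E E' x) =
      Algebra.norm (resF q E) (Ideal.Quotient.mk (mI q E') x) := by
  have hbij : Function.Bijective (redHom q E E') := ⟨hinj, redHom_surjective q E E'⟩
  apply (algebraMap (resF q E) (resF q E')).injective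
  rw [Ideal.Quotient.algebraMap_mk_of_liesOver, algebraMap_normInt, map_prod,
    Algebra.norm_eq_prod_automorphisms]
  rw [← hbij.prod_comp (fun τ => τ (Ideal.Quotient.mk (mI q E') x))]
  rfl

/-- Reduction commutes with the trace (when the reduction map on Galois groups is injective). -/
theorem mk_trace (hinj : Function.Injective (redHom q E E')) (x : intRing q E') :
    Ideal.Quotient.mk (mI q E) (traceInt q E E' x) =
      Algebra.trace (resF q E) (resF q E') (Ideal.Quotient.mk (mI q E') x) := by
  have hbij : Function.Bijective (redHom q E E') := ⟨hinj, redHom_surjective q E E'⟩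
  apply (algebraMap (resF q E) (resF q E')).injective
  rw [Ideal.Quotient.algebraMap_mk_of_liesOver, algebraMap_traceInt, map_sum,
    trace_eq_sum_automorphisms]
  rw [← hbij.sum_comp (fun τ => τ (Ideal.Quotient.mk (mI q E') x))]
  rfl

end Galois

/-! ### Consequences for unramified extensions -/

section Unram

variable [IsGalois E E']

theorem mem_mI_of_mk_eq_zero (x : intRing q E) (h : Ideal.Quotient.mk (mI q E) x = 0) :
    snorm q E (x : E) < 1 :=
  (mem_mI_iff_snorm q E x).1 (Ideal.Quotient.eq_zero_iff_mem.1 h)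

/-- (S0) In an unramified Galois extension every unit of `E` is congruent modulo `𝔪` to the norm
of a unit of `E'`. -/
theorem exists_norm_sub_lt_one (hun : IsUnramified q E E') (u : Eˣ) (hu : u ∈ unitGroup q E) :
    ∃ y : E'ˣ, y ∈ unitGroup q E' ∧ snorm q E (Algebra.norm E (y : E') - (u : E)) < 1 := by
  have := finiteDimensional_tower q E E'
  have hinj := redHom_injective_of_isUnramified q E E' hun
  obtain ⟨ybar, hybar⟩ := FiniteField.norm_surjective (resF q E) (resF q E')
    (Ideal.Quotient.mk (mI q E) ⟨(u : E), hu.1⟩)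
  obtain ⟨y₀, rfl⟩ := Ideal.Quotient.mk_surjective ybar
  rw [← mk_norm q E E' hinj] at hybar
  have h1 : snorm q E (Algebra.norm E (y₀ : E') - (u : E)) < 1 := by
    have := (Ideal.Quotient.eq).1 hybar
    rw [mem_mI_iff_snorm] at this
    exact this
  have hu1 : snorm q E (u : E) = 1 := (mem_unitGroup_iff_snorm q E u).1 hu
  -- `y₀` is a unit
  have hy1 : snorm q E' (y₀ : E') = 1 := by
    refine le_antisymm ((mem_intRing_iff q E' _).1 y₀.2) ?_
    by_contra hlt
    rw [not_le] at hlt
    have hy0 : Ideal.Quotient.mk (mI q E') y₀ = 0 :=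
      Ideal.Quotient.eq_zero_iff_mem.2 ((mem_mI_iff_snorm q E' y₀).2 hlt)
    have h2 : Ideal.Quotient.mk (mI q E) (normInt q E E' y₀) = 0 := by
      rw [mk_norm q E E' hinj, hy0, Algebra.norm_zero]
    have h3 := mem_mI_of_mk_eq_zero q E _ h2
    rw [coe_normInt] at h3
    -- then `‖u‖ < 1`
    have h4 : snorm q E (u : E) ≤ max (snorm q E (Algebra.norm E (y₀ : E')))
        (snorm q E (Algebra.norm E (y₀ : E') - (u : E))) := by
      have := snorm_sub_le_max q E (Algebra.norm E (y₀ : E')) (Algebra.norm E (y₀ : E') - (u : E))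
      rwa [sub_sub_cancel] at this
    have h5 : max (snorm q E (Algebra.norm E (y₀ : E')))
        (snorm q E (Algebra.norm E (y₀ : E') - (u : E))) < 1 := max_lt h3 h1
    linarith
  have hy0 : (y₀ : E') ≠ 0 := by
    intro h0
    rw [h0, snorm_zero] at hy1
    exact zero_ne_one hy1
  exact ⟨Units.mk0 (y₀ : E') hy0, (mem_unitGroup_iff_snorm q E' _).2 hy1, h1⟩

/-- (S1) In an unramified Galois extension every integer of `E` is congruent modulo `𝔪` to the
trace of an integer of `E'`. -/
theorem exists_trace_sub_lt_one (hun : IsUnramified q E E') (a : E) (ha : a ∈ intRing q E) :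
    ∃ b : E', b ∈ intRing q E' ∧ snorm q E (Algebra.trace E E' b - a) < 1 := by
  have := finiteDimensional_tower q E E'
  have hinj := redHom_injective_of_isUnramified q E E' hun
  obtain ⟨bbar, hbbar⟩ := Algebra.trace_surjective (resF q E) (resF q E')
    (Ideal.Quotient.mk (mI q E) ⟨a, ha⟩)
  obtain ⟨b₀, rfl⟩ := Ideal.Quotient.mk_surjective bbar
  rw [← mk_trace q E E' hinj] at hbbar
  refine ⟨(b₀ : E'), b₀.2, ?_⟩
  have := (Ideal.Quotient.eq).1 hbbar
  rw [mem_mI_iff_snorm] at this
  exact this

end Unram

/-! ### `N(1 + t b) = 1 + t Tr(b) + t² c` -/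

theorem exists_prod_one_add_mul {R ι : Type*} [CommRing R] (s : Finset ι) (t : R) (c : ι → R) :
    ∃ r : R, ∏ i ∈ s, (1 + t * c i) = 1 + t * ∑ i ∈ s, c i + t ^ 2 * r := by
  classical
  induction s using Finset.induction_on with
  | empty => exact ⟨0, by simp⟩
  | insert a s ha ih =>
    obtain ⟨r, hr⟩ := ih
    refine ⟨c a * ∑ i ∈ s, c i + r + t * c a * r, ?_⟩
    rw [Finset.prod_insert ha, Finset.sum_insert ha, hr]
    ring

/-- (S1') `N(1 + t b) = 1 + t Tr(b) + t² c` with `c` integral, for `t ∈ 𝒪_E`, `b ∈ 𝒪_{E'}`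
(any finite Galois extension). -/
theorem exists_norm_one_add_eq [IsGalois E E'] (t : E) (ht : t ∈ intRing q E) (b : E')
    (hb : b ∈ intRing q E') :
    ∃ c : E, c ∈ intRing q E ∧
      Algebra.norm E (1 + algebraMap E E' t * b) = 1 + t * Algebra.trace E E' b + t ^ 2 * c := by
  have := finiteDimensional_tower q E E'
  by_cases ht0 : t = 0
  · refine ⟨0, zero_mem _, ?_⟩
    rw [ht0]
    simp
  obtain ⟨r, hr⟩ := exists_prod_one_add_mul (R := intRing q E') Finset.univ
    (algebraMap (intRing q E) (intRing q E') ⟨t, ht⟩) (fun σ : E' ≃ₐ[E] E' => σ • ⟨b, hb⟩)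
  have hr' := congrArg (fun z : intRing q E' => (z : E')) hr
  simp only [Subalgebra.coe_add, Subalgebra.coe_mul, Subalgebra.coe_pow, Subalgebra.coe_one,
    coe_algebraMap_intRing] at hr'
  rw [← Subalgebra.coe_val, map_prod, map_sum] at hr'
  simp only [Subalgebra.coe_val, Subalgebra.coe_add, Subalgebra.coe_mul, Subalgebra.coe_one,
    coe_algebraMap_intRing, coe_smul_intRing] at hr'
  -- the left side is the norm, the sum is the trace
  have hN : algebraMap E E' (Algebra.norm E (1 + algebraMap E E' t * b)) =
      ∏ σ : E' ≃ₐ[E] E', (1 + algebraMap E E' t * σ b) := by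
    rw [Algebra.norm_eq_prod_automorphisms]
    refine Finset.prod_congr rfl (fun σ _ => ?_)
    rw [map_add, map_one, map_mul, σ.commutes]
  have hT : algebraMap E E' (Algebra.trace E E' b) = ∑ σ : E' ≃ₐ[E] E', σ b :=
    trace_eq_sum_automorphisms b
  set c : E := (Algebra.norm E (1 + algebraMap E E' t * b) - 1 - t * Algebra.trace E E' b) / t ^ 2
    with hc
  have hceq : Algebra.norm E (1 + algebraMap E E' t * b) =
      1 + t * Algebra.trace E E' b + t ^ 2 * c := by
    rw [hc]
    field_simp
    ring
  refine ⟨c, ?_, hceq⟩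
  rw [← algebraMap_mem_intRing_iff q E E']
  have h1 : algebraMap E E' c = (r : E') := by
    have h2 := congrArg (algebraMap E E') hceq
    rw [hN, map_add, map_add, map_one, map_mul, map_mul, map_pow, hT] at h2
    rw [hr'] at h2
    have ht' : algebraMap E E' t ≠ 0 := by
      rwa [Ne, map_eq_zero]
    have h3 : algebraMap E E' t ^ 2 * (r : E') = algebraMap E E' t ^ 2 * algebraMap E E' c := by
      linear_combination h2
    exact (mul_left_cancel₀ (pow_ne_zero 2 ht') h3).symm
  rw [h1]
  exact r.2

end
end Fermat.Agent.PT.LOC.ResNormTrace11
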