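/-
Program F (S55, Poitou–Tate), chapter LOC, leaf (UC-a) — helper11.

**Units are norms in unramified extensions**: `unitsNorm : UnramDef12.UnitsNormStatement q`.

Proof by successive approximation (Serre, Local Fields V.2): for `u ∈ 𝒪_Eˣ` construct
`y_k ∈ 𝒪_{E'}ˣ` with `N y_k ≡ u mod π^(k+1)` and `y_(k+1) = y_k (1 + π^(k+1) b_k)`, using
* (S0) the norm of the residue field extension is surjective,
* (S1) the trace of the residue field extension is surjective,
* (S1') `N(1 + t b) = 1 + t Tr b + t² c`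
(all in `ResNormTrace11`), then pass to the limit in the complete ring `𝒪_{E'}`
(`StructureTower27.exists_sum_of_mem_pow`) and use the continuity of the norm.
-/
import Mathlib
import Fermat.Agent.PT.LOC.ResNormTrace11

set_option autoImplicit false
set_option linter.unusedSectionVars false

open scoped Fermat.Agent.PT.LOC.Interface12 Fermat.Agent.PT.LOC.StructureTower27
open Fermat.Agent.PT.LOC.Interface12 Fermat.Agent.PT.LOC.Structure14
  Fermat.Agent.PT.LOC.StructureNorm14 Fermat.Agent.PT.LOC.StructureTower27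
  Fermat.Agent.PT.LOC.StructureTowerEF27 Fermat.Agent.PT.LOC.RootsUnity14
  Fermat.Agent.PT.LOC.UnramDef12 Fermat.Agent.PT.LOC.Unram11
  Fermat.Agent.PT.LOC.ResNormTrace11

namespace Fermat.Agent.PT.LOC.UnitsNorm11

noncomputable section

/-! ### Ultrametric and `π`-adic bookkeeping in one `q`-adic field -/

section OneField

variable (q : ℕ) [Fact q.Prime] (F : Type) [Field F] [Algebra ℚ_[q] F] [FiniteDimensional ℚ_[q] F]

theorem snorm_eq_one_of_sub_lt_one {x x' : F} (hx : snorm q F x = 1)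
    (h : snorm q F (x - x') < 1) : snorm q F x' = 1 := by
  have h1 : snorm q F x' ≤ 1 := by
    have := snorm_sub_le_max q F x (x - x')
    rw [sub_sub_cancel] at this
    exact this.trans (max_le hx.le h.le)
  refine le_antisymm h1 ?_
  by_contra hlt
  rw [not_le] at hlt
  have h2 := snorm_add_le_max q F x' (x - x')
  rw [add_sub_cancel] at h2
  have h3 : max (snorm q F x') (snorm q F (x - x')) < 1 := max_lt hlt h
  linarith

variable {ϖ : F} (hϖ : IsUniformizer q F ϖ)

include hϖ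

theorem snorm_unif_pos : 0 < snorm q F ϖ := snorm_pos q F hϖ.2.1

theorem snorm_unif_lt_one : snorm q F ϖ < 1 := snorm_uniformizer_lt_one q F ϖ hϖ

theorem snorm_unif_pow_le_one (k : ℕ) : snorm q F ϖ ^ k ≤ 1 :=
  pow_le_one₀ (snorm_unif_pos q F hϖ).le (snorm_unif_lt_one q F hϖ).le

theorem snorm_unif_pow_succ_lt_one (k : ℕ) : snorm q F ϖ ^ (k + 1) < 1 :=
  pow_lt_one₀ (snorm_unif_pos q F hϖ).le (snorm_unif_lt_one q F hϖ) (Nat.succ_ne_zero k)

/-- (L1) elements of norm `≤ ‖ϖ‖^k` are multiples of `ϖ^k`. -/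
theorem exists_eq_pow_mul (k : ℕ) (x : F) (hx : snorm q F x ≤ snorm q F ϖ ^ k) :
    ∃ a ∈ intRing q F, x = ϖ ^ k * a := by
  have h0 : ϖ ^ k ≠ 0 := pow_ne_zero k hϖ.2.1
  have hpos : 0 < snorm q F ϖ ^ k := pow_pos (snorm_unif_pos q F hϖ) k
  refine ⟨x * (ϖ ^ k)⁻¹, ?_, by field_simp⟩
  rw [mem_intRing_iff]
  change snorm q F (x * (ϖ ^ k)⁻¹) ≤ 1
  rw [snorm_mul, snorm_inv, snorm_pow, ← div_eq_mul_inv, div_le_one hpos]
  exact hx

/-- (L2) -/
theorem snorm_pow_mul_le (k : ℕ) {a : F} (ha : a ∈ intRing q F) :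
    snorm q F (ϖ ^ k * a) ≤ snorm q F ϖ ^ k := by
  have h1 : snorm q F a ≤ 1 := (mem_intRing_iff q F a).1 ha
  rw [snorm_mul, snorm_pow]
  exact mul_le_of_le_one_right (pow_nonneg (snorm_unif_pos q F hϖ).le k) h1

/-- (L3) discreteness. -/
theorem snorm_le_unif_of_lt_one {x : F} (hx : snorm q F x < 1) : snorm q F x ≤ snorm q F ϖ :=
  (snorm_lt_one_iff_le_uniformizer q F ϖ hϖ x).1 hx

/-- (L4/L5) powers of the maximal ideal are the balls of radius `‖ϖ‖^k`. -/
theorem mem_maxId_pow_iff (k : ℕ) (x : intRing q F) :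
    x ∈ maxId q F ^ k ↔ snorm q F (x : F) ≤ snorm q F ϖ ^ k := by
  rw [maxId_eq_maximalIdeal]
  by_cases hx0 : (x : F) = 0
  · have : x = 0 := Subtype.ext hx0
    rw [this]
    simp only [zero_mem, ZeroMemClass.coe_zero, true_iff]
    rw [snorm_zero]
    exact pow_nonneg (snorm_unif_pos q F hϖ).le k
  · have h1 := mem_maximalIdeal_pow_iff q F (Units.mk0 (x : F) hx0) x.2 k
    have h2 := snorm_eq_zpow q F (Units.mk0 ϖ hϖ.2.1) hϖ (Units.mk0 (x : F) hx0)
    rw [Units.val_mk0, Units.val_mk0] at h2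
    have hx : (⟨((Units.mk0 (x : F) hx0 : Fˣ) : F), x.2⟩ : intRing q F) = x := Subtype.ext rfl
    rw [hx] at h1
    rw [h1, h2, ← zpow_natCast,
      zpow_le_zpow_iff_right_of_lt_one₀ (snorm_unif_pos q F hϖ) (snorm_unif_lt_one q F hϖ)]

end OneField

/-! ### The approximation step -/

section TwoFields

variable (q : ℕ) [Fact q.Prime] (E : Type) [Field E] [Algebra ℚ_[q] E] [FiniteDimensional ℚ_[q] E]
  (E' : Type) [Field E'] [Algebra ℚ_[q] E'] [FiniteDimensional ℚ_[q] E'] [Algebra E E']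
  [IsScalarTower ℚ_[q] E E'] [IsGalois E E']

variable {π : E} (hπ : IsUniformizer q E π)

include hπ

/-- **Continuity of the norm**: if `y` is a unit and `z ≡ y mod π^k` then `N z ≡ N y mod π^k`. -/
theorem snorm_norm_sub_norm_le (k : ℕ) {y z : E'} (hy : y ∈ intRing q E') (hy1 : snorm q E' y = 1)
    (hz : snorm q E' (z - y) ≤ snorm q E π ^ k) :
    snorm q E (Algebra.norm E z - Algebra.norm E y) ≤ snorm q E π ^ k := by
  have hy0 : y ≠ 0 := by
    intro h0
    rw [h0, snorm_zero] at hy1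
    exact zero_ne_one hy1
  have hπ0 : π ≠ 0 := hπ.2.1
  have hπk : algebraMap E E' (π ^ k) ≠ 0 := by
    rw [Ne, map_eq_zero]
    exact pow_ne_zero k hπ0
  have hρ : 0 < snorm q E π ^ k := pow_pos (snorm_unif_pos q E hπ) k
  -- `c = (z - y) / (y π^k)` is integral
  set c : E' := (z - y) * (y * algebraMap E E' (π ^ k))⁻¹ with hc
  have hcint : c ∈ intRing q E' := by
    rw [mem_intRing_iff]
    change snorm q E' c ≤ 1
    rw [hc, snorm_mul, snorm_inv, snorm_mul, hy1, one_mul, snorm_algebraMap_tower, snorm_pow,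
      ← div_eq_mul_inv, div_le_one hρ]
    exact hz
  have hzeq : z = y * (1 + algebraMap E E' (π ^ k) * c) := by
    rw [hc]
    field_simp
    ring
  obtain ⟨c', hc', hN⟩ := exists_norm_one_add_eq q E E' (π ^ k)
    (pow_mem hπ.1 k) c hcint
  have hNy : Algebra.norm E y ∈ intRing q E := norm_mem_intRing q E E' hy
  have hTr : Algebra.trace E E' c ∈ intRing q E := trace_mem_intRing q E E' hcint
  have hdiff : Algebra.norm E z - Algebra.norm E y =
      π ^ k * (Algebra.norm E y * (Algebra.trace E E' c + π ^ k * c')) := by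
    rw [hzeq, map_mul, hN]
    ring
  rw [hdiff]
  exact snorm_pow_mul_le q E hπ k
    (mul_mem hNy (add_mem hTr (mul_mem (pow_mem hπ.1 k) hc')))

/-- **The approximation step.** -/
theorem exists_next (hun : IsUnramified q E E') (u : E) (hu1 : snorm q E u = 1) (k : ℕ)
    {y : E'} (hy : y ∈ intRing q E') (hy1 : snorm q E' y = 1)
    (hk : snorm q E (u - Algebra.norm E y) ≤ snorm q E π ^ (k + 1)) :
    ∃ y' : E', y' ∈ intRing q E' ∧ snorm q E' y' = 1 ∧
      snorm q E (u - Algebra.norm E y') ≤ snorm q E π ^ (k + 2) ∧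
      snorm q E' (y' - y) ≤ snorm q E π ^ (k + 1) := by
  have hπ0 : π ≠ 0 := hπ.2.1
  have hρ0 := snorm_unif_pos q E hπ
  have hρ1 := snorm_unif_lt_one q E hπ
  have hNy : Algebra.norm E y ∈ intRing q E := norm_mem_intRing q E E' hy
  -- `N y` is a unit
  have hNy1 : snorm q E (Algebra.norm E y) = 1 :=
    snorm_eq_one_of_sub_lt_one q E hu1 (hk.trans_lt (snorm_unif_pow_succ_lt_one q E hπ k))
  have hNy0 : Algebra.norm E y ≠ 0 := by
    intro h0
    rw [h0, snorm_zero] at hNy1
    exact zero_ne_one hNy1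
  -- `u - N y = π^(k+1) a₀`
  obtain ⟨a₀, ha₀, hd⟩ := exists_eq_pow_mul q E hπ (k + 1) _ hk
  -- `a = a₀ / N y`
  set a : E := a₀ * (Algebra.norm E y)⁻¹ with ha
  have haint : a ∈ intRing q E := by
    rw [mem_intRing_iff]
    change snorm q E a ≤ 1
    rw [ha, snorm_mul, snorm_inv, hNy1, inv_one, mul_one]
    exact (mem_intRing_iff q E a₀).1 ha₀
  -- `Tr b = a + π a'`
  obtain ⟨b, hb, hTb⟩ := exists_trace_sub_lt_one q E E' hun a haint
  obtain ⟨a', ha', hTa⟩ := exists_eq_pow_mul q E hπ 1 (Algebra.trace E E' b - a)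
    (by rw [pow_one]; exact snorm_le_unif_of_lt_one q E hπ hTb)
  rw [pow_one] at hTa
  -- `N(1 + π^(k+1) b)`
  obtain ⟨c, hc, hN⟩ := exists_norm_one_add_eq q E E' (π ^ (k + 1)) (pow_mem hπ.1 (k + 1)) b hb
  set w : E' := 1 + algebraMap E E' (π ^ (k + 1)) * b with hw
  have hπb : snorm q E' (algebraMap E E' (π ^ (k + 1)) * b) ≤ snorm q E π ^ (k + 1) := by
    rw [snorm_mul, snorm_algebraMap_tower, snorm_pow]
    exact mul_le_of_le_one_right (pow_nonneg hρ0.le _) ((mem_intRing_iff q E' b).1 hb)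
  have hwint : w ∈ intRing q E' :=
    add_mem (one_mem _) (mul_mem (algebraMap_mem_intRing q E E' (pow_mem hπ.1 (k + 1))) hb)
  have hw1 : snorm q E' w = 1 := by
    refine snorm_eq_one_of_sub_lt_one q E' (x := 1) (snorm_one q E') ?_
    have : (1 : E') - w = -(algebraMap E E' (π ^ (k + 1)) * b) := by rw [hw]; ring
    rw [this, snorm_neg]
    exact hπb.trans_lt (snorm_unif_pow_succ_lt_one q E hπ k)
  refine ⟨y * w, mul_mem hy hwint, by rw [snorm_mul, hy1, hw1, one_mul], ?_, ?_⟩
  · have hTb' : Algebra.trace E E' b = a + π * a' := by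
      rw [← hTa]; ring
    have hkey : u - Algebra.norm E (y * w) =
        π ^ (k + 2) * (-(Algebra.norm E y) * (a' + π ^ k * c)) := by
      have h1 : u = Algebra.norm E y + π ^ (k + 1) * a₀ := by rw [← hd]; ring
      have h2 : a₀ = a * Algebra.norm E y := by
        rw [ha]; field_simp
      rw [map_mul, hw, hN, hTb', h1, h2]
      ring
    rw [hkey]
    exact snorm_pow_mul_le q E hπ (k + 2)
      (mul_mem (neg_mem hNy) (add_mem ha' (mul_mem (pow_mem hπ.1 k) hc)))
  · have : y * w - y = y * (algebraMap E E' (π ^ (k + 1)) * b) := by rw [hw]; ring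
    rw [this, snorm_mul, hy1, one_mul]
    exact hπb

end TwoFields

/-! ### The limit -/

section Limit

variable (q : ℕ) [Fact q.Prime] (E : Type) [Field E] [Algebra ℚ_[q] E] [FiniteDimensional ℚ_[q] E]
  (E' : Type) [Field E'] [Algebra ℚ_[q] E'] [FiniteDimensional ℚ_[q] E'] [Algebra E E']
  [IsScalarTower ℚ_[q] E E'] [IsGalois E E']

/-- In an unramified Galois extension every unit of `E` is the norm of an integral unit of `E'`. -/
theorem exists_norm_eq (hun : IsUnramified q E E') (u : E) (hu1 : snorm q E u = 1) :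
    ∃ y : E', y ∈ intRing q E' ∧ snorm q E' y = 1 ∧ Algebra.norm E y = u := by
  classical
  obtain ⟨πu, hπ⟩ := exists_isUniformizer q E
  set π : E := (πu : E) with hπdef
  have hπ' : IsUniformizer q E' (algebraMap E E' π) := hun π hπ
  have hρ' : snorm q E' (algebraMap E E' π) = snorm q E π := snorm_algebraMap_tower q E E' π
  have hρ0 := snorm_unif_pos q E hπ
  have hρ1 := snorm_unif_lt_one q E hπ
  -- the property of the `k`-th approximation
  let Good : ℕ → E' → Prop := fun k y => y ∈ intRing q E' ∧ snorm q E' y = 1 ∧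
    snorm q E (u - Algebra.norm E y) ≤ snorm q E π ^ (k + 1)
  -- start
  have hu0 : u ≠ 0 := by
    intro h0
    rw [h0, snorm_zero] at hu1
    exact zero_ne_one hu1
  obtain ⟨y₀, hy₀, hy₀N⟩ := exists_norm_sub_lt_one q E E' hun (Units.mk0 u hu0)
    ((mem_unitGroup_iff_snorm q E _).2 hu1)
  have hstart : Good 0 (y₀ : E') := by
    refine ⟨hy₀.1, (mem_unitGroup_iff_snorm q E' y₀).1 hy₀, ?_⟩
    rw [zero_add, pow_one]
    apply snorm_le_unif_of_lt_one q E hπ
    have : u - Algebra.norm E (y₀ : E') = -(Algebra.norm E (y₀ : E') - u) := by ring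
    rw [this, snorm_neg]
    exact hy₀N
  -- step
  have hstep : ∀ k : ℕ, ∀ y : {y : E' // Good k y}, ∃ y' : E', Good (k + 1) y' ∧
      snorm q E' (y' - y.1) ≤ snorm q E π ^ (k + 1) := by
    intro k y
    obtain ⟨y', h1, h2, h3, h4⟩ := exists_next q E E' hπ hun u hu1 k y.2.1 y.2.2.1 y.2.2.2
    exact ⟨y', ⟨h1, h2, h3⟩, h4⟩
  choose next hnextGood hnextClose using hstep
  let S : ∀ k : ℕ, {y : E' // Good k y} := fun k =>
    Nat.rec (motive := fun k => {y : E' // Good k y}) ⟨(y₀ : E'), hstart⟩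
      (fun k r => ⟨next k r, hnextGood k r⟩) k
  have hS0 : (S 0).1 = (y₀ : E') := rfl
  have hSs : ∀ k, (S (k + 1)).1 = next k (S k) := fun k => rfl
  have hclose : ∀ k, snorm q E' ((S (k + 1)).1 - (S k).1) ≤ snorm q E π ^ (k + 1) := fun k => by
    rw [hSs]; exact hnextClose k (S k)
  -- the series
  let a : ℕ → intRing q E' := fun i =>
    Nat.casesOn i ⟨(S 0).1, (S 0).2.1⟩
      (fun j => ⟨(S (j + 1)).1 - (S j).1, sub_mem (S (j + 1)).2.1 (S j).2.1⟩)
  have ha : ∀ i, a i ∈ maxId q E' ^ i := by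
    intro i
    cases i with
    | zero => simp
    | succ j =>
      rw [mem_maxId_pow_iff q E' hπ', hρ']
      exact hclose j
  have hsum : ∀ n, ((∑ i ∈ Finset.range (n + 1), a i : intRing q E') : E') = (S n).1 := by
    intro n
    induction n with
    | zero => simp [a]
    | succ n ih =>
      rw [Finset.sum_range_succ, Subalgebra.coe_add, ih]
      show (S n).1 + ((S (n + 1)).1 - (S n).1) = (S (n + 1)).1
      ring
  obtain ⟨s, hs⟩ := exists_sum_of_mem_pow q E' a ha
  have hsclose : ∀ n, snorm q E' ((s : E') - (S n).1) ≤ snorm q E π ^ (n + 1) := by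
    intro n
    have := hs (n + 1)
    rw [mem_maxId_pow_iff q E' hπ', hρ', Subalgebra.coe_sub, hsum] at this
    exact this
  -- `s` is a unit
  have hs1 : snorm q E' (s : E') = 1 := by
    refine snorm_eq_one_of_sub_lt_one q E' (x := (S 0).1) (S 0).2.2.1 ?_
    have : (S 0).1 - (s : E') = -((s : E') - (S 0).1) := by ring
    rw [this, snorm_neg]
    exact (hsclose 0).trans_lt (snorm_unif_pow_succ_lt_one q E hπ 0)
  refine ⟨(s : E'), s.2, hs1, ?_⟩
  -- `u - N s` is arbitrarily small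
  have hsmall : ∀ n : ℕ, snorm q E (u - Algebra.norm E (s : E')) ≤ snorm q E π ^ (n + 1) := by
    intro n
    have h1 := snorm_norm_sub_norm_le q E E' hπ (n + 1) (S n).2.1 (S n).2.2.1 (hsclose n)
    have h2 := (S n).2.2.2
    have h3 : u - Algebra.norm E (s : E') =
        (u - Algebra.norm E (S n).1) - (Algebra.norm E (s : E') - Algebra.norm E (S n).1) := by
      ring
    rw [h3]
    exact (snorm_sub_le_max q E _ _).trans (max_le h2 h1)
  have hzero : snorm q E (u - Algebra.norm E (s : E')) = 0 := by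
    apply le_antisymm _ (snorm_nonneg q E _)
    have hlim : Filter.Tendsto (fun n : ℕ => snorm q E π ^ (n + 1)) Filter.atTop (nhds 0) :=
      (tendsto_pow_atTop_nhds_zero_of_lt_one hρ0.le hρ1).comp (Filter.tendsto_add_atTop_nat 1)
    exact ge_of_tendsto' hlim hsmall
  have := (snorm_eq_zero_iff q E _).1 hzero
  exact (sub_eq_zero.1 this).symm

/-- **(UC-a) units are norms in unramified extensions**, verbatim. -/
theorem unitsNorm : UnitsNormStatement q := by
  intro E E₁ _ _ _ _ _ _ _ _ _ hun u hu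
  have hu1 : snorm q E (u : E) = 1 := (mem_unitGroup_iff_snorm q E u).1 hu
  obtain ⟨y, -, hy1, hN⟩ := exists_norm_eq q E E₁ hun (u : E) hu1
  have hy0 : y ≠ 0 := by
    intro h0
    rw [h0, snorm_zero] at hy1
    exact zero_ne_one hy1
  exact ⟨Units.mk0 y hy0, hN⟩

end Limit

end
end Fermat.Agent.PT.LOC.UnitsNorm11
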