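/-
Program F (S55), chapter LOC, helper12: the local class formation, assembled.
`UnitsNormStatement` is proved (`UnitsNorm11.unitsNorm`); the only remaining input is
`H2BoundStatement`.
-/
import Mathlib
import Fermat.Agent.PT.LOC.Interface12
import Fermat.Agent.PT.LOC.UnramDef12
import Fermat.Agent.PT.LOC.FundClass12
import Fermat.Agent.PT.LOC.UnitsNorm11

set_option autoImplicit false

namespace Fermat.Agent.PT.LOC.LCF12

open Fermat.Agent.PT.LOC.Interface12 Fermat.Agent.PT.LOC.UnramDef12

noncomputable section

variable (q : ℕ) [Fact q.Prime]

/-- The family of local fundamental classes. -/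
def localFund : ClassFamily q :=
  FundClass12.fundFamily q (UnitsNorm11.unitsNorm q)

/-- The axioms `order`, `res`, `inf`, `unram` hold unconditionally; `card` needs (H2). -/
theorem isLocalClassFormation_localFund (hH2 : H2BoundStatement q) :
    IsLocalClassFormation q (localFund q) :=
  FundClass12.isLocalClassFormation_fundFamily q (UnitsNorm11.unitsNorm q) hH2

/-- **(LCF)** from the `H²` bound. -/
theorem localClassFormation_of_h2 (hH2 : H2BoundStatement q) : LocalClassFormation q :=
  ⟨localFund q, isLocalClassFormation_localFund q hH2⟩

end

end Fermat.Agent.PT.LOC.LCF12
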