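/-
Program F (S55), chapter LOC, helper12: the local class formation, unconditional.
`localFund q` (LCF12) is the family of local fundamental classes; it satisfies all the axioms of
`Interface12.IsLocalClassFormation`, and FG's `Interface8.IsFundClassFull` at every finite level.
-/
import Mathlib
import Fermat.Agent.PT.LOC.Interface12
import Fermat.Agent.PT.LOC.LCF12
import Fermat.Agent.PT.LOC.H2BoundFinal26
import Fermat.Agent.PT.LOC.Bridge12

set_option autoImplicit false

open groupCohomology

namespace Fermat.Agent.PT.LOC.LCFFinal12

open Fermat.Agent.PT.LOC.Interface12 Fermat.Agent.PT.LOC.LCF12 Fermat.Agent.PT.FG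

variable (q : ℕ) [Fact q.Prime]

/-- **(LCF)**: `localFund q` is a local class formation. -/
theorem isLocalClassFormation_localFund : IsLocalClassFormation q (localFund q) :=
  LCF12.isLocalClassFormation_localFund q (H2BoundFinal26.h2Bound q)

/-- **(LCF)**. -/
theorem localClassFormation : LocalClassFormation q :=
  ⟨localFund q, isLocalClassFormation_localFund q⟩

/-- FG's finite-level hypotheses for `(Gal(E'/E), E'ˣ, u_{E'/E})`. -/
theorem isFundClassFull_localFund (E E' : Type) [Field E] [Field E'] [Algebra ℚ_[q] E]
    [Algebra ℚ_[q] E'] [Algebra E E'] [IsScalarTower ℚ_[q] E E'] [FiniteDimensional ℚ_[q] E']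
    [IsGalois E E'] : Interface8.IsFundClassFull (unitsRep E E') (localFund q E E') :=
  Bridge12.isFundClassFull_of q (isLocalClassFormation_localFund q).toIsClassFormationCore E E'

end Fermat.Agent.PT.LOC.LCFFinal12
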