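/-
Program F (S55), chapter LOC (helper10): successive approximation in complete filtered abelian
groups (Serre, Local Fields, V.1 Lemma 2 and XII.3 Lemma 3 in the cyclic case).

* `Filtration V`: a decreasing sequence of subgroups of an additive commutative group.
* `exists_preimage_of_graded_exact`: a complex `A → B → C` of filtered groups (`A` complete,
  `B` separated) which is exact on the graded pieces is exact.
* `exists_preimage_of_graded_surjective`: the case `C = 0` (surjectivity).
* cyclic corollaries: for an automorphism `σ` of finite order `n` of a complete separated filtered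
  group, with `N = ∑_{i<n} σ^i`: if invariants are norms and `ker N = im (σ - 1)` on all graded
  pieces then the same holds for the group (`Ĥ⁰ = Ĥ⁻¹ = 0`).
* `regular_*`: both properties hold for the regular (induced) module `G → A`, `G` cyclic.
-/
import Mathlib

set_option autoImplicit false
set_option linter.unusedSectionVars false

namespace Fermat.Agent.PT.LOC.Filtered10

open Finset

/-- A decreasing filtration of an additive commutative group by subgroups. -/
structure Filtration (V : Type*) [AddCommGroup V] where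
  /-- the `i`-th step -/
  F : ℕ → AddSubgroup V
  anti : ∀ i, F (i + 1) ≤ F i

namespace Filtration

variable {V : Type*} [AddCommGroup V] (Φ : Filtration V)

theorem le_of_le {i j : ℕ} (h : i ≤ j) : Φ.F j ≤ Φ.F i := by
  induction h with
  | refl => exact le_rfl
  | step _ ih => exact (Φ.anti _).trans ih

/-- The filtration is separated: the intersection of all steps is trivial. -/
def Separated : Prop := ∀ x : V, (∀ i, x ∈ Φ.F i) → x = 0

/-- The filtration is complete: every series `∑ a i` with `a i ∈ F i` converges, i.e. there is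
`s` with `s - ∑_{i<n} a i ∈ F n` for all `n`. -/
def Complete : Prop :=
  ∀ a : ℕ → V, (∀ i, a i ∈ Φ.F i) → ∃ s : V, ∀ n, s - ∑ i ∈ range n, a i ∈ Φ.F n

end Filtration

section Exact

variable {A B C : Type*} [AddCommGroup A] [AddCommGroup B] [AddCommGroup C]
  (ΦA : Filtration A) (ΦB : Filtration B)

/-- **Successive approximation.** Let `A --f--> B --g--> C` with `g ∘ f = 0`, `f` filtered,
`A` complete, `B` separated.  If every `b ∈ F_i B` (`i ≥ i₀`) with `g b = 0` is congruent modulo
`F_{i+1} B` to some `f a`, `a ∈ F_i A`, then every `b ∈ F_{i₀} B` with `g b = 0` is of the form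
`f a` with `a ∈ F_{i₀} A`. -/
theorem exists_preimage_of_graded_exact (f : A →+ B) (g : B →+ C)
    (hgf : ∀ a, g (f a) = 0)
    (hf : ∀ i, ∀ a ∈ ΦA.F i, f a ∈ ΦB.F i)
    (hA : ΦA.Complete) (hB : ΦB.Separated) (i₀ : ℕ)
    (hgr : ∀ i, i₀ ≤ i → ∀ b ∈ ΦB.F i, g b = 0 → ∃ a ∈ ΦA.F i, b - f a ∈ ΦB.F (i + 1))
    (b : B) (hb : b ∈ ΦB.F i₀) (hgb : g b = 0) :
    ∃ a ∈ ΦA.F i₀, f a = b := by
  classical
  -- the recursive construction: `st k = (b_k, a_k)`
  have hstep : ∀ k : ℕ, ∀ b' : {b' : B // b' ∈ ΦB.F (i₀ + k) ∧ g b' = 0},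
      ∃ a ∈ ΦA.F (i₀ + k), b'.1 - f a ∈ ΦB.F (i₀ + k + 1) := fun k b' =>
    hgr (i₀ + k) (Nat.le_add_right _ _) b'.1 b'.2.1 b'.2.2
  choose pick hpick_mem hpick using hstep
  -- sequence of remainders
  let R : ∀ k : ℕ, {b' : B // b' ∈ ΦB.F (i₀ + k) ∧ g b' = 0} := fun k =>
    Nat.rec (motive := fun k => {b' : B // b' ∈ ΦB.F (i₀ + k) ∧ g b' = 0})
      ⟨b, by simpa using hb, hgb⟩
      (fun k r => ⟨r.1 - f (pick k r), hpick k r, by rw [map_sub, r.2.2, hgf, sub_zero]⟩) k
  have hR0 : (R 0).1 = b := rfl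
  have hRs : ∀ k, (R (k + 1)).1 = (R k).1 - f (pick k (R k)) := fun k => rfl
  -- the series
  let a : ℕ → A := fun i => if h : i₀ ≤ i then pick (i - i₀) (R (i - i₀)) else 0
  have ha : ∀ i, a i ∈ ΦA.F i := by
    intro i
    by_cases h : i₀ ≤ i
    · simp only [a, dif_pos h]
      have := hpick_mem (i - i₀) (R (i - i₀))
      rwa [Nat.add_sub_cancel' h] at this
    · simp only [a, dif_neg h]
      exact zero_mem _
  obtain ⟨s, hs⟩ := hA a ha
  -- partial sums
  have hpart : ∀ k, f (∑ i ∈ range (i₀ + k), a i) = b - (R k).1 := by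
    intro k
    induction k with
    | zero =>
      rw [hR0, sub_self, add_zero]
      have : ∑ i ∈ range i₀, a i = 0 := by
        apply Finset.sum_eq_zero
        intro i hi
        have : ¬ i₀ ≤ i := by simpa using hi
        simp only [a, dif_neg this]
      rw [this, map_zero]
    | succ k ih =>
      show f (∑ i ∈ range (i₀ + k + 1), a i) = b - (R (k + 1)).1
      rw [Finset.sum_range_succ, map_add, ih, hRs]
      have : a (i₀ + k) = pick k (R k) := by
        simp only [a, dif_pos (Nat.le_add_right i₀ k)]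
        have hj : ∀ j, j = k → pick j (R j) = pick k (R k) := by
          intro j hj
          subst hj
          rfl
        exact hj _ (Nat.add_sub_cancel_left i₀ k)
      rw [this]
      abel
  refine ⟨s, ?_, ?_⟩
  · have h0 := hs i₀
    have : ∑ i ∈ range i₀, a i = 0 := by
      apply Finset.sum_eq_zero
      intro i hi
      have : ¬ i₀ ≤ i := by simpa using hi
      simp only [a, dif_neg this]
    rwa [this, sub_zero] at h0
  · rw [← sub_eq_zero]
    apply hB
    intro n
    -- it suffices to treat large indices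
    have key : ∀ k, f s - b ∈ ΦB.F (i₀ + k) := by
      intro k
      have h1 : f (s - ∑ i ∈ range (i₀ + k), a i) ∈ ΦB.F (i₀ + k) := hf _ _ (hs _)
      have h2 : (R k).1 ∈ ΦB.F (i₀ + k) := (R k).2.1
      have : f s - b = f (s - ∑ i ∈ range (i₀ + k), a i) - (R k).1 := by
        rw [map_sub, hpart]
        abel
      rw [this]
      exact sub_mem h1 h2
    exact ΦB.le_of_le (Nat.le_add_left n i₀) (by simpa [add_comm] using key n)

/-- **Successive approximation, surjective form** (Serre, LF V.1 Lemma 2). -/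
theorem exists_preimage_of_graded_surjective (f : A →+ B)
    (hf : ∀ i, ∀ a ∈ ΦA.F i, f a ∈ ΦB.F i)
    (hA : ΦA.Complete) (hB : ΦB.Separated) (i₀ : ℕ)
    (hgr : ∀ i, i₀ ≤ i → ∀ b ∈ ΦB.F i, ∃ a ∈ ΦA.F i, b - f a ∈ ΦB.F (i + 1))
    (b : B) (hb : b ∈ ΦB.F i₀) :
    ∃ a ∈ ΦA.F i₀, f a = b :=
  exists_preimage_of_graded_exact ΦA ΦB f (0 : B →+ B) (fun _ => rfl) hf hA hB i₀
    (fun i hi b hb _ => hgr i hi b hb) b hb rfl

end Exact

section Cyclic

variable {V : Type*} [AddCommGroup V] (Φ : Filtration V)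

/-- The norm operator `∑_{i<n} σ^i`. -/
def normOp (σ : AddMonoid.End V) (n : ℕ) : AddMonoid.End V := ∑ i ∈ range n, σ ^ i

theorem normOp_apply (σ : AddMonoid.End V) (n : ℕ) (x : V) :
    normOp σ n x = ∑ i ∈ range n, (σ ^ i) x := by
  unfold normOp
  induction n with
  | zero => simp
  | succ n ih =>
    rw [Finset.sum_range_succ, Finset.sum_range_succ, ← ih]
    rfl

theorem normOp_mul_sub (σ : AddMonoid.End V) (n : ℕ) (hσ : σ ^ n = 1) :
    normOp σ n * (σ - 1) = 0 := by
  unfold normOp
  rw [geom_sum_mul, hσ, sub_self]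

theorem sub_mul_normOp (σ : AddMonoid.End V) (n : ℕ) (hσ : σ ^ n = 1) :
    (σ - 1) * normOp σ n = 0 := by
  unfold normOp
  rw [mul_geom_sum, hσ, sub_self]

theorem sub_one_apply (σ : AddMonoid.End V) (x : V) : (σ - 1 : AddMonoid.End V) x = σ x - x := rfl

theorem normOp_comp_sub (σ : AddMonoid.End V) (n : ℕ) (hσ : σ ^ n = 1) (x : V) :
    normOp σ n (σ x - x) = 0 := by
  have := DFunLike.congr_fun (normOp_mul_sub σ n hσ) x
  exact this

theorem sub_comp_normOp (σ : AddMonoid.End V) (n : ℕ) (hσ : σ ^ n = 1) (x : V) :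
    σ (normOp σ n x) - normOp σ n x = 0 := by
  have := DFunLike.congr_fun (sub_mul_normOp σ n hσ) x
  exact this

theorem pow_mem_of_mem (σ : AddMonoid.End V) (hσΦ : ∀ i, ∀ x ∈ Φ.F i, σ x ∈ Φ.F i)
    (k i : ℕ) (x : V) (hx : x ∈ Φ.F i) : (σ ^ k) x ∈ Φ.F i := by
  induction k with
  | zero => simpa using hx
  | succ k ih =>
    rw [pow_succ']
    exact hσΦ i _ ih

theorem normOp_mem_of_mem (σ : AddMonoid.End V) (hσΦ : ∀ i, ∀ x ∈ Φ.F i, σ x ∈ Φ.F i)
    (n i : ℕ) (x : V) (hx : x ∈ Φ.F i) : normOp σ n x ∈ Φ.F i := by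
  rw [normOp_apply]
  exact sum_mem fun k _ => pow_mem_of_mem Φ σ hσΦ k i x hx

/-- `Ĥ⁰ = 0`: if on the graded pieces every invariant is a norm, then every invariant of the
complete separated filtered group is a norm. -/
theorem exists_norm_eq_of_graded (σ : AddMonoid.End V) (n : ℕ) (hσ : σ ^ n = 1)
    (hσΦ : ∀ i, ∀ x ∈ Φ.F i, σ x ∈ Φ.F i) (hc : Φ.Complete) (hs : Φ.Separated) (i₀ : ℕ)
    (hgr : ∀ i, i₀ ≤ i → ∀ x ∈ Φ.F i, σ x = x → ∃ y ∈ Φ.F i, x - normOp σ n y ∈ Φ.F (i + 1))
    (x : V) (hx : x ∈ Φ.F i₀) (hinv : σ x = x) :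
    ∃ y ∈ Φ.F i₀, normOp σ n y = x := by
  refine exists_preimage_of_graded_exact Φ Φ (normOp σ n : V →+ V) ((σ - 1 : AddMonoid.End V) : V →+ V)
    (fun a => ?_) (fun i a ha => normOp_mem_of_mem Φ σ hσΦ n i a ha) hc hs i₀
    (fun i hi b hb hgb => hgr i hi b hb ?_) x hx ?_
  · exact sub_comp_normOp σ n hσ a
  · have : σ b - b = 0 := hgb
    exact sub_eq_zero.mp this
  · show σ x - x = 0
    rw [hinv, sub_self]

/-- `Ĥ⁻¹ = 0`: if on the graded pieces the kernel of the norm is the image of `σ - 1`, the same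
holds for the complete separated filtered group. -/
theorem exists_sub_eq_of_graded (σ : AddMonoid.End V) (n : ℕ) (hσ : σ ^ n = 1)
    (hσΦ : ∀ i, ∀ x ∈ Φ.F i, σ x ∈ Φ.F i) (hc : Φ.Complete) (hs : Φ.Separated) (i₀ : ℕ)
    (hgr : ∀ i, i₀ ≤ i → ∀ x ∈ Φ.F i, normOp σ n x = 0 →
      ∃ y ∈ Φ.F i, x - (σ y - y) ∈ Φ.F (i + 1))
    (x : V) (hx : x ∈ Φ.F i₀) (hN : normOp σ n x = 0) :
    ∃ y ∈ Φ.F i₀, σ y - y = x :=
  exists_preimage_of_graded_exact Φ Φ
    ((σ - 1 : AddMonoid.End V) : V →+ V) (normOp σ n : V →+ V)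
    (fun a => normOp_comp_sub σ n hσ a) (fun i a ha => sub_mem (hσΦ i a ha) ha) hc hs i₀
    (fun i hi b hb hgb => hgr i hi b hb hgb) x hx hN

end Cyclic

section Regular

variable {A : Type*} [AddCommGroup A] (n : ℕ) [NeZero n]

/-- The shift operator on the regular module `ZMod n → A`. -/
def shift : AddMonoid.End (ZMod n → A) where
  toFun w := fun k => w (k - 1)
  map_zero' := rfl
  map_add' _ _ := rfl

@[simp] theorem shift_apply (w : ZMod n → A) (k : ZMod n) : shift n w k = w (k - 1) := rfl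

theorem shift_pow_apply (j : ℕ) (w : ZMod n → A) (k : ZMod n) :
    ((shift n : AddMonoid.End (ZMod n → A)) ^ j) w k = w (k - j) := by
  induction j generalizing k with
  | zero => simp
  | succ j ih =>
    rw [pow_succ']
    show shift n (((shift n : AddMonoid.End (ZMod n → A)) ^ j) w) k = _
    rw [shift_apply, ih]
    congr 1
    push_cast
    ring

theorem shift_pow_self : (shift n : AddMonoid.End (ZMod n → A)) ^ n = 1 := by
  ext w k
  rw [shift_pow_apply]
  simp

theorem sum_range_eq_sum_zmod (f : ZMod n → A) :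
    ∑ j ∈ range n, f (j : ZMod n) = ∑ i : ZMod n, f i := by
  rw [← Fin.sum_univ_eq_sum_range (fun j => f (j : ZMod n)) n]
  refine Fintype.sum_equiv (ZMod.finEquiv n).toEquiv _ _ fun j => ?_
  congr 1
  cases n with
  | zero => exact (NeZero.ne 0 rfl).elim
  | succ m =>
    show ((j : ℕ) : ZMod (m + 1)) = j
    exact Fin.cast_val_eq_self j

theorem normOp_shift_apply (w : ZMod n → A) (k : ZMod n) :
    normOp (shift n) n w k = ∑ i : ZMod n, w i := by
  rw [normOp_apply, Finset.sum_apply]
  simp only [shift_pow_apply]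
  rw [sum_range_eq_sum_zmod n (fun j => w (k - j))]
  exact Fintype.sum_equiv (Equiv.subLeft k) _ _ fun _ => rfl

/-- In the regular module every invariant element is a norm. -/
theorem regular_exists_norm_eq (w : ZMod n → A) (hw : shift n w = w) :
    ∃ v : ZMod n → A, normOp (shift n) n v = w := by
  classical
  have hconst : ∀ j : ℕ, w (j : ZMod n) = w 0 := by
    intro j
    induction j with
    | zero => simp
    | succ j ih =>
      have := congrFun hw ((j : ZMod n) + 1)
      rw [shift_apply, add_sub_cancel_right] at this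
      push_cast
      rw [← this, ih]
  refine ⟨Pi.single 0 (w 0), ?_⟩
  ext k
  rw [normOp_shift_apply, Finset.sum_pi_single']
  simp only [mem_univ, if_true]
  rw [← ZMod.natCast_zmod_val k]
  exact (hconst _).symm

/-- the geometric sums `∑_{i<j} σ^i`. -/
theorem pow_sub_one_apply (σ : AddMonoid.End (ZMod n → A)) (j : ℕ) (x : ZMod n → A) :
    (σ ^ j) x - x = σ (∑ i ∈ range j, (σ ^ i) x) - ∑ i ∈ range j, (σ ^ i) x := by
  induction j with
  | zero => simp
  | succ j ih =>
    rw [Finset.sum_range_succ, map_add, pow_succ']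
    have : (σ * σ ^ j) x = σ ((σ ^ j) x) := rfl
    rw [this]
    have h2 : σ ((σ ^ j) x) - x = (σ ((σ ^ j) x) - (σ ^ j) x) + ((σ ^ j) x - x) := by abel
    rw [h2, ih]
    abel

/-- In the regular module the kernel of the norm is the image of `σ - 1`. -/
theorem regular_exists_sub_eq (w : ZMod n → A) (hw : normOp (shift n) n w = 0) :
    ∃ v : ZMod n → A, shift n v - v = w := by
  classical
  set σ : AddMonoid.End (ZMod n → A) := shift n with hσ
  -- `w = ∑_j σ^j (δ_0 (w j))`
  have hdecomp : w = ∑ j ∈ range n, (σ ^ j) (Pi.single 0 (w (j : ZMod n))) := by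
    ext k
    rw [Finset.sum_apply]
    simp only [hσ, shift_pow_apply]
    rw [sum_range_eq_sum_zmod n (fun j => (Pi.single (0 : ZMod n) (w j) : ZMod n → A) (k - j))]
    rw [Finset.sum_eq_single k]
    · simp
    · intro b _ hb
      rw [Pi.single_apply, if_neg]
      rw [sub_eq_zero]
      exact fun h => hb h.symm
    · intro h
      exact absurd (mem_univ k) h
  have hsum : ∑ j ∈ range n, (Pi.single 0 (w (j : ZMod n)) : ZMod n → A) = 0 := by
    ext k
    rw [Finset.sum_apply]
    have h0 := congrFun hw 0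
    rw [normOp_shift_apply] at h0
    by_cases hk : k = 0
    · subst hk
      simp only [Pi.single_eq_same]
      rw [sum_range_eq_sum_zmod n (fun j => w j)]
      exact h0
    · simp [hk]
  refine ⟨∑ j ∈ range n, ∑ i ∈ range j, (σ ^ i) (Pi.single 0 (w (j : ZMod n))), ?_⟩
  rw [map_sum, ← Finset.sum_sub_distrib]
  have : ∀ j ∈ range n, σ (∑ i ∈ range j, (σ ^ i) (Pi.single 0 (w (j : ZMod n)))) -
      ∑ i ∈ range j, (σ ^ i) (Pi.single 0 (w (j : ZMod n))) =
      (σ ^ j) (Pi.single 0 (w (j : ZMod n))) - Pi.single 0 (w (j : ZMod n)) := fun j _ =>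
    (pow_sub_one_apply n σ j _).symm
  rw [Finset.sum_congr rfl this, Finset.sum_sub_distrib, hsum, sub_zero, ← hdecomp]

end Regular

end Fermat.Agent.PT.LOC.Filtered10
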