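/-
Program F (S55, Poitou–Tate), chapter LOC — helper14.
`frobRestrict : FrobRestrictStatement q`, unconditionally: `FrobRestrict14.frobRestrict_of` applied to
helper27's `Frob27.unramRigidStatement`.  Also a one-stop list of the proved input `Prop`s of
`UnramDef12` available so far.
-/
import Mathlib
import Fermat.Agent.PT.LOC.FrobRestrict14
import Fermat.Agent.PT.LOC.Frob27
import Fermat.Agent.PT.LOC.Teichmuller14

set_option autoImplicit false

namespace Fermat.Agent.PT.LOC.FrobRestrictFinal14

open Fermat.Agent.PT.LOC.UnramDef12

variable (q : ℕ) [Fact q.Prime]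

/-- (UN-R) restriction of Frobenius, unconditionally. -/
theorem frobRestrict : FrobRestrictStatement q :=
  FrobRestrict14.frobRestrict_of q (Frob27.unramRigidStatement q)

/-- The input `Prop`s of `UnramDef12` proved so far (all except `UnramSplittingStatement`,
`UnitsNormStatement`, `H2BoundStatement`). -/
theorem inputs_so_far :
    ResCardStatement q ∧ RamResStatement q ∧ UnramRigidStatement q ∧ UnramRecogStatement q ∧
      FrobRestrictStatement q ∧ UnramNormOrdStatement q :=
  ⟨Teichmuller14.resCardStatement q, Teichmuller14.ramRes q, Frob27.unramRigidStatement q,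
    Teichmuller14.unramRecog q, frobRestrict q, FrobRestrict14.unramNormOrd q⟩

end Fermat.Agent.PT.LOC.FrobRestrictFinal14
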