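/-
Program F (S55, Poitou–Tate), chapter LOC (BR-prep) — helper11.

From LOC's `IsClassFormationCore q u` to FG's `Interface8.IsFundClassFull (unitsRep E E') (u E E')`:
for a finite Galois extension `E'/E` of `q`-adic fields and EVERY subgroup `H ≤ Gal(E'/E)`,
with `F = fixedField H`:
`H¹(H, E'ˣ) = 0` (Hilbert 90 for `E'/F`), `#H²(H, E'ˣ) = #H` (axiom `card` for `E'/F`) and
`Res^G_H u_{E'/E}` has order `#H` (axioms `res` and `order`).

The transport is through `eH : Gal(E'/F) ≃* H` and Mathlib's `groupCohomology.mapIso`.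
-/
import Mathlib
import Fermat.Agent.PT.LOC.Interface12
import Fermat.Agent.PT.FG.Interface8

set_option autoImplicit false
set_option linter.unusedSectionVars false

open CategoryTheory groupCohomology
open Fermat.Agent.PT.LOC.Interface12 Fermat.Agent.PT.FG.Interface8

namespace Fermat.Agent.PT.LOC.FundFull11

noncomputable section

section Generic

variable (E E' : Type) [Field E] [Field E'] [Algebra E E'] [FiniteDimensional E E']
  (H : Subgroup (E' ≃ₐ[E] E'))

/-- The fixed field of `H`. -/
abbrev FH : IntermediateField E E' := IntermediateField.fixedField H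

/-- `Gal(E'/F) ≃* H` for `F` the fixed field of `H`. -/
def eH : (E' ≃ₐ[FH E E' H] E') ≃* H := (IntermediateField.subgroupEquivAlgEquiv H).symm

theorem coe_eH (τ : E' ≃ₐ[FH E E' H] E') :
    ((eH E E' H τ : H) : E' ≃ₐ[E] E') = galIncl E (FH E E' H) E' τ := rfl

/-- The identity of `E'ˣ`, as a morphism `Res_{eH}(Res_H (E'ˣ)) ⟶ E'ˣ` of `Gal(E'/F)`-modules. -/
def downHom : Rep.res (eH E E' H : (E' ≃ₐ[FH E E' H] E') →* H) (resSub H (unitsRep E E')) ⟶
    unitsRep (FH E E' H) E' :=
  Rep.ofHom ⟨LinearMap.id, fun _ => rfl⟩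

/-- The identity of `E'ˣ`, as a morphism `Res_{eH⁻¹}(E'ˣ) ⟶ Res_H (E'ˣ)` of `H`-modules. -/
def upHom : Rep.res ((eH E E' H).symm : H →* (E' ≃ₐ[FH E E' H] E')) (unitsRep (FH E E' H) E') ⟶
    resSub H (unitsRep E E') :=
  Rep.ofHom ⟨LinearMap.id, fun h => by
    ext x
    obtain ⟨τ, rfl⟩ := (eH E E' H).surjective h
    have h1 : (eH E E' H).symm (eH E E' H τ) = τ := MulEquiv.symm_apply_apply _ _
    change (unitsRep (FH E E' H) E').ρ ((eH E E' H).symm (eH E E' H τ)) x =
      (unitsRep E E').ρ ((eH E E' H τ : H) : E' ≃ₐ[E] E') x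
    rw [h1]
    rfl⟩

/-- `Hⁿ(H, E'ˣ) → Hⁿ(Gal(E'/F), E'ˣ)`. -/
def down (n : ℕ) : groupCohomology (resSub H (unitsRep E E')) n ⟶
    groupCohomology (unitsRep (FH E E' H) E') n :=
  groupCohomology.map (eH E E' H : (E' ≃ₐ[FH E E' H] E') →* H) (downHom E E' H) n

/-- `Hⁿ(Gal(E'/F), E'ˣ) → Hⁿ(H, E'ˣ)`. -/
def up (n : ℕ) : groupCohomology (unitsRep (FH E E' H) E') n ⟶
    groupCohomology (resSub H (unitsRep E E')) n :=
  groupCohomology.map ((eH E E' H).symm : H →* (E' ≃ₐ[FH E E' H] E')) (upHom E E' H) n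

theorem down_up (n : ℕ) : down E E' H n ≫ up E E' H n = 𝟙 _ := by
  rw [down, up, ← groupCohomology.map_comp, ← groupCohomology.map_id]
  refine groupCohomology.map_congr ?_ ?_ n
  · ext h
    simp
  · rfl

theorem up_down (n : ℕ) : up E E' H n ≫ down E E' H n = 𝟙 _ := by
  rw [down, up, ← groupCohomology.map_comp, ← groupCohomology.map_id]
  refine groupCohomology.map_congr ?_ ?_ n
  · ext τ
    simp
  · rfl

theorem resH2_eq :
    resH2 E (FH E E' H) E' = resMap H (unitsRep E E') 2 ≫ down E E' H 2 := by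
  rw [resH2, down, resMap, ← groupCohomology.map_comp]
  refine groupCohomology.map_congr ?_ ?_ 2
  · ext τ
    rfl
  · rfl

theorem down_injective (n : ℕ) : Function.Injective (down E E' H n) := by
  intro x y hxy
  have h1 := congrArg (up E E' H n) hxy
  have h2 : ∀ z, (up E E' H n) ((down E E' H n) z) = z := fun z => by
    rw [← ModuleCat.comp_apply, down_up, ModuleCat.id_apply]
  rwa [h2, h2] at h1

/-- The comparison as an equivalence. -/
def downEquiv (n : ℕ) : groupCohomology (resSub H (unitsRep E E')) n ≃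
    groupCohomology (unitsRep (FH E E' H) E') n where
  toFun := down E E' H n
  invFun := up E E' H n
  left_inv z := by rw [← ModuleCat.comp_apply, down_up, ModuleCat.id_apply]
  right_inv z := by rw [← ModuleCat.comp_apply, up_down, ModuleCat.id_apply]

end Generic

section Main

variable (q : ℕ) [Fact q.Prime]

/-- An intermediate field of an extension of `ℚ_[q]`-algebras, as a `ℚ_[q]`-algebra, is compatible
with the top field. -/
instance isScalarTower_padic_mid (E E' : Type) [Field E] [Field E'] [Algebra ℚ_[q] E]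
    [Algebra ℚ_[q] E'] [Algebra E E'] [IsScalarTower ℚ_[q] E E'] (S : IntermediateField E E') :
    IsScalarTower ℚ_[q] S E' :=
  IsScalarTower.of_algebraMap_eq (fun _ => rfl)

/-- **From LOC's class formation axioms to FG's hypotheses**: `(Gal(E'/E), E'ˣ, u_{E'/E})` satisfies
the full class-formation hypotheses of `Interface8`. -/
theorem isFundClassFull_of (u : ClassFamily q) (h : IsClassFormationCore q u)
    (E E' : Type) [Field E] [Field E'] [Algebra ℚ_[q] E] [Algebra ℚ_[q] E'] [Algebra E E']
    [IsScalarTower ℚ_[q] E E'] [FiniteDimensional ℚ_[q] E'] [IsGalois E E'] :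
    IsFundClassFull (unitsRep E E') (u E E') := by
  have : FiniteDimensional E E' := Module.Finite.of_restrictScalars_finite ℚ_[q] E E'
  have hcard : ∀ H : Subgroup (E' ≃ₐ[E] E'), Module.finrank (FH E E' H) E' = Nat.card H := by
    intro H
    rw [← IsGalois.card_aut_eq_finrank, Nat.card_congr (eH E E' H).toEquiv]
  refine ⟨fun H => ?_, fun H => ?_, fun H => ?_⟩
  · -- Hilbert 90
    have : Subsingleton (groupCohomology (unitsRep (FH E E' H) E') 1) :=
      (inferInstance : Subsingleton (H1 (Rep.ofAlgebraAutOnUnits (FH E E' H) E')))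
    exact (down_injective E E' H 1).subsingleton
  · rw [← hcard H, ← h.card (FH E E' H) E']
    exact Nat.card_congr (downEquiv E E' H 2)
  · rw [← hcard H, ← h.order (FH E E' H) E', ← h.res E (FH E E' H) E', resH2_eq]
    rw [ModuleCat.comp_apply]
    exact (addOrderOf_injective (down E E' H 2).hom.toAddMonoidHom (down_injective E E' H 2) _).symm

end Main

end
end Fermat.Agent.PT.LOC.FundFull11
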