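/-
Program F (S55, Poitou–Tate), chapter LOC, leaf (H2) — helper27: the field-level dévissage.

`h2Bound_of_cyclicPrime : H2CyclicPrimeStatement q → UnramDef12.H2BoundStatement q`:
if `#H²(Gal(E'/E), E'ˣ) ≤ [E' : E]` (and `H²` finite) for all Galois extensions of PRIME degree of
`q`-adic fields, then the same holds for all finite Galois extensions of `q`-adic fields.

* `finite_and_card_le_of_exact` : `A → B → C` exact at `B`, `A`, `C` finite ⇒ `#B ≤ #A · #C`;
* `exists_central_subgroup_card_eq` : a nontrivial finite `p`-group has a normal subgroup of order `p`;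
* `isScalarTower_inter`, `finiteDimensional_inter` : intermediate fields are `q`-adic fields;
* `finite_and_card_le_tower` : one step `E ⊆ F ⊆ N` (from `TowerInfRes12.infRes_tower`);
* `h2_pgroup` : the case `[E' : E] = p ^ k` (induction on `k`, central subgroup of order `p`);
* `subgroupEquiv`, `h2SubIso` : `H²(H, E'ˣ) ≅ H²(Gal(E'/E'^H), E'ˣ)` for a subgroup `H`;
* `finite_and_card_le_sylow`, `h2Bound_of_cyclicPrime_aux` : the general case via the transfer
  maps of `FG/Transfer2` (the product of `jMap`s over the Sylow subgroups is injective).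
-/
import Mathlib
import Fermat.Agent.PT.LOC.Interface12
import Fermat.Agent.PT.LOC.UnramDef12
import Fermat.Agent.PT.LOC.TowerInfRes12
import Fermat.Agent.PT.FG.Transfer2

set_option autoImplicit false
set_option linter.unusedSectionVars false

open CategoryTheory groupCohomology
open Fermat.Agent.PT.LOC.Interface12 Fermat.Agent.PT.LOC.TowerInfRes12

namespace Fermat.Agent.PT.LOC.H2Devissage27

noncomputable section

/-! ### Generic lemmas -/

/-- If `A → B → C` is exact at `B` with `A` and `C` finite then `B` is finite and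
`#B ≤ #A * #C`. -/
theorem finite_and_card_le_of_exact {A B C : Type*} [AddCommGroup A] [AddCommGroup B]
    [AddCommGroup C] (f : A →+ B) (g : B →+ C) (hex : ∀ x, g x = 0 → ∃ y, f y = x)
    [Finite A] [Finite C] : Finite B ∧ Nat.card B ≤ Nat.card A * Nat.card C := by
  classical
  -- a set-theoretic section of `g` on its range
  have hsec : ∀ b : B, ∃ a : A, f a = b - Function.invFun g (g b) := by
    intro b
    apply hex
    have h1 : g (Function.invFun g (g b)) = g b := Function.invFun_eq ⟨b, rfl⟩
    rw [map_sub, h1, sub_self]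
  choose s hs using hsec
  let Φ : B → A × C := fun b => (s b, g b)
  have hΦ : Function.Injective Φ := by
    intro b b' h
    have h1 : s b = s b' := congrArg Prod.fst h
    have h2 : g b = g b' := congrArg Prod.snd h
    have h3 := hs b
    have h4 := hs b'
    rw [h1, h2] at h3
    have : b - Function.invFun g (g b') = b' - Function.invFun g (g b') := h3.symm.trans h4
    exact sub_left_injective this
  have hfin : Finite B := Finite.of_injective Φ hΦ
  refine ⟨hfin, ?_⟩
  have := Nat.card_le_card_of_injective Φ hΦ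
  rwa [Nat.card_prod] at this

/-- A subgroup contained in the centre is normal. -/
theorem normal_of_le_center {G : Type*} [Group G] {H : Subgroup G}
    (h : H ≤ Subgroup.center G) : H.Normal := by
  refine ⟨fun n hn g => ?_⟩
  have hc := Subgroup.mem_center_iff.mp (h hn) g
  rw [hc, mul_inv_cancel_right]
  exact hn

/-- A nontrivial finite `p`-group has a central (hence normal) subgroup of order `p`. -/
theorem exists_central_subgroup_card_eq {p : ℕ} [Fact p.Prime] {G : Type*} [Group G] [Finite G]
    [Nontrivial G] (hG : IsPGroup p G) :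
    ∃ Z : Subgroup G, Z.Normal ∧ Nat.card Z = p := by
  have hcn : Nontrivial (Subgroup.center G) := hG.center_nontrivial
  have hpc : IsPGroup p (Subgroup.center G) := hG.to_subgroup _
  obtain ⟨k, hk⟩ := IsPGroup.iff_card.mp hpc
  have hk0 : k ≠ 0 := by
    rintro rfl
    rw [pow_zero] at hk
    have := Finite.one_lt_card_iff_nontrivial.mpr hcn
    omega
  have hdvd : p ∣ Nat.card (Subgroup.center G) := by
    rw [hk]; exact dvd_pow_self p hk0
  obtain ⟨z, hz⟩ := exists_prime_orderOf_dvd_card' p hdvd
  refine ⟨Subgroup.zpowers (z : G), normal_of_le_center ?_, ?_⟩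
  · rw [Subgroup.zpowers_le]
    exact z.2
  · rw [Nat.card_zpowers, Subgroup.orderOf_coe, hz]


/-! ### Intermediate fields of extensions of `q`-adic fields are `q`-adic fields -/

variable (q : ℕ) [Fact q.Prime]

section Inter

variable {E E' : Type} [Field E] [Field E'] [Algebra ℚ_[q] E] [Algebra ℚ_[q] E'] [Algebra E E']
  [IsScalarTower ℚ_[q] E E'] (F : IntermediateField E E')

instance isScalarTower_inter : IsScalarTower ℚ_[q] F E' :=
  IsScalarTower.of_algebraMap_eq (fun _ => rfl)

theorem finiteDimensional_inter [FiniteDimensional ℚ_[q] E'] : FiniteDimensional ℚ_[q] F :=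
  FiniteDimensional.of_injective ((IsScalarTower.toAlgHom ℚ_[q] F E').toLinearMap)
    (algebraMap F E').injective

end Inter

/-- The cyclic prime degree case of `H2BoundStatement` (input). -/
def H2CyclicPrimeStatement : Prop :=
  ∀ (E E' : Type) [Field E] [Field E'] [Algebra ℚ_[q] E] [Algebra ℚ_[q] E'] [Algebra E E']
    [IsScalarTower ℚ_[q] E E'] [FiniteDimensional ℚ_[q] E] [FiniteDimensional ℚ_[q] E']
    [IsGalois E E'], (Module.finrank E E').Prime →
    Finite (H2 (unitsRep E E')) ∧ Nat.card (H2 (unitsRep E E')) ≤ Module.finrank E E'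

section Tower

variable (E F N : Type) [Field E] [Field F] [Field N] [Algebra E F] [Algebra E N]
  [Algebra F N] [IsScalarTower E F N] [FiniteDimensional E N] [IsGalois E N]
  [FiniteDimensional E F] [IsGalois E F]

/-- One dévissage step for a tower `E ⊆ F ⊆ N`. -/
theorem finite_and_card_le_tower [Finite (H2 (unitsRep E F))] [Finite (H2 (unitsRep F N))] :
    Finite (H2 (unitsRep E N)) ∧
      Nat.card (H2 (unitsRep E N)) ≤
        Nat.card (H2 (unitsRep E F)) * Nat.card (H2 (unitsRep F N)) := by
  have h := infRes_tower E F N infResFlexStatement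
  exact finite_and_card_le_of_exact (infH2 E F N).hom.toAddMonoidHom
    (resH2 E F N).hom.toAddMonoidHom (fun x hx => h.2 x hx)

end Tower

/-! ### `p`-groups -/

theorem h2_pgroup (hcyc : H2CyclicPrimeStatement q) (p : ℕ) [Fact p.Prime] (k : ℕ) :
    ∀ (E E' : Type) [Field E] [Field E'] [Algebra ℚ_[q] E] [Algebra ℚ_[q] E'] [Algebra E E']
      [IsScalarTower ℚ_[q] E E'] [FiniteDimensional ℚ_[q] E] [FiniteDimensional ℚ_[q] E']
      [IsGalois E E'], Module.finrank E E' = p ^ k →
      Finite (H2 (unitsRep E E')) ∧ Nat.card (H2 (unitsRep E E')) ≤ p ^ k := by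
  induction k with
  | zero =>
    intro E E' _ _ _ _ _ _ _ _ _ hdeg
    have hfd : FiniteDimensional E E' := FiniteDimensional.right ℚ_[q] E E'
    have hcard : Nat.card (E' ≃ₐ[E] E') = 1 := by
      rw [IsGalois.card_aut_eq_finrank, hdeg, pow_zero]
    have hsub : Subsingleton (H2 (unitsRep E E')) := by
      refine ⟨fun x y => ?_⟩
      have hx := Fermat.Agent.PT.FG.Transfer2.card_nsmul_eq_zero (unitsRep E E') 1 x
      have hy := Fermat.Agent.PT.FG.Transfer2.card_nsmul_eq_zero (unitsRep E E') 1 y
      rw [hcard, one_smul] at hx hy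
      rw [hx, hy]
    refine ⟨inferInstance, ?_⟩
    rw [pow_zero]
    exact Finite.card_le_one_iff_subsingleton.mpr hsub
  | succ k ih =>
    intro E E' _ _ _ _ _ _ _ _ _ hdeg
    have hfd : FiniteDimensional E E' := FiniteDimensional.right ℚ_[q] E E'
    have hp : p.Prime := Fact.out
    have hcard : Nat.card (E' ≃ₐ[E] E') = p ^ (k + 1) := by
      rw [IsGalois.card_aut_eq_finrank, hdeg]
    have hG : IsPGroup p (E' ≃ₐ[E] E') := IsPGroup.of_card hcard
    have hnt : Nontrivial (E' ≃ₐ[E] E') := by
      rw [← Finite.one_lt_card_iff_nontrivial, hcard]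
      exact Nat.one_lt_pow (Nat.succ_ne_zero k) hp.one_lt
    obtain ⟨Z, hZn, hZc⟩ := exists_central_subgroup_card_eq hG
    have hFN : Module.finrank (IntermediateField.fixedField Z) E' = p := by
      rw [IntermediateField.finrank_fixedField_eq_card, hZc]
    have hEF : Module.finrank E (IntermediateField.fixedField Z) = p ^ k := by
      have := Module.finrank_mul_finrank E (IntermediateField.fixedField Z) E'
      rw [hFN, hdeg, pow_succ] at this
      exact Nat.eq_of_mul_eq_mul_right hp.pos this
    have hgal : IsGalois E (IntermediateField.fixedField Z) :=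
      IsGalois.of_fixedField_normal_subgroup Z
    have hfdF := finiteDimensional_inter q (IntermediateField.fixedField Z)
    obtain ⟨h1f, h1c⟩ := ih E (IntermediateField.fixedField Z) hEF
    obtain ⟨h2f, h2c⟩ := hcyc (IntermediateField.fixedField Z) E' (by rw [hFN]; exact hp)
    obtain ⟨h3f, h3c⟩ := finite_and_card_le_tower E (IntermediateField.fixedField Z) E'
    refine ⟨h3f, h3c.trans ?_⟩
    rw [hFN] at h2c
    calc _ ≤ p ^ k * p := Nat.mul_le_mul h1c h2c
      _ = p ^ (k + 1) := (pow_succ p k).symm


/-! ### Subgroups versus intermediate fields -/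

section Sub

variable (E E' : Type) [Field E] [Field E'] [Algebra E E'] [FiniteDimensional E E']

/-- `H ≃* Gal(E'/E'^H)`. -/
def subgroupEquiv (H : Subgroup (E' ≃ₐ[E] E')) :
    H ≃* (E' ≃ₐ[IntermediateField.fixedField H] E') :=
  (MulEquiv.subgroupCongr (IntermediateField.fixingSubgroup_fixedField H).symm).trans
    (IntermediateField.fixingSubgroupEquiv (IntermediateField.fixedField H))

theorem subgroupEquiv_apply (H : Subgroup (E' ≃ₐ[E] E')) (σ : H) (x : E') :
    subgroupEquiv E E' H σ x = (σ : E' ≃ₐ[E] E') x := rfl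

/-- `H²(H, E'ˣ) ≅ H²(Gal(E'/E'^H), E'ˣ)`. -/
def h2SubIso (H : Subgroup (E' ≃ₐ[E] E')) :
    groupCohomology (Rep.res H.subtype (unitsRep E E')) 2 ≅
      groupCohomology (unitsRep (IntermediateField.fixedField H) E') 2 :=
  groupCohomology.mapIso (subgroupEquiv E E' H) (LinearEquiv.refl ℤ (Additive E'ˣ))
    (fun g => by
      ext x
      rfl) 2

end Sub


/-! ### The general case -/

section General

open Fermat.Agent.PT.FG.Transfer2

variable (E E' : Type) [Field E] [Field E'] [Algebra ℚ_[q] E] [Algebra ℚ_[q] E'] [Algebra E E']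
  [IsScalarTower ℚ_[q] E E'] [FiniteDimensional ℚ_[q] E] [FiniteDimensional ℚ_[q] E']
  [IsGalois E E']

/-- The bound for `H²` of a Sylow subgroup. -/
theorem finite_and_card_le_sylow (hcyc : H2CyclicPrimeStatement q) [FiniteDimensional E E']
    (p : ℕ) [Fact p.Prime] (P : Sylow p (E' ≃ₐ[E] E')) :
    Finite (groupCohomology (Rep.res (P : Subgroup (E' ≃ₐ[E] E')).subtype (unitsRep E E')) 2) ∧
      Nat.card (groupCohomology (Rep.res (P : Subgroup (E' ≃ₐ[E] E')).subtype
        (unitsRep E E')) 2) ≤ Nat.card P := by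
  have hfdF := finiteDimensional_inter q
    (IntermediateField.fixedField (P : Subgroup (E' ≃ₐ[E] E')))
  have hdeg : Module.finrank (IntermediateField.fixedField (P : Subgroup (E' ≃ₐ[E] E'))) E' =
      p ^ (Nat.card (E' ≃ₐ[E] E')).factorization p := by
    rw [IntermediateField.finrank_fixedField_eq_card]
    exact P.card_eq_multiplicity
  obtain ⟨hf, hc⟩ := h2_pgroup q hcyc p _
    (IntermediateField.fixedField (P : Subgroup (E' ≃ₐ[E] E'))) E' hdeg
  have e := (h2SubIso E E' (P : Subgroup (E' ≃ₐ[E] E'))).toLinearEquiv.toEquiv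
  refine ⟨Finite.of_equiv _ e.symm, ?_⟩
  rw [Nat.card_congr e]
  refine hc.trans (le_of_eq ?_)
  exact P.card_eq_multiplicity.symm

theorem h2Bound_of_cyclicPrime_aux (hcyc : H2CyclicPrimeStatement q) :
    Finite (H2 (unitsRep E E')) ∧ Nat.card (H2 (unitsRep E E')) ≤ Module.finrank E E' := by
  classical
  have hfd : FiniteDimensional E E' := FiniteDimensional.right ℚ_[q] E E'
  set n := Nat.card (E' ≃ₐ[E] E') with hn
  have hn0 : n ≠ 0 := Nat.card_pos.ne'
  -- a Sylow subgroup for each prime factor
  have hprime : ∀ i : n.primeFactors, Fact (i : ℕ).Prime :=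
    fun i => ⟨Nat.prime_of_mem_primeFactors i.2⟩
  let P : ∀ i : n.primeFactors, @Sylow (i : ℕ) (E' ≃ₐ[E] E') _ :=
    fun i => Classical.choice (Sylow.nonempty (p := (i : ℕ)) (G := E' ≃ₐ[E] E'))
  have hbound : ∀ i : n.primeFactors,
      Finite (groupCohomology (Rep.res (P i : Subgroup (E' ≃ₐ[E] E')).subtype
        (unitsRep E E')) 2) ∧
      Nat.card (groupCohomology (Rep.res (P i : Subgroup (E' ≃ₐ[E] E')).subtype
        (unitsRep E E')) 2) ≤ (i : ℕ) ^ n.factorization i := by
    intro i
    have := hprime i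
    obtain ⟨h1, h2⟩ := finite_and_card_le_sylow q E E' hcyc (i : ℕ) (P i)
    exact ⟨h1, h2.trans (le_of_eq (P i).card_eq_multiplicity)⟩
  have : ∀ i : n.primeFactors, Finite (groupCohomology
      (Rep.res (P i : Subgroup (E' ≃ₐ[E] E')).subtype (unitsRep E E')) 2) :=
    fun i => (hbound i).1
  -- the product of the transfer maps
  let Φ : H2 (unitsRep E E') →+ ∀ i : n.primeFactors, groupCohomology
      (Rep.res (P i : Subgroup (E' ≃ₐ[E] E')).subtype (unitsRep E E')) 2 :=
    AddMonoidHom.pi fun i =>
      (jMap (P i : Subgroup (E' ≃ₐ[E] E')) (unitsRep E E') 2).hom.toAddMonoidHom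
  have hΦ : Function.Injective Φ := by
    rw [injective_iff_map_eq_zero]
    intro x hx
    have h1 : n • x = 0 := card_nsmul_eq_zero (unitsRep E E') 1 x
    have h2 : ∀ i : n.primeFactors, (P i : Subgroup (E' ≃ₐ[E] E')).index • x = 0 := by
      intro i
      have hxi : (jMap (P i : Subgroup (E' ≃ₐ[E] E')) (unitsRep E E') 2).hom x = 0 :=
        congrFun hx i
      rw [← tMap_jMap_apply (P i : Subgroup (E' ≃ₐ[E] E')) (unitsRep E E') 2 x, hxi, map_zero]
    by_contra hx0
    have hord : addOrderOf x ≠ 1 := fun h => hx0 (AddMonoid.addOrderOf_eq_one_iff.mp h)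
    obtain ⟨p, hp, hpd⟩ := Nat.exists_prime_and_dvd hord
    have hpn : p ∣ n := hpd.trans (addOrderOf_dvd_of_nsmul_eq_zero h1)
    have hmem : p ∈ n.primeFactors := Nat.mem_primeFactors.mpr ⟨hp, hpn, hn0⟩
    have hpi : p ∣ (P ⟨p, hmem⟩ : Subgroup (E' ≃ₐ[E] E')).index :=
      hpd.trans (addOrderOf_dvd_of_nsmul_eq_zero (h2 ⟨p, hmem⟩))
    have := hprime ⟨p, hmem⟩
    exact (P ⟨p, hmem⟩).not_dvd_index hpi
  refine ⟨Finite.of_injective Φ hΦ, ?_⟩
  calc Nat.card (H2 (unitsRep E E'))
      ≤ Nat.card (∀ i : n.primeFactors, groupCohomology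
        (Rep.res (P i : Subgroup (E' ≃ₐ[E] E')).subtype (unitsRep E E')) 2) :=
        Nat.card_le_card_of_injective Φ hΦ
    _ = ∏ i : n.primeFactors, Nat.card (groupCohomology
        (Rep.res (P i : Subgroup (E' ≃ₐ[E] E')).subtype (unitsRep E E')) 2) := Nat.card_pi
    _ ≤ ∏ i : n.primeFactors, (i : ℕ) ^ n.factorization i :=
        Finset.prod_le_prod' fun i _ => (hbound i).2
    _ = n := (Nat.prod_primeFactors_coe_pow_factorization hn0).symm
    _ = Module.finrank E E' := IsGalois.card_aut_eq_finrank E E'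

end General

/-- **(H2)** from the cyclic prime degree case. -/
theorem h2Bound_of_cyclicPrime (hcyc : H2CyclicPrimeStatement q) :
    Fermat.Agent.PT.LOC.UnramDef12.H2BoundStatement q := by
  intro E E' _ _ _ _ _ _ _ _ _
  exact h2Bound_of_cyclicPrime_aux q E E' hcyc

end

end Fermat.Agent.PT.LOC.H2Devissage27
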