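/-
Program F (S55), chapter LOC, leaf (UC-b), cohomological form (helper10):
`#H²(Gal(E'/E), E'ˣ) = [E' : E]` for a cyclic extension `E'/E` of `q`-adic fields.
-/
import Mathlib
import Fermat.Agent.PT.LOC.UnitsCoh10

set_option autoImplicit false
set_option linter.unusedSectionVars false

open CategoryTheory groupCohomology Rep

open scoped Fermat.Agent.PT.LOC.Interface12
open Fermat.Agent.PT.LOC.Interface12 Fermat.Agent.PT.LOC.UnitsCoh10
  Fermat.Agent.PT.GLOB.HerbrandGroup24

namespace Fermat.Agent.PT.LOC.UnitsH2_10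

noncomputable section

section General

variable {k G : Type} [CommRing k] [CommGroup G] [Fintype G] (A : Rep k G) (g : G)
  (hg : ∀ x, x ∈ Subgroup.zpowers g)

include hg

theorem epi_piEven : Epi (FiniteCyclicGroup.groupCohomologyπEven A g hg 2 even_two) := by
  unfold FiniteCyclicGroup.groupCohomologyπEven
  have h2 : Epi ((FiniteCyclicGroup.normHomCompSub A g).moduleCatCyclesIso.inv) := inferInstance
  have h4 := epi_comp ((FiniteCyclicGroup.normHomCompSub A g).homologyπ)
    ((FiniteCyclicGroup.groupCohomologyIsoEven A g hg 2 even_two).inv)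
  exact @epi_comp _ _ _ _ _ _ h2 _ h4

omit [Fintype G] hg in
theorem mem_ker_iff (x : A) :
    x ∈ LinearMap.ker (applyAsHom A g - 𝟙 A).hom.toLinearMap ↔ A.ρ g x = x := by
  rw [LinearMap.mem_ker]
  simp [sub_hom, sub_eq_zero]

/-- For a finite cyclic group `G = ⟨g⟩`: `#H²(G, A) = [A^g : N A]`, the subgroups being given by
their membership predicates. -/
theorem card_H2_cyclic (K R : AddSubgroup A) (hK : ∀ x : A, x ∈ K ↔ A.ρ g x = x)
    (hR : ∀ x : A, x ∈ R ↔ ∃ y : A, A.ρ.norm y = x) :
    Nat.card (H2 A) = R.relIndex K := by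
  let φ := (FiniteCyclicGroup.groupCohomologyπEven A g hg 2 even_two).hom
  have hsurj : Function.Surjective φ :=
    (ModuleCat.epi_iff_surjective _).mp (epi_piEven A g hg)
  have hle : K ≤ (LinearMap.ker (applyAsHom A g - 𝟙 A).hom.toLinearMap).toAddSubgroup :=
    fun x hx => (mem_ker_iff A g x).2 ((hK x).1 hx)
  let ψ : K →+ H2 A := φ.toAddMonoidHom.comp (AddSubgroup.inclusion hle)
  have hψsurj : Function.Surjective ψ := by
    intro z
    obtain ⟨x, hx⟩ := hsurj z
    have hxK : (x : A) ∈ K := (hK _).2 ((mem_ker_iff A g x).1 x.2)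
    exact ⟨⟨(x : A), hxK⟩, hx⟩
  have hker : ψ.ker = R.addSubgroupOf K := by
    ext x
    rw [AddMonoidHom.mem_ker, AddSubgroup.mem_addSubgroupOf, hR]
    exact FiniteCyclicGroup.groupCohomologyπEven_eq_zero_iff A g hg 2 even_two
      (AddSubgroup.inclusion hle x)
  rw [AddSubgroup.relIndex, ← hker, AddSubgroup.index_ker]
  have hr : ψ.range = ⊤ := AddMonoidHom.range_eq_top.mpr hψsurj
  rw [hr]
  exact (Nat.card_congr (Equiv.Set.univ _)).symm

end General

section Local

variable (q : ℕ) [Fact q.Prime] {E E' : Type} [Field E] [Field E'] [Algebra ℚ_[q] E]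
  [Algebra ℚ_[q] E'] [Algebra E E'] [IsScalarTower ℚ_[q] E E'] [FiniteDimensional ℚ_[q] E']
  [IsGalois E E'] {σ : E' ≃ₐ[E] E'} (hσ : ∀ τ, τ ∈ Subgroup.zpowers σ)

open Additive in
set_option backward.isDefEq.respectTransparency false in
theorem rho_unitsRep (τ : E' ≃ₐ[E] E') (u : E'ˣ) :
    (unitsRep E E').ρ τ (Rep.toAdditive.symm (ofMul u)) = Rep.toAdditive.symm (ofMul (sX τ u)) :=
  rfl

open Additive in
set_option backward.isDefEq.respectTransparency false in
include hσ in
theorem norm_unitsRep [FiniteDimensional E E'] (y : E'ˣ) :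
    (unitsRep E E').ρ.norm (Rep.toAdditive.symm (ofMul y)) =
      Rep.toAdditive.symm (ofMul (normHom (sX σ) (orderOf σ) y)) := by
  apply Rep.toAdditive.injective
  apply Additive.toMul.injective
  apply Units.ext
  have h1 := groupCohomology.norm_ofAlgebraAutOnUnits_eq (K := E) (L := E') y
  rw [Rep.norm_apply] at h1
  rw [h1]
  exact (coe_normHom_sX hσ y).symm

open Additive in
set_option backward.isDefEq.respectTransparency false in
include q hσ in
/-- **(UC-b), cohomological form**: `#H²(Gal(E'/E), E'ˣ) = [E' : E]` for `E'/E` cyclic. -/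
theorem card_H2_unitsRep : Nat.card (H2 (unitsRep E E')) = Module.finrank E E' := by
  have : FiniteDimensional E E' := FiniteDimensional.right ℚ_[q] E E'
  have hcyc : IsCyclic (E' ≃ₐ[E] E') := ⟨σ, hσ⟩
  let _ : CommGroup (E' ≃ₐ[E] E') := IsCyclic.commGroup
  let K : AddSubgroup (unitsRep E E') :=
    (Subgroup.toAddSubgroup (fixedSubgroup (sX σ))).comap Rep.toAdditive.toAddMonoidHom
  let R : AddSubgroup (unitsRep E E') :=
    (Subgroup.toAddSubgroup (normHom (sX σ) (orderOf σ)).range).comap
      Rep.toAdditive.toAddMonoidHom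
  have key := card_H2_cyclic (unitsRep E E') σ hσ K R ?_ ?_
  · have h1 : R.relIndex K = (Subgroup.toAddSubgroup (normHom (sX σ) (orderOf σ)).range).relIndex
        (Subgroup.toAddSubgroup (fixedSubgroup (sX σ))) := rfl
    rw [key, h1, Subgroup.relIndex_toAddSubgroup, relIndex_norm_fixed q hσ,
      orderOf_eq_card_of_forall_mem_zpowers hσ, IsGalois.card_aut_eq_finrank]
  · intro x
    obtain ⟨x, rfl⟩ := Rep.toAdditive.symm.surjective x
    obtain ⟨u, rfl⟩ := Additive.ofMul.surjective x
    rw [rho_unitsRep]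
    constructor
    · intro h
      have h' : sX σ u = u := h
      rw [h']
    · intro h
      have h' := Additive.ofMul.injective (Rep.toAdditive.symm.injective h)
      exact h'
  · intro x
    obtain ⟨x, rfl⟩ := Rep.toAdditive.symm.surjective x
    obtain ⟨u, rfl⟩ := Additive.ofMul.surjective x
    constructor
    · rintro ⟨y, hy⟩
      exact ⟨Rep.toAdditive.symm (ofMul y), by rw [norm_unitsRep hσ, hy]; rfl⟩
    · rintro ⟨y, hy⟩
      obtain ⟨y, rfl⟩ := Rep.toAdditive.symm.surjective y
      obtain ⟨y, rfl⟩ := Additive.ofMul.surjective y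
      rw [norm_unitsRep hσ] at hy
      exact ⟨y, Additive.ofMul.injective (Rep.toAdditive.symm.injective hy)⟩

include q hσ in
theorem finite_H2_unitsRep : Finite (H2 (unitsRep E E')) := by
  have : FiniteDimensional E E' := FiniteDimensional.right ℚ_[q] E E'
  apply Nat.finite_of_card_ne_zero
  rw [card_H2_unitsRep q hσ]
  exact Module.finrank_pos.ne'

end Local

end

end Fermat.Agent.PT.LOC.UnitsH2_10
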